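import Mathlib

/-!
# Field-theoretic tools
-/

set_option autoImplicit false
set_option linter.unusedSectionVars false

noncomputable section

open Polynomial

namespace Fermat.Agent.Igusa

section GcdLemma

variable {A L K : Type*} [Field A] [Field L] [Algebra A L] [Field K]

/-- If `x` is a common root of `P` and `Q` and, after a field homomorphism `φ`, `P` splits with
distinct roots exactly one of which can be a root of `Q`, then `x ∈ A`. -/
theorem mem_range_of_unique_common_root (φ : A →+* K) {x : L} {P Q : A[X]} (hP0 : P.Monic)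
    (hP : aeval x P = 0) (hQ : aeval x Q = 0) {I J : Type*} [Fintype I] [Fintype J]
    (z : I → K) (w : J → K) (hz : Function.Injective z)
    (hPφ : P.map φ = ∏ i, (X - C (z i))) (hQφ : Q.map φ = ∏ j, (X - C (w j)))
    (i₀ : I) (huniq : ∀ i j, z i = w j → i = i₀) : x ∈ (algebraMap A L).range := by
  classical
  have hint : IsIntegral A x := ⟨P, hP0, by rwa [← aeval_def]⟩
  set m := minpoly A x with hm
  have hmP : m ∣ P := minpoly.dvd A x hP
  have hmQ : m ∣ Q := minpoly.dvd A x hQ
  have hmonic : m.Monic := minpoly.monic hint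
  have h1 : m.map φ ∣ ∏ i, (X - C (z i)) := hPφ ▸ Polynomial.map_dvd φ hmP
  have h2 : m.map φ ∣ ∏ j, (X - C (w j)) := hQφ ▸ Polynomial.map_dvd φ hmQ
  have hne : (∏ i, (X - C (z i)) : K[X]) ≠ 0 :=
    (Polynomial.monic_prod_of_monic _ _ fun i _ => Polynomial.monic_X_sub_C _).ne_zero
  have hsplit : (m.map φ).Splits := by
    refine Polynomial.Splits.of_dvd ?_ hne h1
    exact Polynomial.Splits.prod fun i _ => Polynomial.Splits.X_sub_C _
  have hroots : (m.map φ).roots ≤ (∏ i, (X - C (z i)) : K[X]).roots :=
    Polynomial.roots.le_of_dvd hne h1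
  have hr1 : (∏ i, (X - C (z i)) : K[X]).roots = Finset.univ.val.map z := by
    rw [Polynomial.roots_prod _ _ hne]
    simp [Multiset.bind_singleton]
  have hnodup : (m.map φ).roots.Nodup := by
    refine Multiset.nodup_of_le hroots ?_
    rw [hr1]
    exact (Multiset.nodup_map_iff_of_injective hz).mpr Finset.univ.nodup
  have hall : ∀ y ∈ (m.map φ).roots, y = z i₀ := by
    intro y hy
    have hy1 : y ∈ (∏ i, (X - C (z i)) : K[X]).roots := Multiset.mem_of_le hroots hy
    rw [hr1, Multiset.mem_map] at hy1
    obtain ⟨i, _, rfl⟩ := hy1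
    have hy2 : (∏ j, (X - C (w j)) : K[X]).eval (z i) = 0 := by
      have h3 := (Polynomial.mem_roots'.mp hy).2
      exact Polynomial.eval_eq_zero_of_dvd_of_eval_eq_zero h2 h3
    rw [Polynomial.eval_prod] at hy2
    obtain ⟨j, _, hj⟩ := Finset.prod_eq_zero_iff.mp hy2
    rw [Polynomial.eval_sub, Polynomial.eval_X, Polynomial.eval_C, sub_eq_zero] at hj
    rw [huniq i j hj]
  have hcard : (m.map φ).roots.card ≤ 1 := by
    have hsub : (m.map φ).roots ≤ {z i₀} := by
      rw [Multiset.le_iff_subset hnodup]
      intro y hy
      rw [hall y hy]; exact Multiset.mem_singleton_self _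
    exact (Multiset.card_le_card hsub).trans (by simp)
  have hdeg : m.natDegree ≤ 1 := by
    rw [← Polynomial.natDegree_map φ, hsplit.natDegree_eq_card_roots]
    exact hcard
  have hdeg1 : m.natDegree = 1 := le_antisymm hdeg (minpoly.natDegree_pos hint)
  exact minpoly.mem_range_of_degree_eq_one A x
    ((Polynomial.degree_eq_iff_natDegree_eq_of_pos one_pos).mpr hdeg1)

end GcdLemma

section Adj

variable {k L : Type*} [Field k] [Field L] [Algebra k L]

/-- Adjoining an element to an intermediate field. -/
def adj (A : IntermediateField k L) (x : L) : IntermediateField k L :=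
  (IntermediateField.adjoin A {x}).restrictScalars k

theorem le_adj (A : IntermediateField k L) (x : L) : A ≤ adj A x := fun y hy => by
  rw [adj, IntermediateField.mem_restrictScalars]
  exact (IntermediateField.adjoin A {x}).algebraMap_mem ⟨y, hy⟩

theorem mem_adj (A : IntermediateField k L) (x : L) : x ∈ adj A x := by
  rw [adj, IntermediateField.mem_restrictScalars]
  exact IntermediateField.mem_adjoin_simple_self A x

theorem adj_le {A C : IntermediateField k L} {x : L} (hA : A ≤ C) (hx : x ∈ C) : adj A x ≤ C := by
  intro y hy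
  rw [adj, IntermediateField.mem_restrictScalars] at hy
  have h1 : IntermediateField.adjoin A {x} ≤ IntermediateField.extendScalars hA := by
    rw [IntermediateField.adjoin_le_iff]
    rintro z rfl
    exact hx
  exact h1 hy

theorem relrank_adj (A : IntermediateField k L) {x : L} (hx : IsIntegral A x) :
    A.relrank (adj A x) = (minpoly A x).natDegree := by
  rw [IntermediateField.relrank_eq_rank_of_le (le_adj A x)]
  have h1 : IntermediateField.extendScalars (le_adj A x) = IntermediateField.adjoin A {x} := by
    ext y
    rw [IntermediateField.mem_extendScalars, adj, IntermediateField.mem_restrictScalars]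
  rw [h1]
  have := IntermediateField.adjoin.finiteDimensional hx
  rw [← Module.finrank_eq_rank, IntermediateField.adjoin.finrank hx]

end Adj

section Orbit

variable {A L K : Type*} [Field A] [Field L] [Algebra A L] [Field K]

theorem le_natDegree_minpoly_of_orbit (r : ℕ) [Fact r.Prime] (φ : L →+* K) (σ : K →+* K)
    (hσ : ∀ a : A, σ (φ (algebraMap A L a)) = φ (algebraMap A L a)) {x : L}
    (hx : x ∉ (algebraMap A L).range) {P : A[X]} (hP0 : P.Monic) (hP : aeval x P = 0)
    (z : Option (ZMod r) → K) (hz : Function.Injective z)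
    (hPφ : P.map (φ.comp (algebraMap A L)) = ∏ i, (X - C (z i)))
    (hxz : φ x = z none) (hσz : ∀ b : ZMod r, σ (z (some b)) = z (some (b + 1))) :
    r + 1 ≤ (minpoly A x).natDegree := by
  classical
  have hint : IsIntegral A x := ⟨P, hP0, by rwa [← aeval_def]⟩
  set m := minpoly A x with hm
  set ψ := φ.comp (algebraMap A L) with hψ
  have hmP : m ∣ P := minpoly.dvd A x hP
  have hmonic : m.Monic := minpoly.monic hint
  have h1 : m.map ψ ∣ ∏ i, (X - C (z i)) := hPφ ▸ Polynomial.map_dvd ψ hmP
  have hne : (∏ i, (X - C (z i)) : K[X]) ≠ 0 :=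
    (Polynomial.monic_prod_of_monic _ _ fun i _ => Polynomial.monic_X_sub_C _).ne_zero
  have hmne : m.map ψ ≠ 0 := (hmonic.map ψ).ne_zero
  have hsplit : (m.map ψ).Splits := by
    refine Polynomial.Splits.of_dvd ?_ hne h1
    exact Polynomial.Splits.prod fun i _ => Polynomial.Splits.X_sub_C _
  have hroots : (m.map ψ).roots ≤ (∏ i, (X - C (z i)) : K[X]).roots :=
    Polynomial.roots.le_of_dvd hne h1
  have hr1 : (∏ i, (X - C (z i)) : K[X]).roots = Finset.univ.val.map z := by
    rw [Polynomial.roots_prod _ _ hne]
    simp [Multiset.bind_singleton]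
  have hnodup : (m.map ψ).roots.Nodup := by
    refine Multiset.nodup_of_le hroots ?_
    rw [hr1]
    exact (Multiset.nodup_map_iff_of_injective hz).mpr Finset.univ.nodup
  have hdeg2 : 2 ≤ m.natDegree := by
    by_contra hlt
    have h2 : 0 < m.natDegree := minpoly.natDegree_pos hint
    have h3 : m.natDegree = 1 := by omega
    exact hx (minpoly.mem_range_of_degree_eq_one A x
      ((Polynomial.degree_eq_iff_natDegree_eq_of_pos one_pos).mpr h3))
  have hcard : (m.map ψ).roots.card = m.natDegree := by
    rw [← hsplit.natDegree_eq_card_roots, Polynomial.natDegree_map]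
  -- there is a root of the form `z (some b)`
  have hexists : ∃ b : ZMod r, z (some b) ∈ (m.map ψ).roots := by
    by_contra hno
    push Not at hno
    have hsub : (m.map ψ).roots ≤ {z none} := by
      rw [Multiset.le_iff_subset hnodup]
      intro y hy
      have hy1 : y ∈ (∏ i, (X - C (z i)) : K[X]).roots := Multiset.mem_of_le hroots hy
      rw [hr1, Multiset.mem_map] at hy1
      obtain ⟨i, _, rfl⟩ := hy1
      match i with
      | none => exact Multiset.mem_singleton_self _
      | some b => exact absurd hy (hno b)
    have h4 := Multiset.card_le_card hsub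
    rw [hcard, Multiset.card_singleton] at h4
    omega
  have hσm : (m.map ψ).map σ = m.map ψ := by
    rw [Polynomial.map_map]
    congr 1
    ext a
    exact hσ a
  have hstep : ∀ b : ZMod r, z (some b) ∈ (m.map ψ).roots → z (some (b + 1)) ∈ (m.map ψ).roots := by
    intro b hb
    rw [Polynomial.mem_roots hmne, Polynomial.IsRoot.def] at hb ⊢
    rw [← hσz, ← hσm, Polynomial.eval_map, Polynomial.eval₂_hom, hb, map_zero]
  obtain ⟨b, hb⟩ := hexists
  have hall : ∀ n : ℕ, z (some (b + n)) ∈ (m.map ψ).roots := by
    intro n
    induction n with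
    | zero => simpa using hb
    | succ n ih =>
      have := hstep _ ih
      rwa [add_assoc, ← Nat.cast_succ] at this
  have hnone : z none ∈ (m.map ψ).roots := by
    rw [Polynomial.mem_roots hmne, Polynomial.IsRoot.def, ← hxz, Polynomial.eval_map, hψ,
      ← Polynomial.hom_eval₂, ← aeval_def, minpoly.aeval, map_zero]
  have hle : Finset.univ.val.map z ≤ (m.map ψ).roots := by
    rw [Multiset.le_iff_subset
      ((Multiset.nodup_map_iff_of_injective hz).mpr Finset.univ.nodup)]
    intro y hy
    rw [Multiset.mem_map] at hy
    obtain ⟨i, _, rfl⟩ := hy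
    match i with
    | none => exact hnone
    | some c =>
      have := hall (c - b).val
      rwa [ZMod.natCast_zmod_val, add_sub_cancel] at this
  have h5 := Multiset.card_le_card hle
  rw [hcard] at h5
  simpa [ZMod.card] using h5

end Orbit

section Indep

variable {k L : Type*} [Field k] [Field L] [Algebra k L]

theorem card_le_relrank {A B : IntermediateField k L} (hAB : A ≤ B) {n : ℕ} (x : Fin n → L)
    (hx : ∀ i, x i ∈ B) (hind : ∀ c : Fin n → L, (∀ i, c i ∈ A) → ∑ i, c i * x i = 0 → ∀ i, c i = 0) :
    (n : Cardinal) ≤ A.relrank B := by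
  rw [IntermediateField.relrank_eq_rank_of_le hAB]
  have hli : LinearIndependent A
      (fun i => (⟨x i, hx i⟩ : IntermediateField.extendScalars hAB)) := by
    rw [Fintype.linearIndependent_iff]
    intro g hg i
    have h1 := hind (fun i => (g i : L)) (fun i => (g i).2) (by
      have h2 := congrArg (fun y : IntermediateField.extendScalars hAB => (y : L)) hg
      simp only [AddSubmonoidClass.coe_finsetSum] at h2
      simpa [IntermediateField.smul_def, Algebra.smul_def] using h2) i
    exact Subtype.ext h1
  have := hli.cardinal_lift_le_rank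
  simpa using this

end Indep

end Fermat.Agent.Igusa
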