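import Mathlib
import Fermat.Prelude.Def_ModularCurve_X0ModL

/-!
# Convergent Laurent expansions of functions on the upper half plane
-/

set_option autoImplicit false

noncomputable section

open ModularCurve UpperHalfPlane HahnSeries Complex Filter Topology
open Function (Periodic)

namespace Fermat.Agent.Igusa

section CoeffMul

variable {R : Type*} [CommRing R]

/-- The finite set of second components contributing to the `n`-th coefficient of `F * G`. -/
def mulSupp (F G : LaurentSeries R) (n : ℤ) : Finset ℤ :=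
  (Finset.antidiagonal F.isPWO_support G.isPWO_support n).image Prod.snd

theorem coeff_mul_eq_sum (F G : LaurentSeries R) (n : ℤ) :
    (F * G).coeff n = ∑ m ∈ mulSupp F G n, F.coeff (n - m) * G.coeff m := by
  rw [HahnSeries.coeff_mul, mulSupp, Finset.sum_image]
  · refine Finset.sum_congr rfl fun p hp => ?_
    have h := (Finset.mem_antidiagonal.mp hp).2.2
    rw [show n - p.2 = p.1 by omega]
  · rintro p hp p' hp' h
    have h1 := (Finset.mem_antidiagonal.mp (Finset.mem_coe.mp hp)).2.2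
    have h2 := (Finset.mem_antidiagonal.mp (Finset.mem_coe.mp hp')).2.2
    exact Prod.ext (by have : p.2 = p'.2 := h
                       omega) h

theorem eq_zero_of_notMem_mulSupp (F G : LaurentSeries R) (n m : ℤ) (hm : m ∉ mulSupp F G n) :
    F.coeff (n - m) * G.coeff m = 0 := by
  by_contra h
  apply hm
  rw [mulSupp, Finset.mem_image]
  refine ⟨(n - m, m), ?_, rfl⟩
  rw [Finset.mem_antidiagonal]
  refine ⟨fun h0 => h (by rw [h0, zero_mul]), fun h0 => h (by rw [h0, mul_zero]), by simp⟩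

theorem coeff_mul_eq_sum_of_subset (F G : LaurentSeries R) (n : ℤ) (s : Finset ℤ)
    (hs : mulSupp F G n ⊆ s) :
    (F * G).coeff n = ∑ m ∈ s, F.coeff (n - m) * G.coeff m := by
  rw [coeff_mul_eq_sum]
  exact Finset.sum_subset hs fun m _ hm => eq_zero_of_notMem_mulSupp F G n m hm

end CoeffMul

section Twist

variable {R : Type*} [CommRing R]

/-- The underlying series of the twist. -/
def twistFun (a : Rˣ) (F : LaurentSeries R) : LaurentSeries R where
  coeff := fun n => F.coeff n * ((a ^ n : Rˣ) : R)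
  isPWO_support' := F.isPWO_support.mono fun n hn h => by
    apply hn
    show F.coeff n * _ = 0
    rw [show F.coeff n = 0 from h, zero_mul]

@[simp] theorem twistFun_coeff (a : Rˣ) (F : LaurentSeries R) (n : ℤ) :
    (twistFun a F).coeff n = F.coeff n * ((a ^ n : Rˣ) : R) := rfl

/-- The twist `∑ c_n q^n ↦ ∑ c_n a^n q^n` by a unit `a`. -/
def twist (a : Rˣ) : LaurentSeries R →+* LaurentSeries R where
  toFun := twistFun a
  map_zero' := by ext n; simp
  map_one' := by
    ext n
    by_cases hn : n = 0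
    · subst hn; simp
    · simp [HahnSeries.coeff_one, hn]
  map_add' F G := by ext n; simp [add_mul]
  map_mul' F G := by
    classical
    ext n
    rw [twistFun_coeff,
      coeff_mul_eq_sum_of_subset F G n (mulSupp F G n ∪ mulSupp (twistFun a F) (twistFun a G) n)
        Finset.subset_union_left,
      coeff_mul_eq_sum_of_subset (twistFun a F) (twistFun a G) n
        (mulSupp F G n ∪ mulSupp (twistFun a F) (twistFun a G) n) Finset.subset_union_right,
      Finset.sum_mul]
    refine Finset.sum_congr rfl fun m _ => ?_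
    rw [twistFun_coeff, twistFun_coeff]
    have : ((a ^ n : Rˣ) : R) = ((a ^ (n - m) : Rˣ) : R) * ((a ^ m : Rˣ) : R) := by
      rw [← Units.val_mul, ← zpow_add, sub_add_cancel]
    rw [this]; ring

@[simp] theorem twist_coeff (a : Rˣ) (F : LaurentSeries R) (n : ℤ) :
    (twist a F).coeff n = F.coeff n * ((a ^ n : Rˣ) : R) := rfl

theorem twist_qExpand (a : Rˣ) (N : ℕ) [NeZero N] (ha : a ^ N = 1) (F : LaurentSeries R) :
    twist a (qExpand R N F) = qExpand R N F := by
  ext n
  rw [twist_coeff]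
  by_cases hn : (N : ℤ) ∣ n
  · obtain ⟨m, rfl⟩ := hn
    rw [zpow_mul, zpow_natCast, ha, one_zpow, Units.val_one, mul_one]
  · rw [qExpand_coeff_of_not_dvd N F hn, zero_mul]

theorem twist_coeffMap {S : Type*} [CommRing S] (f : R →+* S) (a : Rˣ) (F : LaurentSeries R) :
    twist (Units.map (f : R →* S) a) (coeffMap f F) = coeffMap f (twist a F) := by
  ext n
  rw [twist_coeff, coeffMap_coeff, coeffMap_coeff, twist_coeff, map_mul, ← map_zpow]
  rfl

theorem twist_single (a : Rˣ) (n : ℤ) (r : R) :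
    twist a (HahnSeries.single n r) = HahnSeries.single n (r * ((a ^ n : Rˣ) : R)) := by
  ext m
  rw [twist_coeff]
  by_cases h : m = n
  · subst h; simp
  · simp [HahnSeries.coeff_single_of_ne h]

/-- Laurent series from a coefficient function vanishing below `B`. -/
def mkLaurent (f : ℤ → R) (B : ℤ) (h : ∀ n < B, f n = 0) : LaurentSeries R :=
  HahnSeries.ofSuppBddBelow f ⟨B, fun n hn => by
    by_contra hlt
    exact hn (h n (not_le.mp hlt))⟩

@[simp] theorem mkLaurent_coeff (f : ℤ → R) (B : ℤ) (h : ∀ n < B, f n = 0) (n : ℤ) :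
    (mkLaurent f B h).coeff n = f n := rfl

theorem coeff_mul_nat_eq_zero (r : ℕ) [NeZero r] (F : LaurentSeries R) (n : ℤ)
    (hn : n < min F.order 0) : F.coeff (r * n) = 0 := by
  apply HahnSeries.coeff_eq_zero_of_lt_order
  have h1 : n < F.order := lt_of_lt_of_le hn (min_le_left _ _)
  have h2 : n < 0 := lt_of_lt_of_le hn (min_le_right _ _)
  have hr : (1 : ℤ) ≤ r := by exact_mod_cast Nat.one_le_iff_ne_zero.mpr (NeZero.ne r)
  nlinarith

/-- The operator `U_r`. -/
def uOp (r : ℕ) [NeZero r] (F : LaurentSeries R) : LaurentSeries R :=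
  mkLaurent (fun n : ℤ => F.coeff (r * n)) (min F.order 0) (coeff_mul_nat_eq_zero r F)

@[simp] theorem uOp_coeff (r : ℕ) [NeZero r] (F : LaurentSeries R) (n : ℤ) :
    (uOp r F).coeff n = F.coeff (r * n) := rfl

theorem uOp_coeffMap {S : Type*} [CommRing S] (f : R →+* S) (r : ℕ) [NeZero r]
    (F : LaurentSeries R) : uOp r (coeffMap f F) = coeffMap f (uOp r F) := by
  ext n; simp

end Twist

section Exp

/-- `IsExp h f F`: the function `f` on the upper half plane is the sum of the Laurent series `F` in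
`exp (2 π i τ / h)`. -/
def IsExp (h : ℕ) (f : ℍ → ℂ) (F : LaurentSeries ℂ) : Prop :=
  ∀ τ : ℍ, HasSum (fun n : ℤ => F.coeff n * (Function.Periodic.qParam (h : ℝ) (τ : ℂ)) ^ n) (f τ)

variable {h : ℕ}

theorem qParam_ne_zero' (h : ℝ) (τ : ℂ) : Function.Periodic.qParam h τ ≠ 0 :=
  Function.Periodic.qParam_ne_zero τ

theorem IsExp.add {f g : ℍ → ℂ} {F G : LaurentSeries ℂ} (hf : IsExp h f F) (hg : IsExp h g G) :
    IsExp h (fun τ => f τ + g τ) (F + G) := fun τ => by
  simpa [add_mul] using (hf τ).add (hg τ)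

theorem IsExp.neg {f : ℍ → ℂ} {F : LaurentSeries ℂ} (hf : IsExp h f F) :
    IsExp h (fun τ => - f τ) (-F) := fun τ => by
  simpa using (hf τ).neg

theorem IsExp.sub {f g : ℍ → ℂ} {F G : LaurentSeries ℂ} (hf : IsExp h f F) (hg : IsExp h g G) :
    IsExp h (fun τ => f τ - g τ) (F - G) := fun τ => by
  simpa [sub_mul] using (hf τ).sub (hg τ)

theorem IsExp.zero : IsExp h (fun _ => 0) 0 := fun τ => by
  simp

theorem IsExp.sum {ι : Type*} (s : Finset ι) {f : ι → ℍ → ℂ} {F : ι → LaurentSeries ℂ}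
    (hf : ∀ i ∈ s, IsExp h (f i) (F i)) :
    IsExp h (fun τ => ∑ i ∈ s, f i τ) (∑ i ∈ s, F i) := by
  classical
  induction s using Finset.induction_on with
  | empty => simpa using IsExp.zero
  | insert a s ha ih =>
    simp only [Finset.sum_insert ha]
    exact (hf a (Finset.mem_insert_self a s)).add
      (ih fun i hi => hf i (Finset.mem_insert_of_mem hi))

theorem IsExp.single (n : ℤ) (c : ℂ) :
    IsExp h (fun τ => c * (Function.Periodic.qParam (h : ℝ) (τ : ℂ)) ^ n)
      (HahnSeries.single n c) := fun τ => by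
  have := hasSum_single (f := fun m : ℤ => (HahnSeries.single n c : LaurentSeries ℂ).coeff m *
    (Function.Periodic.qParam (h : ℝ) (τ : ℂ)) ^ m) n (fun m hm => by
      simp [HahnSeries.coeff_single_of_ne hm])
  simpa using this

theorem IsExp.const (c : ℂ) : IsExp h (fun _ => c) (HahnSeries.C c) := by
  simpa [HahnSeries.C_apply] using IsExp.single (h := h) 0 c

theorem IsExp.one : IsExp h (fun _ => 1) 1 := by
  simpa using IsExp.const (h := h) 1

theorem IsExp.mul {f g : ℍ → ℂ} {F G : LaurentSeries ℂ} (hf : IsExp h f F) (hg : IsExp h g G) :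
    IsExp h (fun τ => f τ * g τ) (F * G) := fun τ => by
  set q := Function.Periodic.qParam (h : ℝ) (τ : ℂ) with hq
  have hq0 : q ≠ 0 := qParam_ne_zero' _ _
  have h1 := (hf τ)
  have h2 := (hg τ)
  have hs := summable_mul_of_summable_norm h1.summable.norm h2.summable.norm
  have h3 := h1.mul h2 hs
  let e : ℤ × ℤ ≃ ℤ × ℤ :=
    { toFun := fun p => (p.1 - p.2, p.2)
      invFun := fun p => (p.1 + p.2, p.2)
      left_inv := fun p => by simp
      right_inv := fun p => by simp }
  have h4 := (e.hasSum_iff).mpr h3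
  refine h4.prod_fiberwise fun n => ?_
  rw [coeff_mul_eq_sum, Finset.sum_mul]
  have h5 : ∑ m ∈ mulSupp F G n, F.coeff (n - m) * G.coeff m * q ^ n =
      ∑ m ∈ mulSupp F G n, F.coeff (n - m) * q ^ (n - m) * (G.coeff m * q ^ m) := by
    refine Finset.sum_congr rfl fun m _ => ?_
    rw [show q ^ n = q ^ (n - m) * q ^ m by rw [← zpow_add₀ hq0, sub_add_cancel]]
    ring
  rw [h5]
  refine hasSum_sum_of_ne_finset_zero (s := mulSupp F G n)
    (f := fun m => F.coeff (n - m) * q ^ (n - m) * (G.coeff m * q ^ m)) ?_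
  · intro m hm
    have := eq_zero_of_notMem_mulSupp F G n m hm
    show F.coeff (n - m) * q ^ (n - m) * (G.coeff m * q ^ m) = 0
    calc F.coeff (n - m) * q ^ (n - m) * (G.coeff m * q ^ m)
        = (F.coeff (n - m) * G.coeff m) * (q ^ (n - m) * q ^ m) := by ring
      _ = 0 := by rw [this, zero_mul]

theorem IsExp.pow {f : ℍ → ℂ} {F : LaurentSeries ℂ} (hf : IsExp h f F) (n : ℕ) :
    IsExp h (fun τ => f τ ^ n) (F ^ n) := by
  induction n with
  | zero => simpa using IsExp.one
  | succ n ih => simpa [pow_succ] using ih.mul hf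

theorem norm_qParam_le {h : ℕ} (hh : 0 < h) {τ τ' : ℍ} (hτ : τ'.im ≤ τ.im) :
    ‖Function.Periodic.qParam (h : ℝ) (τ : ℂ)‖ ≤ ‖Function.Periodic.qParam (h : ℝ) (τ' : ℂ)‖ := by
  rw [Function.Periodic.norm_qParam, Function.Periodic.norm_qParam]
  apply Real.exp_le_exp.mpr
  have hh' : (0 : ℝ) < h := by exact_mod_cast hh
  have : (-2 * Real.pi * (τ : ℂ).im) ≤ (-2 * Real.pi * (τ' : ℂ).im) := by
    have h1 := Real.pi_pos
    have h2 : (τ' : ℂ).im ≤ (τ : ℂ).im := hτ
    nlinarith
  exact div_le_div_of_nonneg_right this hh'.le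

/-- If there is no polar part, the function tends to the constant coefficient. -/
theorem IsExp.tendsto {f : ℍ → ℂ} {F : LaurentSeries ℂ} (hh : 0 < h) (hf : IsExp h f F)
    (hF : ∀ n < 0, F.coeff n = 0) : Tendsto f atImInfty (𝓝 (F.coeff 0)) := by
  have h0 : f = fun τ : ℍ => ∑' n : ℤ, F.coeff n *
      (Function.Periodic.qParam (h : ℝ) (τ : ℂ)) ^ n := by
    funext τ; exact (hf τ).tsum_eq.symm
  have h1 : F.coeff 0 = ∑' n : ℤ, (if n = 0 then F.coeff 0 else 0) := by
    rw [tsum_ite_eq]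
  rw [h0, h1]
  refine tendsto_tsum_of_dominated_convergence
    (bound := fun n : ℤ => ‖F.coeff n * (Function.Periodic.qParam (h : ℝ) (UpperHalfPlane.I : ℂ)) ^ n‖)
    (hf UpperHalfPlane.I).summable.norm ?_ ?_
  · intro n
    have hq := UpperHalfPlane.qParam_tendsto_atImInfty (h := (h : ℝ)) (by exact_mod_cast hh)
    rcases lt_trichotomy n 0 with hn | hn | hn
    · simp [hF n hn, hn.ne]
    · subst hn; simp
    · lift n to ℕ using hn.le
      have hn0 : n ≠ 0 := by rintro rfl; simp at hn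
      have := (hq.pow n).const_mul (F.coeff n)
      simpa [hn0] using this
  · have hev : ∀ᶠ τ : ℍ in atImInfty, 1 ≤ τ.im :=
      (UpperHalfPlane.atImInfty_mem _).mpr ⟨1, fun z hz => hz⟩
    filter_upwards [hev] with τ hτ n
    rcases lt_or_ge n 0 with hn | hn
    · simp [hF n hn]
    · lift n to ℕ using hn
      rw [norm_mul, norm_mul, zpow_natCast, zpow_natCast, norm_pow, norm_pow]
      gcongr
      exact norm_qParam_le hh (by simpa using hτ)

/-- Uniqueness of expansions. -/
theorem IsExp.eq_zero {F : LaurentSeries ℂ} (hh : 0 < h) (hf : IsExp h (fun _ => 0) F) : F = 0 := by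
  by_contra hF
  have h1 : IsExp h (fun τ => 0 * (1 * (Function.Periodic.qParam (h : ℝ) (τ : ℂ)) ^ (-F.order)))
      (F * HahnSeries.single (-F.order) 1) := hf.mul (IsExp.single (-F.order) 1)
  have h2 : ∀ n, (F * HahnSeries.single (-F.order) 1).coeff n = F.coeff (n + F.order) := by
    intro n
    have := HahnSeries.coeff_mul_single_add (r := (1 : ℂ)) (x := F) (a := n + F.order)
      (b := -F.order)
    simpa using this
  have h3 := h1.tendsto hh (fun n hn => by
    rw [h2]
    exact HahnSeries.coeff_eq_zero_of_lt_order (by omega))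
  rw [h2, zero_add] at h3
  have h4 : (fun τ : ℍ => (0 : ℂ) * (1 * (Function.Periodic.qParam (h : ℝ) (τ : ℂ)) ^ (-F.order)))
      = fun _ => 0 := by funext; simp
  rw [h4] at h3
  have h5 := tendsto_nhds_unique h3 tendsto_const_nhds
  exact HahnSeries.coeff_order_eq_zero.not.mpr hF h5

theorem IsExp.unique {f : ℍ → ℂ} {F G : LaurentSeries ℂ} (hh : 0 < h) (hf : IsExp h f F)
    (hg : IsExp h f G) : F = G := by
  have h1 := hf.sub hg
  have h2 : (fun τ : ℍ => f τ - f τ) = fun _ => 0 := by funext; simp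
  rw [h2] at h1
  exact sub_eq_zero.mp (h1.eq_zero hh)

theorem IsExp.congr {f g : ℍ → ℂ} {F : LaurentSeries ℂ} (hf : IsExp h f F)
    (hfg : ∀ τ, f τ = g τ) : IsExp h g F := fun τ => hfg τ ▸ hf τ

section Subst

/-- `τ ↦ N τ`. -/
def scl (N : ℕ) [NeZero N] (τ : ℍ) : ℍ :=
  ⟨(N : ℂ) * τ, by
    have hN : (0 : ℝ) < N := by exact_mod_cast Nat.pos_of_ne_zero (NeZero.ne N)
    have := τ.im_pos
    simp only [Complex.mul_im, Complex.natCast_re, Complex.natCast_im, zero_mul, add_zero]
    exact mul_pos hN this⟩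

@[simp] theorem coe_scl (N : ℕ) [NeZero N] (τ : ℍ) : ((scl N τ : ℍ) : ℂ) = (N : ℂ) * τ := rfl

/-- `τ ↦ (τ + b) / r`. -/
def lin (r : ℕ) [NeZero r] (b : ℤ) (τ : ℍ) : ℍ :=
  ⟨((τ : ℂ) + b) / r, by
    have hN : (0 : ℝ) < r := by exact_mod_cast Nat.pos_of_ne_zero (NeZero.ne r)
    have := τ.im_pos
    rw [Complex.div_natCast_im]
    have h2 : ((τ : ℂ) + (b : ℂ)).im = τ.im := by simp
    rw [h2]
    exact div_pos this hN⟩

@[simp] theorem coe_lin (r : ℕ) [NeZero r] (b : ℤ) (τ : ℍ) :
    ((lin r b τ : ℍ) : ℂ) = ((τ : ℂ) + b) / r := rfl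

theorem hasSum_qExpand_iff (N : ℕ) [NeZero N] (F : LaurentSeries ℂ) (q : ℂ) (a : ℂ) :
    HasSum (fun n : ℤ => (qExpand ℂ N F).coeff n * q ^ n) a ↔
      HasSum (fun n : ℤ => F.coeff n * (q ^ N) ^ n) a := by
  have hinj : Function.Injective (fun n : ℤ => (N : ℤ) * n) :=
    mul_right_injective₀ (by exact_mod_cast NeZero.ne N)
  rw [← hinj.hasSum_iff]
  · have : ((fun n : ℤ => (qExpand ℂ N F).coeff n * q ^ n) ∘ fun n : ℤ => (N : ℤ) * n) =
      fun n : ℤ => F.coeff n * (q ^ N) ^ n := by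
      funext n
      simp only [Function.comp, qExpand_coeff_mul]
      rw [zpow_mul, zpow_natCast]
    rw [this]
  · intro n hn
    rw [qExpand_coeff_of_not_dvd N F, zero_mul]
    rintro ⟨m, rfl⟩
    exact hn ⟨m, rfl⟩

theorem qParam_scl (N : ℕ) [NeZero N] (h : ℝ) (τ : ℍ) :
    Function.Periodic.qParam h ((scl N τ : ℍ) : ℂ) = Function.Periodic.qParam h (τ : ℂ) ^ N := by
  rw [Function.Periodic.qParam, Function.Periodic.qParam, ← Complex.exp_nat_mul, coe_scl]
  congr 1; ring

theorem IsExp.comp_scl {h : ℕ} {f : ℍ → ℂ} {F : LaurentSeries ℂ} (hf : IsExp h f F) (N : ℕ)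
    [NeZero N] : IsExp h (fun τ => f (scl N τ)) (qExpand ℂ N F) := fun τ => by
  rw [hasSum_qExpand_iff, ← qParam_scl]
  exact hf (scl N τ)

theorem qParam_pow_eq (r : ℕ) [NeZero r] (τ : ℂ) :
    Function.Periodic.qParam (r : ℝ) τ ^ r = Function.Periodic.qParam ((1 : ℕ) : ℝ) τ := by
  rw [Function.Periodic.qParam, Function.Periodic.qParam, ← Complex.exp_nat_mul]
  congr 1
  have : (r : ℂ) ≠ 0 := by exact_mod_cast NeZero.ne r
  push_cast
  field_simp

theorem isExp_qExpand_iff (r : ℕ) [NeZero r] {f : ℍ → ℂ} {F : LaurentSeries ℂ} :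
    IsExp r f (qExpand ℂ r F) ↔ IsExp 1 f F := by
  refine forall_congr' fun τ => ?_
  rw [hasSum_qExpand_iff, qParam_pow_eq]

/-- The standard primitive `r`-th root of unity as a unit of `ℂ`. -/
def zr (r : ℕ) : ℂˣ := Units.mk0 (Complex.exp (2 * Real.pi * Complex.I / r)) (Complex.exp_ne_zero _)

theorem zr_isPrimitiveRoot (r : ℕ) [NeZero r] : IsPrimitiveRoot ((zr r : ℂˣ) : ℂ) r :=
  Complex.isPrimitiveRoot_exp r (NeZero.ne r)

theorem zr_pow (r : ℕ) [NeZero r] : zr r ^ r = 1 := by
  ext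
  have := (zr_isPrimitiveRoot r).pow_eq_one
  simpa using this

theorem qParam_lin (r : ℕ) [NeZero r] (b : ℤ) (τ : ℍ) :
    Function.Periodic.qParam ((1 : ℕ) : ℝ) ((lin r b τ : ℍ) : ℂ) =
      ((zr r ^ b : ℂˣ) : ℂ) * Function.Periodic.qParam (r : ℝ) (τ : ℂ) := by
  rw [Function.Periodic.qParam, Function.Periodic.qParam, coe_lin, Units.val_zpow_eq_zpow_val, zr,
    Units.val_mk0, ← Complex.exp_int_mul, ← Complex.exp_add]
  congr 1
  push_cast
  ring

theorem IsExp.comp_lin {f : ℍ → ℂ} {F : LaurentSeries ℂ} (hf : IsExp 1 f F) (r : ℕ)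
    [NeZero r] (b : ℤ) : IsExp r (fun τ => f (lin r b τ)) (twist (zr r ^ b) F) := fun τ => by
  have := hf (lin r b τ)
  simp only [qParam_lin, mul_zpow] at this
  convert! this using 2 with n
  rw [twist_coeff, Units.val_zpow_eq_zpow_val (zr r ^ b) n]
  ring

end Subst

end Exp

end Fermat.Agent.Igusa
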