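import Mathlib
import Fermat.Prelude.Def_ModularCurve_X0ModL
import Fermat.Agent.Igusa.LaurentExp

/-!
# The `j`-function and the discriminant, with their Laurent expansions
-/

set_option autoImplicit false

noncomputable section

open ModularCurve UpperHalfPlane HahnSeries Complex Filter Topology MatrixGroups CongruenceSubgroup
open Function (Periodic)
open scoped Manifold ModularForm

namespace Fermat.Agent.Igusa

theorem isExp_ofPowerSeries {h : ℕ} {f : ℍ → ℂ} {p : PowerSeries ℂ}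
    (hf : ∀ τ : ℍ, HasSum (fun n : ℕ => p.coeff n *
      (Function.Periodic.qParam (h : ℝ) (τ : ℂ)) ^ n) (f τ)) :
    IsExp h f (HahnSeries.ofPowerSeries ℤ ℂ p) := fun τ => by
  rw [← (Nat.cast_injective (R := ℤ)).hasSum_iff]
  · convert! hf τ using 2 with n
    simp [HahnSeries.ofPowerSeries_apply_coeff]
  · intro n hn
    rcases lt_or_ge n 0 with h0 | h0
    · rw [ofPowerSeries_coeff_of_neg _ h0, zero_mul]
    · lift n to ℕ using h0
      exact absurd ⟨n, rfl⟩ hn

/-- `E₄` as a function. -/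
def e4 (τ : ℍ) : ℂ := ModularForm.E₄ τ

theorem coeff_e4 (m : ℕ) : (qExpansion 1 ModularForm.E₄).coeff m =
    (eisenstein4.map (Int.castRingHom ℂ)).coeff m := by
  rw [EisensteinSeries.E_qExpansion_coeff (by norm_num) ⟨2, rfl⟩, PowerSeries.coeff_map,
    eisenstein4, PowerSeries.coeff_mk]
  split_ifs with h
  · simp
  · have hb : bernoulli 4 = -1 / 30 := by decide +kernel
    rw [hb, ArithmeticFunction.sigma_apply]
    push_cast
    simp
    ring

theorem isExp_e4 : IsExp 1 e4
    (HahnSeries.ofPowerSeries ℤ ℂ (eisenstein4.map (Int.castRingHom ℂ))) := by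
  apply isExp_ofPowerSeries
  intro τ
  have h1 := ModularForm.hasSum_qExpansion (F := ModularForm 𝒮ℒ 4) (f := ModularForm.E₄) (h := 1)
    one_pos one_mem_strictPeriods_SL τ
  convert! h1 using 2 with n
  rw [coeff_e4]
  simp

theorem mdiff_e4 : MDifferentiable 𝓘(ℂ) 𝓘(ℂ) e4 := ModularForm.E₄.holo'

/-- Power series expansion of a holomorphic function on the unit disc. -/
theorem hasSum_of_differentiableOn {g : ℂ → ℂ} (hg : DifferentiableOn ℂ g (Metric.ball 0 1))
    {q : ℂ} (hq : ‖q‖ < 1) :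
    HasSum (fun n : ℕ => (iteratedDeriv n g 0 / n.factorial) * q ^ n) (g q) := by
  have h1 := Complex.hasSum_taylorSeries_on_ball (f := g) (c := 0) (r := 1) hg
    (z := q) (by simpa using hq)
  convert! h1 using 2 with n
  simp only [sub_zero, smul_eq_mul]
  field_simp

theorem isExp_of_differentiableOn {g : ℂ → ℂ} (hg : DifferentiableOn ℂ g (Metric.ball 0 1)) :
    IsExp 1 (fun τ => g (Function.Periodic.qParam ((1 : ℕ) : ℝ) (τ : ℂ)))
      (HahnSeries.ofPowerSeries ℤ ℂ
        (PowerSeries.mk fun n => iteratedDeriv n g 0 / n.factorial)) := by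
  apply isExp_ofPowerSeries
  intro τ
  simp only [PowerSeries.coeff_mk]
  exact hasSum_of_differentiableOn hg (by
    have := UpperHalfPlane.norm_qParam_lt_one 1 τ
    simpa using this)

/-- The Euler product `∏ (1 - q ^ (n + 1))`. -/
def euler (q : ℂ) : ℂ := ∏' n : ℕ, (1 - q ^ (n + 1))

theorem differentiableOn_euler : DifferentiableOn ℂ euler (Metric.ball 0 1) :=
  ModularForm.differentiableOn_tprod_one_sub_pow

theorem tendstoLocallyUniformlyOn_iteratedDeriv {ι : Type*} {φ : Filter ι} [φ.NeBot]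
    {F : ι → ℂ → ℂ} {f : ℂ → ℂ} {U : Set ℂ} (hU : IsOpen U)
    (hf : TendstoLocallyUniformlyOn F f φ U) (hF : ∀ᶠ n in φ, DifferentiableOn ℂ (F n) U) (k : ℕ) :
    TendstoLocallyUniformlyOn (fun n => iteratedDeriv k (F n)) (iteratedDeriv k f) φ U := by
  induction k with
  | zero => simpa [iteratedDeriv_zero] using hf
  | succ k ih =>
    simp only [iteratedDeriv_succ]
    refine ih.deriv ?_ hU
    filter_upwards [hF] with n hn
    rw [iteratedDeriv_eq_iterate]
    exact ((hn.analyticOnNhd hU).iterated_deriv k).differentiableOn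

theorem iteratedDeriv_polynomial (P : Polynomial ℂ) (n : ℕ) :
    iteratedDeriv n (fun q => P.eval q) = fun q => (Polynomial.derivative^[n] P).eval q := by
  induction n with
  | zero => simp [iteratedDeriv_zero]
  | succ n ih =>
    rw [iteratedDeriv_succ, ih, Function.iterate_succ_apply']
    funext q
    exact Polynomial.deriv _

theorem iteratedDeriv_polynomial_zero (P : Polynomial ℂ) (n : ℕ) :
    iteratedDeriv n (fun q => P.eval q) 0 = n.factorial * P.coeff n := by
  rw [iteratedDeriv_polynomial]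
  simp only
  rw [← Polynomial.coeff_zero_eq_eval_zero, Polynomial.coeff_iterate_derivative, zero_add,
    Nat.descFactorial_self, nsmul_eq_mul]

open scoped PowerSeries.WithPiTopology in
theorem eventually_coeff_etaProd (n : ℕ) :
    ∀ᶠ s : Finset ℕ in atTop,
      (∏ i ∈ s, (1 - PowerSeries.X ^ (i + 1) : PowerSeries ℤ)).coeff n = etaProd.coeff n := by
  have h1 := (PowerSeries.WithPiTopology.multipliable_one_sub_X_pow ℤ).hasProd
  have h2 := ((PowerSeries.WithPiTopology.continuous_coeff ℤ n).tendsto _).comp h1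
  have h3 := h2.eventually (IsOpen.mem_nhds (isOpen_discrete {etaProd.coeff n}) rfl)
  filter_upwards [h3] with s hs
  exact hs

theorem iteratedDeriv_euler (n : ℕ) : iteratedDeriv n euler 0 =
    n.factorial * ((etaProd.coeff n : ℤ) : ℂ) := by
  have h1 := ModularForm.multipliableLocallyUniformlyOn_one_sub_pow.hasProdLocallyUniformlyOn
  have h2 := tendstoLocallyUniformlyOn_iteratedDeriv Metric.isOpen_ball h1
    (.of_forall fun s => by
      simpa [Finset.prod_fn] using
        (DifferentiableOn.finsetProd (u := s) (s := Metric.ball (0 : ℂ) 1)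
          (f := fun (n : ℕ) (q : ℂ) => 1 - q ^ (n + 1)) (fun _ _ ↦ by fun_prop))) n
  have h3 := h2.tendsto_at (Metric.mem_ball_self one_pos)
  refine tendsto_nhds_unique h3 ?_
  refine tendsto_nhds_of_eventually_eq ?_
  filter_upwards [eventually_coeff_etaProd n] with s hs
  have h4 : (fun q : ℂ => ∏ i ∈ s, (1 - q ^ (i + 1))) = fun q : ℂ =>
      (∏ i ∈ s, (1 - Polynomial.X ^ (i + 1) : Polynomial ℂ)).eval q := by
    funext q
    simp [Polynomial.eval_prod]
  rw [h4, iteratedDeriv_polynomial_zero, ← hs]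
  congr 1
  have h5 : (∏ i ∈ s, (1 - PowerSeries.X ^ (i + 1) : PowerSeries ℤ)) =
      ((∏ i ∈ s, (1 - Polynomial.X ^ (i + 1) : Polynomial ℤ) : Polynomial ℤ) : PowerSeries ℤ) := by
    rw [← Polynomial.coeToPowerSeries.ringHom_apply, map_prod]
    simp
  have h6 : (∏ i ∈ s, (1 - Polynomial.X ^ (i + 1) : Polynomial ℂ)) =
      (∏ i ∈ s, (1 - Polynomial.X ^ (i + 1) : Polynomial ℤ)).map (Int.castRingHom ℂ) := by
    rw [Polynomial.map_prod]
    simp
  rw [h5, h6, Polynomial.coeff_coe, Polynomial.coeff_map]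
  simp

theorem isExp_euler : IsExp 1 (fun τ => euler (Function.Periodic.qParam ((1 : ℕ) : ℝ) (τ : ℂ)))
    (HahnSeries.ofPowerSeries ℤ ℂ (etaProd.map (Int.castRingHom ℂ))) := by
  convert! isExp_of_differentiableOn differentiableOn_euler using 2
  ext n
  rw [PowerSeries.coeff_map, PowerSeries.coeff_mk, iteratedDeriv_euler]
  have : (n.factorial : ℂ) ≠ 0 := by exact_mod_cast n.factorial_ne_zero
  field_simp
  simp

/-- The modular discriminant. -/
def dl (τ : ℍ) : ℂ := ModularForm.discriminant τ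

theorem dl_ne_zero (τ : ℍ) : dl τ ≠ 0 := ModularForm.discriminant_ne_zero τ

theorem dl_eq (τ : ℍ) : dl τ = Function.Periodic.qParam ((1 : ℕ) : ℝ) (τ : ℂ) *
    euler (Function.Periodic.qParam ((1 : ℕ) : ℝ) (τ : ℂ)) ^ 24 := by
  rw [dl, ModularForm.discriminant_eq_q_prod, euler]
  have h1 := ModularForm.multipliable_one_sub_pow
    (q := Function.Periodic.qParam (1 : ℝ) (τ : ℂ)) (by
      simpa using UpperHalfPlane.norm_qParam_lt_one 1 τ)
  rw [Nat.cast_one, ← h1.tprod_pow]

/-- The Laurent series of `Δ` over any ring. -/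
def dS (R : Type*) [CommRing R] : LaurentSeries R :=
  HahnSeries.single 1 1 * HahnSeries.ofPowerSeries ℤ R (dedekindEtaUnit.map (Int.castRingHom R))

/-- The Laurent series of `Δ⁻¹` over any ring. -/
def dSinv (R : Type*) [CommRing R] : LaurentSeries R :=
  HahnSeries.single (-1) 1 *
    HahnSeries.ofPowerSeries ℤ R (dedekindEtaUnitInv.map (Int.castRingHom R))

theorem dS_mul_dSinv (R : Type*) [CommRing R] : dS R * dSinv R = 1 := by
  have h1 : (HahnSeries.single (1 : ℤ) (1 : R)) * HahnSeries.single (-1) 1 = 1 := by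
    rw [HahnSeries.single_mul_single]; simp
  rw [dS, dSinv, mul_mul_mul_comm, h1, one_mul, ← map_mul, ← map_mul, dedekindEtaUnit_mul_inv]
  simp

theorem isExp_dl : IsExp 1 dl (dS ℂ) := by
  have h1 := (IsExp.single (h := 1) 1 1).mul (isExp_euler.pow 24)
  rw [dS]
  convert! h1.congr (g := dl) (fun τ => by rw [dl_eq]; simp) using 2
  rw [dedekindEtaUnit]
  simp

theorem euler_ne_zero {q : ℂ} (hq : ‖q‖ < 1) : euler q ≠ 0 := by
  have h1 : Summable fun n : ℕ => ‖-q ^ (n + 1)‖ := by
    simpa using (summable_nat_add_iff 1).mpr (summable_geometric_of_lt_one (norm_nonneg _) hq)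
  have := tprod_one_add_ne_zero_of_summable (f := fun n : ℕ => -q ^ (n + 1)) (fun i => by
    intro h0
    have h2 : q ^ (i + 1) = 1 := by linear_combination -h0
    have h3 : ‖q‖ ^ (i + 1) = 1 := by rw [← norm_pow, h2, norm_one]
    have h4 : ‖q‖ ^ (i + 1) < 1 := pow_lt_one₀ (norm_nonneg _) hq (by omega)
    linarith) h1
  simpa [euler, sub_eq_add_neg] using this

theorem isExp_dl_inv : IsExp 1 (fun τ => (dl τ)⁻¹) (dSinv ℂ) := by
  have h0 : DifferentiableOn ℂ (fun q => (euler q ^ 24)⁻¹) (Metric.ball 0 1) := by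
    refine (differentiableOn_euler.pow 24).inv ?_
    intro q hq
    exact pow_ne_zero _ (euler_ne_zero (by simpa using hq))
  have h1 := (IsExp.single (h := 1) (-1) 1).mul (isExp_of_differentiableOn h0)
  have h2 := h1.congr (g := fun τ => (dl τ)⁻¹) (fun τ => by
    rw [dl_eq, mul_inv, one_mul, zpow_neg_one])
  have h3 := (isExp_dl.mul h2).congr (g := fun _ => 1) (fun τ => mul_inv_cancel₀ (dl_ne_zero τ))
  have h4 := h3.unique one_pos IsExp.one
  have h5 : HahnSeries.single (-1) 1 * HahnSeries.ofPowerSeries ℤ ℂ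
        (PowerSeries.mk fun n => iteratedDeriv n (fun q => (euler q ^ 24)⁻¹) 0 / n.factorial) =
      dSinv ℂ := by
    calc _ = (dSinv ℂ * dS ℂ) * (HahnSeries.single (-1) 1 * HahnSeries.ofPowerSeries ℤ ℂ
        (PowerSeries.mk fun n => iteratedDeriv n (fun q => (euler q ^ 24)⁻¹) 0 / n.factorial)) := by
          rw [mul_comm (dSinv ℂ), dS_mul_dSinv, one_mul]
      _ = dSinv ℂ * (dS ℂ * (HahnSeries.single (-1) 1 * HahnSeries.ofPowerSeries ℤ ℂ
        (PowerSeries.mk fun n => iteratedDeriv n (fun q => (euler q ^ 24)⁻¹) 0 / n.factorial))) := by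
          rw [mul_assoc]
      _ = dSinv ℂ := by rw [h4, mul_one]
  rwa [h5] at h2

/-- The `j`-function. -/
def jf (τ : ℍ) : ℂ := e4 τ ^ 3 * (dl τ)⁻¹

theorem isExp_jf : IsExp 1 jf (jqModC ℂ) := by
  have h1 := (isExp_e4.pow 3).mul isExp_dl_inv
  rw [jqModC, jNum]
  convert! h1 using 1
  rw [dSinv, ← mul_assoc, mul_comm _ (HahnSeries.single (-1) (1 : ℂ)), mul_assoc, ← map_pow,
    ← map_mul, ← map_pow, ← map_mul]

theorem mdiff_dl : MDifferentiable 𝓘(ℂ) 𝓘(ℂ) dl := CuspForm.discriminant.holo'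

theorem mdiff_dl_inv : MDifferentiable 𝓘(ℂ) 𝓘(ℂ) (fun τ => (dl τ)⁻¹) :=
  mdiff_dl.inv dl_ne_zero

theorem mdiff_jf : MDifferentiable 𝓘(ℂ) 𝓘(ℂ) jf :=
  (mdiff_e4.pow 3).mul mdiff_dl_inv

theorem slash_form {k : ℤ} (f : ModularForm 𝒮ℒ k) (γ : SL(2, ℤ)) (τ : ℍ) :
    f (γ • τ) = (denom γ τ) ^ k * f τ := by
  have : SlashInvariantFormClass (ModularForm 𝒮ℒ k) Γ(1) k :=
    CongruenceSubgroup.Gamma_one_coe_eq_SL ▸ inferInstance
  exact SlashInvariantForm.slash_action_eqn_SL'' f (CongruenceSubgroup.mem_Gamma_one γ) τ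

theorem e4_smul (γ : SL(2, ℤ)) (τ : ℍ) : e4 (γ • τ) = (denom γ τ) ^ 4 * e4 τ := by
  have := slash_form ModularForm.E₄ γ τ
  exact_mod_cast this

theorem dl_smul (γ : SL(2, ℤ)) (τ : ℍ) : dl (γ • τ) = (denom γ τ) ^ 12 * dl τ := by
  have : SlashInvariantFormClass (CuspForm 𝒮ℒ 12) Γ(1) 12 :=
    CongruenceSubgroup.Gamma_one_coe_eq_SL ▸ inferInstance
  have := SlashInvariantForm.slash_action_eqn_SL'' CuspForm.discriminant
    (CongruenceSubgroup.mem_Gamma_one γ) τ
  exact_mod_cast this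

theorem jf_smul (γ : SL(2, ℤ)) (τ : ℍ) : jf (γ • τ) = jf τ := by
  rw [jf, jf, e4_smul, dl_smul]
  have h1 : (denom γ τ : ℂ) ≠ 0 := denom_ne_zero γ τ
  have h2 := dl_ne_zero τ
  field_simp

/-- A weight-zero modular form of level one from an invariant function. -/
def invForm (h : ℍ → ℂ) (hh : MDifferentiable 𝓘(ℂ) 𝓘(ℂ) h)
    (hS : ∀ τ, h (ModularGroup.S • τ) = h τ) (hT : ∀ τ, h (ModularGroup.T • τ) = h τ)
    (hb : IsBoundedAtImInfty h) : ModularForm 𝒮ℒ 0 :=
  have key : ∀ γ : SL(2, ℤ), h ∣[(0 : ℤ)] γ = h :=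
    SlashInvariantForm.slash_action_generators_SL2Z
      (by ext τ; rw [ModularForm.SL_slash_apply, hS, neg_zero, zpow_zero, mul_one])
      (by ext τ; rw [ModularForm.SL_slash_apply, hT, neg_zero, zpow_zero, mul_one])
  { toFun := h
    slash_action_eq' := fun _ ⟨γ, hγ⟩ => hγ ▸ key γ
    holo' := hh
    bdd_at_cusps' := fun {c} hc => by
      rw [Subgroup.IsArithmetic.isCusp_iff_isCusp_SL2Z] at hc
      rw [OnePoint.isBoundedAt_iff_forall_SL2Z hc]
      intro γ _
      rw [key γ]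
      exact hb }

theorem const_of_inv (h : ℍ → ℂ) (hh : MDifferentiable 𝓘(ℂ) 𝓘(ℂ) h)
    (hS : ∀ τ, h (ModularGroup.S • τ) = h τ) (hT : ∀ τ, h (ModularGroup.T • τ) = h τ)
    (hb : IsBoundedAtImInfty h) : ∃ c, ∀ τ, h τ = c := by
  obtain ⟨c, hc⟩ := ModularFormClass.levelOne_weight_zero_const (invForm h hh hS hT hb)
  exact ⟨c, fun τ => congrFun hc τ⟩

theorem coeff_jqModC_int (R : Type*) [CommRing R] (A : Subring R) (n : ℤ) :
    (jqModC R).coeff n ∈ A := by
  rw [coeff_jqModC_eq_intCast]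
  exact intCast_mem A _

theorem coeff_jqModC_pow_int (R : Type*) [CommRing R] (A : Subring R) (m : ℕ) (n : ℤ) :
    ((jqModC R) ^ m).coeff n ∈ A := by
  rw [← coeffMap_jqModC (Int.castRingHom R), ← map_pow, coeffMap_coeff]
  exact intCast_mem A _

/-- **Descent lemma.** A holomorphic `SL₂(ℤ)`-invariant function whose Laurent expansion has
coefficients in the subring `A` is a polynomial in `j` with coefficients in `A`. -/
theorem descent (A : Subring ℂ) (M : ℕ) : ∀ (h : ℍ → ℂ) (_ : MDifferentiable 𝓘(ℂ) 𝓘(ℂ) h)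
    (_ : ∀ τ, h (ModularGroup.S • τ) = h τ) (_ : ∀ τ, h (ModularGroup.T • τ) = h τ)
    (H : LaurentSeries ℂ) (_ : IsExp 1 h H) (_ : ∀ n, H.coeff n ∈ A)
    (_ : ∀ n : ℤ, n ≤ -(M : ℤ) → H.coeff n = 0),
    ∃ P : Polynomial ℂ, (∀ n, P.coeff n ∈ A) ∧ H = Polynomial.aeval (jqModC ℂ) P := by
  induction M with
  | zero =>
    intro h hh hS hT H hH hA hM
    refine ⟨0, fun n => by simp, ?_⟩
    have ht := hH.tendsto one_pos (fun n hn => hM n (by simpa using hn.le))
    rw [hM 0 (by simp)] at ht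
    obtain ⟨c, hc⟩ := const_of_inv h hh hS hT (ht.isBigO_one ℝ)
    have hc0 : c = 0 := by
      refine tendsto_nhds_unique (f := h) (l := atImInfty) ?_ ht
      rw [show h = fun _ => c from funext hc]
      exact tendsto_const_nhds
    have h0 : IsExp 1 (fun _ => 0) H := hH.congr fun τ => by rw [hc τ, hc0]
    rw [h0.eq_zero one_pos, map_zero]
  | succ M ih =>
    intro h hh hS hT H hH hA hM
    set a := H.coeff (-(M : ℤ)) with ha
    obtain ⟨P, hP1, hP2⟩ := ih (fun τ => h τ - a * jf τ ^ M)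
      (hh.sub (mdifferentiable_const.mul (mdiff_jf.pow M)))
      (fun τ => by rw [hS, jf_smul]) (fun τ => by rw [hT, jf_smul])
      (H - HahnSeries.C a * jqModC ℂ ^ M)
      (hH.sub ((IsExp.const a).mul (isExp_jf.pow M)))
      (fun n => by
        rw [HahnSeries.coeff_sub, HahnSeries.C_mul_eq_smul, HahnSeries.coeff_smul]
        exact A.sub_mem (hA n) (A.mul_mem (hA _) (coeff_jqModC_pow_int ℂ A M n)))
      (fun n hn => by
        rw [HahnSeries.coeff_sub, HahnSeries.C_mul_eq_smul, HahnSeries.coeff_smul]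
        rcases hn.lt_or_eq with hn' | hn'
        · rw [hM n (by push_cast; omega), coeff_jqModC_pow_of_lt ℂ hn', smul_zero, sub_zero]
        · subst hn'
          rw [coeff_jqModC_pow_self, smul_eq_mul, mul_one, ha, sub_self])
    refine ⟨P + Polynomial.C a * Polynomial.X ^ M, fun n => ?_, ?_⟩
    · rw [Polynomial.coeff_add, Polynomial.coeff_C_mul_X_pow]
      refine A.add_mem (hP1 n) ?_
      split_ifs
      · exact hA _
      · exact A.zero_mem
    · rw [map_add, ← hP2, map_mul, map_pow, Polynomial.aeval_X, Polynomial.aeval_C,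
        algebraMap_laurentSeries_eq_single, HahnSeries.C_apply]
      ring

end Fermat.Agent.Igusa
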