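import Mathlib
import Fermat.Prelude.Def_ModularCurve_X0ModL
import Fermat.Agent.Igusa.JFun

/-!
# Families indexed by `ℙ¹(𝔽_r)` and their traces
-/

set_option autoImplicit false

noncomputable section

open ModularCurve UpperHalfPlane HahnSeries Complex Filter Topology MatrixGroups CongruenceSubgroup
open Function (Periodic)
open scoped Manifold ModularForm

namespace Fermat.Agent.Igusa

variable (r : ℕ) [hr : Fact r.Prime]

instance neZero_of_fact_prime : NeZero r := ⟨hr.out.ne_zero⟩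

section Moebius

theorem coe_S_smul (τ : ℍ) : ((ModularGroup.S • τ : ℍ) : ℂ) = -1 / (τ : ℂ) := by
  rw [UpperHalfPlane.modular_S_smul]
  simp [neg_div, inv_neg]

theorem coe_T_smul (τ : ℍ) : ((ModularGroup.T • τ : ℍ) : ℂ) = (τ : ℂ) + 1 := by
  rw [UpperHalfPlane.modular_T_smul]
  simp [add_comm]

theorem scl_S (τ : ℍ) : scl r (ModularGroup.S • τ) = ModularGroup.S • lin r 0 τ := by
  apply UpperHalfPlane.ext
  rw [coe_scl, coe_S_smul, coe_S_smul, coe_lin]
  have h1 : (r : ℂ) ≠ 0 := by exact_mod_cast NeZero.ne r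
  have h2 := τ.ne_zero
  push_cast
  rw [add_zero]
  field_simp

theorem lin_zero_S (τ : ℍ) : lin r 0 (ModularGroup.S • τ) = ModularGroup.S • scl r τ := by
  apply UpperHalfPlane.ext
  rw [coe_lin, coe_S_smul, coe_S_smul, coe_scl]
  have h1 : (r : ℂ) ≠ 0 := by exact_mod_cast NeZero.ne r
  have h2 := τ.ne_zero
  push_cast
  rw [add_zero]
  field_simp

theorem lin_T (b : ℤ) (τ : ℍ) : lin r b (ModularGroup.T • τ) = lin r (b + 1) τ := by
  apply UpperHalfPlane.ext
  rw [coe_lin, coe_T_smul, coe_lin]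
  push_cast; ring

theorem lin_add_r (b : ℤ) (τ : ℍ) : lin r (b + r) τ = ModularGroup.T • lin r b τ := by
  apply UpperHalfPlane.ext
  rw [coe_T_smul, coe_lin, coe_lin]
  have h1 : (r : ℂ) ≠ 0 := by exact_mod_cast NeZero.ne r
  push_cast
  field_simp
  ring

/-- The matrix `[b, k; r, -b']`. -/
def gam (b b' k : ℤ) (h : -(b * b') - k * r = 1) : SL(2, ℤ) :=
  ⟨!![b, k; (r : ℤ), -b'], by rw [Matrix.det_fin_two_of]; linarith⟩

theorem lin_S (b b' k : ℤ) (h : -(b * b') - k * r = 1) (τ : ℍ) :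
    lin r b (ModularGroup.S • τ) = gam r b b' k h • lin r b' τ := by
  apply UpperHalfPlane.ext
  rw [coe_lin, coe_S_smul, UpperHalfPlane.coe_specialLinearGroup_apply, coe_lin]
  have h1 : (r : ℂ) ≠ 0 := by exact_mod_cast NeZero.ne r
  have h2 := τ.ne_zero
  have h3 : -((b : ℂ) * b') - k * r = 1 := by exact_mod_cast h
  have h4 : (r : ℂ) * (((τ : ℂ) + b') / r) + -b' = τ := by field_simp; ring
  simp only [gam, Matrix.SpecialLinearGroup.coe_mk, Matrix.of_apply, Matrix.cons_val', Matrix.cons_val_zero,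
    Matrix.cons_val_fin_one, Matrix.cons_val_one, algebraMap_int_eq, eq_intCast]
  push_cast
  rw [h4]
  field_simp
  linear_combination h3

theorem denom_gam (b b' k : ℤ) (h : -(b * b') - k * r = 1) (τ : ℍ) :
    denom (gam r b b' k h) (lin r b' τ) = (τ : ℂ) := by
  have h1 : (r : ℂ) ≠ 0 := by exact_mod_cast NeZero.ne r
  rw [denom, coe_lin]
  simp [gam]
  field_simp
  ring

end Moebius

section Translates

variable {r}

/-- A function of weight `k` (as an automorphy property). -/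
def IsWt (k : ℕ) (g : ℍ → ℂ) : Prop :=
  ∀ (γ : SL(2, ℤ)) (τ : ℍ), g (γ • τ) = (denom γ τ) ^ k * g τ

theorem isWt_dl : IsWt 12 dl := dl_smul

theorem isWt_jf : IsWt 0 jf := fun γ τ => by rw [pow_zero, one_mul, jf_smul]

theorem denom_T' (τ : ℍ) : (denom ModularGroup.T τ : ℂ) = 1 := by
  rw [denom]; simp [ModularGroup.T]

theorem denom_S' (τ : ℍ) : (denom ModularGroup.S τ : ℂ) = τ := by
  rw [denom]; simp [ModularGroup.S]

theorem IsWt.T {k : ℕ} {g : ℍ → ℂ} (hg : IsWt k g) (τ : ℍ) : g (ModularGroup.T • τ) = g τ := by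
  rw [hg, denom_T', one_pow, one_mul]

theorem IsWt.S {k : ℕ} {g : ℍ → ℂ} (hg : IsWt k g) (τ : ℍ) :
    g (ModularGroup.S • τ) = (τ : ℂ) ^ k * g τ := by
  rw [hg, denom_S']

theorem IsWt.lin_add_mul {k : ℕ} {g : ℍ → ℂ} (hg : IsWt k g) (b : ℤ) (n : ℤ) (τ : ℍ) :
    g (lin r (b + n * r) τ) = g (lin r b τ) := by
  have h1 : ∀ b : ℤ, g (lin r (b + r) τ) = g (lin r b τ) := fun b => by
    rw [lin_add_r, hg.T]
  induction n using Int.induction_on with
  | zero => simp
  | succ i ih => rw [← ih, ← h1 (b + i * r)]; congr 2; ring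
  | pred i ih => rw [← ih, ← h1 (b + (-i - 1) * r)]; congr 2; ring

theorem IsWt.lin_congr {k : ℕ} {g : ℍ → ℂ} (hg : IsWt k g) {b b' : ℤ}
    (h : (b : ZMod r) = (b' : ZMod r)) (τ : ℍ) : g (lin r b τ) = g (lin r b' τ) := by
  rw [ZMod.intCast_eq_intCast_iff_dvd_sub] at h
  obtain ⟨n, hn⟩ := h
  rw [show b' = b + n * r by linear_combination hn, hg.lin_add_mul]

/-- The translate attached to `b : ZMod r`. -/
def tr (r : ℕ) [Fact r.Prime] (g : ℍ → ℂ) (b : ZMod r) (τ : ℍ) : ℂ := g (lin r (b.val : ℤ) τ)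

theorem IsWt.tr_T {k : ℕ} {g : ℍ → ℂ} (hg : IsWt k g) (b : ZMod r) (τ : ℍ) :
    tr r g b (ModularGroup.T • τ) = tr r g (b + 1) τ := by
  rw [tr, tr, lin_T]
  apply hg.lin_congr
  simp

theorem IsWt.scl_T {k : ℕ} {g : ℍ → ℂ} (hg : IsWt k g) (τ : ℍ) :
    g (scl r (ModularGroup.T • τ)) = g (scl r τ) := by
  have h1 : ∀ (n : ℕ) (τ τ' : ℍ), (τ' : ℂ) = τ + n → g τ' = g τ := by
    intro n
    induction n with
    | zero => intro τ τ' h; congr 1; apply UpperHalfPlane.ext; simpa using h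
    | succ n ih =>
      intro τ τ' h
      rw [← hg.T τ]
      apply ih
      rw [h, coe_T_smul]; push_cast; ring
  apply h1 r
  rw [coe_scl, coe_T_smul, coe_scl]; ring

theorem IsWt.scl_S {k : ℕ} {g : ℍ → ℂ} (hg : IsWt k g) (τ : ℍ) :
    g (scl r (ModularGroup.S • τ)) = ((τ : ℂ) / r) ^ k * tr r g 0 τ := by
  rw [Igusa.scl_S, hg.S, tr, coe_lin]
  simp

theorem IsWt.tr_zero_S {k : ℕ} {g : ℍ → ℂ} (hg : IsWt k g) (τ : ℍ) :
    tr r g 0 (ModularGroup.S • τ) = (r * (τ : ℂ)) ^ k * g (scl r τ) := by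
  rw [tr, ZMod.val_zero, Nat.cast_zero, lin_zero_S, hg.S, coe_scl]

theorem IsWt.tr_S {k : ℕ} {g : ℍ → ℂ} (hg : IsWt k g) {b : ZMod r} (hb : b ≠ 0) (τ : ℍ) :
    tr r g b (ModularGroup.S • τ) = (τ : ℂ) ^ k * tr r g (-b⁻¹) τ := by
  have h1 : ((b.val : ℤ) * ((-b⁻¹ : ZMod r).val : ℤ) + 1 : ℤ) = (0 : ZMod r) := by
    push_cast
    rw [ZMod.natCast_zmod_val, ZMod.natCast_zmod_val]
    field_simp
    ring
  rw [ZMod.intCast_zmod_eq_zero_iff_dvd] at h1
  obtain ⟨c, hc⟩ := h1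
  rw [tr, tr, lin_S r (b.val : ℤ) ((-b⁻¹ : ZMod r).val : ℤ) (-c) (by linear_combination -hc), hg,
    denom_gam]

end Translates

section Family

variable {r}

/-- A compatible family of holomorphic functions indexed by `ℙ¹(𝔽_r)`, with integral expansions. -/
structure IsFam (r : ℕ) [Fact r.Prime] (fi : ℍ → ℂ) (f : ZMod r → ℍ → ℂ)
    (Fi F0 : LaurentSeries ℤ) : Prop where
  S_inf : ∀ τ, fi (ModularGroup.S • τ) = f 0 τ
  S_zero : ∀ τ, f 0 (ModularGroup.S • τ) = fi τ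
  S_ne : ∀ b ≠ 0, ∀ τ, f b (ModularGroup.S • τ) = f (-b⁻¹) τ
  T_inf : ∀ τ, fi (ModularGroup.T • τ) = fi τ
  T_fin : ∀ b τ, f b (ModularGroup.T • τ) = f (b + 1) τ
  holo_inf : MDifferentiable 𝓘(ℂ) 𝓘(ℂ) fi
  holo_fin : ∀ b, MDifferentiable 𝓘(ℂ) 𝓘(ℂ) (f b)
  exp_inf : IsExp 1 fi (coeffMap (Int.castRingHom ℂ) Fi)
  exp_fin : ∀ b : ZMod r, IsExp r (f b) (twist (zr r ^ b.val) (coeffMap (Int.castRingHom ℂ) F0))

variable {fi gi : ℍ → ℂ} {f g : ZMod r → ℍ → ℂ} {Fi F0 Gi G0 : LaurentSeries ℤ}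

theorem IsFam.mul (hf : IsFam r fi f Fi F0) (hg : IsFam r gi g Gi G0) :
    IsFam r (fun τ => fi τ * gi τ) (fun b τ => f b τ * g b τ) (Fi * Gi) (F0 * G0) where
  S_inf τ := by rw [hf.S_inf, hg.S_inf]
  S_zero τ := by rw [hf.S_zero, hg.S_zero]
  S_ne b hb τ := by rw [hf.S_ne b hb, hg.S_ne b hb]
  T_inf τ := by rw [hf.T_inf, hg.T_inf]
  T_fin b τ := by rw [hf.T_fin, hg.T_fin]
  holo_inf := hf.holo_inf.mul hg.holo_inf
  holo_fin b := (hf.holo_fin b).mul (hg.holo_fin b)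
  exp_inf := by rw [map_mul]; exact hf.exp_inf.mul hg.exp_inf
  exp_fin b := by rw [map_mul, map_mul]; exact (hf.exp_fin b).mul (hg.exp_fin b)

theorem IsFam.one : IsFam r (fun _ => 1) (fun _ _ => 1) 1 1 where
  S_inf τ := rfl
  S_zero τ := rfl
  S_ne b hb τ := rfl
  T_inf τ := rfl
  T_fin b τ := rfl
  holo_inf := mdifferentiable_const
  holo_fin b := mdifferentiable_const
  exp_inf := by rw [map_one]; exact IsExp.one
  exp_fin b := by rw [map_one, map_one]; exact IsExp.one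

theorem IsFam.pow (hf : IsFam r fi f Fi F0) (n : ℕ) :
    IsFam r (fun τ => fi τ ^ n) (fun b τ => f b τ ^ n) (Fi ^ n) (F0 ^ n) := by
  induction n with
  | zero => simpa using IsFam.one
  | succ n ih => simpa [pow_succ] using ih.mul hf

theorem sum_zmod_val {M : Type*} [AddCommMonoid M] (r : ℕ) [NeZero r] (g : ℕ → M) :
    ∑ b : ZMod r, g b.val = ∑ i ∈ Finset.range r, g i := by
  obtain ⟨n, rfl⟩ := Nat.exists_eq_succ_of_ne_zero (NeZero.ne r)
  exact Fin.sum_univ_eq_sum_range g (n + 1)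

theorem geom_sum_zero {R : Type*} [CommRing R] [IsDomain R] {r : ℕ} [Fact r.Prime] {ζ : Rˣ}
    (hζ : IsPrimitiveRoot ζ r) {n : ℤ} (hn : ¬ (r : ℤ) ∣ n) :
    ∑ b : ZMod r, (((ζ ^ b.val) ^ n : Rˣ) : R) = 0 := by
  have hr : r.Prime := Fact.out
  have hpos : 0 < r := hr.pos
  -- multiply by `ζ ^ n - 1 ≠ 0`
  have h1 : ((ζ ^ n : Rˣ) : R) ≠ 1 := by
    intro h
    apply hn
    rw [← hζ.zpow_eq_one_iff_dvd]
    exact Units.ext h
  have h2 : ∑ b : ZMod r, (((ζ ^ b.val) ^ n : Rˣ) : R) =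
      ∑ i ∈ Finset.range r, (((ζ ^ n : Rˣ) : R)) ^ i := by
    rw [← sum_zmod_val r (fun i => (((ζ ^ n : Rˣ) : R)) ^ i)]
    have h3 : ∀ b : ZMod r, (((ζ ^ b.val) ^ n : Rˣ) : R) = (((ζ ^ n : Rˣ) : R)) ^ b.val := by
      intro b
      rw [← Units.val_pow_eq_pow_val]
      congr 1
      rw [← zpow_natCast, ← zpow_natCast, ← zpow_mul, ← zpow_mul, mul_comm]
    rw [Finset.sum_congr rfl fun b _ => h3 b]
  have h4 := mul_geom_sum (((ζ ^ n : Rˣ) : R)) r
  have h5 : (((ζ ^ n : Rˣ) : R)) ^ r = 1 := by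
    rw [← Units.val_pow_eq_pow_val, ← zpow_natCast, ← zpow_mul, mul_comm, zpow_mul, zpow_natCast,
      hζ.pow_eq_one, one_zpow, Units.val_one]
  rw [h5, sub_self] at h4
  rw [h2]
  exact (mul_eq_zero.mp h4).resolve_left (sub_ne_zero.mpr h1)

theorem geom_sum_dvd {R : Type*} [CommRing R] [IsDomain R] {r : ℕ} [Fact r.Prime] {ζ : Rˣ}
    (hζ : IsPrimitiveRoot ζ r) {n : ℤ} (hn : (r : ℤ) ∣ n) :
    ∑ b : ZMod r, (((ζ ^ b.val) ^ n : Rˣ) : R) = r := by
  have h1 : ∀ b : ZMod r, (((ζ ^ b.val) ^ n : Rˣ) : R) = 1 := by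
    intro b
    obtain ⟨m, rfl⟩ := hn
    rw [← zpow_natCast, ← zpow_mul, mul_left_comm, zpow_mul, zpow_natCast, hζ.pow_eq_one, one_zpow,
      Units.val_one]
  rw [Finset.sum_congr rfl fun b _ => h1 b]
  simp [ZMod.card]

/-- `∑_b twist(ζ^b) F = V_r (r U_r F)`. -/
theorem sum_twist {R : Type*} [CommRing R] [IsDomain R] {r : ℕ} [Fact r.Prime] {ζ : Rˣ}
    (hζ : IsPrimitiveRoot ζ r) (F : LaurentSeries R) :
    ∑ b : ZMod r, twist (ζ ^ b.val) F = qExpand R r (r • uOp r F) := by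
  ext n
  rw [HahnSeries.coeff_sum]
  simp only [twist_coeff]
  rw [← Finset.mul_sum]
  by_cases hn : (r : ℤ) ∣ n
  · obtain ⟨m, rfl⟩ := hn
    rw [qExpand_coeff_mul, geom_sum_dvd hζ (dvd_mul_right _ _), HahnSeries.coeff_smul, uOp_coeff,
      nsmul_eq_mul, mul_comm]
  · rw [qExpand_coeff_of_not_dvd r _ hn, geom_sum_zero hζ hn, mul_zero]

/-- The trace series of a family. -/
def trSeries (r : ℕ) [NeZero r] (Fi F0 : LaurentSeries ℤ) : LaurentSeries ℤ :=
  Fi + r • uOp r F0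

theorem coeffMap_injective {R S : Type*} [CommRing R] [CommRing S] (f : R →+* S)
    (hf : Function.Injective f) : Function.Injective (coeffMap f) := by
  intro x y h
  ext n
  apply hf
  have := congrArg (fun z : LaurentSeries S => z.coeff n) h
  simpa using this

/-- Evaluation of integer polynomials in a commutative ring. -/
def evZ {A : Type*} [CommRing A] (x : A) : Polynomial ℤ →+* A :=
  Polynomial.eval₂RingHom (Int.castRingHom A) x

theorem evZ_apply {A : Type*} [CommRing A] (x : A) (P : Polynomial ℤ) :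
    evZ x P = P.eval₂ (Int.castRingHom A) x := rfl

@[simp] theorem evZ_X {A : Type*} [CommRing A] (x : A) : evZ x Polynomial.X = x := by
  rw [evZ_apply, Polynomial.eval₂_X]

theorem ringHom_evZ {A B : Type*} [CommRing A] [CommRing B] (f : A →+* B) (x : A)
    (P : Polynomial ℤ) : f (evZ x P) = evZ (f x) P := by
  rw [evZ_apply, evZ_apply, Polynomial.hom_eval₂]
  congr 1
  exact Subsingleton.elim _ _

theorem ringHom_comp_evZ {A B : Type*} [CommRing A] [CommRing B] (f : A →+* B) (x : A) :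
    f.comp (evZ x) = evZ (f x) := RingHom.ext fun P => ringHom_evZ f x P

theorem exists_bound {R : Type*} [CommRing R] (H : LaurentSeries R) :
    ∃ M : ℕ, ∀ n : ℤ, n ≤ -(M : ℤ) → H.coeff n = 0 := by
  refine ⟨H.order.natAbs + 1, fun n hn => ?_⟩
  apply HahnSeries.coeff_eq_zero_of_lt_order
  omega

theorem trSeries_coeffMap {R : Type*} [CommRing R] (Fi F0 : LaurentSeries ℤ) (f : ℤ →+* R) :
    coeffMap f (trSeries r Fi F0) = coeffMap f Fi + r • uOp r (coeffMap f F0) := by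
  rw [trSeries, map_add, map_nsmul, uOp_coeffMap]

theorem IsFam.trace (hf : IsFam r fi f Fi F0) :
    ∃ P : Polynomial ℤ, trSeries r Fi F0 = evZ (jqModC ℤ) P := by
  have hζ : IsPrimitiveRoot (zr r) r := by
    rw [← IsPrimitiveRoot.coe_units_iff]; exact zr_isPrimitiveRoot r
  have h1 : IsExp 1 (fun τ => fi τ + ∑ b : ZMod r, f b τ)
      (coeffMap (Int.castRingHom ℂ) (trSeries r Fi F0)) := by
    rw [trSeries_coeffMap, ← isExp_qExpand_iff r, map_add, ← sum_twist hζ]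
    exact ((isExp_qExpand_iff r).mpr hf.exp_inf).add (IsExp.sum _ fun b _ => hf.exp_fin b)
  obtain ⟨M, hM⟩ := exists_bound (coeffMap (Int.castRingHom ℂ) (trSeries r Fi F0))
  obtain ⟨P, hP1, hP2⟩ := descent (Int.castRingHom ℂ).range M
    (fun τ => fi τ + ∑ b : ZMod r, f b τ)
    (hf.holo_inf.add (by
      have := MDifferentiable.sum (t := Finset.univ) (f := f) (I := 𝓘(ℂ)) (fun b _ => hf.holo_fin b)
      convert! this using 1
      ext τ
      simp))
    (fun τ => by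
      classical
      rw [hf.S_inf]
      rw [← Finset.add_sum_erase _ _ (Finset.mem_univ (0 : ZMod r)),
        ← Finset.add_sum_erase _ (fun b => f b τ) (Finset.mem_univ (0 : ZMod r)), hf.S_zero,
        add_left_comm]
      congr 2
      refine Finset.sum_bij (fun b _ => -b⁻¹) ?_ ?_ ?_ ?_
      · intro b hb
        simp only [Finset.mem_erase, Finset.mem_univ, and_true] at hb ⊢
        exact neg_ne_zero.mpr (inv_ne_zero hb)
      · intro b _ b' _ h
        exact inv_injective (neg_injective h)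
      · intro b hb
        simp only [Finset.mem_erase, Finset.mem_univ, and_true] at hb
        refine ⟨-b⁻¹, ?_, by rw [inv_neg, inv_inv, neg_neg]⟩
        simp only [Finset.mem_erase, Finset.mem_univ, and_true]
        exact neg_ne_zero.mpr (inv_ne_zero hb)
      · intro b hb
        simp only [Finset.mem_erase, Finset.mem_univ, and_true] at hb
        exact hf.S_ne b hb τ)
    (fun τ => by
      rw [hf.T_inf]
      congr 1
      simp only [hf.T_fin]
      exact Equiv.sum_comp (Equiv.addRight (1 : ZMod r)) (fun b => f b τ))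
    _ h1 (fun n => ⟨(trSeries r Fi F0).coeff n, rfl⟩) hM
  have hl : P ∈ Polynomial.lifts (Int.castRingHom ℂ) :=
    (Polynomial.lifts_iff_coeff_lifts P).mpr hP1
  obtain ⟨P', hP'⟩ := (Polynomial.mem_lifts P).mp hl
  refine ⟨P', coeffMap_injective (Int.castRingHom ℂ) Int.cast_injective ?_⟩
  rw [hP2, ringHom_evZ, coeffMap_jqModC, ← hP', Polynomial.aeval_def, evZ_apply,
    Polynomial.eval₂_map]
  congr 1
  exact Subsingleton.elim _ _

/-- The trace identity over an arbitrary domain with a primitive `r`-th root of unity. -/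
theorem trace_identity_of {P : Polynomial ℤ} (hP : trSeries r Fi F0 = evZ (jqModC ℤ) P)
    {R : Type*} [CommRing R] [IsDomain R] {ζ : Rˣ} (hζ : IsPrimitiveRoot ζ r) :
      qExpand R r (coeffMap (Int.castRingHom R) Fi) +
        ∑ b : ZMod r, twist (ζ ^ b.val) (coeffMap (Int.castRingHom R) F0) =
      evZ (qExpand R r (jqModC R)) P := by
  rw [sum_twist hζ, ← map_add, ← trSeries_coeffMap, hP, ringHom_evZ, coeffMap_jqModC,
    ringHom_evZ]

end Family

end Fermat.Agent.Igusa
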