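import Mathlib
import Fermat.Prelude.Def_ModularCurve_X0ModL
import Fermat.Agent.Igusa.Family

/-!
# The modular polynomial of prime level and the modular unit
-/

set_option autoImplicit false

noncomputable section

open ModularCurve UpperHalfPlane HahnSeries Complex Filter Topology MatrixGroups CongruenceSubgroup
open Function (Periodic)
open scoped Manifold ModularForm

namespace Fermat.Agent.Igusa

section Holo

theorem mdiff_comp {g : ℍ → ℂ} (hg : MDifferentiable 𝓘(ℂ) 𝓘(ℂ) g) (φ : ℍ → ℍ) (a b : ℂ)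
    (hφ : ∀ τ : ℍ, ((φ τ : ℍ) : ℂ) = a * τ + b) :
    MDifferentiable 𝓘(ℂ) 𝓘(ℂ) (fun τ => g (φ τ)) := by
  rw [UpperHalfPlane.mdifferentiable_iff] at hg ⊢
  have h1 : Set.EqOn ((fun τ => g (φ τ)) ∘ ofComplex) (fun z : ℂ => (g ∘ ofComplex) (a * z + b))
      {z | 0 < z.im} := by
    intro z hz
    have h2 := hφ ⟨z, hz⟩
    simp only [Function.comp]
    rw [ofComplex_apply_of_im_pos hz]
    have h3 : a * z + b = ((φ ⟨z, hz⟩ : ℍ) : ℂ) := by rw [h2]
    rw [h3, ofComplex_apply]
  refine DifferentiableOn.congr ?_ h1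
  refine hg.comp (by fun_prop) ?_
  intro z hz
  have h2 := hφ ⟨z, hz⟩
  have h3 : a * z + b = ((φ ⟨z, hz⟩ : ℍ) : ℂ) := by rw [h2]
  show 0 < (a * z + b).im
  rw [h3]
  exact (φ ⟨z, hz⟩).im_pos

theorem mdiff_comp_scl {g : ℍ → ℂ} (hg : MDifferentiable 𝓘(ℂ) 𝓘(ℂ) g) (N : ℕ) [NeZero N] :
    MDifferentiable 𝓘(ℂ) 𝓘(ℂ) (fun τ => g (scl N τ)) :=
  mdiff_comp hg (scl N) N 0 (fun τ => by simp)

theorem mdiff_comp_lin {g : ℍ → ℂ} (hg : MDifferentiable 𝓘(ℂ) 𝓘(ℂ) g) (r : ℕ) [NeZero r] (b : ℤ) :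
    MDifferentiable 𝓘(ℂ) 𝓘(ℂ) (fun τ => g (lin r b τ)) :=
  mdiff_comp hg (lin r b) (r : ℂ)⁻¹ (b / r) (fun τ => by rw [coe_lin]; ring)

end Holo

section Specific

variable (r : ℕ) [hr : Fact r.Prime]

theorem jFam : IsFam r (fun τ => jf (scl r τ)) (tr r jf) (qExpand ℤ r (jqModC ℤ)) (jqModC ℤ) where
  S_inf τ := by
    have := isWt_jf.scl_S (r := r) τ
    rwa [pow_zero, one_mul] at this
  S_zero τ := by
    have := isWt_jf.tr_zero_S (r := r) τ
    rwa [pow_zero, one_mul] at this
  S_ne b hb τ := by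
    have := isWt_jf.tr_S (r := r) hb τ
    rwa [pow_zero, one_mul] at this
  T_inf τ := isWt_jf.scl_T τ
  T_fin b τ := isWt_jf.tr_T b τ
  holo_inf := mdiff_comp_scl mdiff_jf r
  holo_fin b := mdiff_comp_lin mdiff_jf r _
  exp_inf := by
    rw [coeffMap_qExpand, coeffMap_jqModC]
    exact isExp_jf.comp_scl r
  exp_fin b := by
    rw [coeffMap_jqModC]
    have := isExp_jf.comp_lin r (b.val : ℤ)
    rwa [zpow_natCast] at this

theorem coeffMap_dS {R S : Type*} [CommRing R] [CommRing S] (f : R →+* S) :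
    coeffMap f (dS R) = dS S := by
  rw [dS, dS, map_mul, coeffMap_single, map_one, coeffMap_ofPowerSeries,
    ← RingHom.comp_apply (PowerSeries.map f), ← PowerSeries.map_comp,
    RingHom.ext_int (f.comp (Int.castRingHom R)) (Int.castRingHom S)]

theorem coeffMap_dSinv {R S : Type*} [CommRing R] [CommRing S] (f : R →+* S) :
    coeffMap f (dSinv R) = dSinv S := by
  rw [dSinv, dSinv, map_mul, coeffMap_single, map_one, coeffMap_ofPowerSeries,
    ← RingHom.comp_apply (PowerSeries.map f), ← PowerSeries.map_comp,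
    RingHom.ext_int (f.comp (Int.castRingHom R)) (Int.castRingHom S)]

/-- `r ^ 12 Δ(q ^ r) / Δ(q)`. -/
def wInf (R : Type*) [CommRing R] : LaurentSeries R :=
  (r : LaurentSeries R) ^ 12 * (qExpand R r (dS R) * dSinv R)

/-- `Δ(q) / Δ(q ^ r)`. -/
def wZero (R : Type*) [CommRing R] : LaurentSeries R :=
  dS R * qExpand R r (dSinv R)

theorem wFam : IsFam r (fun τ => (r : ℂ) ^ 12 * (dl (scl r τ) * (dl τ)⁻¹))
    (fun b τ => tr r dl b τ * (dl τ)⁻¹) (wInf r ℤ) (wZero r ℤ) where
  S_inf τ := by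
    rw [isWt_dl.scl_S (r := r) τ, isWt_dl.S]
    have h1 : (r : ℂ) ≠ 0 := by exact_mod_cast NeZero.ne r
    have h2 := τ.ne_zero
    have h3 := dl_ne_zero τ
    field_simp
  S_zero τ := by
    rw [isWt_dl.tr_zero_S (r := r) τ, isWt_dl.S]
    have h2 := τ.ne_zero
    have h3 := dl_ne_zero τ
    field_simp
  S_ne b hb τ := by
    rw [isWt_dl.tr_S (r := r) hb τ, isWt_dl.S]
    have h2 := τ.ne_zero
    have h3 := dl_ne_zero τ
    field_simp
  T_inf τ := by rw [isWt_dl.scl_T τ, isWt_dl.T]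
  T_fin b τ := by rw [isWt_dl.tr_T b τ, isWt_dl.T]
  holo_inf := mdifferentiable_const.mul ((mdiff_comp_scl mdiff_dl r).mul mdiff_dl_inv)
  holo_fin b := (mdiff_comp_lin mdiff_dl r _).mul mdiff_dl_inv
  exp_inf := by
    rw [wInf, map_mul, map_pow, map_natCast, map_mul, coeffMap_qExpand, coeffMap_dS, coeffMap_dSinv]
    have h1 := (isExp_dl.comp_scl r).mul isExp_dl_inv
    have h2 := (IsExp.const (h := 1) (r : ℂ)).pow 12
    have h3 : (HahnSeries.C (r : ℂ) : LaurentSeries ℂ) = (r : LaurentSeries ℂ) := by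
      rw [map_natCast]
    rw [h3] at h2
    exact h2.mul h1
  exp_fin b := by
    rw [wZero, map_mul, coeffMap_qExpand, coeffMap_dS, coeffMap_dSinv, map_mul, twist_qExpand]
    · have h1 := isExp_dl.comp_lin r (b.val : ℤ)
      rw [zpow_natCast] at h1
      exact h1.mul ((isExp_qExpand_iff r).mpr isExp_dl_inv)
    · rw [← pow_mul, mul_comm, pow_mul, zr_pow, one_pow]

end Specific

section Newton

variable {K : Type*} [Field K] {ι : Type*} [Fintype ι]

theorem esymm_mem_of_psum_mem (S : Subring K) (hS : ∀ n : ℕ, (n : K) ≠ 0 → ((n : K))⁻¹ ∈ S)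
    (hn : ∀ n : ℕ, n ≠ 0 → (n : K) ≠ 0)
    (x : ι → K) (h : ∀ n, ∑ i, x i ^ n ∈ S) (k : ℕ) :
    MvPolynomial.eval₂Hom (Int.castRingHom K) x (MvPolynomial.esymm ι ℤ k) ∈ S := by
  induction k using Nat.strong_induction_on with
  | h k ih =>
    rcases Nat.eq_zero_or_pos k with rfl | hk
    · rw [MvPolynomial.esymm_zero, map_one]; exact S.one_mem
    · have h1 := congrArg (MvPolynomial.eval₂Hom (Int.castRingHom K) x)
        (MvPolynomial.mul_esymm_eq_sum ι ℤ k)
      rw [map_mul, map_mul, map_natCast, map_sum] at h1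
      have hk0 : (k : K) ≠ 0 := hn k hk.ne'
      have h2 : MvPolynomial.eval₂Hom (Int.castRingHom K) x (MvPolynomial.esymm ι ℤ k) =
          (k : K)⁻¹ * ((k : K) * MvPolynomial.eval₂Hom (Int.castRingHom K) x
            (MvPolynomial.esymm ι ℤ k)) := by
        rw [← mul_assoc, inv_mul_cancel₀ hk0, one_mul]
      rw [h2, h1]
      refine S.mul_mem (hS k hk0) (S.mul_mem ?_ (S.sum_mem fun a ha => ?_))
      · rw [map_pow, map_neg, map_one]
        exact S.pow_mem (S.neg_mem S.one_mem) _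
      · rw [map_mul, map_mul, map_pow, map_neg, map_one]
        refine S.mul_mem (S.mul_mem (S.pow_mem (S.neg_mem S.one_mem) _) (ih _ ?_)) ?_
        · exact (Finset.mem_filter.mp ha).2
        · rw [MvPolynomial.psum, map_sum]
          simp only [map_pow, MvPolynomial.coe_eval₂Hom, MvPolynomial.eval₂_X]
          exact h _

theorem coeff_prod_mem_of_psum_mem (S : Subring K) (hS : ∀ n : ℕ, (n : K) ≠ 0 → ((n : K))⁻¹ ∈ S)
    (hn : ∀ n : ℕ, n ≠ 0 → (n : K) ≠ 0)
    (x : ι → K) (h : ∀ n, ∑ i, x i ^ n ∈ S) (k : ℕ) :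
    (∏ i, (Polynomial.X - Polynomial.C (x i))).coeff k ∈ S := by
  have hneg : ∀ n, ∑ i, (-x i) ^ n ∈ S := fun n => by
    have : ∑ i, (-x i) ^ n = (-1) ^ n * ∑ i, x i ^ n := by
      rw [Finset.mul_sum]
      exact Finset.sum_congr rfl fun i _ => by rw [neg_pow]
    rw [this]
    exact S.mul_mem (S.pow_mem (S.neg_mem S.one_mem) _) (h n)
  have h1 : (∏ i, (Polynomial.X - Polynomial.C (x i))) =
      (∏ i, (Polynomial.X + Polynomial.C (MvPolynomial.X i)) :
        Polynomial (MvPolynomial ι ℤ)).map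
          (MvPolynomial.eval₂Hom (Int.castRingHom K) fun i => -x i) := by
    rw [Polynomial.map_prod]
    refine Finset.prod_congr rfl fun i _ => ?_
    rw [Polynomial.map_add, Polynomial.map_X, Polynomial.map_C, MvPolynomial.coe_eval₂Hom,
      MvPolynomial.eval₂_X, map_neg, sub_eq_add_neg]
  by_cases hk : k ≤ Fintype.card ι
  · rw [h1, Polynomial.coeff_map, MvPolynomial.prod_X_add_C_coeff _ _ k hk]
    exact esymm_mem_of_psum_mem S hS hn _ hneg _
  · rw [Polynomial.coeff_eq_zero_of_natDegree_lt]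
    · exact S.zero_mem
    · rw [Polynomial.natDegree_prod_of_monic _ _ (fun i _ => Polynomial.monic_X_sub_C _)]
      simp only [Polynomial.natDegree_X_sub_C, Finset.sum_const, Finset.card_univ, smul_eq_mul,
        mul_one]
      omega

end Newton

section EvJ

open Polynomial

/-- Evaluation of a polynomial at `j(q)`. -/
def evJ (R : Type*) [CommRing R] : R[X] →+* LaurentSeries R :=
  Polynomial.eval₂RingHom HahnSeries.C (jqModC R)

theorem evJ_apply {R : Type*} [CommRing R] (P : R[X]) :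
    evJ R P = P.eval₂ HahnSeries.C (jqModC R) := rfl

@[simp] theorem evJ_C {R : Type*} [CommRing R] (a : R) : evJ R (C a) = HahnSeries.C a := by
  rw [evJ_apply, Polynomial.eval₂_C]

@[simp] theorem evJ_X {R : Type*} [CommRing R] : evJ R X = jqModC R := by
  rw [evJ_apply, Polynomial.eval₂_X]

theorem coeffMap_C {R S : Type*} [CommRing R] [CommRing S] (f : R →+* S) (a : R) :
    coeffMap f (HahnSeries.C a) = HahnSeries.C (f a) := by
  rw [HahnSeries.C_apply, HahnSeries.C_apply, coeffMap_single]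

theorem coeffMap_evJ {R S : Type*} [CommRing R] [CommRing S] (f : R →+* S) (P : R[X]) :
    coeffMap f (evJ R P) = evJ S (P.map f) := by
  rw [evJ_apply, evJ_apply, Polynomial.hom_eval₂, Polynomial.eval₂_map, coeffMap_jqModC]
  congr 1
  ext a : 1
  simp

theorem evJ_coeff {R : Type*} [CommRing R] (P : R[X]) (n : ℤ) :
    (evJ R P).coeff n = ∑ i ∈ P.support, P.coeff i * ((jqModC R) ^ i).coeff n := by
  rw [evJ_apply, Polynomial.eval₂_eq_sum, Polynomial.sum, HahnSeries.coeff_sum]
  refine Finset.sum_congr rfl fun i _ => ?_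
  rw [HahnSeries.C_mul_eq_smul, HahnSeries.coeff_smul, smul_eq_mul]

theorem evJ_coeff_of_lt {R : Type*} [CommRing R] {P : R[X]} {d : ℕ} (hd : P.natDegree ≤ d)
    {n : ℤ} (hn : n < -(d : ℤ)) : (evJ R P).coeff n = 0 := by
  rw [evJ_coeff]
  refine Finset.sum_eq_zero fun i hi => ?_
  have hi' : i ≤ d := (Polynomial.le_natDegree_of_mem_supp i hi).trans hd
  rw [coeff_jqModC_pow_of_lt R (by omega), mul_zero]

theorem evJ_coeff_natDegree {R : Type*} [CommRing R] {P : R[X]} {d : ℕ} (hd : P.natDegree ≤ d) :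
    (evJ R P).coeff (-(d : ℤ)) = P.coeff d := by
  rw [evJ_coeff]
  rw [Finset.sum_eq_single d]
  · rw [coeff_jqModC_pow_self, mul_one]
  · intro i hi hne
    have hi' : i ≤ d := (Polynomial.le_natDegree_of_mem_supp i hi).trans hd
    rw [coeff_jqModC_pow_of_lt R (by omega), mul_zero]
  · intro h
    rw [Polynomial.notMem_support_iff.mp h, zero_mul]

theorem evJ_injective (R : Type*) [CommRing R] : Function.Injective (evJ R) := by
  rw [injective_iff_map_eq_zero]
  intro P hP
  have h := evJ_coeff_natDegree (P := P) le_rfl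
  rw [hP, HahnSeries.coeff_zero, Polynomial.coeff_natDegree] at h
  exact Polynomial.leadingCoeff_eq_zero.mp h.symm

theorem coeff_mem_of_evJ {R : Type*} [CommRing R] (A : Subring R) (d : ℕ) :
    ∀ P : R[X], P.natDegree ≤ d → (∀ n, (evJ R P).coeff n ∈ A) → ∀ n, P.coeff n ∈ A := by
  induction d with
  | zero =>
    intro P hP h n
    have h1 := h 0
    have h2 := evJ_coeff_natDegree hP
    rw [Nat.cast_zero, neg_zero] at h2
    rw [h2] at h1
    rcases Nat.eq_zero_or_pos n with rfl | hn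
    · exact h1
    · rw [Polynomial.coeff_eq_zero_of_natDegree_lt (by omega)]
      exact A.zero_mem
  | succ d ih =>
    intro P hP h n
    have h1 : P.coeff (d + 1) ∈ A := by
      rw [← evJ_coeff_natDegree hP]; exact h _
    have h2 : (P - C (P.coeff (d + 1)) * X ^ (d + 1)).natDegree ≤ d := by
      rw [Polynomial.natDegree_le_iff_coeff_eq_zero]
      intro N hN
      rw [Polynomial.coeff_sub, Polynomial.coeff_C_mul_X_pow]
      split_ifs with h3
      · rw [h3, sub_self]
      · rw [sub_zero, Polynomial.coeff_eq_zero_of_natDegree_lt (by omega)]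
    have h3 := ih _ h2 (fun m => by
      rw [map_sub, map_mul, map_pow, evJ_C, evJ_X, HahnSeries.coeff_sub,
        HahnSeries.C_mul_eq_smul, HahnSeries.coeff_smul, smul_eq_mul]
      exact A.sub_mem (h m) (A.mul_mem h1 (coeff_jqModC_pow_int R A _ _))) n
    rw [Polynomial.coeff_sub, Polynomial.coeff_C_mul_X_pow] at h3
    have h4 : P.coeff n = P.coeff n - (if n = d + 1 then P.coeff (d + 1) else 0) +
      (if n = d + 1 then P.coeff (d + 1) else 0) := by ring
    rw [h4]
    refine A.add_mem h3 ?_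
    split_ifs
    · exact h1
    · exact A.zero_mem

end EvJ

section CoeffSubring

/-- Laurent series with coefficients in a subring. -/
def coeffSubring {R : Type*} [CommRing R] (A : Subring R) : Subring (LaurentSeries R) where
  carrier := {F | ∀ n, F.coeff n ∈ A}
  mul_mem' {F G} hF hG n := by
    rw [coeff_mul_eq_sum]
    exact A.sum_mem fun m _ => A.mul_mem (hF _) (hG _)
  one_mem' n := by
    rw [HahnSeries.coeff_one]
    split_ifs
    · exact A.one_mem
    · exact A.zero_mem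
  add_mem' {F G} hF hG n := by
    rw [HahnSeries.coeff_add]; exact A.add_mem (hF n) (hG n)
  zero_mem' n := by rw [HahnSeries.coeff_zero]; exact A.zero_mem
  neg_mem' {F} hF n := by rw [HahnSeries.coeff_neg]; exact A.neg_mem (hF n)

theorem coeff_prod_mem_of_mem {K ι : Type*} [CommRing K] [Fintype ι] (S : Subring K) (x : ι → K)
    (h : ∀ i, x i ∈ S) (k : ℕ) :
    (∏ i, (Polynomial.X - Polynomial.C (x i))).coeff k ∈ S := by
  have h1 : (∏ i, (Polynomial.X - Polynomial.C (x i))) =
      (∏ i, (Polynomial.X - Polynomial.C (⟨x i, h i⟩ : S))).map S.subtype := by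
    rw [Polynomial.map_prod]
    refine Finset.prod_congr rfl fun i _ => ?_
    rw [Polynomial.map_sub, Polynomial.map_X, Polynomial.map_C]
    rfl
  rw [h1, Polynomial.coeff_map]
  exact Subtype.prop _

end CoeffSubring

end Fermat.Agent.Igusa
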