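import Mathlib
import Fermat.Prelude.Def_ModularCurve_X0ModL
import Fermat.Agent.Igusa.ModPoly

/-!
# The modular polynomial of prime level
-/

set_option autoImplicit false

noncomputable section

open ModularCurve Polynomial

namespace Fermat.Agent.Igusa

variable (r : ℕ) [hr : Fact r.Prime]

/-- The `r + 1` conjugates of `j(q ^ (r ^ 2))` over `k(j(q ^ r))`. -/
def rt {R : Type*} [CommRing R] (ζ : Rˣ) : Option (ZMod r) → LaurentSeries R
  | none => qExpand R r (qExpand R r (jqModC R))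
  | some b => twist (ζ ^ b.val) (jqModC R)

/-- The product of the `Y - rt i`. -/
def rtPoly {R : Type*} [CommRing R] (ζ : Rˣ) : (LaurentSeries R)[X] :=
  ∏ i, (X - C (rt r ζ i))

theorem coeffMap_rt {R S : Type*} [CommRing R] [CommRing S] (f : R →+* S) (ζ : Rˣ)
    (i : Option (ZMod r)) : coeffMap f (rt r ζ i) = rt r (Units.map (f : R →* S) ζ) i := by
  match i with
  | none => rw [rt, rt, coeffMap_qExpand, coeffMap_qExpand, coeffMap_jqModC]
  | some b => rw [rt, rt, ← twist_coeffMap, coeffMap_jqModC, map_pow]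

theorem map_rtPoly {R S : Type*} [CommRing R] [CommRing S] (f : R →+* S) (ζ : Rˣ) :
    (rtPoly r ζ).map (coeffMap f) = rtPoly r (Units.map (f : R →* S) ζ) := by
  rw [rtPoly, rtPoly, Polynomial.map_prod]
  refine Finset.prod_congr rfl fun i _ => ?_
  rw [Polynomial.map_sub, Polynomial.map_X, Polynomial.map_C, coeffMap_rt]

theorem rtPoly_monic {R : Type*} [CommRing R] (ζ : Rˣ) : (rtPoly r ζ).Monic :=
  Polynomial.monic_prod_of_monic _ _ fun i _ => Polynomial.monic_X_sub_C _

theorem rtPoly_natDegree {R : Type*} [CommRing R] [Nontrivial R] (ζ : Rˣ) :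
    (rtPoly r ζ).natDegree = r + 1 := by
  rw [rtPoly, Polynomial.natDegree_prod_of_monic _ _ (fun i _ => Polynomial.monic_X_sub_C _)]
  simp [ZMod.card]

/-- Power sums of the roots. -/
theorem psum_rt {n : ℕ} {P : Polynomial ℤ}
    (hP : trSeries r (qExpand ℤ r (jqModC ℤ) ^ n) (jqModC ℤ ^ n) = evZ (jqModC ℤ) P)
    {R : Type*} [CommRing R] [IsDomain R] {ζ : Rˣ}
    (hζ : IsPrimitiveRoot ζ r) : ∑ i, rt r ζ i ^ n = evZ (qExpand R r (jqModC R)) P := by
  rw [← trace_identity_of hP hζ, Fintype.sum_option, rt]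
  rw [map_pow, map_pow, coeffMap_qExpand, coeffMap_jqModC]
  congr 1
  refine Finset.sum_congr rfl fun b _ => ?_
  rw [rt, map_pow, map_pow, coeffMap_jqModC]

/-- Algebraic integers in `ℂ` as a subring. -/
def intC : Subring ℂ := (integralClosure ℤ ℂ).toSubring

theorem mem_intC {x : ℂ} : x ∈ intC ↔ IsIntegral ℤ x := Iff.rfl

theorem zr_zpow_mem (n : ℤ) : ((zr r ^ n : ℂˣ) : ℂ) ∈ intC := by
  rw [mem_intC]
  refine IsIntegral.of_pow (n := r) hr.out.pos ?_
  rw [← Units.val_pow_eq_pow_val, ← zpow_natCast, ← zpow_mul, mul_comm, zpow_mul, zpow_natCast,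
    zr_pow, one_zpow, Units.val_one]
  exact isIntegral_one

theorem rt_mem (i : Option (ZMod r)) : rt r (zr r) i ∈ coeffSubring intC := by
  have hJ : ∀ n, (jqModC ℂ).coeff n ∈ intC := coeff_jqModC_int ℂ intC
  have hq : ∀ F ∈ coeffSubring intC, qExpand ℂ r F ∈ coeffSubring intC := by
    intro F hF n
    by_cases hn : (r : ℤ) ∣ n
    · obtain ⟨m, rfl⟩ := hn
      rw [qExpand_coeff_mul]; exact hF m
    · rw [qExpand_coeff_of_not_dvd r _ hn]; exact intC.zero_mem
  cases i with
  | none => exact hq _ (hq _ hJ)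
  | some b =>
    intro n
    rw [rt, twist_coeff, ← zpow_natCast, ← zpow_mul]
    exact intC.mul_mem (hJ n) (zr_zpow_mem r _)

theorem coeff_rtPoly_mem (k : ℕ) :
    (rtPoly r (zr r)).coeff k ∈ RingHom.range (evZ (qExpand ℂ r (jqModC ℂ))) := by
  -- Step 1: the coefficients are polynomials in `j(q^r)` with rational coefficients
  let S : Subring (LaurentSeries ℂ) := RingHom.range
    ((qExpand ℂ r).comp ((evJ ℂ).comp (Polynomial.mapRingHom (algebraMap ℚ ℂ))))
  have hζ : IsPrimitiveRoot (zr r) r := by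
    rw [← IsPrimitiveRoot.coe_units_iff]; exact zr_isPrimitiveRoot r
  have hcast : ∀ n : ℕ, ((n : LaurentSeries ℂ)) = HahnSeries.C (n : ℂ) := fun n => by
    rw [map_natCast]
  have h1 : (rtPoly r (zr r)).coeff k ∈ S := by
    rw [rtPoly]
    refine coeff_prod_mem_of_psum_mem S (fun n hn => ?_) (fun n hn => ?_) _ (fun n => ?_) k
    · refine ⟨Polynomial.C ((n : ℚ)⁻¹), ?_⟩
      simp only [RingHom.comp_apply, Polynomial.coe_mapRingHom, Polynomial.map_C, evJ_C]
      rw [qExpand_C]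
      have hn' : (n : ℂ) ≠ 0 := by
        intro h
        apply hn
        rw [hcast, h, map_zero]
      rw [hcast, map_inv₀, map_natCast (algebraMap ℚ ℂ), map_inv₀]
    · rw [hcast]
      intro h
      have := HahnSeries.C_injective (h.trans (map_zero HahnSeries.C).symm)
      exact hn (by exact_mod_cast this)
    · obtain ⟨P, hP⟩ := ((jFam r).pow n).trace
      rw [psum_rt r hP hζ]
      refine ⟨P.map (Int.castRingHom ℚ), ?_⟩
      simp only [RingHom.comp_apply, Polynomial.coe_mapRingHom, Polynomial.map_map]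
      rw [RingHom.ext_int ((algebraMap ℚ ℂ).comp (Int.castRingHom ℚ)) (Int.castRingHom ℂ),
        evJ_apply, Polynomial.eval₂_map, Polynomial.hom_eval₂, evZ_apply]
      congr 1
      exact Subsingleton.elim _ _
  obtain ⟨Q, hQ⟩ := h1
  simp only [RingHom.comp_apply, Polynomial.coe_mapRingHom] at hQ
  -- Step 2: integrality
  have h2 : (rtPoly r (zr r)).coeff k ∈ coeffSubring intC := by
    rw [rtPoly]
    exact coeff_prod_mem_of_mem _ _ (rt_mem r) k
  have h3 : ∀ n, (evJ ℚ Q).coeff n ∈ (Int.castRingHom ℚ).range := by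
    intro n
    have h4 := h2 ((r : ℤ) * n)
    rw [← hQ, qExpand_coeff_mul, ← coeffMap_evJ, coeffMap_coeff, mem_intC,
      isIntegral_algebraMap_iff (algebraMap ℚ ℂ).injective] at h4
    obtain ⟨m, hm⟩ := IsIntegrallyClosed.isIntegral_iff.mp h4
    exact ⟨m, hm⟩
  have h5 := coeff_mem_of_evJ _ _ Q le_rfl h3
  obtain ⟨Q', hQ'⟩ := (Polynomial.mem_lifts Q).mp ((Polynomial.lifts_iff_coeff_lifts Q).mpr h5)
  refine ⟨Q', ?_⟩
  rw [← hQ, ← hQ', Polynomial.map_map,
    RingHom.ext_int ((algebraMap ℚ ℂ).comp (Int.castRingHom ℚ)) (Int.castRingHom ℂ),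
    evJ_apply, Polynomial.eval₂_map, Polynomial.hom_eval₂, evZ_apply]
  congr 1
  exact Subsingleton.elim _ _

theorem exists_modPoly : ∃ Φ : ℤ[X][X], Φ.map (evZ (qExpand ℂ r (jqModC ℂ))) = rtPoly r (zr r) ∧
    Φ.natDegree = r + 1 ∧ Φ.Monic := by
  have h1 : rtPoly r (zr r) ∈ Polynomial.lifts (evZ (qExpand ℂ r (jqModC ℂ))) :=
    (Polynomial.lifts_iff_coeff_lifts _).mpr fun k => coeff_rtPoly_mem r k
  obtain ⟨Φ, h2, h3, h4⟩ := Polynomial.lifts_and_natDegree_eq_and_monic h1 (rtPoly_monic r _)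
  exact ⟨Φ, h2, by rw [h3, rtPoly_natDegree], h4⟩

/-- The modular polynomial of prime level `r`, as a polynomial in `Y` with coefficients
in `ℤ[X]`. -/
def modPoly : ℤ[X][X] := (exists_modPoly r).choose

theorem modPoly_monic : (modPoly r).Monic := (exists_modPoly r).choose_spec.2.2

theorem modPoly_natDegree : (modPoly r).natDegree = r + 1 := (exists_modPoly r).choose_spec.2.1

theorem modPoly_map_complex :
    (modPoly r).map (evZ (qExpand ℂ r (jqModC ℂ))) = rtPoly r (zr r) :=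
  (exists_modPoly r).choose_spec.1

section Transfer

/-- The ring `ℤ[ζ_r]`. -/
abbrev CycZ : Type := AdjoinRoot (Polynomial.cyclotomic r ℤ)

theorem cyc_root_pow : (AdjoinRoot.root (Polynomial.cyclotomic r ℤ)) ^ r = 1 := by
  have h1 : Polynomial.cyclotomic r ℤ ∣ X ^ r - 1 := Polynomial.cyclotomic.dvd_X_pow_sub_one r ℤ
  have h2 := AdjoinRoot.mk_eq_zero.mpr h1
  rw [map_sub, map_pow, AdjoinRoot.mk_X, map_one] at h2
  exact sub_eq_zero.mp h2

/-- The root of unity in `ℤ[ζ_r]`, as a unit. -/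
def cycUnit : (CycZ r)ˣ :=
  Units.mkOfMulEqOne (AdjoinRoot.root (Polynomial.cyclotomic r ℤ))
    ((AdjoinRoot.root (Polynomial.cyclotomic r ℤ)) ^ (r - 1)) (by
      rw [← pow_succ', Nat.sub_add_cancel hr.out.one_lt.le, cyc_root_pow])

theorem eval_cyc {R : Type*} [CommRing R] [IsDomain R] {ζ : Rˣ} (hζ : IsPrimitiveRoot ζ r) :
    (Polynomial.cyclotomic r ℤ).eval₂ (Int.castRingHom R) (ζ : R) = 0 := by
  rw [Polynomial.eval₂_eq_eval_map, Polynomial.map_cyclotomic]
  exact (IsPrimitiveRoot.coe_units_iff.mpr hζ).isRoot_cyclotomic hr.out.pos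

/-- The evaluation map `ℤ[ζ_r] → R`. -/
def cycHom {R : Type*} [CommRing R] [IsDomain R] {ζ : Rˣ} (hζ : IsPrimitiveRoot ζ r) :
    CycZ r →+* R :=
  AdjoinRoot.lift (Int.castRingHom R) (ζ : R) (eval_cyc r hζ)

theorem cycHom_unit {R : Type*} [CommRing R] [IsDomain R] {ζ : Rˣ} (hζ : IsPrimitiveRoot ζ r) :
    Units.map (cycHom r hζ : CycZ r →* R) (cycUnit r) = ζ := by
  ext
  show cycHom r hζ (AdjoinRoot.root (Polynomial.cyclotomic r ℤ)) = ζ
  rw [cycHom, AdjoinRoot.lift_root]

theorem zr_prim : IsPrimitiveRoot (zr r) r := by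
  rw [← IsPrimitiveRoot.coe_units_iff]; exact zr_isPrimitiveRoot r

theorem cycHom_complex_injective : Function.Injective (cycHom r (zr_prim r)) := by
  rw [injective_iff_map_eq_zero]
  intro a ha
  obtain ⟨g, rfl⟩ := AdjoinRoot.mk_surjective a
  rw [cycHom, AdjoinRoot.lift_mk] at ha
  rw [AdjoinRoot.mk_eq_zero, Polynomial.cyclotomic_eq_minpoly (zr_isPrimitiveRoot r) hr.out.pos]
  refine minpoly.isIntegrallyClosed_dvd ((zr_isPrimitiveRoot r).isIntegral hr.out.pos) ?_
  rw [Polynomial.aeval_def]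
  exact ha

theorem modPoly_map_cyc :
    (modPoly r).map (evZ (qExpand (CycZ r) r (jqModC (CycZ r)))) = rtPoly r (cycUnit r) := by
  apply Polynomial.map_injective _
    (coeffMap_injective (cycHom r (zr_prim r)) (cycHom_complex_injective r))
  rw [map_rtPoly, cycHom_unit, Polynomial.map_map, ringHom_comp_evZ, coeffMap_qExpand,
    coeffMap_jqModC, modPoly_map_complex]

/-- **The factorisation of the modular polynomial** over any domain containing a primitive `r`-th
root of unity. -/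
theorem modPoly_map {R : Type*} [CommRing R] [IsDomain R] {ζ : Rˣ} (hζ : IsPrimitiveRoot ζ r) :
    (modPoly r).map (evZ (qExpand R r (jqModC R))) = rtPoly r ζ := by
  have h1 := congrArg (Polynomial.map (coeffMap (cycHom r hζ))) (modPoly_map_cyc r)
  rwa [map_rtPoly, cycHom_unit, Polynomial.map_map, ringHom_comp_evZ, coeffMap_qExpand,
    coeffMap_jqModC] at h1

end Transfer

end Fermat.Agent.Igusa
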