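import Mathlib
import Fermat.Prelude.Def_ModularCurve_X0ModL
import Fermat.Agent.Igusa.ModPoly2

/-!
# Orders of Laurent series, and `j(q^r) ∉ k(j)`
-/

set_option autoImplicit false
set_option linter.unusedSectionVars false

noncomputable section

open ModularCurve Polynomial

namespace Fermat.Agent.Igusa

section Order

variable {R : Type*} [CommRing R]

theorem order_eq_of {F : LaurentSeries R} {n : ℤ} (h1 : F.coeff n ≠ 0)
    (h2 : ∀ m < n, F.coeff m = 0) : F.order = n := by
  apply le_antisymm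
  · exact HahnSeries.order_le_of_coeff_ne_zero h1
  · by_contra h
    push Not at h
    have hF : F ≠ 0 := fun h0 => h1 (by rw [h0, HahnSeries.coeff_zero])
    exact HahnSeries.coeff_order_eq_zero.not.mpr hF (h2 _ h)

theorem order_qExpand (N : ℕ) [NeZero N] {F : LaurentSeries R} (hF : F ≠ 0) :
    (qExpand R N F).order = N * F.order := by
  have hN : (0 : ℤ) < N := by exact_mod_cast Nat.pos_of_ne_zero (NeZero.ne N)
  apply order_eq_of
  · rw [qExpand_coeff_mul]
    exact HahnSeries.coeff_order_eq_zero.not.mpr hF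
  · intro m hm
    by_cases hd : (N : ℤ) ∣ m
    · obtain ⟨c, rfl⟩ := hd
      rw [qExpand_coeff_mul]
      apply HahnSeries.coeff_eq_zero_of_lt_order
      exact lt_of_mul_lt_mul_left hm hN.le
    · exact qExpand_coeff_of_not_dvd N F hd

theorem order_twist (a : Rˣ) {F : LaurentSeries R} (hF : F ≠ 0) :
    (twist a F).order = F.order := by
  apply order_eq_of
  · rw [twist_coeff]
    intro h
    apply HahnSeries.coeff_order_eq_zero.not.mpr hF
    exact (Units.mul_left_eq_zero _).mp h
  · intro m hm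
    rw [twist_coeff, HahnSeries.coeff_eq_zero_of_lt_order hm, zero_mul]

theorem twist_ne_zero (a : Rˣ) {F : LaurentSeries R} (hF : F ≠ 0) : twist a F ≠ 0 := by
  intro h
  apply HahnSeries.coeff_order_eq_zero.not.mpr hF
  have := congrArg (fun z : LaurentSeries R => z.coeff F.order) h
  simp only [twist_coeff, HahnSeries.coeff_zero] at this
  exact (Units.mul_left_eq_zero _).mp this

theorem qExpand_ne_zero (N : ℕ) [NeZero N] {F : LaurentSeries R} (hF : F ≠ 0) :
    qExpand R N F ≠ 0 := fun h => hF (qExpand_injective N (h.trans (map_zero _).symm))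

variable [Nontrivial R]

theorem order_jqModC : (jqModC R).order = -1 := by
  apply order_eq_of
  · rw [coeff_jqModC_neg_one]; exact one_ne_zero
  · intro m hm; exact coeff_jqModC_of_lt R hm

theorem dS_coeff_one : (dS R).coeff 1 = 1 := by
  rw [dS, HahnSeries.coeff_single_mul, one_mul, sub_self,
    show (0 : ℤ) = ((0 : ℕ) : ℤ) from rfl, HahnSeries.ofPowerSeries_apply_coeff,
    PowerSeries.coeff_map, PowerSeries.coeff_zero_eq_constantCoeff,
    constantCoeff_dedekindEtaUnit, map_one]

theorem dS_coeff_of_lt {m : ℤ} (hm : m < 1) : (dS R).coeff m = 0 := by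
  rw [dS, HahnSeries.coeff_single_mul, one_mul]
  exact ofPowerSeries_coeff_of_neg _ (by omega)

theorem order_dS : (dS R).order = 1 := by
  apply order_eq_of
  · rw [dS_coeff_one]; exact one_ne_zero
  · intro m hm; exact dS_coeff_of_lt hm

theorem dS_ne_zero : dS R ≠ 0 := fun h => by
  have := dS_coeff_one (R := R)
  rw [h, HahnSeries.coeff_zero] at this
  exact zero_ne_one this

theorem dSinv_coeff : (dSinv R).coeff (-1) = 1 := by
  rw [dSinv, HahnSeries.coeff_single_mul, one_mul, sub_self,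
    show (0 : ℤ) = ((0 : ℕ) : ℤ) from rfl, HahnSeries.ofPowerSeries_apply_coeff,
    PowerSeries.coeff_map, PowerSeries.coeff_zero_eq_constantCoeff,
    constantCoeff_dedekindEtaUnitInv, map_one]

theorem dSinv_coeff_of_lt {m : ℤ} (hm : m < -1) : (dSinv R).coeff m = 0 := by
  rw [dSinv, HahnSeries.coeff_single_mul, one_mul]
  exact ofPowerSeries_coeff_of_neg _ (by omega)

theorem order_dSinv : (dSinv R).order = -1 := by
  apply order_eq_of
  · rw [dSinv_coeff]; exact one_ne_zero
  · intro m hm; exact dSinv_coeff_of_lt hm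

theorem dSinv_ne_zero : dSinv R ≠ 0 := fun h => by
  have := dSinv_coeff (R := R)
  rw [h, HahnSeries.coeff_zero] at this
  exact zero_ne_one this

end Order

section Roots

variable (r : ℕ) [hr : Fact r.Prime] {R : Type*} [CommRing R] [IsDomain R]

theorem order_rt_none (ζ : Rˣ) : (rt r ζ none).order = -((r : ℤ) * r) := by
  rw [rt, order_qExpand r (qExpand_ne_zero r (jqModC_ne_zero_of_nontrivial R)),
    order_qExpand r (jqModC_ne_zero_of_nontrivial R), order_jqModC]
  ring

theorem order_rt_some (ζ : Rˣ) (b : ZMod r) : (rt r ζ (some b)).order = -1 := by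
  rw [rt, order_twist _ (jqModC_ne_zero_of_nontrivial R), order_jqModC]

theorem rt_none_ne_some (ζ : Rˣ) (b : ZMod r) : rt r ζ none ≠ rt r ζ (some b) := by
  intro h
  have h1 := congrArg HahnSeries.order h
  rw [order_rt_none, order_rt_some] at h1
  have h2 : (2 : ℤ) ≤ r := by exact_mod_cast hr.out.two_le
  nlinarith

theorem rt_some_injective {ζ : Rˣ} (hζ : IsPrimitiveRoot ζ r) {b b' : ZMod r}
    (h : rt r ζ (some b) = rt r ζ (some b')) : b = b' := by
  have h1 := congrArg (fun z : LaurentSeries R => z.coeff (-1)) h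
  simp only [rt, twist_coeff, coeff_jqModC_neg_one, one_mul] at h1
  have h2 : (ζ ^ b.val) = (ζ ^ b'.val) := by
    have := Units.ext h1
    rwa [zpow_neg_one, zpow_neg_one, inv_inj] at this
  have h3 := hζ.pow_inj (ZMod.val_lt b) (ZMod.val_lt b') h2
  exact ZMod.val_injective r h3

theorem rt_injective {ζ : Rˣ} (hζ : IsPrimitiveRoot ζ r) : Function.Injective (rt r ζ) := by
  intro i i' h
  match i, i' with
  | none, none => rfl
  | none, some b => exact absurd h (rt_none_ne_some r ζ b)
  | some b, none => exact absurd h.symm (rt_none_ne_some r ζ b)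
  | some b, some b' => rw [rt_some_injective r hζ h]

/-- The conjugates of `r ^ 12 Δ(q^(r^2)) / Δ(q ^ r)`. -/
def wt (ζ : Rˣ) : Option (ZMod r) → LaurentSeries R
  | none => qExpand R r (wInf r R)
  | some b => twist (ζ ^ b.val) (wZero r R)

theorem coeffMap_wInf {S : Type*} [CommRing S] (f : R →+* S) :
    coeffMap f (wInf r R) = wInf r S := by
  rw [wInf, wInf, map_mul, map_pow, map_natCast, map_mul, coeffMap_qExpand, coeffMap_dS,
    coeffMap_dSinv]

theorem coeffMap_wZero {S : Type*} [CommRing S] (f : R →+* S) :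
    coeffMap f (wZero r R) = wZero r S := by
  rw [wZero, wZero, map_mul, coeffMap_qExpand, coeffMap_dS, coeffMap_dSinv]

theorem exists_trace (m n : ℕ) : ∃ P : ℤ[X], trSeries r
    (wInf r ℤ ^ m * qExpand ℤ r (jqModC ℤ) ^ n) (wZero r ℤ ^ m * jqModC ℤ ^ n) =
      evZ (jqModC ℤ) P :=
  (((wFam r).pow m).mul ((jFam r).pow n)).trace

/-- The polynomial expressing `∑ w_i ^ m j_i ^ n` in terms of `j`. -/
def trPoly (m n : ℕ) : ℤ[X] := (exists_trace r m n).choose

theorem trPoly_spec (m n : ℕ) : trSeries r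
    (wInf r ℤ ^ m * qExpand ℤ r (jqModC ℤ) ^ n) (wZero r ℤ ^ m * jqModC ℤ ^ n) =
      evZ (jqModC ℤ) (trPoly r m n) := (exists_trace r m n).choose_spec

theorem trace_wt {ζ : Rˣ} (hζ : IsPrimitiveRoot ζ r) (m n : ℕ) :
    ∑ i, wt r ζ i ^ m * rt r ζ i ^ n = evZ (qExpand R r (jqModC R)) (trPoly r m n) := by
  rw [← trace_identity_of (trPoly_spec r m n) hζ, Fintype.sum_option, rt, wt,
    map_mul (coeffMap _), map_pow (coeffMap _), map_pow (coeffMap _), coeffMap_wInf,
    coeffMap_qExpand, coeffMap_jqModC, map_mul (qExpand R r), map_pow (qExpand R r),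
    map_pow (qExpand R r)]
  congr 1
  refine Finset.sum_congr rfl fun b _ => ?_
  rw [wt, rt, map_mul (coeffMap _), map_pow (coeffMap _), map_pow (coeffMap _), coeffMap_wZero,
    coeffMap_jqModC, map_mul, map_pow, map_pow]

end Roots

section Frac

variable {𝕂 : Type*} [CommRing 𝕂] [IsDomain 𝕂]

/-- The elements of `𝕂` which are fractions of elements of `S`. -/
def fracSubring (S : Subring 𝕂) : Subring 𝕂 where
  carrier := {x | ∃ d ∈ S, d ≠ 0 ∧ d * x ∈ S}
  mul_mem' := by
    rintro x y ⟨d, hd, hd0, hdx⟩ ⟨e, he, he0, hey⟩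
    refine ⟨d * e, S.mul_mem hd he, mul_ne_zero hd0 he0, ?_⟩
    rw [mul_mul_mul_comm]; exact S.mul_mem hdx hey
  one_mem' := ⟨1, S.one_mem, one_ne_zero, by rw [mul_one]; exact S.one_mem⟩
  add_mem' := by
    rintro x y ⟨d, hd, hd0, hdx⟩ ⟨e, he, he0, hey⟩
    refine ⟨d * e, S.mul_mem hd he, mul_ne_zero hd0 he0, ?_⟩
    have : d * e * (x + y) = e * (d * x) + d * (e * y) := by ring
    rw [this]
    exact S.add_mem (S.mul_mem he hdx) (S.mul_mem hd hey)
  zero_mem' := ⟨1, S.one_mem, one_ne_zero, by rw [mul_zero]; exact S.zero_mem⟩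
  neg_mem' := by
    rintro x ⟨d, hd, hd0, hdx⟩
    exact ⟨d, hd, hd0, by rw [mul_neg]; exact S.neg_mem hdx⟩

theorem le_fracSubring (S : Subring 𝕂) : S ≤ fracSubring S := fun x hx =>
  ⟨1, S.one_mem, one_ne_zero, by rwa [one_mul]⟩

theorem exists_common_denom (S : Subring 𝕂) (h : ℕ → 𝕂) (N : ℕ)
    (hh : ∀ n, h n ∈ fracSubring S) : ∃ d ∈ S, d ≠ 0 ∧ ∀ n < N, d * h n ∈ S := by
  induction N with
  | zero => exact ⟨1, S.one_mem, one_ne_zero, fun n hn => absurd hn (Nat.not_lt_zero n)⟩
  | succ N ih =>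
    obtain ⟨d, hd, hd0, hdh⟩ := ih
    obtain ⟨e, he, he0, heh⟩ := hh N
    refine ⟨d * e, S.mul_mem hd he, mul_ne_zero hd0 he0, fun n hn => ?_⟩
    rcases Nat.lt_succ_iff_lt_or_eq.mp hn with h1 | rfl
    · rw [mul_comm d e, mul_assoc]; exact S.mul_mem he (hdh n h1)
    · rw [mul_assoc]; exact S.mul_mem hd heh

/-- Division of a polynomial with coefficients in `S` by a linear factor with root in `frac S`. -/
theorem coeff_mem_of_linear_factor (S : Subring 𝕂) {p h : 𝕂[X]} {a : 𝕂}
    (hp : ∀ n, p.coeff n ∈ S) (ha : a ∈ fracSubring S)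
    (hph : p = (X - Polynomial.C a) * h) (n : ℕ) : h.coeff n ∈ fracSubring S := by
  set K := fracSubring S with hK
  have hl : p ∈ Polynomial.lifts K.subtype :=
    (Polynomial.lifts_iff_coeff_lifts _).mpr fun n => ⟨⟨p.coeff n, le_fracSubring S (hp n)⟩, rfl⟩
  obtain ⟨p', hp'⟩ := (Polynomial.mem_lifts _).mp hl
  have h1 : (X - Polynomial.C a : 𝕂[X]) = (X - Polynomial.C (⟨a, ha⟩ : K)).map K.subtype := by
    rw [Polynomial.map_sub, Polynomial.map_X, Polynomial.map_C]; rfl
  have h2 : h = (p' /ₘ (X - Polynomial.C (⟨a, ha⟩ : K))).map K.subtype := by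
    rw [Polynomial.map_divByMonic _ (Polynomial.monic_X_sub_C _), hp', ← h1, hph,
      Polynomial.mul_divByMonic_cancel_left _ (Polynomial.monic_X_sub_C a)]
  rw [h2, Polynomial.coeff_map]
  exact Subtype.prop _

end Frac

section NotMem

variable (r : ℕ) [hr : Fact r.Prime] {k : Type*} [Field k]

theorem order_evJ_nonpos {P : k[X]} (hP : P ≠ 0) : (evJ k P).order ≤ 0 := by
  have h := evJ_coeff_natDegree (P := P) le_rfl
  rw [Polynomial.coeff_natDegree] at h
  have h1 := HahnSeries.order_le_of_coeff_ne_zero (x := evJ k P) (g := -(P.natDegree : ℤ))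
    (by rw [h]; exact Polynomial.leadingCoeff_ne_zero.mpr hP)
  omega

/-- The subring `k[j(q^r)]`. -/
def jrSub (k : Type*) [Field k] : Subring (LaurentSeries k) := ((qExpand k r).comp (evJ k)).range

theorem order_nonpos_of_mem_jrSub {x : LaurentSeries k} (hx : x ∈ jrSub r k) (hx0 : x ≠ 0) :
    x.order ≤ 0 := by
  obtain ⟨P, rfl⟩ := hx
  rw [RingHom.comp_apply] at hx0 ⊢
  have h1 : evJ k P ≠ 0 := fun h => hx0 (by rw [h, map_zero])
  have h2 : P ≠ 0 := fun h => h1 (by rw [h, map_zero])
  rw [order_qExpand r h1]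
  have := order_evJ_nonpos h2
  have hN : (0 : ℤ) < r := by exact_mod_cast hr.out.pos
  nlinarith

theorem evZ_mem_jrSub (P : ℤ[X]) : evZ (qExpand k r (jqModC k)) P ∈ jrSub r k := by
  refine ⟨P.map (Int.castRingHom k), ?_⟩
  rw [RingHom.comp_apply, evJ_apply, Polynomial.eval₂_map, Polynomial.hom_eval₂, evZ_apply]
  congr 1
  exact Subsingleton.elim _ _

theorem order_natCast (hk : (r : k) ≠ 0) : ((r : LaurentSeries k)).order = 0 ∧
    (r : LaurentSeries k) ≠ 0 := by
  have h1 : (r : LaurentSeries k) = HahnSeries.C (r : k) := by rw [map_natCast]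
  rw [h1]
  refine ⟨?_, ?_⟩
  · rw [HahnSeries.C_apply, HahnSeries.order_single hk]
  · rw [HahnSeries.C_apply]; exact HahnSeries.single_ne_zero hk

theorem wInf_ne_zero (hk : (r : k) ≠ 0) : wInf r k ≠ 0 :=
  mul_ne_zero (pow_ne_zero _ (order_natCast r hk).2)
    (mul_ne_zero (qExpand_ne_zero r dS_ne_zero) dSinv_ne_zero)

theorem order_wInf (hk : (r : k) ≠ 0) : (wInf r k).order = r - 1 := by
  rw [wInf, HahnSeries.order_mul (pow_ne_zero _ (order_natCast r hk).2)
    (mul_ne_zero (qExpand_ne_zero r dS_ne_zero) dSinv_ne_zero), HahnSeries.order_pow,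
    (order_natCast r hk).1, HahnSeries.order_mul (qExpand_ne_zero r dS_ne_zero) dSinv_ne_zero,
    order_qExpand r dS_ne_zero, order_dS, order_dSinv]
  simp
  ring

/-- Key step: `j(q^(r^2))` is not a rational function of `j(q^r)` (root of unity case). -/
theorem rt_none_notMem {ζ : kˣ} (hζ : IsPrimitiveRoot ζ r) (hk : (r : k) ≠ 0) :
    rt r ζ none ∉ fracSubring (jrSub r k) := by
  intro ha
  set S := jrSub r k with hS
  set H : (LaurentSeries k)[X] := ∏ b : ZMod r, (X - Polynomial.C (rt r ζ (some b))) with hH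
  have hfac : rtPoly r ζ = (X - Polynomial.C (rt r ζ none)) * H := by
    rw [rtPoly, Fintype.prod_option]
  have hcoef : ∀ n, H.coeff n ∈ fracSubring S := by
    refine coeff_mem_of_linear_factor S (fun n => ?_) ha hfac
    rw [← modPoly_map r hζ, Polynomial.coeff_map]
    exact evZ_mem_jrSub r _
  obtain ⟨d, hd, hd0, hdH⟩ := exists_common_denom S H.coeff (H.natDegree + 1) hcoef
  have hHsome : ∀ b, H.eval (rt r ζ (some b)) = 0 := by
    intro b
    rw [hH, Polynomial.eval_prod]
    exact Finset.prod_eq_zero (Finset.mem_univ b) (by simp)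
  have hHnone : H.eval (rt r ζ none) ≠ 0 := by
    rw [hH, Polynomial.eval_prod]
    refine Finset.prod_ne_zero_iff.mpr fun b _ => ?_
    rw [Polynomial.eval_sub, Polynomial.eval_X, Polynomial.eval_C]
    exact sub_ne_zero.mpr (rt_none_ne_some r ζ b)
  have key : ∀ m : ℕ, (d * H.eval (rt r ζ none)) * (wt r ζ none) ^ m ∈ S := by
    intro m
    have h1 : ∑ i, wt r ζ i ^ m * H.eval (rt r ζ i) = wt r ζ none ^ m * H.eval (rt r ζ none) := by
      rw [Fintype.sum_option, Finset.sum_eq_zero (s := Finset.univ)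
        (f := fun b : ZMod r => wt r ζ (some b) ^ m * H.eval (rt r ζ (some b))) (fun b _ => by
          rw [hHsome, mul_zero]), add_zero]
    have h2 : ∑ i, wt r ζ i ^ m * H.eval (rt r ζ i) =
        ∑ n ∈ Finset.range (H.natDegree + 1), H.coeff n *
          evZ (qExpand k r (jqModC k)) (trPoly r m n) := by
      simp_rw [Polynomial.eval_eq_sum_range, Finset.mul_sum]
      rw [Finset.sum_comm]
      refine Finset.sum_congr rfl fun n _ => ?_
      rw [← trace_wt r hζ m n, Finset.mul_sum]
      exact Finset.sum_congr rfl fun i _ => by ring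
    have h3 : (d * H.eval (rt r ζ none)) * (wt r ζ none) ^ m =
        ∑ n ∈ Finset.range (H.natDegree + 1), (d * H.coeff n) *
          evZ (qExpand k r (jqModC k)) (trPoly r m n) := by
      calc (d * H.eval (rt r ζ none)) * (wt r ζ none) ^ m
          = d * (wt r ζ none ^ m * H.eval (rt r ζ none)) := by ring
        _ = _ := by
          rw [← h1, h2, Finset.mul_sum]
          exact Finset.sum_congr rfl fun n _ => by ring
    rw [h3]
    exact S.sum_mem fun n hn => S.mul_mem (hdH n (Finset.mem_range.mp hn)) (evZ_mem_jrSub r _)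
  have hw : wt r ζ none = qExpand k r (wInf r k) := rfl
  have hw0 : wt r ζ none ≠ 0 := by rw [hw]; exact qExpand_ne_zero r (wInf_ne_zero r hk)
  have hword : (wt r ζ none).order = r * (r - 1) := by
    rw [hw, order_qExpand r (wInf_ne_zero r hk), order_wInf r hk]
  set y := d * H.eval (rt r ζ none) with hy
  have hy0 : y ≠ 0 := mul_ne_zero hd0 hHnone
  have h4 := order_nonpos_of_mem_jrSub r (key (y.order.natAbs + 1))
    (mul_ne_zero hy0 (pow_ne_zero _ hw0))
  rw [HahnSeries.order_mul hy0 (pow_ne_zero _ hw0), HahnSeries.order_pow, hword] at h4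
  have h5 : (2 : ℤ) ≤ r := by exact_mod_cast hr.out.two_le
  have h6 : (2 : ℤ) ≤ r * (r - 1) := by nlinarith
  rw [nsmul_eq_mul] at h4
  push_cast at h4
  have h7 : -|y.order| ≤ y.order := neg_abs_le _
  nlinarith [abs_nonneg y.order]

end NotMem

end Fermat.Agent.Igusa
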