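import Mathlib
import Fermat.Prelude.Def_ModularCurve_X0ModL
import Fermat.Agent.Igusa.Orders
import Fermat.Agent.Igusa.FieldTools

/-!
# The degree of the modular function field of level `N` over `k(j)`
-/

set_option autoImplicit false
set_option linter.unusedSectionVars false

noncomputable section

open ModularCurve Polynomial

namespace Fermat.Agent.Igusa

section JD

variable (R : Type*) [CommRing R]

/-- `j(q ^ d)`. -/
def jd (d : ℕ) [NeZero d] : LaurentSeries R := qExpand R d (jqModC R)

theorem jd_one : jd R 1 = jqModC R := qExpand_one_apply _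

theorem qExpand_jd (d e : ℕ) [NeZero d] [NeZero e] : qExpand R d (jd R e) = jd R (d * e) :=
  qExpand_qExpand e d _

theorem jd_congr {d e : ℕ} [NeZero d] [NeZero e] (h : d = e) : jd R d = jd R e :=
  qExpand_congr h _

theorem coeffMap_jd {R S : Type*} [CommRing R] [CommRing S] (f : R →+* S) (d : ℕ) [NeZero d] :
    coeffMap f (jd R d) = jd S d := by
  rw [jd, jd, coeffMap_qExpand, coeffMap_jqModC]

variable {R}

theorem jd_ne_zero [Nontrivial R] (d : ℕ) [NeZero d] : jd R d ≠ 0 :=
  qExpand_ne_zero d (jqModC_ne_zero_of_nontrivial R)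

theorem order_jd [Nontrivial R] (d : ℕ) [NeZero d] : (jd R d).order = -(d : ℤ) := by
  rw [jd, order_qExpand d (jqModC_ne_zero_of_nontrivial R), order_jqModC]; ring

end JD

section Eval

variable (r : ℕ) [hr : Fact r.Prime]

theorem eval₂_evZ_map {A B : Type*} [CommRing A] [CommRing B] (f : A →+* B) (Φ : ℤ[X][X])
    (x y : A) : f (Φ.eval₂ (evZ x) y) = Φ.eval₂ (evZ (f x)) (f y) := by
  rw [Polynomial.hom_eval₂, ringHom_comp_evZ]

theorem modPoly_eval_complex :
    (modPoly r).eval₂ (evZ (jd ℂ 1)) (jd ℂ r) = 0 ∧ (modPoly r).eval₂ (evZ (jd ℂ r)) (jd ℂ 1) = 0 := by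
  have key : ∀ i, (modPoly r).eval₂ (evZ (jd ℂ r)) (rt r (zr r) i) = 0 := by
    intro i
    have h1 := modPoly_map r (zr_prim r)
    rw [← Polynomial.eval_map]
    show ((modPoly r).map (evZ (qExpand ℂ r (jqModC ℂ)))).eval _ = 0
    rw [h1, rtPoly, Polynomial.eval_prod]
    exact Finset.prod_eq_zero (Finset.mem_univ i) (by simp)
  constructor
  · apply qExpand_injective (R := ℂ) r
    rw [map_zero, eval₂_evZ_map, qExpand_jd, jd_congr ℂ (mul_one r)]
    exact key none
  · have := key (some 0)
    rw [rt, ZMod.val_zero, pow_zero] at this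
    have h2 : twist (1 : ℂˣ) (jqModC ℂ) = jd ℂ 1 := by
      rw [jd_one]; ext n; simp
    rwa [h2] at this

theorem modPoly_eval_int :
    (modPoly r).eval₂ (evZ (jd ℤ 1)) (jd ℤ r) = 0 ∧ (modPoly r).eval₂ (evZ (jd ℤ r)) (jd ℤ 1) = 0 := by
  constructor <;>
  · apply coeffMap_injective (Int.castRingHom ℂ) Int.cast_injective
    rw [map_zero, eval₂_evZ_map, coeffMap_jd, coeffMap_jd]
    first | exact (modPoly_eval_complex r).1 | exact (modPoly_eval_complex r).2

/-- `Φ_r(j(q^d), j(q^(dr))) = 0`. -/
theorem modPoly_eval (R : Type*) [CommRing R] (d : ℕ) [NeZero d] [NeZero (d * r)] :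
    (modPoly r).eval₂ (evZ (jd R d)) (jd R (d * r)) = 0 := by
  have h1 := congrArg (coeffMap (Int.castRingHom R)) (modPoly_eval_int r).1
  rw [map_zero, eval₂_evZ_map, coeffMap_jd, coeffMap_jd] at h1
  have h2 := congrArg (qExpand R d) h1
  rwa [map_zero, eval₂_evZ_map, qExpand_jd, qExpand_jd, jd_congr R (mul_one d)] at h2

/-- `Φ_r(j(q^(dr)), j(q^d)) = 0`. -/
theorem modPoly_eval' (R : Type*) [CommRing R] (d : ℕ) [NeZero d] [NeZero (d * r)] :
    (modPoly r).eval₂ (evZ (jd R (d * r))) (jd R d) = 0 := by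
  have h1 := congrArg (coeffMap (Int.castRingHom R)) (modPoly_eval_int r).2
  rw [map_zero, eval₂_evZ_map, coeffMap_jd, coeffMap_jd] at h1
  have h2 := congrArg (qExpand R d) h1
  rwa [map_zero, eval₂_evZ_map, qExpand_jd, qExpand_jd, jd_congr R (mul_one d)] at h2

end Eval

section Closure

variable (r : ℕ) [hr : Fact r.Prime] {k : Type*} [Field k]

theorem exists_root_of_unity (hk : (r : k) ≠ 0) :
    ∃ ζ : (AlgebraicClosure k)ˣ, IsPrimitiveRoot ζ r := by
  have : NeZero (r : k) := ⟨hk⟩
  obtain ⟨ζ, hζ⟩ := HasEnoughRootsOfUnity.exists_primitiveRoot (AlgebraicClosure k) r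
  exact ⟨hζ.isUnit hr.out.ne_zero |>.unit, by
    rw [← IsPrimitiveRoot.coe_units_iff]; exact hζ⟩

/-- The embedding `k((q)) → k̄((q))`. -/
def emb (k : Type*) [Field k] : LaurentSeries k →+* LaurentSeries (AlgebraicClosure k) :=
  coeffMap (algebraMap k (AlgebraicClosure k))

theorem emb_jd (d : ℕ) [NeZero d] : emb k (jd k d) = jd (AlgebraicClosure k) d := coeffMap_jd _ d

theorem modPoly_map_jd {K : Type*} [Field K] {ζ : Kˣ} (hζ : IsPrimitiveRoot ζ r) (e : ℕ) [NeZero e] :
    (modPoly r).map (evZ (jd K (e * r))) = ∏ i, (X - C (qExpand K e (rt r ζ i))) := by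
  have h1 := congrArg (Polynomial.map (qExpand K e)) (modPoly_map r hζ)
  rw [Polynomial.map_map, ringHom_comp_evZ, rtPoly, Polynomial.map_prod] at h1
  simp only [Polynomial.map_sub, Polynomial.map_X, Polynomial.map_C] at h1
  rw [← h1, ← qExpand_jd]
  rfl

/-- `Φ_r(x, Y)` as a polynomial over an intermediate field containing `x`. -/
def modPolyAt (A : IntermediateField k (LaurentSeries k)) (x : A) : A[X] :=
  (modPoly r).map (evZ x)

theorem modPolyAt_monic (A : IntermediateField k (LaurentSeries k)) (x : A) :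
    (modPolyAt r A x).Monic := (modPoly_monic r).map _

theorem modPolyAt_natDegree (A : IntermediateField k (LaurentSeries k)) (x : A) :
    (modPolyAt r A x).natDegree = r + 1 := by
  rw [modPolyAt, (modPoly_monic r).natDegree_map, modPoly_natDegree]

theorem aeval_modPolyAt (A : IntermediateField k (LaurentSeries k)) (x : A)
    (y : LaurentSeries k) :
    aeval y (modPolyAt r A x) = (modPoly r).eval₂ (evZ (x : LaurentSeries k)) y := by
  rw [modPolyAt, Polynomial.aeval_def, Polynomial.eval₂_map, ringHom_comp_evZ]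
  rfl

theorem modPolyAt_map {K : Type*} [Field K] (A : IntermediateField k (LaurentSeries k)) (x : A)
    (φ : A →+* K) : (modPolyAt r A x).map φ = (modPoly r).map (evZ (φ x)) := by
  rw [modPolyAt, Polynomial.map_map, ringHom_comp_evZ]

/-- The gcd argument: `j(q^(dp)), j(q^(dr)) ∈ A` imply `j(q^(dpr)) ∈ A`. -/
theorem jd_mem_of_mem (p : ℕ) [hp' : Fact p.Prime] (hpr : p ≠ r) (hp : (p : k) ≠ 0)
    (hk : (r : k) ≠ 0) (A : IntermediateField k (LaurentSeries k)) (d : ℕ) [NeZero d]
    (h1 : jd k (d * p) ∈ A) (h2 : jd k (d * r) ∈ A) : jd k (d * p * r) ∈ A := by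
  obtain ⟨ζp, hζp⟩ := exists_root_of_unity p hp
  obtain ⟨ζr, hζr⟩ := exists_root_of_unity r hk
  set K := AlgebraicClosure k
  let φ : A →+* LaurentSeries K := (qExpand K (p * r)).comp ((emb k).comp (algebraMap A _))
  let P : A[X] := modPolyAt p A ⟨jd k (d * r), h2⟩
  let Q : A[X] := modPolyAt r A ⟨jd k (d * p), h1⟩
  have hP : aeval (jd k (d * p * r)) P = 0 := by
    rw [aeval_modPolyAt, jd_congr k (show d * p * r = (d * r) * p by ring)]
    exact modPoly_eval p k (d * r)
  have hQ : aeval (jd k (d * p * r)) Q = 0 := by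
    rw [aeval_modPolyAt]
    exact modPoly_eval r k (d * p)
  have hPφ : P.map φ = ∏ i, (X - C (qExpand K (d * r * r) (rt p ζp i))) := by
    rw [modPolyAt_map, ← modPoly_map_jd p hζp]
    congr 2
    show qExpand K (p * r) (emb k (jd k (d * r))) = _
    rw [emb_jd, qExpand_jd]
    exact jd_congr _ (by ring)
  have hQφ : Q.map φ = ∏ i, (X - C (qExpand K (d * p * p) (rt r ζr i))) := by
    rw [modPolyAt_map, ← modPoly_map_jd r hζr]
    congr 2
    show qExpand K (p * r) (emb k (jd k (d * p))) = _
    rw [emb_jd, qExpand_jd]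
    exact jd_congr _ (by ring)
  have hne : ∀ {r : ℕ} [Fact r.Prime] {ζ : Kˣ} (i), rt r ζ i ≠ 0 := by
    intro r _ ζ i h
    have h2 := (Fact.out : r.Prime).two_le
    match i with
    | none =>
      have := order_rt_none r ζ
      rw [h, HahnSeries.order_zero] at this
      have h3 : (2 : ℤ) ≤ r := by exact_mod_cast h2
      nlinarith
    | some b =>
      have := order_rt_some r ζ b
      rw [h, HahnSeries.order_zero] at this
      omega
  have hmem := mem_range_of_unique_common_root (L := LaurentSeries k) φ (modPolyAt_monic p A _) hP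
    hQ _ _ ((qExpand_injective (R := K) (d * r * r)).comp (rt_injective p hζp)) hPφ hQφ none ?_
  · obtain ⟨a, ha⟩ := hmem
    rw [← ha]; exact a.2
  · intro i j hij
    have hd : (0 : ℤ) < d := by exact_mod_cast Nat.pos_of_ne_zero (NeZero.ne d)
    have hr2 : (2 : ℤ) ≤ r := by exact_mod_cast hr.out.two_le
    have hp2 : (2 : ℤ) ≤ p := by exact_mod_cast hp'.out.two_le
    have ho := congrArg HahnSeries.order hij
    rw [Function.comp_apply, order_qExpand _ (hne i), order_qExpand _ (hne j)] at ho
    have hd' : (d : ℤ) ≠ 0 := hd.ne'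
    match i, j with
    | none, _ => rfl
    | some b, none =>
      exfalso
      rw [order_rt_some, order_rt_none] at ho
      push_cast at ho
      -- d r r = d p p r r
      have h3 : (r : ℤ) * r * (p * p - 1) = 0 := by
        have h4 : (d : ℤ) * (r * r * (p * p - 1)) = 0 := by linear_combination ho
        exact (mul_eq_zero.mp h4).resolve_left hd'
      have h5 : (0 : ℤ) < r * r * (p * p - 1) := by
        have : (0 : ℤ) < p * p - 1 := by nlinarith
        positivity
      omega
    | some b, some c =>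
      exfalso
      rw [order_rt_some, order_rt_some] at ho
      push_cast at ho
      have h3 : (r : ℤ) * r = p * p := by
        have h4 : (d : ℤ) * (r * r) = d * (p * p) := by linear_combination -ho
        exact mul_left_cancel₀ hd' h4
      have h5 : r * r = p * p := by exact_mod_cast h3
      exact hpr (Nat.mul_self_inj.mp h5).symm

end Closure

end Fermat.Agent.Igusa
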