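import Mathlib
import Fermat.Prelude.Def_ModularCurve_X0ModL
import Fermat.Agent.Igusa.Degree

/-!
# The degree of the modular function field of level `N` over `k(j)`, continued
-/

set_option autoImplicit false
set_option linter.unusedSectionVars false

noncomputable section

open ModularCurve Polynomial

namespace Fermat.Agent.Igusa

variable {k : Type*} [Field k]

section Generation

variable (r : ℕ) [hr : Fact r.Prime]

theorem jd_mem_full {N d : ℕ} [NeZero d] (hd : d ∣ N) : jd k d ∈ modularFunctionFieldFullC k N :=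
  jqModCd_mem_full k N hd

theorem natCast_ne_zero_of_dvd {m n : ℕ} (h : m ∣ n) (hn : (n : k) ≠ 0) : (m : k) ≠ 0 := by
  rintro h0
  obtain ⟨c, rfl⟩ := h
  exact hn (by rw [Nat.cast_mul, h0, zero_mul])

theorem jd_mem_adj (a M : ℕ) [NeZero M] (hM : ¬ r ∣ M) (hk : (r : k) ≠ 0) (hMk : (M : k) ≠ 0)
    (d : ℕ) : ∀ (_ : NeZero d), d ∣ M →
      jd k (r ^ (a + 1) * d) ∈ adj (modularFunctionFieldFullC k (r ^ a * M)) (jd k (r ^ (a + 1))) := by
  induction d using induction_on_primes with
  | zero => intro h; exact absurd rfl h.out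
  | one =>
    intro _ _
    rw [jd_congr k (mul_one _)]
    exact mem_adj _ _
  | prime_mul p c hp ih =>
    intro hne hdvd
    have : Fact p.Prime := ⟨hp⟩
    have : NeZero c := ⟨fun h => hne.out (by rw [h, mul_zero])⟩
    have hpM : p ∣ M := (dvd_mul_right p c).trans hdvd
    have hcM : c ∣ M := (dvd_mul_left c p).trans hdvd
    have hpr : p ≠ r := fun h => hM (h ▸ hpM)
    have h1 : jd k (r ^ a * c * p) ∈
        adj (modularFunctionFieldFullC k (r ^ a * M)) (jd k (r ^ (a + 1))) := by
      apply le_adj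
      apply jd_mem_full
      rw [mul_assoc]
      exact mul_dvd_mul_left _ (by rwa [mul_comm] at hdvd)
    have h2 : jd k (r ^ a * c * r) ∈
        adj (modularFunctionFieldFullC k (r ^ a * M)) (jd k (r ^ (a + 1))) := by
      have := ih inferInstance hcM
      rwa [jd_congr k (show r ^ (a + 1) * c = r ^ a * c * r by ring)] at this
    have h3 := jd_mem_of_mem r p hpr (natCast_ne_zero_of_dvd hpM hMk) hk _ (r ^ a * c) h1 h2
    rwa [jd_congr k (show r ^ a * c * p * r = r ^ (a + 1) * (p * c) by ring)] at h3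

theorem full_le_adj (a M : ℕ) [NeZero M] (hM : ¬ r ∣ M) (hk : (r : k) ≠ 0) (hMk : (M : k) ≠ 0) :
    modularFunctionFieldFullC k (r ^ a * M * r) ≤
      adj (modularFunctionFieldFullC k (r ^ a * M)) (jd k (r ^ (a + 1))) := by
  rw [modularFunctionFieldFullC, IntermediateField.adjoin_le_iff]
  rintro x ⟨D, hne, hD, rfl⟩
  have := hne
  change jd k D ∈ _
  rw [show r ^ a * M * r = r ^ (a + 1) * M by ring, Nat.dvd_mul] at hD
  obtain ⟨D1, D2, hD1, hD2, hDD⟩ := hD
  obtain ⟨b, hb, rfl⟩ := (Nat.dvd_prime_pow hr.out).mp hD1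
  have : NeZero D2 := ⟨fun h => hne.out (by rw [← hDD, h, mul_zero])⟩
  rw [jd_congr k hDD.symm]
  rcases Nat.lt_or_ge b (a + 1) with hlt | hge
  · apply le_adj
    apply jd_mem_full
    exact mul_dvd_mul (pow_dvd_pow r (by omega)) hD2
  · have hba : b = a + 1 := le_antisymm hb hge
    subst hba
    exact jd_mem_adj r a M hM hk hMk D2 inferInstance hD2

theorem adj_le_full (a M : ℕ) [NeZero M] :
    adj (modularFunctionFieldFullC k (r ^ a * M)) (jd k (r ^ (a + 1))) ≤
      modularFunctionFieldFullC k (r ^ a * M * r) := by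
  apply adj_le
  · exact full_degeneracyC_le k (dvd_mul_right _ _)
  · apply jd_mem_full
    exact ⟨M, by ring⟩

theorem full_eq_adj (a M : ℕ) [NeZero M] (hM : ¬ r ∣ M) (hk : (r : k) ≠ 0) (hMk : (M : k) ≠ 0) :
    modularFunctionFieldFullC k (r ^ a * M * r) =
      adj (modularFunctionFieldFullC k (r ^ a * M)) (jd k (r ^ (a + 1))) :=
  le_antisymm (full_le_adj r a M hM hk hMk) (adj_le_full r a M)

end Generation

section Upper

variable (r : ℕ) [hr : Fact r.Prime]

/-- The element `j(q^(r^a))` of the level `r^a M` field. -/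
def jElt (k : Type*) [Field k] (a M : ℕ) [NeZero M] :
    modularFunctionFieldFullC k (r ^ a * M) :=
  ⟨jd k (r ^ a), jd_mem_full (dvd_mul_right _ _)⟩

theorem aeval_jElt (a M : ℕ) [NeZero M] :
    aeval (jd k (r ^ (a + 1))) (modPolyAt r (modularFunctionFieldFullC k (r ^ a * M))
      (jElt r k a M)) = 0 := by
  rw [aeval_modPolyAt, jd_congr k (pow_succ r a)]
  exact modPoly_eval r k (r ^ a)

theorem isIntegral_jd (a M : ℕ) [NeZero M] :
    IsIntegral (modularFunctionFieldFullC k (r ^ a * M)) (jd k (r ^ (a + 1))) :=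
  ⟨_, modPolyAt_monic r _ (jElt r k a M), by
    rw [← Polynomial.aeval_def]; exact aeval_jElt r a M⟩

theorem natDegree_minpoly_le (a M : ℕ) [NeZero M] :
    (minpoly (modularFunctionFieldFullC k (r ^ a * M)) (jd k (r ^ (a + 1)))).natDegree ≤ r + 1 := by
  rw [← modPolyAt_natDegree r _ (jElt r k a M)]
  exact Polynomial.natDegree_le_of_dvd (minpoly.dvd _ _ (aeval_jElt r a M))
    (modPolyAt_monic r _ _).ne_zero

theorem jd_injective {d e : ℕ} [NeZero d] [NeZero e] (h : jd k d = jd k e) : d = e := by
  have h1 := congrArg HahnSeries.order h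
  rw [order_jd, order_jd] at h1
  exact_mod_cast neg_injective h1

theorem natDegree_minpoly_le' (a M : ℕ) [NeZero M] :
    (minpoly (modularFunctionFieldFullC k (r ^ (a + 1) * M))
      (jd k (r ^ (a + 1 + 1)))).natDegree ≤ r := by
  set A := modularFunctionFieldFullC k (r ^ (a + 1) * M) with hA
  set P := modPolyAt r A (jElt r k (a + 1) M) with hP
  let y : A := ⟨jd k (r ^ a), jd_mem_full (⟨r * M, by ring⟩)⟩
  have hy : P.IsRoot y := by
    apply (algebraMap A (LaurentSeries k)).injective
    rw [map_zero, ← Polynomial.aeval_algebraMap_apply_eq_algebraMap_eval]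
    change aeval (jd k (r ^ a)) P = 0
    rw [hP, aeval_modPolyAt]
    change (modPoly r).eval₂ (evZ (jd k (r ^ (a + 1)))) (jd k (r ^ a)) = 0
    rw [jd_congr k (pow_succ r a)]
    exact modPoly_eval' r k (r ^ a)
  obtain ⟨H, hH⟩ := Polynomial.dvd_iff_isRoot.mpr hy
  have hPm : P.Monic := modPolyAt_monic r _ _
  have hHm : H.Monic := (Polynomial.monic_X_sub_C y).of_mul_monic_left (hH ▸ hPm)
  have hdeg : H.natDegree = r := by
    have h1 := modPolyAt_natDegree r A (jElt r k (a + 1) M)
    rw [← hP, hH, (Polynomial.monic_X_sub_C y).natDegree_mul hHm, Polynomial.natDegree_X_sub_C] at h1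
    omega
  have hroot : aeval (jd k (r ^ (a + 1 + 1))) H = 0 := by
    have h1 : aeval (jd k (r ^ (a + 1 + 1))) P = 0 := aeval_jElt r (a + 1) M
    rw [hH, map_mul, map_sub, Polynomial.aeval_X, Polynomial.aeval_C, mul_eq_zero] at h1
    rcases h1 with h1 | h1
    · exfalso
      have h2 : jd k (r ^ (a + 1 + 1)) = jd k (r ^ a) := sub_eq_zero.mp h1
      have h3 := jd_injective h2
      have h4 := Nat.pow_right_injective hr.out.two_le h3
      omega
    · exact h1
  exact (Polynomial.natDegree_le_of_dvd (minpoly.dvd _ _ hroot) hHm.ne_zero).trans_eq hdeg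

end Upper

section Indep

theorem qExpand_indep (r : ℕ) [NeZero r] (c : Fin r → LaurentSeries k)
    (h : ∑ i, qExpand k r (c i) * jqModC k ^ (i : ℕ) = 0) : ∀ i, c i = 0 := by
  classical
  by_contra hno
  push Not at hno
  obtain ⟨i₁, hi₁⟩ := hno
  have hJ : jqModC k ≠ 0 := jqModC_ne_zero_of_nontrivial k
  set s : Finset (Fin r) := Finset.univ.filter fun i => c i ≠ 0 with hs
  have hsne : s.Nonempty := ⟨i₁, by simp [hs, hi₁]⟩
  let o : Fin r → ℤ := fun i => (qExpand k r (c i) * jqModC k ^ (i : ℕ)).order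
  have ho : ∀ i ∈ s, o i = r * (c i).order - i := by
    intro i hi
    have hci : c i ≠ 0 := (Finset.mem_filter.mp hi).2
    show (qExpand k r (c i) * jqModC k ^ (i : ℕ)).order = _
    rw [HahnSeries.order_mul (qExpand_ne_zero r hci) (pow_ne_zero _ hJ), HahnSeries.order_pow,
      order_jqModC, order_qExpand r hci]
    simp
    ring
  obtain ⟨i₀, hi₀, hmin⟩ := Finset.exists_min_image s o hsne
  have h1 := congrArg (fun z : LaurentSeries k => z.coeff (o i₀)) h
  simp only [HahnSeries.coeff_sum, HahnSeries.coeff_zero] at h1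
  rw [Finset.sum_eq_single i₀] at h1
  · have hci : c i₀ ≠ 0 := (Finset.mem_filter.mp hi₀).2
    exact HahnSeries.coeff_order_eq_zero.not.mpr
      (mul_ne_zero (qExpand_ne_zero r hci) (pow_ne_zero _ hJ)) h1
  · intro i _ hne
    by_cases hi : i ∈ s
    · apply HahnSeries.coeff_eq_zero_of_lt_order
      have hle : o i₀ ≤ o i := hmin i hi
      rcases hle.lt_or_eq with hlt | heq
      · exact hlt
      · exfalso
        apply hne
        rw [ho i hi, ho i₀ hi₀] at heq
        have h2 : (i : ℤ) ≡ i₀ [ZMOD r] := by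
          rw [Int.modEq_iff_dvd]
          exact ⟨(c i₀).order - (c i).order, by linear_combination -heq⟩
        have h3 : (i : ℕ) ≡ i₀ [MOD r] := (Int.natCast_modEq_iff).mp h2
        exact Fin.ext (Nat.ModEq.eq_of_lt_of_lt h3 i.2 i₀.2)
    · have hci : c i = 0 := by
        by_contra h0
        exact hi (Finset.mem_filter.mpr ⟨Finset.mem_univ _, h0⟩)
      rw [hci, map_zero, zero_mul, HahnSeries.coeff_zero]
  · intro hno
    exact absurd (Finset.mem_univ _) hno

end Indep

section Lower

variable (r : ℕ) [hr : Fact r.Prime]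

/-- `j(q^r)` is not in `k(j)`. -/
theorem jd_notMem (hk : (r : k) ≠ 0) : jd k r ∉ modularFunctionFieldFullC k 1 := by
  intro h
  have h1 : modularFunctionFieldFullC k 1 = IntermediateField.adjoin k {jqModC k} := by
    rw [modularFunctionFieldFullC]
    congr 1
    ext x
    constructor
    · rintro ⟨d, hne, hd, rfl⟩
      have hd1 : d = 1 := Nat.dvd_one.mp hd
      subst hd1
      exact jd_one k
    · rintro rfl
      exact ⟨1, inferInstance, dvd_rfl, (jd_one k).symm⟩
  rw [h1, IntermediateField.mem_adjoin_simple_iff] at h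
  obtain ⟨P, Q, hPQ⟩ := h
  have hae : ∀ P : k[X], aeval (jqModC k) P = evJ k P := by
    intro P
    rw [Polynomial.aeval_def, evJ_apply]
    congr 1
    ext a : 1
    rw [algebraMap_laurentSeries_eq_single, HahnSeries.C_apply]
  rw [hae, hae] at hPQ
  have hQ0 : evJ k Q ≠ 0 := by
    intro h0
    rw [h0, div_zero] at hPQ
    exact jd_ne_zero r hPQ
  obtain ⟨ζ, hζ⟩ := exists_root_of_unity r hk
  have hk' : (r : AlgebraicClosure k) ≠ 0 := by
    have := (algebraMap k (AlgebraicClosure k)).injective.ne hk
    simpa using this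
  apply rt_none_notMem r hζ hk'
  set K := AlgebraicClosure k
  have h2 : evJ k Q * jd k r = evJ k P := by rw [hPQ]; field_simp
  have h3 := congrArg (emb k) h2
  rw [map_mul, emb_jd, emb, coeffMap_evJ, coeffMap_evJ] at h3
  have h4 := congrArg (qExpand K r) h3
  rw [map_mul] at h4
  refine ⟨qExpand K r (evJ K (Q.map (algebraMap k K))), ⟨_, rfl⟩, ?_, ?_⟩
  · apply qExpand_ne_zero
    rw [← coeffMap_evJ]
    intro h5
    exact hQ0 (coeffMap_injective _ (algebraMap k K).injective (h5.trans (map_zero _).symm))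
  · show qExpand K r (evJ K (Q.map (algebraMap k K))) * qExpand K r (jd K r) ∈ _
    rw [h4]
    exact ⟨_, rfl⟩

theorem pow_mod_eq {G : Type*} [Monoid G] {ζ : G} {r : ℕ} (h : ζ ^ r = 1) (n : ℕ) :
    ζ ^ (n % r) = ζ ^ n := by
  conv_rhs => rw [← Nat.mod_add_div n r, pow_add, pow_mul, h, one_pow, mul_one]

/-- If `r ∤ M` and `j(q^r)` is not in the level `M` field, its degree is at least `r + 1`. -/
theorem le_natDegree_minpoly (M : ℕ) [NeZero M] (hk : (r : k) ≠ 0)
    (hnot : jd k r ∉ modularFunctionFieldFullC k M) :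
    r + 1 ≤ (minpoly (modularFunctionFieldFullC k M) (jd k r)).natDegree := by
  obtain ⟨ζ, hζ⟩ := exists_root_of_unity r hk
  set K := AlgebraicClosure k
  set A := modularFunctionFieldFullC k M
  have hJ : jqModC k ∈ A := jqModC_mem_full k M
  refine le_natDegree_minpoly_of_orbit r ((qExpand K r).comp (emb k)) (twist ζ) (fun a => ?_)
    (P := modPolyAt r A ⟨jqModC k, hJ⟩) ?_ (modPolyAt_monic r A _) ?_ (rt r ζ)
    (rt_injective r hζ) ?_ ?_ (fun b => ?_)
  · rw [RingHom.comp_apply, twist_qExpand _ _ hζ.pow_eq_one]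
  · rintro ⟨a, ha⟩
    apply hnot
    rw [← ha]; exact a.2
  · rw [aeval_modPolyAt]
    have := modPoly_eval r k 1
    rwa [jd_one, jd_congr k (one_mul r)] at this
  · rw [modPolyAt_map, ← rtPoly, ← modPoly_map r hζ]
    congr 2
    show qExpand K r (emb k (jqModC k)) = _
    rw [emb, coeffMap_jqModC]
  · rw [RingHom.comp_apply, emb_jd, rt]
    rfl
  · rw [rt, rt]
    have h1 : ζ ^ (b + 1).val = ζ * ζ ^ b.val := by
      rw [← pow_succ', ZMod.val_add]
      have h2 : (1 : ZMod r).val = 1 := by
        have : Fact (1 < r) := ⟨hr.out.one_lt⟩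
        exact ZMod.val_one r
      rw [h2]
      exact pow_mod_eq hζ.pow_eq_one _
    rw [h1]
    ext n
    simp only [twist_coeff]
    rw [mul_zpow, Units.val_mul]
    ring

/-- The level one field. -/
theorem full_one_eq : modularFunctionFieldFullC k 1 = IntermediateField.adjoin k {jqModC k} := by
  rw [modularFunctionFieldFullC]
  congr 1
  ext x
  constructor
  · rintro ⟨d, hne, hd, rfl⟩
    have hd1 : d = 1 := Nat.dvd_one.mp hd
    subst hd1
    exact jd_one k
  · rintro rfl
    exact ⟨1, inferInstance, dvd_rfl, (jd_one k).symm⟩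

/-- `V_r` of the level one field. -/
theorem map_full_one : (modularFunctionFieldFullC k 1).map (qExpandAlgHomC k r) =
    IntermediateField.adjoin k {jd k r} := by
  rw [full_one_eq, IntermediateField.adjoin_map, Set.image_singleton]
  rfl

/-- `[k(j, j_r) : k(j_r)] ≤ r + 1`. -/
theorem relrank_le : (IntermediateField.adjoin k {jd k r}).relrank
    (modularFunctionFieldFullC k r) ≤ (r : Cardinal) + 1 := by
  set A := IntermediateField.adjoin k {jd k r} with hA
  have hx : jd k r ∈ A := IntermediateField.mem_adjoin_simple_self k _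
  have h0 : aeval (jqModC k) (modPolyAt r A ⟨jd k r, hx⟩) = 0 := by
    rw [aeval_modPolyAt]
    have := modPoly_eval' r k 1
    rwa [jd_one, jd_congr k (one_mul r)] at this
  have hint : IsIntegral A (jqModC k) := ⟨_, modPolyAt_monic r A ⟨jd k r, hx⟩, by
    rwa [← Polynomial.aeval_def]⟩
  have h1 : modularFunctionFieldFullC k r ≤ adj A (jqModC k) := by
    rw [modularFunctionFieldFullC, IntermediateField.adjoin_le_iff]
    rintro x ⟨d, hne, hd, rfl⟩
    rcases (Nat.dvd_prime hr.out).mp hd with rfl | rfl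
    · change jd k 1 ∈ _
      rw [jd_one]; exact mem_adj A _
    · exact le_adj A _ hx
  have h2 : adj A (jqModC k) ≤ modularFunctionFieldFullC k r := by
    apply adj_le
    · rw [hA, IntermediateField.adjoin_le_iff]
      rintro x rfl
      exact jd_mem_full dvd_rfl
    · exact jqModC_mem_full k r
  rw [le_antisymm h1 h2, relrank_adj A hint]
  have h3 : (minpoly A (jqModC k)).natDegree ≤ r + 1 := by
    rw [← modPolyAt_natDegree r A ⟨jd k r, hx⟩]
    exact Polynomial.natDegree_le_of_dvd (minpoly.dvd _ _ h0) (modPolyAt_monic r _ _).ne_zero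
  exact_mod_cast h3

/-- `[k(j, j_r) : k(j)] ≥ r + 1`. -/
theorem le_relrank_one (hk : (r : k) ≠ 0) : (r : Cardinal) + 1 ≤
    (modularFunctionFieldFullC k 1).relrank (modularFunctionFieldFullC k r) := by
  have h0 : IsIntegral (modularFunctionFieldFullC k 1) (jd k r) := by
    have := isIntegral_jd (k := k) r 0 1
    rwa [jd_congr k (show r ^ (0 + 1) = r by ring), show r ^ 0 * 1 = 1 by ring] at this
  have h1 : adj (modularFunctionFieldFullC k 1) (jd k r) ≤ modularFunctionFieldFullC k r := by
    apply adj_le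
    · exact full_degeneracyC_le k (one_dvd r)
    · exact jd_mem_full dvd_rfl
  have h2 : modularFunctionFieldFullC k r ≤ adj (modularFunctionFieldFullC k 1) (jd k r) := by
    rw [modularFunctionFieldFullC, IntermediateField.adjoin_le_iff]
    rintro x ⟨d, hne, hd, rfl⟩
    rcases (Nat.dvd_prime hr.out).mp hd with rfl | rfl
    · exact le_adj _ _ (jd_mem_full dvd_rfl)
    · exact mem_adj _ _
  rw [le_antisymm h2 h1, relrank_adj _ h0]
  exact_mod_cast le_natDegree_minpoly r 1 hk (jd_notMem r hk)

/-- `[E_{Nr} : V_r E_N] ≥ r`. -/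
theorem le_relrank_map (N : ℕ) [NeZero N] : (r : Cardinal) ≤
    ((modularFunctionFieldFullC k N).map (qExpandAlgHomC k r)).relrank
      (modularFunctionFieldFullC k (N * r)) := by
  refine card_le_relrank (full_degeneracyC_map_le k N r) (fun i => jqModC k ^ (i : ℕ))
    (fun i => pow_mem (jqModC_mem_full k _) _) ?_
  intro c hc hsum
  choose e he hce using fun i => (IntermediateField.mem_map _).mp (hc i)
  have h1 : ∑ i, qExpand k r (e i) * jqModC k ^ (i : ℕ) = 0 := by
    rw [← hsum]
    exact Finset.sum_congr rfl fun i _ => by rw [← hce i]; rfl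
  intro i
  rw [← hce i, qExpand_indep r e h1 i, map_zero]

/-- The key inequality. -/
theorem relrank_step (N : ℕ) [NeZero N] (hk : (r : k) ≠ 0) :
    (modularFunctionFieldFullC k 1).relrank (modularFunctionFieldFullC k N) * r ≤
      (modularFunctionFieldFullC k 1).relrank (modularFunctionFieldFullC k (N * r)) := by
  have hE1 : modularFunctionFieldFullC k 1 ≤ modularFunctionFieldFullC k r :=
    full_degeneracyC_le k (one_dvd r)
  have hEr : modularFunctionFieldFullC k r ≤ modularFunctionFieldFullC k (N * r) :=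
    full_degeneracyC_le k (dvd_mul_left r N)
  have hV : IntermediateField.adjoin k {jd k r} ≤ modularFunctionFieldFullC k r := by
    rw [IntermediateField.adjoin_le_iff]
    rintro x rfl
    exact jd_mem_full dvd_rfl
  rw [← IntermediateField.relrank_mul_relrank hE1 hEr]
  calc (modularFunctionFieldFullC k 1).relrank (modularFunctionFieldFullC k N) * r
      ≤ ((modularFunctionFieldFullC k 1).map (qExpandAlgHomC k r)).relrank
          ((modularFunctionFieldFullC k N).map (qExpandAlgHomC k r)) *
          ((modularFunctionFieldFullC k N).map (qExpandAlgHomC k r)).relrank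
          (modularFunctionFieldFullC k (N * r)) := by
        rw [IntermediateField.relrank_map_map]
        exact mul_le_mul_right (le_relrank_map r N) _
    _ = (IntermediateField.adjoin k {jd k r}).relrank (modularFunctionFieldFullC k (N * r)) := by
        rw [← map_full_one, IntermediateField.relrank_mul_relrank
          (IntermediateField.map_mono _ (full_degeneracyC_le k (one_dvd N)))
          (full_degeneracyC_map_le k N r)]
    _ = (IntermediateField.adjoin k {jd k r}).relrank (modularFunctionFieldFullC k r) *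
          (modularFunctionFieldFullC k r).relrank (modularFunctionFieldFullC k (N * r)) := by
        rw [IntermediateField.relrank_mul_relrank hV hEr]
    _ ≤ _ := mul_le_mul_left ((relrank_le r).trans (le_relrank_one r hk)) _

end Lower

end Fermat.Agent.Igusa
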