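import Mathlib
import Fermat.Prelude.Def_ModularCurve_X0ModL
import Fermat.Agent.Igusa.Degree2

/-!
# The degree theorem: `[k(j(q^d) : d ∣ N) : k(j)] = ψ(N)`
-/

set_option autoImplicit false
set_option linter.unusedSectionVars false

noncomputable section

open ModularCurve Polynomial

namespace Fermat.Agent.Igusa

section Psi

theorem dedekindPsi_pos {N : ℕ} (hN : N ≠ 0) : 0 < dedekindPsi N := by
  rw [dedekindPsi]
  refine Finset.sum_pos (fun d hd => ?_) ⟨1, ?_⟩
  · have h1 := Nat.dvd_of_mem_divisors (Finset.mem_filter.mp hd).1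
    exact Nat.div_pos (Nat.le_of_dvd (Nat.pos_of_ne_zero hN) h1)
      (Nat.pos_of_dvd_of_pos h1 (Nat.pos_of_ne_zero hN))
  · simp [hN]

theorem dedekindPsi_mul_prime {N r : ℕ} (hr : r.Prime) (hN : N ≠ 0) :
    dedekindPsi (N * r) = dedekindPsi N * (if r ∣ N then r else r + 1) := by
  classical
  have hr0 : r ≠ 0 := hr.ne_zero
  split_ifs with h
  · -- r ∣ N
    have hset : (N * r).divisors.filter Squarefree = N.divisors.filter Squarefree := by
      ext d
      simp only [Finset.mem_filter, Nat.mem_divisors, ne_eq, mul_eq_zero, hN, hr0, or_self,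
        not_false_eq_true, and_true]
      constructor
      · rintro ⟨h1, h2⟩
        refine ⟨?_, h2⟩
        by_cases hd : r ∣ d
        · obtain ⟨e, rfl⟩ := hd
          have hcop : Nat.Coprime r e := (Nat.squarefree_mul_iff.mp h2).1
          have he : e ∣ N := by
            rw [mul_comm N r] at h1
            exact Nat.dvd_of_mul_dvd_mul_left hr.pos h1
          exact hcop.mul_dvd_of_dvd_of_dvd h he
        · have hcop : Nat.Coprime d r := ((Nat.Prime.coprime_iff_not_dvd hr).mpr hd).symm
          exact hcop.dvd_of_dvd_mul_right h1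
      · rintro ⟨h1, h2⟩
        exact ⟨h1.mul_right r, h2⟩
    rw [dedekindPsi, dedekindPsi, hset, Finset.sum_mul]
    refine Finset.sum_congr rfl fun d hd => ?_
    have h1 := Nat.dvd_of_mem_divisors (Finset.mem_filter.mp hd).1
    obtain ⟨c, rfl⟩ := h1
    have hd0 : 0 < d := Nat.pos_of_ne_zero (fun h => hN (by rw [h, zero_mul]))
    rw [mul_assoc, Nat.mul_div_cancel_left _ hd0, Nat.mul_div_cancel_left _ hd0]
  · -- r ∤ N
    have hset : (N * r).divisors.filter Squarefree = N.divisors.filter Squarefree ∪
        (N.divisors.filter Squarefree).image (fun d => d * r) := by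
      ext d
      simp only [Finset.mem_filter, Nat.mem_divisors, ne_eq, mul_eq_zero, hN, hr0, or_self,
        not_false_eq_true, and_true, Finset.mem_union, Finset.mem_image]
      constructor
      · rintro ⟨h1, h2⟩
        by_cases hd : r ∣ d
        · obtain ⟨e, rfl⟩ := hd
          right
          refine ⟨e, ⟨?_, h2.of_mul_right⟩, mul_comm _ _⟩
          rw [mul_comm N r] at h1
          exact Nat.dvd_of_mul_dvd_mul_left hr.pos h1
        · left
          have hcop : Nat.Coprime d r := ((Nat.Prime.coprime_iff_not_dvd hr).mpr hd).symm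
          exact ⟨hcop.dvd_of_dvd_mul_right h1, h2⟩
      · rintro (⟨h1, h2⟩ | ⟨e, ⟨h1, h2⟩, rfl⟩)
        · exact ⟨h1.mul_right r, h2⟩
        · refine ⟨mul_dvd_mul_right h1 r, ?_⟩
          rw [Nat.squarefree_mul_iff]
          refine ⟨?_, h2, hr.squarefree⟩
          exact ((Nat.Prime.coprime_iff_not_dvd hr).mpr (fun hre => h (hre.trans h1))).symm
    have hdisj : Disjoint (N.divisors.filter Squarefree)
        ((N.divisors.filter Squarefree).image (fun d => d * r)) := by
      rw [Finset.disjoint_left]
      intro d hd hd2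
      obtain ⟨e, _, rfl⟩ := Finset.mem_image.mp hd2
      exact h ((dvd_mul_left r e).trans (Nat.dvd_of_mem_divisors (Finset.mem_filter.mp hd).1))
    rw [dedekindPsi, dedekindPsi, hset, Finset.sum_union hdisj, Finset.sum_image (by
      intro a _ b _ hab
      exact Nat.eq_of_mul_eq_mul_right hr.pos hab), mul_add, mul_one, Finset.sum_mul]
    congr 1
    · refine Finset.sum_congr rfl fun d hd => ?_
      have h1 := Nat.dvd_of_mem_divisors (Finset.mem_filter.mp hd).1
      obtain ⟨c, rfl⟩ := h1
      have hd0 : 0 < d := Nat.pos_of_ne_zero (fun h => hN (by rw [h, zero_mul]))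
      rw [mul_assoc, Nat.mul_div_cancel_left _ hd0, Nat.mul_div_cancel_left _ hd0]
    · refine Finset.sum_congr rfl fun d hd => ?_
      exact Nat.mul_div_mul_right _ _ hr.pos

end Psi

section Main

variable {k : Type*} [Field k]

/-- `[E_{Nr} : E_N]` as a natural number. -/
theorem relrank_prime_step (r : ℕ) [hr : Fact r.Prime] (N : ℕ) [NeZero N] (hk : ((N * r : ℕ) : k) ≠ 0)
    (hD : (modularFunctionFieldFullC k 1).relrank (modularFunctionFieldFullC k N) =
      (dedekindPsi N : Cardinal)) :
    (modularFunctionFieldFullC k N).relrank (modularFunctionFieldFullC k (N * r)) =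
      ((if r ∣ N then r else r + 1 : ℕ) : Cardinal) := by
  have hrk : (r : k) ≠ 0 := natCast_ne_zero_of_dvd (dvd_mul_left r N) hk
  obtain ⟨a, M, hM, hNM⟩ := Nat.exists_eq_pow_mul_and_not_dvd (NeZero.ne N) r hr.out.ne_one
  have : NeZero M := ⟨fun h => NeZero.ne N (by rw [hNM, h, mul_zero])⟩
  have hMk : (M : k) ≠ 0 := natCast_ne_zero_of_dvd (by
    rw [hNM, mul_assoc]; exact (dvd_mul_right M r).mul_left _) hk
  have hN0 : N ≠ 0 := NeZero.ne N
  have hstep := relrank_step (k := k) r N hrk
  rw [← IntermediateField.relrank_mul_relrank (full_degeneracyC_le k (one_dvd N))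
    (full_degeneracyC_le k (dvd_mul_right N r)), hD] at hstep
  subst hNM
  have h1 : (modularFunctionFieldFullC k (r ^ a * M)).relrank
      (modularFunctionFieldFullC k (r ^ a * M * r)) =
      ((minpoly (modularFunctionFieldFullC k (r ^ a * M)) (jd k (r ^ (a + 1)))).natDegree :
        Cardinal) := by
    rw [full_eq_adj r a M hM hrk hMk, relrank_adj _ (isIntegral_jd r a M)]
  rw [h1] at hstep ⊢
  have h2 : r ≤ (minpoly (modularFunctionFieldFullC k (r ^ a * M))
      (jd k (r ^ (a + 1)))).natDegree := by
    have h3 : dedekindPsi (r ^ a * M) * r ≤ dedekindPsi (r ^ a * M) *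
      (minpoly (modularFunctionFieldFullC k (r ^ a * M)) (jd k (r ^ (a + 1)))).natDegree := by
      exact_mod_cast hstep
    exact Nat.le_of_mul_le_mul_left h3 (dedekindPsi_pos hN0)
  congr 1
  match a with
  | 0 =>
    have h4 : ¬ r ∣ r ^ 0 * M := by simpa using hM
    rw [if_neg h4]
    refine le_antisymm (natDegree_minpoly_le r 0 M) ?_
    have h5 : jd k r ∉ modularFunctionFieldFullC k M := by
      intro hmem
      have h6 : (minpoly (modularFunctionFieldFullC k (r ^ 0 * M)) (jd k (r ^ (0 + 1)))).natDegree
          = 1 := by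
        have h7 : jd k (r ^ (0 + 1)) ∈ modularFunctionFieldFullC k (r ^ 0 * M) := by
          rw [jd_congr k (show r ^ (0 + 1) = r by ring), show r ^ 0 * M = M by ring]
          exact hmem
        exact (minpoly.natDegree_eq_one_iff).mpr ⟨⟨_, h7⟩, rfl⟩
      rw [h6] at h2
      have := hr.out.two_le
      omega
    have h8 := le_natDegree_minpoly r M hrk h5
    rwa [← jd_congr k (show r ^ (0 + 1) = r by ring), ← show r ^ 0 * M = M by ring] at h8
  | a + 1 =>
    have h4 : r ∣ r ^ (a + 1) * M := ⟨r ^ a * M, by ring⟩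
    rw [if_pos h4]
    exact le_antisymm (natDegree_minpoly_le' r a M) h2

/-- **Degree theorem.** For any field `k` whose characteristic does not divide `N`, the field
`k(j(q^d) : d ∣ N)` has degree `ψ(N)` over `k(j)`. -/
theorem relrank_full (N : ℕ) (hk : (N : k) ≠ 0) :
    (modularFunctionFieldFullC k 1).relrank (modularFunctionFieldFullC k N) =
      (dedekindPsi N : Cardinal) := by
  induction N using induction_on_primes with
  | zero => exact absurd Nat.cast_zero hk
  | one => rw [IntermediateField.relrank_self, dedekindPsi_one, Nat.cast_one]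
  | prime_mul r c hr ih =>
    have : Fact r.Prime := ⟨hr⟩
    have hc : (c : k) ≠ 0 := natCast_ne_zero_of_dvd (dvd_mul_left c r) hk
    have hc0 : c ≠ 0 := by rintro rfl; exact hc Nat.cast_zero
    have : NeZero c := ⟨hc0⟩
    have ih' := ih hc
    have hk' : ((c * r : ℕ) : k) ≠ 0 := by rwa [mul_comm]
    rw [mul_comm r c, dedekindPsi_mul_prime hr hc0, Nat.cast_mul,
      ← relrank_prime_step r c hk' ih', ← ih',
      IntermediateField.relrank_mul_relrank (full_degeneracyC_le k (one_dvd c))
        (full_degeneracyC_le k (dvd_mul_right c r))]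

/-- The degree theorem over `ℚ`. -/
theorem relfinrank_full_rat (N : ℕ) (hN : N ≠ 0) :
    (modularFunctionFieldFull 1).relfinrank (modularFunctionFieldFull N) = dedekindPsi N := by
  have := relrank_full (k := ℚ) N (by exact_mod_cast hN)
  rw [modularFunctionFieldFullC_rat, modularFunctionFieldFullC_rat] at this
  rw [IntermediateField.relfinrank_eq_toNat_relrank, this, Cardinal.toNat_natCast]

end Main

end Fermat.Agent.Igusa
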