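import Mathlib
import Fermat.Prelude.Def_GaloisRep_Flat
import Fermat.Agent.Igusa.Orders

/-!
# The ring `ℤ_(ℓ)` and Laurent series with coefficients in it
-/

set_option autoImplicit false
set_option linter.unusedSectionVars false

noncomputable section

open ModularCurve Polynomial

namespace Fermat.Agent.Igusa

section Rl

variable (ℓ : ℕ) [hℓ : Fact ℓ.Prime]

/-- `ℤ_(ℓ)`. -/
abbrev Rl : Subring ℚ := GaloisRep.ratLocalizedAt ℓ

variable {ℓ}

theorem mem_Rl_iff {q : ℚ} : q ∈ Rl ℓ ↔ ¬ ℓ ∣ q.den := by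
  show q.den.Coprime ℓ ↔ _
  rw [Nat.coprime_comm, Nat.Prime.coprime_iff_not_dvd hℓ.out]

theorem mem_Rl_iff_norm {q : ℚ} : q ∈ Rl ℓ ↔ ‖(q : ℚ_[ℓ])‖ ≤ 1 := by
  rw [Padic.norm_rat_le_one_iff_padicValuation_le_one, Rat.padicValuation_le_one_iff, mem_Rl_iff]

theorem int_mem_Rl (n : ℤ) : (n : ℚ) ∈ Rl ℓ := intCast_mem (Rl ℓ) n

theorem mem_Rl_of_forall {α ζ : ℚ} (hζ : ζ ≠ 0) (h : ∀ i : ℕ, ζ * α ^ i ∈ Rl ℓ) : α ∈ Rl ℓ := by
  rw [mem_Rl_iff_norm]
  by_contra hlt
  push Not at hlt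
  have h0 : 0 < ‖(ζ : ℚ_[ℓ])‖ := by
    rw [norm_pos_iff]; exact_mod_cast hζ
  obtain ⟨i, hi⟩ := pow_unbounded_of_one_lt (‖(ζ : ℚ_[ℓ])‖)⁻¹ hlt
  have h1 := mem_Rl_iff_norm.mp (h i)
  rw [Rat.cast_mul, Rat.cast_pow, norm_mul, norm_pow] at h1
  have h2 : ‖(ζ : ℚ_[ℓ])‖ * ‖(ζ : ℚ_[ℓ])‖⁻¹ < ‖(ζ : ℚ_[ℓ])‖ * ‖(α : ℚ_[ℓ])‖ ^ i :=
    mul_lt_mul_of_pos_left hi h0
  rw [mul_inv_cancel₀ h0.ne'] at h2
  linarith

variable (ℓ) in
/-- The inclusion `ℤ_(ℓ) → ℤ_ℓ`. -/
def toPadicInt : Rl ℓ →+* ℤ_[ℓ] where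
  toFun q := ⟨((q : ℚ) : ℚ_[ℓ]), mem_Rl_iff_norm.mp q.2⟩
  map_one' := PadicInt.ext (by simp)
  map_mul' a b := PadicInt.ext (by simp)
  map_zero' := PadicInt.ext (by simp)
  map_add' a b := PadicInt.ext (by simp)

variable (ℓ) in
/-- Reduction modulo `ℓ`. -/
def rho : Rl ℓ →+* ZMod ℓ := (PadicInt.toZMod).comp (toPadicInt ℓ)

theorem rho_surjective : Function.Surjective (rho ℓ) := by
  intro x
  obtain ⟨n, rfl⟩ := ZMod.intCast_surjective x
  exact ⟨(n : Rl ℓ), map_intCast _ _⟩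

theorem rho_eq_zero_iff (q : Rl ℓ) : rho ℓ q = 0 ↔ ∃ q' : Rl ℓ, q = (ℓ : Rl ℓ) * q' := by
  constructor
  · intro h
    have h1 : (q : ℚ) * (q : ℚ).den = (q : ℚ).num := Rat.mul_den_eq_num _
    have h2 : q * ((q : ℚ).den : Rl ℓ) = ((q : ℚ).num : Rl ℓ) := Subtype.ext (by push_cast; exact h1)
    have h3 := congrArg (rho ℓ) h2
    rw [map_mul, h, zero_mul, map_intCast] at h3
    obtain ⟨m, hm⟩ := (ZMod.intCast_zmod_eq_zero_iff_dvd _ _).mp h3.symm
    have hl : ((ℓ : ℕ) : ℚ) ≠ 0 := by exact_mod_cast hℓ.out.ne_zero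
    have hden : ((q : ℚ).den : ℚ) ≠ 0 := by exact_mod_cast (q : ℚ).den_nz
    have h4 : (q : ℚ) / ℓ = Rat.divInt m (q : ℚ).den := by
      rw [Rat.divInt_eq_div, div_eq_div_iff hl (by exact_mod_cast hden), Int.cast_natCast, h1, hm]
      push_cast; ring
    have hmem : (q : ℚ) / ℓ ∈ Rl ℓ := by
      rw [mem_Rl_iff]
      intro hd
      apply mem_Rl_iff.mp q.2
      rw [h4] at hd
      have := Rat.den_dvd m (q : ℚ).den
      exact_mod_cast (Int.natCast_dvd_natCast.mpr hd).trans this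
    exact ⟨⟨_, hmem⟩, Subtype.ext (by push_cast; field_simp)⟩
  · rintro ⟨q', rfl⟩
    rw [map_mul, map_natCast, ZMod.natCast_self, zero_mul]

theorem natCast_Rl_ne_zero : ((ℓ : ℕ) : Rl ℓ) ≠ 0 := by
  have := hℓ.out.ne_zero
  exact_mod_cast this

theorem prime_Rl : Prime (ℓ : Rl ℓ) := by
  refine ⟨natCast_Rl_ne_zero, fun h => ?_, fun a b hab => ?_⟩
  · have := h.map (rho ℓ)
    rw [map_natCast, ZMod.natCast_self] at this
    exact not_isUnit_zero this
  · obtain ⟨c, hc⟩ := hab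
    have h1 : rho ℓ a * rho ℓ b = 0 := by
      rw [← map_mul]; exact (rho_eq_zero_iff _).mpr ⟨c, hc⟩
    rcases mul_eq_zero.mp h1 with h2 | h2
    · left; obtain ⟨d, hd⟩ := (rho_eq_zero_iff _).mp h2; exact ⟨d, hd⟩
    · right; obtain ⟨d, hd⟩ := (rho_eq_zero_iff _).mp h2; exact ⟨d, hd⟩

instance isFractionRing_Rl : IsFractionRing (Rl ℓ) ℚ := by
  refine IsFractionRing.of_field _ _ fun z => ?_
  refine ⟨⟨z.num, int_mem_Rl _⟩, ⟨(z.den : ℤ), int_mem_Rl _⟩, ?_⟩
  show z = ((z.num : ℤ) : ℚ) / (((z.den : ℤ)) : ℚ)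
  rw [Int.cast_natCast, Rat.num_div_den]

/-- `ℤ_(ℓ)` is integrally closed. -/
instance isIntegrallyClosed_Rl : IsIntegrallyClosed (Rl ℓ) := by
  refine (isIntegrallyClosed_iff ℚ).mpr fun {x} hx => ?_
  obtain ⟨r, hr, h⟩ := hx.isAlmostIntegral
  have hr0 : (r : ℚ) ≠ 0 := by
    have := nonZeroDivisors.ne_zero hr
    exact_mod_cast this
  refine ⟨⟨x, mem_Rl_of_forall hr0 fun i => ?_⟩, rfl⟩
  obtain ⟨y, hy⟩ := h i
  have h1 : (r : ℚ) * x ^ i = (y : ℚ) := hy.symm
  rw [h1]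
  exact y.2

end Rl

section Coeff

/-- A Laurent series with coefficients in a subring, as a Laurent series over that subring. -/
def liftFun {R : Type*} [CommRing R] {A : Subring R} (f : coeffSubring A) : LaurentSeries A :=
  ⟨fun n => ⟨(f : LaurentSeries R).coeff n, f.2 n⟩, by
    refine (f : LaurentSeries R).isPWO_support'.mono ?_
    intro n hn h
    exact hn (Subtype.ext h)⟩

theorem coeffMap_liftFun {R : Type*} [CommRing R] {A : Subring R} (f : coeffSubring A) :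
    coeffMap A.subtype (liftFun f) = f := by
  ext n; rfl

/-- A Laurent series with coefficients in a subring, as a Laurent series over that subring. -/
def liftL {R : Type*} [CommRing R] (A : Subring R) : coeffSubring A →+* LaurentSeries A where
  toFun f := liftFun f
  map_one' := by
    apply coeffMap_injective A.subtype Subtype.val_injective
    rw [coeffMap_liftFun, map_one]; rfl
  map_mul' f g := by
    apply coeffMap_injective A.subtype Subtype.val_injective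
    rw [map_mul, coeffMap_liftFun, coeffMap_liftFun, coeffMap_liftFun]; rfl
  map_zero' := by
    apply coeffMap_injective A.subtype Subtype.val_injective
    rw [coeffMap_liftFun, map_zero]; rfl
  map_add' f g := by
    apply coeffMap_injective A.subtype Subtype.val_injective
    rw [map_add, coeffMap_liftFun, coeffMap_liftFun, coeffMap_liftFun]; rfl

theorem coeffMap_liftL {R : Type*} [CommRing R] {A : Subring R} (f : coeffSubring A) :
    coeffMap A.subtype (liftL A f) = f := coeffMap_liftFun f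

theorem coeffMap_mem_coeffSubring {R S : Type*} [CommRing R] [CommRing S] (f : R →+* S)
    (A : Subring S) (h : ∀ x, f x ∈ A) (F : LaurentSeries R) : coeffMap f F ∈ coeffSubring A :=
  fun n => by rw [coeffMap_coeff]; exact h _

variable (ℓ : ℕ) [hℓ : Fact ℓ.Prime]

/-- Laurent series with coefficients in `ℤ_(ℓ)`. -/
abbrev CL : Subring (LaurentSeries ℚ) := coeffSubring (Rl ℓ)

variable {ℓ}

theorem int_mem_CL (F : LaurentSeries ℤ) : coeffMap (Int.castRingHom ℚ) F ∈ CL ℓ :=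
  coeffMap_mem_coeffSubring _ _ (fun x => int_mem_Rl x) F

theorem leadingCoeff_pow' {K : Type*} [Field K] (x : LaurentSeries K) (i : ℕ) :
    (x ^ i).leadingCoeff = x.leadingCoeff ^ i := by
  induction i with
  | zero => simp
  | succ i ih => rw [pow_succ, HahnSeries.leadingCoeff_mul, ih, pow_succ]

theorem coeff_trunc_aux (x : LaurentSeries ℚ) (m : ℤ) :
    ∀ n < min x.order m, (if n < m then x.coeff n else 0) = 0 := by
  intro n hn
  split_ifs
  · exact HahnSeries.coeff_eq_zero_of_lt_order (lt_of_lt_of_le hn (min_le_left _ _))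
  · rfl

/-- `CL ℓ` is completely integrally closed. -/
theorem mem_CL_of_forall {a z : LaurentSeries ℚ} (hz : z ≠ 0) (h : ∀ i : ℕ, z * a ^ i ∈ CL ℓ) :
    a ∈ CL ℓ := by
  by_contra hcon
  have h1 : ∃ m, a.coeff m ∉ Rl ℓ := by
    by_contra h2
    push Not at h2
    exact hcon h2
  obtain ⟨m, hm, hmin⟩ := Int.exists_least_of_bdd (P := fun m => a.coeff m ∉ Rl ℓ)
    ⟨a.order, fun n hn => HahnSeries.order_le_of_coeff_ne_zero (fun h0 => hn (by
      rw [h0]; exact (Rl ℓ).zero_mem))⟩ h1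
  set a₀ : LaurentSeries ℚ := mkLaurent (fun n => if n < m then a.coeff n else 0)
    (min a.order m) (coeff_trunc_aux a m) with ha₀
  have ha₀mem : a₀ ∈ CL ℓ := by
    intro n
    rw [ha₀, mkLaurent_coeff]
    split_ifs with hn
    · by_contra h3
      exact absurd (hmin n h3) (not_le.mpr hn)
    · exact (Rl ℓ).zero_mem
  set b := a - a₀ with hb
  have hbm : b.coeff m = a.coeff m := by
    rw [hb, HahnSeries.coeff_sub, ha₀, mkLaurent_coeff, if_neg (lt_irrefl m), sub_zero]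
  have hbm0 : b.coeff m ≠ 0 := by
    intro h0
    exact hm (by rw [← hbm, h0]; exact (Rl ℓ).zero_mem)
  have hbord : b.order = m := order_eq_of hbm0 (fun n hn => by
    rw [hb, HahnSeries.coeff_sub, ha₀, mkLaurent_coeff, if_pos hn, sub_self])
  have hbi : ∀ i : ℕ, z * b ^ i ∈ CL ℓ := by
    intro i
    rw [hb, sub_eq_add_neg, add_pow, Finset.mul_sum]
    refine (CL ℓ).sum_mem fun k _ => ?_
    have : z * (a ^ k * (-a₀) ^ (i - k) * (i.choose k : LaurentSeries ℚ)) =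
        (z * a ^ k) * ((-a₀) ^ (i - k) * (i.choose k : LaurentSeries ℚ)) := by ring
    rw [this]
    exact (CL ℓ).mul_mem (h k) ((CL ℓ).mul_mem ((CL ℓ).pow_mem ((CL ℓ).neg_mem ha₀mem) _)
      (natCast_mem _ _))
  have hlead : b.leadingCoeff = a.coeff m := by
    rw [HahnSeries.leadingCoeff_eq, hbord, hbm]
  apply hm
  have hz0 : z.leadingCoeff ≠ 0 := HahnSeries.leadingCoeff_ne_zero.mpr hz
  refine mem_Rl_of_forall hz0 fun i => ?_
  have h4 := hbi i (z.order + (b ^ i).order)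
  rw [HahnSeries.coeff_mul_order_add_order, leadingCoeff_pow', hlead] at h4
  exact h4

theorem mem_CL_of_isIntegral {x : LaurentSeries ℚ} (hx : x ∈ fracSubring (CL ℓ))
    (hint : IsIntegral (CL ℓ) x) : x ∈ CL ℓ := by
  obtain ⟨d, hd, hd0, hdx⟩ := hx
  obtain ⟨r, hr, h⟩ := hint.isAlmostIntegral_of_exists_smul_mem_range
    ⟨⟨d, hd⟩, by
      rw [mem_nonZeroDivisors_iff_ne_zero]
      exact fun h0 => hd0 (congrArg Subtype.val h0), ⟨⟨_, hdx⟩, rfl⟩⟩
  have hr0 : (r : LaurentSeries ℚ) ≠ 0 := by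
    have := nonZeroDivisors.ne_zero hr
    exact fun h0 => this (Subtype.ext h0)
  refine mem_CL_of_forall hr0 fun i => ?_
  obtain ⟨y, hy⟩ := h i
  have h1 : (r : LaurentSeries ℚ) * x ^ i = (y : LaurentSeries ℚ) := hy.symm
  rw [h1]
  exact y.2

theorem mem_fracSubring_of_mem_adjoin (S : Subring (LaurentSeries ℚ)) (X : Set (LaurentSeries ℚ))
    (hX : ∀ x ∈ X, x ∈ S) {x : LaurentSeries ℚ} (hx : x ∈ IntermediateField.adjoin ℚ X) :
    x ∈ fracSubring S := by
  induction hx using IntermediateField.adjoin_induction with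
  | mem y hy => exact le_fracSubring S (hX y hy)
  | algebraMap q =>
    refine ⟨((q.den : ℕ) : LaurentSeries ℚ), natCast_mem _ _, ?_, ?_⟩
    · have h0 : ((q.den : ℕ) : ℚ) ≠ 0 := by exact_mod_cast q.den_nz
      rw [← map_natCast (algebraMap ℚ (LaurentSeries ℚ))]
      exact (_root_.map_ne_zero _).mpr h0
    · have h1 : (((q.den : ℕ) : LaurentSeries ℚ)) * algebraMap ℚ _ q =
          ((q.num : ℤ) : LaurentSeries ℚ) := by
        rw [← map_natCast (algebraMap ℚ (LaurentSeries ℚ)), ← map_mul, Rat.den_mul_eq_num,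
          map_intCast]
      rw [h1]
      exact intCast_mem _ _
  | add y z _ _ hy hz => exact (fracSubring S).add_mem hy hz
  | mul y z _ _ hy hz => exact (fracSubring S).mul_mem hy hz
  | inv y _ hy =>
    obtain ⟨d, hd, hd0, hdy⟩ := hy
    by_cases hy0 : y = 0
    · rw [hy0, inv_zero]; exact (fracSubring S).zero_mem
    · exact ⟨d * y, hdy, mul_ne_zero hd0 hy0, by rw [mul_assoc, mul_inv_cancel₀ hy0, mul_one]; exact hd⟩

theorem exists_common_denom' {𝕂 : Type*} [CommRing 𝕂] [IsDomain 𝕂] (S : Subring 𝕂) {ι : Type*}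
    [Fintype ι] (h : ι → 𝕂) (hh : ∀ i, h i ∈ fracSubring S) :
    ∃ d ∈ S, d ≠ 0 ∧ ∀ i, d * h i ∈ S := by
  classical
  have key : ∀ s : Finset ι, ∃ d ∈ S, d ≠ 0 ∧ ∀ i ∈ s, d * h i ∈ S := by
    intro s
    induction s using Finset.induction_on with
    | empty => exact ⟨1, S.one_mem, one_ne_zero, fun i hi => absurd hi (Finset.notMem_empty i)⟩
    | insert a s _ ih =>
      obtain ⟨d, hd, hd0, hds⟩ := ih
      obtain ⟨e, he, he0, hea⟩ := hh a
      refine ⟨d * e, S.mul_mem hd he, mul_ne_zero hd0 he0, fun i hi => ?_⟩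
      rcases Finset.mem_insert.mp hi with rfl | hi
      · rw [mul_assoc]; exact S.mul_mem hd hea
      · rw [mul_comm d e, mul_assoc]; exact S.mul_mem he (hds i hi)
  obtain ⟨d, hd, hd0, h1⟩ := key Finset.univ
  exact ⟨d, hd, hd0, fun i => h1 i (Finset.mem_univ i)⟩

variable (ℓ) in
/-- Reduction modulo `ℓ` of Laurent series with coefficients in `ℤ_(ℓ)`. -/
def redL : CL ℓ →+* LaurentSeries (ZMod ℓ) := (coeffMap (rho ℓ)).comp (liftL (Rl ℓ))

theorem redL_coeff (f : CL ℓ) (n : ℤ) :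
    (redL ℓ f).coeff n = rho ℓ ⟨(f : LaurentSeries ℚ).coeff n, f.2 n⟩ := rfl

theorem redL_int (F : LaurentSeries ℤ) (h : coeffMap (Int.castRingHom ℚ) F ∈ CL ℓ) :
    redL ℓ ⟨coeffMap (Int.castRingHom ℚ) F, h⟩ = coeffMap (Int.castRingHom (ZMod ℓ)) F := by
  ext n
  have : (⟨(coeffMap (Int.castRingHom ℚ) F).coeff n, h n⟩ : Rl ℓ) = ((F.coeff n : ℤ) : Rl ℓ) :=
    Subtype.ext (by
      show (coeffMap (Int.castRingHom ℚ) F).coeff n = _
      rw [coeffMap_coeff]; simp)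
  refine Eq.trans (congrArg (rho ℓ) this) ?_
  rw [map_intCast, coeffMap_coeff]
  simp

theorem redL_eq_zero_iff (f : CL ℓ) : redL ℓ f = 0 ↔ ∃ g ∈ CL ℓ, (f : LaurentSeries ℚ) = ℓ * g := by
  constructor
  · intro h
    refine ⟨(HahnSeries.C ((ℓ : ℚ)⁻¹) : LaurentSeries ℚ) * (f : LaurentSeries ℚ), ?_, ?_⟩
    · intro n
      rw [HahnSeries.C_mul_eq_smul, HahnSeries.coeff_smul, smul_eq_mul]
      have h1 := congrArg (fun z : LaurentSeries (ZMod ℓ) => z.coeff n) h
      simp only [redL_coeff, HahnSeries.coeff_zero] at h1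
      obtain ⟨q, hq⟩ := (rho_eq_zero_iff _).mp h1
      have h2 : (f : LaurentSeries ℚ).coeff n = ℓ * (q : ℚ) := by
        have := congrArg Subtype.val hq
        simpa using this
      have hl : ((ℓ : ℕ) : ℚ) ≠ 0 := by exact_mod_cast hℓ.out.ne_zero
      rw [h2, inv_mul_cancel_left₀ hl]
      exact q.2
    · rw [← mul_assoc, ← map_natCast (HahnSeries.C (Γ := ℤ) (R := ℚ)), ← map_mul,
        mul_inv_cancel₀ (by exact_mod_cast hℓ.out.ne_zero), map_one, one_mul]
  · rintro ⟨g, hg, hfg⟩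
    have h1 : f = (ℓ : CL ℓ) * ⟨g, hg⟩ := Subtype.ext (by push_cast; exact hfg)
    rw [h1, map_mul, map_natCast]
    have h2 : ((ℓ : ℕ) : LaurentSeries (ZMod ℓ)) = 0 := by
      rw [← map_natCast (HahnSeries.C (Γ := ℤ) (R := ZMod ℓ)), ZMod.natCast_self, map_zero]
    rw [h2, zero_mul]

end Coeff

section JInv

variable (R : Type*) [CommRing R]

theorem isUnit_jqModC : IsUnit (jqModC R) := by
  rw [jqModC]
  refine IsUnit.mul ?_ ?_
  · refine IsUnit.of_mul_eq_one (HahnSeries.single (1 : ℤ) 1) ?_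
    rw [HahnSeries.single_mul_single]
    simp
  · refine IsUnit.map _ ?_
    rw [PowerSeries.isUnit_iff_constantCoeff, ← PowerSeries.coeff_zero_eq_constantCoeff,
      PowerSeries.coeff_map, PowerSeries.coeff_zero_eq_constantCoeff, constantCoeff_jNum, map_one]
    exact isUnit_one

theorem exists_int_jinv : ∃ F : LaurentSeries ℤ, jqModC ℤ * F = 1 ∧
    (jqModC ℚ)⁻¹ = coeffMap (Int.castRingHom ℚ) F := by
  obtain ⟨F, hF⟩ := (isUnit_jqModC ℤ).exists_right_inv
  refine ⟨F, hF, ?_⟩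
  have h1 := congrArg (coeffMap (Int.castRingHom ℚ)) hF
  rw [map_mul, coeffMap_jqModC, map_one] at h1
  exact inv_eq_of_mul_eq_one_right h1

end JInv

end Fermat.Agent.Igusa
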