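import Mathlib
import Fermat.Prelude.Def_ModularCurve_X0ModL
import Fermat.Agent.Igusa.Local
import Fermat.Agent.Igusa.Degree3

/-!
# A basis of the function field which reduces well modulo `ℓ`
-/

set_option autoImplicit false
set_option linter.unusedSectionVars false

noncomputable section

open ModularCurve Polynomial

namespace Fermat.Agent.Igusa

/-- The multiplicative submonoid of `ℤ((q))` generated by the `j(q^d)`, `d ∣ N`. -/
def TT (N : ℕ) : Submonoid (LaurentSeries ℤ) :=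
  Submonoid.closure {x | ∃ (d : ℕ) (_ : NeZero d), d ∣ N ∧ x = jd ℤ d}

/-- `ℤ((q)) → R((q))`. -/
abbrev cc (R : Type*) [CommRing R] : LaurentSeries ℤ →+* LaurentSeries R :=
  coeffMap (Int.castRingHom R)

theorem cc_image_TT (k : Type*) [Field k] (N : ℕ) : (cc k) '' (TT N : Set (LaurentSeries ℤ)) =
    (Submonoid.closure (divisorExpansionsC k N) : Set (LaurentSeries k)) := by
  have h1 : divisorExpansionsC k N = (cc k).toMonoidHom ''
      {x | ∃ (d : ℕ) (_ : NeZero d), d ∣ N ∧ x = jd ℤ d} := by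
    ext x
    constructor
    · rintro ⟨d, hd, hdN, rfl⟩
      exact ⟨jd ℤ d, ⟨d, hd, hdN, rfl⟩, coeffMap_jd _ d⟩
    · rintro ⟨_, ⟨d, hd, hdN, rfl⟩, rfl⟩
      exact ⟨d, hd, hdN, coeffMap_jd _ d⟩
  rw [h1, ← MonoidHom.map_mclosure]
  rfl

section Field

variable (k : Type*) [Field k] (N : ℕ) [NeZero N]

/-- `E_N` over `E_1`. -/
abbrev EE : IntermediateField (modularFunctionFieldFullC k 1) (LaurentSeries k) :=
  IntermediateField.extendScalars (full_degeneracyC_le k (one_dvd N))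

theorem rank_EE (hk : (N : k) ≠ 0) :
    Module.rank (modularFunctionFieldFullC k 1) (EE k N) = (dedekindPsi N : Cardinal) := by
  rw [← IntermediateField.relrank_eq_rank_of_le, relrank_full N hk]

theorem finite_EE (hk : (N : k) ≠ 0) : Module.Finite (modularFunctionFieldFullC k 1) (EE k N) := by
  rw [← Module.rank_lt_aleph0_iff, rank_EE k N hk]
  exact Cardinal.natCast_lt_aleph0

theorem span_eq (hk : (N : k) ≠ 0) :
    Submodule.span (modularFunctionFieldFullC k 1) ((cc k) '' (TT N : Set (LaurentSeries ℤ))) =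
      Subalgebra.toSubmodule (EE k N).toSubalgebra := by
  rw [cc_image_TT, ← Algebra.adjoin_eq_span]
  congr 1
  have := finite_EE k N hk
  have hint : ∀ x ∈ modularFunctionFieldFullC k N,
      IsIntegral (modularFunctionFieldFullC k 1) x := by
    intro x hx
    have h1 : IsIntegral (modularFunctionFieldFullC k 1) (⟨x, hx⟩ : EE k N) :=
      Algebra.IsIntegral.isIntegral _
    exact h1.map (EE k N).val
  apply le_antisymm
  · refine Algebra.adjoin_le ?_
    intro x hx
    exact IntermediateField.subset_adjoin k _ hx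
  · intro x hx
    have hx' : x ∈ modularFunctionFieldFullC k N := hx
    rw [modularFunctionFieldFullC] at hx'
    induction hx' using IntermediateField.adjoin_induction with
    | mem y hy => exact Algebra.subset_adjoin hy
    | algebraMap q => 
      exact Subalgebra.algebraMap_mem _ (⟨algebraMap k (LaurentSeries k) q,
        (modularFunctionFieldFullC k 1).algebraMap_mem q⟩ : modularFunctionFieldFullC k 1)
    | add y z hy hz h1 h2 => exact add_mem (h1 hy) (h2 hz)
    | mul y z hy hz h1 h2 => exact mul_mem (h1 hy) (h2 hz)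
    | inv y hy h1 => exact (hint y hy).inv_mem (h1 hy)

/-- There is a basis of `E_N` over `E_1` consisting of images of elements of `TT N`. -/
theorem exists_basis (hk : (N : k) ≠ 0) : ∃ t : Fin (dedekindPsi N) → LaurentSeries ℤ,
    (∀ i, t i ∈ TT N) ∧
      LinearIndependent (modularFunctionFieldFullC k 1) (fun i => cc k (t i)) := by
  obtain ⟨b, hb1, hb2, hb3⟩ := exists_linearIndependent (modularFunctionFieldFullC k 1)
    ((cc k) '' (TT N : Set (LaurentSeries ℤ)))
  have hcard : Cardinal.mk b = (dedekindPsi N : Cardinal) := by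
    have h1 : Module.rank (modularFunctionFieldFullC k 1)
        (Submodule.span (modularFunctionFieldFullC k 1) b) = Cardinal.mk b := rank_span_set hb3
    rw [hb2, span_eq k N hk] at h1
    rw [← h1]
    exact rank_EE k N hk
  have e : Fin (dedekindPsi N) ≃ b := by
    have h2 : Cardinal.mk (ULift (Fin (dedekindPsi N))) = Cardinal.mk b := by
      rw [hcard]; simp
    exact (Equiv.ulift.symm.trans (Cardinal.eq.mp h2).some)
  have hex : ∀ i, ∃ x ∈ TT N, cc k x = (e i : LaurentSeries k) := fun i => hb1 (e i).2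
  choose t ht1 ht2 using hex
  refine ⟨t, ht1, ?_⟩
  have h3 : (fun i => cc k (t i)) = (fun x : b => (x : LaurentSeries k)) ∘ e := by
    funext i; exact ht2 i
  rw [h3]
  exact hb3.comp e e.injective

/-- If `ψ(N)` elements of `E_N` are linearly independent over `E_1` then they span. -/
theorem exists_coords (hk : (N : k) ≠ 0) (v : Fin (dedekindPsi N) → LaurentSeries k)
    (hv : ∀ i, v i ∈ modularFunctionFieldFullC k N)
    (hli : LinearIndependent (modularFunctionFieldFullC k 1) v) {f : LaurentSeries k}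
    (hf : f ∈ modularFunctionFieldFullC k N) :
    ∃ g : Fin (dedekindPsi N) → modularFunctionFieldFullC k 1,
      f = ∑ i, (g i : LaurentSeries k) * v i := by
  have := finite_EE k N hk
  let w : Fin (dedekindPsi N) → EE k N := fun i => ⟨v i, hv i⟩
  have hw : LinearIndependent (modularFunctionFieldFullC k 1) w := by
    refine LinearIndependent.of_comp (EE k N).val.toLinearMap ?_
    exact hli
  have hcard : Fintype.card (Fin (dedekindPsi N)) =
      Module.finrank (modularFunctionFieldFullC k 1) (EE k N) := by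
    rw [Fintype.card_fin, Module.finrank, rank_EE k N hk, Cardinal.toNat_natCast]
  have hspan := hw.span_eq_top_of_card_eq_finrank' hcard
  have hmem : (⟨f, hf⟩ : EE k N) ∈ Submodule.span (modularFunctionFieldFullC k 1) (Set.range w) := by
    rw [hspan]; trivial
  obtain ⟨c, hc⟩ := (Submodule.mem_span_range_iff_exists_fun _).mp hmem
  refine ⟨c, ?_⟩
  have h1 := congrArg (fun x : EE k N => (x : LaurentSeries k)) hc
  simp only at h1
  rw [← h1]
  have h2 : ((∑ i, c i • w i : EE k N) : LaurentSeries k) =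
      (EE k N).val.toLinearMap (∑ i, c i • w i) := rfl
  rw [h2, map_sum]
  rfl

end Field

section Evz

variable (k : Type*) [Field k]

theorem evZ_eq_evJ (R : Type*) [CommRing R] (P : ℤ[X]) :
    evZ (jqModC R) P = evJ R (P.map (Int.castRingHom R)) := by
  rw [evJ_apply, eval₂_map, evZ_apply]
  congr 1

theorem evZ_mem_E1 (P : ℤ[X]) : evZ (jqModC k) P ∈ modularFunctionFieldFullC k 1 := by
  have : evZ (jqModC k) P = algebraMap (modularFunctionFieldFullC k 1) (LaurentSeries k)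
      (evZ (⟨jqModC k, jqModC_mem_full k 1⟩ : modularFunctionFieldFullC k 1) P) := by
    rw [ringHom_evZ]; rfl
  rw [this]
  exact Subtype.prop _

theorem mem_E1_frac {x : LaurentSeries ℚ} (hx : x ∈ modularFunctionFieldFullC ℚ 1) :
    x ∈ fracSubring (evZ (jqModC ℚ)).range := by
  refine mem_fracSubring_of_mem_adjoin _ (divisorExpansionsC ℚ 1) ?_ hx
  rintro x ⟨d, hne, hd, rfl⟩
  have hd1 : d = 1 := Nat.dvd_one.mp hd
  subst hd1
  exact ⟨X, by rw [evZ_X, qExpand_one_apply]⟩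

theorem cc_evZ (R : Type*) [CommRing R] (P : ℤ[X]) :
    cc R (evZ (jqModC ℤ) P) = evZ (jqModC R) P := by
  rw [ringHom_evZ, coeffMap_jqModC]

theorem cc_sum (R : Type*) [CommRing R] {n : ℕ} (p : Fin n → ℤ[X]) (t : Fin n → LaurentSeries ℤ) :
    cc R (∑ i, evZ (jqModC ℤ) (p i) * t i) = ∑ i, evZ (jqModC R) (p i) * cc R (t i) := by
  rw [map_sum]
  exact Finset.sum_congr rfl fun i _ => by rw [map_mul, cc_evZ]

end Evz

section Descent

variable {ℓ : ℕ} [hℓ : Fact ℓ.Prime] {n : ℕ} {t : Fin n → LaurentSeries ℤ}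

theorem evZ_modL_eq_zero {P : ℤ[X]} (h : evZ (jqModC (ZMod ℓ)) P = 0) : C (ℓ : ℤ) ∣ P := by
  rw [evZ_eq_evJ] at h
  have h1 := evJ_injective (ZMod ℓ) (h.trans (map_zero _).symm)
  rw [C_dvd_iff_dvd_coeff]
  intro i
  have h2 := congrArg (fun p => coeff p i) h1
  simp only [coeff_map, coeff_zero, eq_intCast] at h2
  exact (ZMod.intCast_zmod_eq_zero_iff_dvd _ _).mp h2

theorem dvd_of_relation
    (hli : LinearIndependent (modularFunctionFieldFullC (ZMod ℓ) 1) (fun i => cc (ZMod ℓ) (t i)))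
    {p : Fin n → ℤ[X]} (h : ∑ i, evZ (jqModC (ZMod ℓ)) (p i) * cc (ZMod ℓ) (t i) = 0) (i : Fin n) :
    C (ℓ : ℤ) ∣ p i := by
  apply evZ_modL_eq_zero
  have h1 := Fintype.linearIndependent_iff.mp hli
    (fun i => ⟨evZ (jqModC (ZMod ℓ)) (p i), evZ_mem_E1 _ _⟩) h i
  exact congrArg Subtype.val h1

theorem natCast_laurent_ne_zero : ((ℓ : ℕ) : LaurentSeries ℚ) ≠ 0 := by
  rw [← map_natCast (HahnSeries.C (Γ := ℤ) (R := ℚ))]
  have h : ((ℓ : ℕ) : ℚ) ≠ 0 := by exact_mod_cast hℓ.out.ne_zero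
  exact (_root_.map_ne_zero _).mpr h

theorem evZ_C_natCast {A : Type*} [CommRing A] (x : A) (m : ℕ) : evZ x (C (m : ℤ)) = m := by
  rw [evZ_apply, eval₂_C]; simp

theorem descent_step
    (hli : LinearIndependent (modularFunctionFieldFullC (ZMod ℓ) 1) (fun i => cc (ZMod ℓ) (t i)))
    {f : LaurentSeries ℚ} (hf : f ∈ CL ℓ) (D : ℤ[X]) (p : Fin n → ℤ[X])
    (h : evZ (jqModC ℚ) (C (ℓ : ℤ) * D) * f = ∑ i, evZ (jqModC ℚ) (p i) * cc ℚ (t i)) :
    ∃ p' : Fin n → ℤ[X], (∀ i, p i = C (ℓ : ℤ) * p' i) ∧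
      evZ (jqModC ℚ) D * f = ∑ i, evZ (jqModC ℚ) (p' i) * cc ℚ (t i) := by
  have h1 : evZ (jqModC ℚ) D * f ∈ CL ℓ := by
    refine (CL ℓ).mul_mem ?_ hf
    rw [← cc_evZ]
    exact int_mem_CL _
  have h2 : redL ℓ ⟨cc ℚ (∑ i, evZ (jqModC ℤ) (p i) * t i), int_mem_CL _⟩ = 0 := by
    rw [redL_eq_zero_iff]
    refine ⟨_, h1, ?_⟩
    show cc ℚ (∑ i, evZ (jqModC ℤ) (p i) * t i) = _
    rw [cc_sum, ← h, map_mul, evZ_C_natCast, mul_assoc]
  rw [redL_int, ← cc, cc_sum] at h2
  have h3 : ∀ i, ∃ q, p i = C (ℓ : ℤ) * q := fun i => dvd_of_relation hli h2 i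
  choose p' hp' using h3
  refine ⟨p', hp', ?_⟩
  apply mul_left_cancel₀ (natCast_laurent_ne_zero (ℓ := ℓ))
  rw [← mul_assoc, ← evZ_C_natCast (jqModC ℚ) ℓ, ← map_mul, h, Finset.mul_sum]
  refine Finset.sum_congr rfl fun i _ => ?_
  rw [hp', map_mul, mul_assoc]

theorem pow_dvd_of_relation
    (hli : LinearIndependent (modularFunctionFieldFullC (ZMod ℓ) 1) (fun i => cc (ZMod ℓ) (t i)))
    (m : ℕ) : ∀ p : Fin n → ℤ[X], ∑ i, evZ (jqModC ℚ) (p i) * cc ℚ (t i) = 0 →
      ∀ i, (C (ℓ : ℤ)) ^ m ∣ p i := by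
  induction m with
  | zero => intro p _ i; rw [pow_zero]; exact one_dvd _
  | succ m ih =>
    intro p hp i
    obtain ⟨p', hp', h⟩ := descent_step hli (CL ℓ).zero_mem 0 p (by rw [hp]; simp)
    rw [mul_zero] at h
    rw [hp', pow_succ, mul_comm]
    exact mul_dvd_mul_left _ (ih p' h.symm i)

theorem not_isUnit_C : ¬ IsUnit (C (ℓ : ℤ)) := by
  rw [isUnit_C, Int.isUnit_iff]
  have := hℓ.out.one_lt
  rintro (h | h)
  · have : ℓ = 1 := by exact_mod_cast h
    omega
  · omega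

theorem eq_zero_of_relation
    (hli : LinearIndependent (modularFunctionFieldFullC (ZMod ℓ) 1) (fun i => cc (ZMod ℓ) (t i)))
    (p : Fin n → ℤ[X]) (hp : ∑ i, evZ (jqModC ℚ) (p i) * cc ℚ (t i) = 0) (i : Fin n) :
    p i = 0 := by
  by_contra h
  obtain ⟨m, a, hm, ha⟩ := WfDvdMonoid.max_power_factor' h (not_isUnit_C (ℓ := ℓ))
  have h1 := pow_dvd_of_relation hli (m + 1) p hp i
  rw [ha, pow_succ] at h1
  have h2 : (C (ℓ : ℤ)) ^ m ≠ 0 := pow_ne_zero _ (by
    rw [Ne, C_eq_zero]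
    have := hℓ.out.ne_zero
    exact_mod_cast this)
  exact hm ((mul_dvd_mul_iff_left h2).mp h1)

/-- Linear independence lifts from characteristic `ℓ` to characteristic `0`. -/
theorem linearIndependent_rat
    (hli : LinearIndependent (modularFunctionFieldFullC (ZMod ℓ) 1) (fun i => cc (ZMod ℓ) (t i))) :
    LinearIndependent (modularFunctionFieldFullC ℚ 1) (fun i => cc ℚ (t i)) := by
  rw [Fintype.linearIndependent_iff]
  intro g hg i
  obtain ⟨d, ⟨D, rfl⟩, hd0, hd⟩ := exists_common_denom' (evZ (jqModC ℚ)).range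
    (fun i => (g i : LaurentSeries ℚ)) (fun i => mem_E1_frac (g i).2)
  choose p hp using hd
  have h1 : ∑ i, evZ (jqModC ℚ) (p i) * cc ℚ (t i) = 0 := by
    have h2 : ∑ i, (g i : LaurentSeries ℚ) * cc ℚ (t i) = 0 := hg
    rw [← mul_zero (evZ (jqModC ℚ) D), ← h2, Finset.mul_sum]
    exact Finset.sum_congr rfl fun i _ => by rw [hp, mul_assoc]
  have h3 := hp i
  rw [eq_zero_of_relation hli p h1 i, map_zero] at h3
  have h4 := (mul_eq_zero.mp h3.symm).resolve_left hd0
  exact Subtype.ext h4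

theorem strip_powers
    (hli : LinearIndependent (modularFunctionFieldFullC (ZMod ℓ) 1) (fun i => cc (ZMod ℓ) (t i)))
    {f : LaurentSeries ℚ} (hf : f ∈ CL ℓ) (D : ℤ[X]) (m : ℕ) : ∀ (p : Fin n → ℤ[X]),
    evZ (jqModC ℚ) ((C (ℓ : ℤ)) ^ m * D) * f = ∑ i, evZ (jqModC ℚ) (p i) * cc ℚ (t i) →
    ∃ p' : Fin n → ℤ[X], evZ (jqModC ℚ) D * f = ∑ i, evZ (jqModC ℚ) (p' i) * cc ℚ (t i) := by
  induction m with
  | zero => intro p h; exact ⟨p, by rwa [pow_zero, one_mul] at h⟩
  | succ m ih =>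
    intro p h
    rw [pow_succ', mul_assoc] at h
    obtain ⟨p', -, h'⟩ := descent_step hli hf _ p h
    exact ih p' h'

end Descent

section Main

variable {ℓ : ℕ} [hℓ : Fact ℓ.Prime] (N : ℕ) [NeZero N]

/-- Elements of the function field with `ℓ`-integral `q`-expansion. -/
theorem exists_denominator (hN : ¬ ℓ ∣ N) {f : LaurentSeries ℚ}
    (hf : f ∈ modularFunctionFieldFullC ℚ N) (hfC : f ∈ CL ℓ) :
    ∃ (D : ℤ[X]) (n : ℕ) (p : Fin n → ℤ[X]) (t : Fin n → LaurentSeries ℤ),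
      ¬ C (ℓ : ℤ) ∣ D ∧ (∀ i, t i ∈ TT N) ∧
      evZ (jqModC ℚ) D * f = ∑ i, evZ (jqModC ℚ) (p i) * cc ℚ (t i) := by
  have hNl : ((N : ℕ) : ZMod ℓ) ≠ 0 := by
    rw [Ne, ZMod.natCast_eq_zero_iff]; exact hN
  have hNQ : ((N : ℕ) : ℚ) ≠ 0 := by exact_mod_cast NeZero.ne N
  obtain ⟨t, ht, hli⟩ := exists_basis (ZMod ℓ) N hNl
  have hliQ := linearIndependent_rat hli
  have hmem : ∀ i, cc ℚ (t i) ∈ modularFunctionFieldFullC ℚ N := by
    intro i
    have h1 : cc ℚ (t i) ∈ Submodule.span (modularFunctionFieldFullC ℚ 1)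
        ((cc ℚ) '' (TT N : Set (LaurentSeries ℤ))) := Submodule.subset_span ⟨t i, ht i, rfl⟩
    rw [span_eq ℚ N hNQ] at h1
    exact h1
  obtain ⟨g, hg⟩ := exists_coords ℚ N hNQ _ hmem hliQ hf
  obtain ⟨d, ⟨D, rfl⟩, hd0, hd⟩ := exists_common_denom' (evZ (jqModC ℚ)).range
    (fun i => (g i : LaurentSeries ℚ)) (fun i => mem_E1_frac (g i).2)
  choose p hp using hd
  have hD0 : D ≠ 0 := by rintro rfl; exact hd0 (map_zero _)
  obtain ⟨m, D', hD', hDD'⟩ := WfDvdMonoid.max_power_factor' hD0 (not_isUnit_C (ℓ := ℓ))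
  have h1 : evZ (jqModC ℚ) ((C (ℓ : ℤ)) ^ m * D') * f =
      ∑ i, evZ (jqModC ℚ) (p i) * cc ℚ (t i) := by
    rw [← hDD', hg, Finset.mul_sum]
    exact Finset.sum_congr rfl fun i _ => by rw [hp, mul_assoc]
  obtain ⟨p', hp'⟩ := strip_powers hli hfC D' m p h1
  exact ⟨D', _, p', t, hD', ht, hp'⟩

end Main

end Fermat.Agent.Igusa
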