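import Mathlib

/-!
# Integrality tools
-/

set_option autoImplicit false
set_option linter.unusedSectionVars false

noncomputable section

open Polynomial

namespace Fermat.Agent.Igusa

theorem natDegree_minpoly_le_of_mul {K F : Type*} [Field K] [Field F] [Algebra K F] {d : K}
    (hd : d ≠ 0) {f : F} (hf : IsIntegral K f) :
    (minpoly K f).natDegree ≤ (minpoly K (algebraMap K F d * f)).natDegree := by
  have h1 : IsIntegral K (algebraMap K F d * f) := isIntegral_algebraMap.mul hf
  have h2 : aeval f ((minpoly K (algebraMap K F d * f)).scaleRoots d⁻¹) = 0 := by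
    have := scaleRoots_aeval_eq_zero (R := K) (A := F) (r := d⁻¹) (minpoly.aeval K (algebraMap K F d * f))
    rwa [← mul_assoc, ← map_mul, inv_mul_cancel₀ hd, map_one, one_mul] at this
  have h3 := natDegree_le_of_dvd (minpoly.dvd K f h2)
    ((monic_scaleRoots_iff _).mpr (minpoly.monic h1)).ne_zero
  rwa [natDegree_scaleRoots] at h3

theorem minpoly_mul_eq {K F : Type*} [Field K] [Field F] [Algebra K F] {d : K} (hd : d ≠ 0)
    {f : F} (hf : IsIntegral K f) :
    minpoly K (algebraMap K F d * f) = (minpoly K f).scaleRoots d := by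
  have h1 : IsIntegral K (algebraMap K F d * f) := isIntegral_algebraMap.mul hf
  refine (eq_of_monic_of_dvd_of_natDegree_le (minpoly.monic h1)
    ((monic_scaleRoots_iff _).mpr (minpoly.monic hf))
    (minpoly.dvd K _ (scaleRoots_aeval_eq_zero (minpoly.aeval K f))) ?_).symm
  rw [natDegree_scaleRoots]
  exact natDegree_minpoly_le_of_mul hd hf

theorem minpoly_map_eq {S K F : Type*} [CommRing S] [IsDomain S] [IsIntegrallyClosed S]
    [Field K] [Algebra S K] [IsFractionRing S K] [Field F] [Algebra S F] [Algebra K F]
    [IsScalarTower S K F] {l : S} (hl : l ≠ 0) {f : F} (hf : IsIntegral K f)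
    (h1 : IsIntegral S (algebraMap S F l * f)) :
    (minpoly S (algebraMap S F l * f)).map (algebraMap S K) =
      (minpoly K f).scaleRoots (algebraMap S K l) := by
  have hKinj : Function.Injective (algebraMap S K) := IsFractionRing.injective S K
  have hl0 : algebraMap S K l ≠ 0 := fun h => hl (hKinj (h.trans (map_zero _).symm))
  have e1 : algebraMap S F l = algebraMap K F (algebraMap S K l) :=
    IsScalarTower.algebraMap_apply S K F l
  have h2 := minpoly.isIntegrallyClosed_eq_field_fractions' K h1
  rw [← h2, e1]
  exact minpoly_mul_eq hl0 hf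

theorem isIntegral_of_coprime_aux {S K F : Type*} [CommRing S] [IsDomain S] [IsIntegrallyClosed S]
    [Field K] [Algebra S K] [IsFractionRing S K] [Field F] [Algebra S F] [Algebra K F]
    [IsScalarTower S K F] {l D : S} (hl : Prime l)
    (hD : ¬ l ∣ D) {f : F} (h1 : IsIntegral S (algebraMap S F l * f))
    (h2 : IsIntegral S (algebraMap S F D * f)) : IsIntegral S f := by
  have hKinj : Function.Injective (algebraMap S K) := IsFractionRing.injective S K
  have hl0 : algebraMap S K l ≠ 0 := fun h => hl.ne_zero (hKinj (h.trans (map_zero _).symm))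
  have hD0 : D ≠ 0 := fun h => hD (h ▸ dvd_zero l)
  have e1 : algebraMap S F l = algebraMap K F (algebraMap S K l) :=
    IsScalarTower.algebraMap_apply S K F l
  have hfK : IsIntegral K f := by
    have h3 : IsIntegral K (algebraMap S F l * f) := h1.tower_top
    have h4 : f = algebraMap K F (algebraMap S K l)⁻¹ * (algebraMap S F l * f) := by
      rw [e1, ← mul_assoc, ← map_mul, inv_mul_cancel₀ hl0, map_one, one_mul]
    rw [h4]
    exact isIntegral_algebraMap.mul h3
  have m1 := minpoly_map_eq (K := K) hl.ne_zero hfK h1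
  have m2 := minpoly_map_eq (K := K) hD0 hfK h2
  generalize minpoly S (algebraMap S F l * f) = q1 at m1
  generalize minpoly S (algebraMap S F D * f) = q2 at m2
  have hcoeff : ∀ i, ∃ u : S, algebraMap S K u = (minpoly K f).coeff i := by
    intro i
    have c1 := congrArg (fun p => coeff p i) m1
    have c2 := congrArg (fun p => coeff p i) m2
    simp only [coeff_map, coeff_scaleRoots] at c1 c2
    have h3 : D ^ ((minpoly K f).natDegree - i) * q1.coeff i =
        l ^ ((minpoly K f).natDegree - i) * q2.coeff i := by
      apply hKinj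
      rw [map_mul, map_mul, map_pow, map_pow, c1, c2]
      ring
    have h4 : l ^ ((minpoly K f).natDegree - i) ∣ q1.coeff i := by
      refine hl.pow_dvd_of_dvd_mul_left _ (fun h => hD (hl.dvd_of_dvd_pow h)) (Dvd.intro _ h3.symm)
    obtain ⟨u, hu⟩ := h4
    refine ⟨u, ?_⟩
    have h5 : algebraMap S K l ^ ((minpoly K f).natDegree - i) ≠ 0 := pow_ne_zero _ hl0
    apply mul_left_cancel₀ h5
    rw [← map_pow, ← map_mul, ← hu, c1, map_pow]
    ring
  have hlift : (minpoly K f) ∈ lifts (algebraMap S K) :=
    (lifts_iff_coeff_lifts _).mpr fun i => hcoeff i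
  obtain ⟨p, hp, -, hpm⟩ := lifts_and_natDegree_eq_and_monic hlift (minpoly.monic hfK)
  refine ⟨p, hpm, ?_⟩
  have h6 : algebraMap S F = (algebraMap K F).comp (algebraMap S K) :=
    IsScalarTower.algebraMap_eq S K F
  rw [h6, ← eval₂_map, hp]
  exact minpoly.aeval K f

theorem isIntegral_of_coprime {S F : Type*} [CommRing S] [IsDomain S] [IsIntegrallyClosed S]
    [Field F] [Algebra S F] (hinj : Function.Injective (algebraMap S F)) {l D : S} (hl : Prime l)
    (hD : ¬ l ∣ D) {f : F} (h1 : IsIntegral S (algebraMap S F l * f))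
    (h2 : IsIntegral S (algebraMap S F D * f)) : IsIntegral S f := by
  have : FaithfulSMul S F := (faithfulSMul_iff_algebraMap_injective S F).mpr hinj
  let _ : Algebra (FractionRing S) F := FractionRing.liftAlgebra S F
  exact isIntegral_of_coprime_aux (K := FractionRing S) hl hD h1 h2

end Fermat.Agent.Igusa
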