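import Mathlib
import Fermat.Prelude.Def_ModularCurve_IgusaScheme
import Fermat.Agent.Igusa.Local
import Fermat.Agent.Igusa.IntTools
import Fermat.Agent.Igusa.Degree3

/-!
# The charts of the Igusa scheme
-/

set_option autoImplicit false
set_option linter.unusedSectionVars false

noncomputable section

open ModularCurve ModularCurve.IgusaScheme Polynomial

namespace Fermat.Agent.Igusa

section ChartRing

variable {N : ℕ} [NeZero N] {ℓ : ℕ} [hℓ : Fact ℓ.Prime]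

/-- The polynomial ring inside the function field. -/
def polyEquiv (x₀ : ↥(modularFunctionFieldFull N))
    (h : Function.Injective (aeval (R := ↥(Rl ℓ)) x₀)) :
    (↥(Rl ℓ))[X] ≃ₐ[↥(Rl ℓ)] Algebra.adjoin ↥(Rl ℓ) {x₀} :=
  (AlgEquiv.ofInjective (aeval x₀) h).trans
    (Subalgebra.equivOfEq _ _ (Algebra.adjoin_singleton_eq_range_aeval _ x₀).symm)

theorem polyEquiv_apply (x₀ : ↥(modularFunctionFieldFull N))
    (h : Function.Injective (aeval (R := ↥(Rl ℓ)) x₀)) (P : (↥(Rl ℓ))[X]) :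
    ((polyEquiv x₀ h P : Algebra.adjoin ↥(Rl ℓ) {x₀}) : ↥(modularFunctionFieldFull N)) =
      aeval x₀ P := rfl

theorem not_C_dvd_map {D : ℤ[X]} (hD : ¬ C (ℓ : ℤ) ∣ D) :
    ¬ C (ℓ : ↥(Rl ℓ)) ∣ D.map (Int.castRingHom ↥(Rl ℓ)) := by
  intro h
  apply hD
  rw [C_dvd_iff_dvd_coeff] at h ⊢
  intro i
  obtain ⟨c, hc⟩ := h i
  rw [coeff_map] at hc
  have h1 := congrArg (rho ℓ) hc
  rw [map_mul, map_natCast, ZMod.natCast_self, zero_mul, eq_intCast, map_intCast] at h1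
  exact (ZMod.intCast_zmod_eq_zero_iff_dvd _ _).mp h1

theorem evZ_eq_aeval (x₀ : ↥(modularFunctionFieldFull N)) (D : ℤ[X]) :
    evZ x₀ D = aeval x₀ (D.map (Int.castRingHom ↥(Rl ℓ))) := by
  rw [aeval_def, eval₂_map, evZ_apply]
  congr 1

theorem mem_chartAlg_of_coprime (x₀ : ↥(modularFunctionFieldFull N))
    (h : Function.Injective (aeval (R := ↥(Rl ℓ)) x₀)) {D : ℤ[X]} (hD : ¬ C (ℓ : ℤ) ∣ D)
    {f : ↥(modularFunctionFieldFull N)} (h1 : (ℓ : ↥(modularFunctionFieldFull N)) * f ∈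
      chartAlg N ℓ {x₀}) (h2 : evZ x₀ D * f ∈ chartAlg N ℓ {x₀}) : f ∈ chartAlg N ℓ {x₀} := by
  have hic : IsIntegrallyClosed (Algebra.adjoin ↥(Rl ℓ) {x₀}) :=
    IsIntegrallyClosed.of_equiv (polyEquiv x₀ h).toRingEquiv
  have hl : Prime (polyEquiv x₀ h (C (ℓ : ↥(Rl ℓ)))) :=
    (MulEquiv.prime_iff (polyEquiv x₀ h)).mpr (Polynomial.prime_C_iff.mpr prime_Rl)
  rw [mem_chartAlg_iff] at h1 h2 ⊢
  refine isIntegral_of_coprime (S := Algebra.adjoin ↥(Rl ℓ) {x₀}) Subtype.val_injective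
    (l := polyEquiv x₀ h (C (ℓ : ↥(Rl ℓ)))) (D := polyEquiv x₀ h (D.map (Int.castRingHom ↥(Rl ℓ))))
    hl ?_ ?_ ?_
  · rw [map_dvd_iff]
    exact not_C_dvd_map hD
  · have : algebraMap (Algebra.adjoin ↥(Rl ℓ) {x₀}) ↥(modularFunctionFieldFull N)
        (polyEquiv x₀ h (C (ℓ : ↥(Rl ℓ)))) = (ℓ : ↥(modularFunctionFieldFull N)) := by
      show ((polyEquiv x₀ h (C (ℓ : ↥(Rl ℓ))) : Algebra.adjoin ↥(Rl ℓ) {x₀}) :
        ↥(modularFunctionFieldFull N)) = _
      rw [polyEquiv_apply, aeval_C, map_natCast]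
    rw [this]; exact h1
  · have : algebraMap (Algebra.adjoin ↥(Rl ℓ) {x₀}) ↥(modularFunctionFieldFull N)
        (polyEquiv x₀ h (D.map (Int.castRingHom ↥(Rl ℓ)))) = evZ x₀ D := by
      rw [evZ_eq_aeval (ℓ := ℓ)]; rfl
    rw [this]; exact h2

theorem coe_algebraMap_rat (a : ℚ) :
    ((algebraMap ℚ ↥(modularFunctionFieldFull N) a : ↥(modularFunctionFieldFull N)) :
      LaurentSeries ℚ) = algebraMap ℚ (LaurentSeries ℚ) a := by
  have h : ((algebraMap ↥(modularFunctionFieldFull N) (LaurentSeries ℚ)).comp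
      (algebraMap ℚ ↥(modularFunctionFieldFull N))) = algebraMap ℚ (LaurentSeries ℚ) :=
    Subsingleton.elim _ _
  exact congrArg (fun f : ℚ →+* LaurentSeries ℚ => f a) h

theorem coe_algebraMap_Rl (a : ↥(Rl ℓ)) :
    ((algebraMap ↥(Rl ℓ) ↥(modularFunctionFieldFull N) a : ↥(modularFunctionFieldFull N)) :
      LaurentSeries ℚ) = HahnSeries.single 0 (a : ℚ) := by
  rw [← algebraMap_apply_eq_single, ← coe_algebraMap_rat (N := N)]
  rfl

theorem mem_chartAlg_of_monic {S : Set ↥(modularFunctionFieldFull N)}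
    {x : ↥(modularFunctionFieldFull N)} (p : (↥(modularFunctionFieldFull N))[X]) (hp : p.Monic)
    (hcoeff : ∀ i, p.coeff i ∈ chartAlg N ℓ S) (hroot : eval x p = 0) : x ∈ chartAlg N ℓ S := by
  rw [mem_chartAlg_iff]
  have h1 : IsIntegral (integralClosure (Algebra.adjoin ↥(Rl ℓ) S) ↥(modularFunctionFieldFull N)) x := by
    have hlift : p ∈ lifts (algebraMap (integralClosure (Algebra.adjoin ↥(Rl ℓ) S)
        ↥(modularFunctionFieldFull N)) ↥(modularFunctionFieldFull N)) :=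
      (lifts_iff_coeff_lifts _).mpr fun i => ⟨⟨p.coeff i, (mem_chartAlg_iff N ℓ).mp (hcoeff i)⟩, rfl⟩
    obtain ⟨q, hq, -, hqm⟩ := lifts_and_natDegree_eq_and_monic hlift hp
    refine ⟨q, hqm, ?_⟩
    rw [eval₂_eq_eval_map, hq, hroot]
  exact isIntegral_trans x h1

theorem evZ_mem {A : Type*} [CommRing A] (B : Subring A) {x : A} (hx : x ∈ B) (P : ℤ[X]) :
    evZ x P ∈ B := by
  have : evZ x P = B.subtype (evZ (⟨x, hx⟩ : B) P) := by
    rw [ringHom_evZ]; rfl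
  rw [this]
  exact Subtype.prop _

theorem evZ_mem_chartAlg {S : Set ↥(modularFunctionFieldFull N)}
    {x : ↥(modularFunctionFieldFull N)} (hx : x ∈ chartAlg N ℓ S) (P : ℤ[X]) :
    evZ x P ∈ chartAlg N ℓ S := evZ_mem (chartAlg N ℓ S).toSubring hx P

theorem jd_mem_F {d : ℕ} [NeZero d] (hd : d ∣ N) : jd ℚ d ∈ modularFunctionFieldFull N :=
  jqModCd_mem_full ℚ N hd

theorem jd_mem_chart (d : ℕ) : ∀ (_ : NeZero d) (hd : d ∣ N),
    (⟨jd ℚ d, jd_mem_F hd⟩ : ↥(modularFunctionFieldFull N)) ∈ chartAlgFin N ℓ := by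
  induction d using induction_on_primes with
  | zero => intro hd0; exact absurd rfl hd0.ne
  | one =>
    intro _ hd
    have : (⟨jd ℚ 1, jd_mem_F hd⟩ : ↥(modularFunctionFieldFull N)) = jFull N :=
      Subtype.ext (jd_one ℚ)
    rw [this]
    exact subset_chartAlg N ℓ _ rfl
  | prime_mul r c hr ih =>
    intro hd0 hd
    have : Fact r.Prime := ⟨hr⟩
    have hc0 : NeZero c := ⟨fun h => hd0.out (by rw [h, mul_zero])⟩
    have hc : c ∣ N := (dvd_mul_left c r).trans hd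
    have ih' := ih hc0 hc
    have hcr : NeZero (c * r) := ⟨mul_ne_zero hc0.out hr.ne_zero⟩
    refine mem_chartAlg_of_monic ((modPoly r).map (evZ (⟨jd ℚ c, jd_mem_F hc⟩ :
      ↥(modularFunctionFieldFull N)))) ((modPoly_monic r).map _) (fun i => ?_) ?_
    · rw [coeff_map]
      exact evZ_mem_chartAlg ih' _
    · rw [eval_map]
      apply (algebraMap ↥(modularFunctionFieldFull N) (LaurentSeries ℚ)).injective
      rw [map_zero, eval₂_evZ_map]
      show (modPoly r).eval₂ (evZ (jd ℚ c)) (jd ℚ (r * c)) = 0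
      rw [jd_congr ℚ (mul_comm r c)]
      exact modPoly_eval r ℚ c

theorem jinv_mem_CL : (jqModC ℚ)⁻¹ ∈ CL ℓ := by
  obtain ⟨G, -, hG⟩ := exists_int_jinv
  rw [hG]
  exact int_mem_CL G

theorem jd_mem_CL (d : ℕ) [NeZero d] : jd ℚ d ∈ CL ℓ := by
  rw [← coeffMap_jd (Int.castRingHom ℚ)]
  exact int_mem_CL _

theorem mem_F_frac {x : LaurentSeries ℚ} (hx : x ∈ modularFunctionFieldFull N) :
    x ∈ fracSubring (CL ℓ) := by
  refine mem_fracSubring_of_mem_adjoin _ (divisorExpansionsC ℚ N) ?_ hx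
  rintro x ⟨d, hne, hd, rfl⟩
  exact jd_mem_CL d

theorem chartAlg_le_CL {S : Set ↥(modularFunctionFieldFull N)}
    (hS : S ⊆ {jFull N, (jFull N)⁻¹}) {x : ↥(modularFunctionFieldFull N)}
    (hx : x ∈ chartAlg N ℓ S) : (x : LaurentSeries ℚ) ∈ CL ℓ := by
  rw [mem_chartAlg_iff] at hx
  refine mem_CL_of_isIntegral (mem_F_frac x.2) ?_
  have hadj : ∀ y : Algebra.adjoin ↥(Rl ℓ) S,
      ((y : ↥(modularFunctionFieldFull N)) : LaurentSeries ℚ) ∈ CL ℓ := by
    rintro ⟨y, hy⟩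
    show (y : LaurentSeries ℚ) ∈ CL ℓ
    induction hy using Algebra.adjoin_induction with
    | mem z hz =>
      rcases hS hz with rfl | hz
      · show jqModC ℚ ∈ CL ℓ
        rw [← jd_one]; exact jd_mem_CL 1
      · have : z = (jFull N)⁻¹ := hz
        rw [this]
        exact jinv_mem_CL
    | algebraMap a =>
      rw [coe_algebraMap_Rl]
      intro n
      rw [HahnSeries.coeff_single]
      split_ifs
      · exact a.2
      · exact (Rl ℓ).zero_mem
    | add y z _ _ hy hz => exact (CL ℓ).add_mem hy hz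
    | mul y z _ _ hy hz => exact (CL ℓ).mul_mem hy hz
  let φ : Algebra.adjoin ↥(Rl ℓ) S →+* CL ℓ :=
    ((algebraMap ↥(modularFunctionFieldFull N) (LaurentSeries ℚ)).comp
      (algebraMap (Algebra.adjoin ↥(Rl ℓ) S) ↥(modularFunctionFieldFull N))).codRestrict (CL ℓ) hadj
  exact hx.map_of_comp_eq φ (algebraMap ↥(modularFunctionFieldFull N) (LaurentSeries ℚ)) rfl

end ChartRing

end Fermat.Agent.Igusa
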