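import Mathlib
import Fermat.Prelude.Def_ModularCurve_IgusaScheme
import Fermat.Agent.Igusa.Chart
import Fermat.Agent.Igusa.Basis

/-!
# The kernel of reduction modulo `ℓ` on the charts
-/

set_option autoImplicit false
set_option linter.unusedSectionVars false

noncomputable section

open ModularCurve ModularCurve.IgusaScheme Polynomial

namespace Fermat.Agent.Igusa

section

variable {N : ℕ} [NeZero N] {ℓ : ℕ} [hℓ : Fact ℓ.Prime]

theorem TT_mem {t : LaurentSeries ℤ} (ht : t ∈ TT N) :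
    ∃ h : cc ℚ t ∈ modularFunctionFieldFull N,
      (⟨cc ℚ t, h⟩ : ↥(modularFunctionFieldFull N)) ∈ chartAlgFin N ℓ := by
  induction ht using Submonoid.closure_induction with
  | mem x hx =>
    obtain ⟨d, hd, hdN, rfl⟩ := hx
    have h1 : cc ℚ (jd ℤ d) = jd ℚ d := coeffMap_jd _ d
    refine ⟨by rw [h1]; exact jd_mem_F hdN, ?_⟩
    have h2 := jd_mem_chart (N := N) (ℓ := ℓ) d hd hdN
    convert h2
  | one =>
    refine ⟨by rw [map_one]; exact one_mem _, ?_⟩
    convert (chartAlgFin N ℓ).one_mem using 1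
    exact Subtype.ext (map_one (cc ℚ))
  | mul x y _ _ hx hy =>
    obtain ⟨hx1, hx2⟩ := hx
    obtain ⟨hy1, hy2⟩ := hy
    refine ⟨by rw [map_mul]; exact mul_mem hx1 hy1, ?_⟩
    convert (chartAlgFin N ℓ).mul_mem hx2 hy2 using 1
    exact Subtype.ext (map_mul (cc ℚ) x y)

theorem coe_evZ (x : ↥(modularFunctionFieldFull N)) (P : ℤ[X]) :
    ((evZ x P : ↥(modularFunctionFieldFull N)) : LaurentSeries ℚ) =
      evZ (x : LaurentSeries ℚ) P :=
  ringHom_evZ (algebraMap ↥(modularFunctionFieldFull N) (LaurentSeries ℚ)) x P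

theorem exists_denominator_chart (hN : ¬ ℓ ∣ N) {f : ↥(modularFunctionFieldFull N)}
    (hf : (f : LaurentSeries ℚ) ∈ CL ℓ) :
    ∃ D : ℤ[X], ¬ C (ℓ : ℤ) ∣ D ∧ evZ (jFull N) D * f ∈ chartAlgFin N ℓ := by
  obtain ⟨D, n, p, t, hD, ht, h⟩ := exists_denominator N hN (f := (f : LaurentSeries ℚ)) f.2 hf
  refine ⟨D, hD, ?_⟩
  have h1 : evZ (jFull N) D * f = ∑ i, evZ (jFull N) (p i) *
      (⟨cc ℚ (t i), (TT_mem (ℓ := ℓ) (ht i)).1⟩ : ↥(modularFunctionFieldFull N)) := by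
    apply (algebraMap ↥(modularFunctionFieldFull N) (LaurentSeries ℚ)).injective
    rw [map_mul, map_sum]
    show ((evZ (jFull N) D : ↥(modularFunctionFieldFull N)) : LaurentSeries ℚ) *
      (f : LaurentSeries ℚ) = _
    rw [coe_evZ]
    refine h.trans (Finset.sum_congr rfl fun i _ => ?_)
    rw [map_mul]
    show _ = ((evZ (jFull N) (p i) : ↥(modularFunctionFieldFull N)) : LaurentSeries ℚ) *
      cc ℚ (t i)
    rw [coe_evZ]
    rfl
  rw [h1]
  refine sum_mem fun i _ => mul_mem (evZ_mem_chartAlg ?_ _) (TT_mem (ℓ := ℓ) (ht i)).2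
  exact subset_chartAlg N ℓ _ rfl

theorem aeval_jFull_injective :
    Function.Injective (aeval (R := ↥(Rl ℓ)) (jFull N)) := by
  rw [injective_iff_map_eq_zero]
  intro P hP
  have h1 : evJ ℚ (P.map (algebraMap ↥(Rl ℓ) ℚ)) = 0 := by
    have h2 := congrArg (fun z : ↥(modularFunctionFieldFull N) => (z : LaurentSeries ℚ)) hP
    simp only [aeval_def] at h2
    have h3 : ((eval₂ (algebraMap ↥(Rl ℓ) ↥(modularFunctionFieldFull N)) (jFull N) P :
        ↥(modularFunctionFieldFull N)) : LaurentSeries ℚ) =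
        eval₂ ((algebraMap ↥(modularFunctionFieldFull N) (LaurentSeries ℚ)).comp
          (algebraMap ↥(Rl ℓ) ↥(modularFunctionFieldFull N))) (jqModC ℚ) P :=
      hom_eval₂ P _ (algebraMap ↥(modularFunctionFieldFull N) (LaurentSeries ℚ)) (jFull N)
    rw [h3] at h2
    rw [evJ_apply, eval₂_map]
    have h4 : ((algebraMap ↥(modularFunctionFieldFull N) (LaurentSeries ℚ)).comp
          (algebraMap ↥(Rl ℓ) ↥(modularFunctionFieldFull N))) =
          (HahnSeries.C : ℚ →+* LaurentSeries ℚ).comp (algebraMap ↥(Rl ℓ) ℚ) := by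
      ext a : 1
      exact coe_algebraMap_Rl (N := N) a
    rw [← h4]
    exact h2
  have h5 := evJ_injective ℚ (h1.trans (map_zero _).symm)
  exact (Polynomial.map_injective _ (Subtype.val_injective)) (h5.trans (Polynomial.map_zero _).symm)

theorem aeval_jFull_inv_injective :
    Function.Injective (aeval (R := ↥(Rl ℓ)) (jFull N)⁻¹) := by
  rw [injective_iff_map_eq_zero]
  intro P hP
  have hJ := jFull_ne_zero N
  have : Invertible (jFull N)⁻¹ := invertibleOfNonzero (inv_ne_zero hJ)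
  have h1 := eval₂_reverse_mul_pow (algebraMap ↥(Rl ℓ) ↥(modularFunctionFieldFull N))
    (jFull N)⁻¹ P
  rw [aeval_def] at hP
  rw [hP, invOf_eq_inv, inv_inv] at h1
  have h2 := (mul_eq_zero.mp h1).resolve_right (pow_ne_zero _ (inv_ne_zero hJ))
  have h3 : P.reverse = 0 := aeval_jFull_injective (N := N) (ℓ := ℓ)
    ((aeval_def (jFull N) P.reverse).trans (h2.trans (map_zero _).symm))
  exact (reverse_eq_zero).mp h3

theorem evZ_inv_reverse (D : ℤ[X]) :
    evZ (jFull N)⁻¹ D.reverse * (jFull N) ^ D.natDegree = evZ (jFull N) D := by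
  have hJ := jFull_ne_zero N
  have : Invertible (jFull N) := invertibleOfNonzero hJ
  have h1 := eval₂_reverse_mul_pow (Int.castRingHom ↥(modularFunctionFieldFull N)) (jFull N) D
  rw [invOf_eq_inv] at h1
  exact h1

theorem not_C_dvd_reverse {D : ℤ[X]} (hD : ¬ C (ℓ : ℤ) ∣ D) : ¬ C (ℓ : ℤ) ∣ D.reverse := by
  intro h
  apply hD
  rw [C_dvd_iff_dvd_coeff] at h ⊢
  intro i
  have h1 := h (revAt D.natDegree i)
  rwa [coeff_reverse, revAt_invol] at h1

theorem prime_C : Prime (C (ℓ : ℤ)) := by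
  rw [prime_C_iff]
  exact Nat.prime_iff_prime_int.mp hℓ.out

theorem not_C_dvd_X_pow (n : ℕ) : ¬ C (ℓ : ℤ) ∣ X ^ n := by
  intro h
  have h1 := (C_dvd_iff_dvd_coeff _ _).mp h n
  rw [coeff_X_pow_self] at h1
  exact (Nat.prime_iff_prime_int.mp hℓ.out).not_dvd_one h1

/-- Elements of the function field with `ℓ`-integral `q`-expansion, at the other chart. -/
theorem exists_denominator_chartInf (hN : ¬ ℓ ∣ N) {f : ↥(modularFunctionFieldFull N)}
    (hf : (f : LaurentSeries ℚ) ∈ CL ℓ) :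
    ∃ D : ℤ[X], ¬ C (ℓ : ℤ) ∣ D ∧ evZ (jFull N)⁻¹ D * f ∈ chartAlgInf N ℓ := by
  obtain ⟨D, hD, h⟩ := exists_denominator_chart hN hf
  have hJ := jFull_ne_zero N
  have h1 : evZ (jFull N) D * f ∈ chartAlg N ℓ (insert (jFull N)⁻¹⁻¹ {(jFull N)⁻¹}) := by
    rw [inv_inv]
    exact chartAlg_mono N ℓ (sFin_subset N) h
  obtain ⟨n, hn⟩ := exists_pow_mul_mem_chartAlg (Set.mem_singleton _) (inv_ne_zero hJ) h1
  refine ⟨X ^ n * D.reverse, ?_, ?_⟩
  · intro h2
    rcases prime_C.dvd_or_dvd h2 with h3 | h3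
    · exact not_C_dvd_X_pow n h3
    · exact not_C_dvd_reverse hD h3
  · have h2 : evZ (jFull N)⁻¹ (X ^ n * D.reverse) * f =
        ((jFull N)⁻¹) ^ D.natDegree * ((jFull N)⁻¹ ^ n * (evZ (jFull N) D * f)) := by
      rw [map_mul, map_pow, evZ_X, ← evZ_inv_reverse]
      have h3 : (jFull N)⁻¹ ^ D.natDegree * (jFull N) ^ D.natDegree = 1 := by
        rw [← mul_pow, inv_mul_cancel₀ hJ, one_pow]
      calc _ = (jFull N)⁻¹ ^ n * evZ (jFull N)⁻¹ D.reverse * f *
            ((jFull N)⁻¹ ^ D.natDegree * (jFull N) ^ D.natDegree) := by rw [h3, mul_one]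
        _ = _ := by ring
    rw [h2]
    refine mul_mem (pow_mem ?_ _) hn
    exact subset_chartAlg N ℓ _ rfl

/-- `ℓ`-saturation of the charts. -/
theorem mem_chart_of_mul (hN : ¬ ℓ ∣ N) {x₀ : ↥(modularFunctionFieldFull N)}
    (hx₀ : x₀ = jFull N ∨ x₀ = (jFull N)⁻¹) {f : ↥(modularFunctionFieldFull N)}
    (hf : (f : LaurentSeries ℚ) ∈ CL ℓ)
    (h : (ℓ : ↥(modularFunctionFieldFull N)) * f ∈ chartAlg N ℓ {x₀}) :
    f ∈ chartAlg N ℓ {x₀} := by
  rcases hx₀ with rfl | rfl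
  · obtain ⟨D, hD, h1⟩ := exists_denominator_chart hN hf
    exact mem_chartAlg_of_coprime _ aeval_jFull_injective hD h h1
  · obtain ⟨D, hD, h1⟩ := exists_denominator_chartInf hN hf
    exact mem_chartAlg_of_coprime _ aeval_jFull_inv_injective hD h h1

/-- The `q`-expansion of an element of a chart ring. -/
def chartQ (S : Set ↥(modularFunctionFieldFull N)) (hS : S ⊆ {jFull N, (jFull N)⁻¹}) :
    chartAlg N ℓ S →+* CL ℓ :=
  ((algebraMap ↥(modularFunctionFieldFull N) (LaurentSeries ℚ)).comp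
    (chartAlg N ℓ S).val.toRingHom).codRestrict (CL ℓ) (fun x => chartAlg_le_CL hS x.2)

/-- Reduction modulo `ℓ` on a chart ring. -/
def chartRed (S : Set ↥(modularFunctionFieldFull N)) (hS : S ⊆ {jFull N, (jFull N)⁻¹}) :
    chartAlg N ℓ S →+* LaurentSeries (ZMod ℓ) := (redL ℓ).comp (chartQ S hS)

theorem chartRed_ker (hN : ¬ ℓ ∣ N) {x₀ : ↥(modularFunctionFieldFull N)}
    (hx₀ : x₀ = jFull N ∨ x₀ = (jFull N)⁻¹)
    (hS : ({x₀} : Set ↥(modularFunctionFieldFull N)) ⊆ {jFull N, (jFull N)⁻¹})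
    (a : chartAlg N ℓ {x₀}) (ha : chartRed {x₀} hS a = 0) :
    ∃ b : chartAlg N ℓ {x₀}, a = (ℓ : chartAlg N ℓ {x₀}) * b := by
  obtain ⟨g, hg, hag⟩ := (redL_eq_zero_iff _).mp ha
  have hag' : ((a : ↥(modularFunctionFieldFull N)) : LaurentSeries ℚ) = ℓ * g := hag
  have hl0 : (ℓ : ↥(modularFunctionFieldFull N)) ≠ 0 := by
    intro h0
    apply natCast_laurent_ne_zero (ℓ := ℓ)
    have := congrArg (algebraMap ↥(modularFunctionFieldFull N) (LaurentSeries ℚ)) h0
    rwa [map_natCast, map_zero] at this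
  set b : ↥(modularFunctionFieldFull N) := (ℓ : ↥(modularFunctionFieldFull N))⁻¹ * a with hb
  have hlb : (ℓ : ↥(modularFunctionFieldFull N)) * b = a := by
    rw [hb, ← mul_assoc, mul_inv_cancel₀ hl0, one_mul]
  have hbg : (b : LaurentSeries ℚ) = g := by
    apply mul_left_cancel₀ (natCast_laurent_ne_zero (ℓ := ℓ))
    rw [← hag', ← hlb]
    push_cast
    rfl
  have hbmem : b ∈ chartAlg N ℓ {x₀} := by
    refine mem_chart_of_mul hN hx₀ (by rw [hbg]; exact hg) ?_
    rw [hlb]; exact a.2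
  refine ⟨⟨b, hbmem⟩, Subtype.ext ?_⟩
  rw [← hlb]
  push_cast
  rfl

end

end Fermat.Agent.Igusa
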