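import Mathlib

/-!
# A criterion for injectivity of maps out of a tensor product
-/

set_option autoImplicit false
set_option linter.unusedSectionVars false

noncomputable section

open TensorProduct

namespace Fermat.Agent.Igusa

section Map

variable {R A K L : Type*} [CommRing R] [CommRing A] [CommRing K] [CommRing L] [Algebra R A]
  [Algebra R K]

/-- The ring homomorphism `A ⊗ K → L` induced by a pair of compatible homomorphisms. -/
theorem exists_tensorMap (φ : A →+* L) (ψ : K →+* L)
    (h : φ.comp (algebraMap R A) = ψ.comp (algebraMap R K)) :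
    ∃ Φ : A ⊗[R] K →+* L, ∀ a c, Φ (a ⊗ₜ c) = φ a * ψ c := by
  let _ : Algebra R L := (φ.comp (algebraMap R A)).toAlgebra
  let φ' : A →ₐ[R] L := { φ with commutes' := fun r => rfl }
  let ψ' : K →ₐ[R] L := { ψ with commutes' := fun r => (congrArg (fun f : R →+* L => f r) h).symm }
  refine ⟨(Algebra.TensorProduct.productMap φ' ψ').toRingHom, fun a c => ?_⟩
  show Algebra.TensorProduct.productMap φ' ψ' (a ⊗ₜ c) = _
  rw [Algebra.TensorProduct.productMap_apply_tmul]
  rfl

end Map

section Inj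

variable {R A K L ι : Type*} [CommRing R] [CommRing A] [Field K] [CommRing L] [Algebra R A]
  [Algebra R K] (ℓ : ℕ) [hℓ : Fact ℓ.Prime] [Algebra (ZMod ℓ) K]

theorem exists_repr_tensor (e : Module.Basis ι (ZMod ℓ) K) (x : A ⊗[R] K) :
    ∃ a : ι →₀ A, x = a.sum (fun i ai => ai ⊗ₜ[R] e i) := by
  classical
  induction x using TensorProduct.induction_on with
  | zero => exact ⟨0, by simp⟩
  | tmul a c =>
    refine ⟨(e.repr c).mapRange (fun z => z.val • a) (by simp), ?_⟩
    rw [Finsupp.sum_mapRange_index (by simp)]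
    conv_lhs => rw [← e.linearCombination_repr c, Finsupp.linearCombination_apply,
      Finsupp.sum, TensorProduct.tmul_sum]
    refine Finset.sum_congr rfl fun i _ => ?_
    have h1 : (e.repr c i) • e i = (e.repr c i).val • e i := by
      conv_lhs => rw [← ZMod.natCast_zmod_val (e.repr c i)]
      rw [Nat.cast_smul_eq_nsmul]
    rw [h1, TensorProduct.tmul_smul, TensorProduct.smul_tmul']
  | add x y hx hy =>
    obtain ⟨a, rfl⟩ := hx
    obtain ⟨b, rfl⟩ := hy
    refine ⟨a + b, ?_⟩
    exact (Finsupp.sum_add_index' (h := fun i ai => ai ⊗ₜ[R] e i)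
      (fun i => TensorProduct.zero_tmul _ _) (fun i x y => TensorProduct.add_tmul _ _ _)).symm

theorem tensor_injective (hchar : (ℓ : K) = 0) (e : Module.Basis ι (ZMod ℓ) K) (φ : A →+* L)
    (ψ : K →+* L) (Φ : A ⊗[R] K →+* L) (hΦ : ∀ a c, Φ (a ⊗ₜ c) = φ a * ψ c)
    (hker : ∀ a : ι →₀ A, a.sum (fun i ai => φ ai * ψ (e i)) = 0 →
      ∀ i, ∃ b : A, a i = (ℓ : A) * b) : Function.Injective Φ := by
  rw [injective_iff_map_eq_zero]
  intro x hx
  obtain ⟨a, rfl⟩ := exists_repr_tensor ℓ e x
  have h1 : a.sum (fun i ai => φ ai * ψ (e i)) = 0 := by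
    rw [← hx, map_finsuppSum]
    exact Finset.sum_congr rfl fun i _ => (hΦ _ _).symm
  rw [Finsupp.sum]
  refine Finset.sum_eq_zero fun i _ => ?_
  obtain ⟨b, hb⟩ := hker a h1 i
  rw [hb, ← nsmul_eq_mul, ← TensorProduct.smul_tmul', ← TensorProduct.tmul_smul, nsmul_eq_mul,
    hchar, zero_mul, TensorProduct.tmul_zero]

end Inj

end Fermat.Agent.Igusa
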