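import Mathlib
import Fermat.Prelude.Def_ModularCurve_IgusaScheme
import Fermat.Agent.Igusa.Kernel
import Fermat.Agent.Igusa.TensorTools

/-!
# The fibres of the charts in characteristic `ℓ` are domains
-/

set_option autoImplicit false
set_option linter.unusedSectionVars false

noncomputable section

open ModularCurve ModularCurve.IgusaScheme Polynomial TensorProduct

namespace Fermat.Agent.Igusa

section Hom

variable {ℓ : ℕ} [hℓ : Fact ℓ.Prime]

theorem den_isUnit (q : ↥(Rl ℓ)) : IsUnit (((q : ℚ).den : ℕ) : ↥(Rl ℓ)) := by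
  have hden : ((q : ℚ).den : ℚ) ≠ 0 := by exact_mod_cast (q : ℚ).den_nz
  have hmem : (((q : ℚ).den : ℚ))⁻¹ ∈ Rl ℓ := by
    rw [mem_Rl_iff]
    have h1 := mem_Rl_iff.mp q.2
    rwa [Rat.inv_natCast_den_of_pos (q : ℚ).den_pos]
  refine IsUnit.of_mul_eq_one ⟨_, hmem⟩ (Subtype.ext ?_)
  push_cast
  exact mul_inv_cancel₀ hden

theorem Rl_hom_ext {B : Type*} [CommRing B] (f g : ↥(Rl ℓ) →+* B) : f = g := by
  ext q
  have h1 : q * (((q : ℚ).den : ℕ) : ↥(Rl ℓ)) = (((q : ℚ).num : ℤ) : ↥(Rl ℓ)) :=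
    Subtype.ext (by push_cast; exact Rat.mul_den_eq_num _)
  have h2 := congrArg f h1
  have h3 := congrArg g h1
  rw [map_mul, map_natCast, map_intCast] at h2 h3
  have h4 := (den_isUnit q).map f
  rw [map_natCast] at h4
  exact h4.mul_right_cancel (h2.trans h3.symm)

end Hom

section Fiber

variable {N : ℕ} [NeZero N] {ℓ : ℕ} [hℓ : Fact ℓ.Prime] (K : Type) [Field K] [CharP K ℓ]

/-- Reduction on a chart ring, with coefficients in `K`. -/
def chartRedK (S : Set ↥(modularFunctionFieldFull N)) (hS : S ⊆ {jFull N, (jFull N)⁻¹}) :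
    chartAlg N ℓ S →+* LaurentSeries K :=
  (coeffMap (ZMod.castHom (dvd_refl ℓ) K)).comp (chartRed S hS)

theorem exists_chartTensor [Algebra ↥(Rl ℓ) K] (S : Set ↥(modularFunctionFieldFull N))
    (hS : S ⊆ {jFull N, (jFull N)⁻¹}) :
    ∃ Φ : (chartAlg N ℓ S) ⊗[↥(Rl ℓ)] K →+* LaurentSeries K,
      ∀ a c, Φ (a ⊗ₜ c) = chartRedK K S hS a * HahnSeries.C c :=
  exists_tensorMap (chartRedK K S hS) HahnSeries.C (Rl_hom_ext _ _)

theorem nontrivial_chart [Algebra ↥(Rl ℓ) K] (S : Set ↥(modularFunctionFieldFull N))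
    (hS : S ⊆ {jFull N, (jFull N)⁻¹}) : Nontrivial ((chartAlg N ℓ S) ⊗[↥(Rl ℓ)] K) := by
  obtain ⟨Φ, -⟩ := exists_chartTensor (ℓ := ℓ) K S hS
  exact Φ.domain_nontrivial

theorem isDomain_chart [Algebra ↥(Rl ℓ) K] (hN : ¬ ℓ ∣ N) {x₀ : ↥(modularFunctionFieldFull N)}
    (hx₀ : x₀ = jFull N ∨ x₀ = (jFull N)⁻¹)
    (hS : ({x₀} : Set ↥(modularFunctionFieldFull N)) ⊆ {jFull N, (jFull N)⁻¹}) :
    IsDomain ((chartAlg N ℓ {x₀}) ⊗[↥(Rl ℓ)] K) := by
  obtain ⟨Φ, hΦ⟩ := exists_chartTensor (ℓ := ℓ) K {x₀} hS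
  let _ : Algebra (ZMod ℓ) K := ZMod.algebra K ℓ
  let e := Module.Basis.ofVectorSpace (ZMod ℓ) K
  have hinj : Function.Injective Φ := by
    refine tensor_injective ℓ (CharP.cast_eq_zero K ℓ) e (chartRedK K {x₀} hS) HahnSeries.C Φ hΦ ?_
    intro a ha i
    by_cases hi : i ∈ a.support
    · refine chartRed_ker hN hx₀ hS (a i) ?_
      ext n
      rw [HahnSeries.coeff_zero]
      have h1 := congrArg (fun z : LaurentSeries K => z.coeff n) ha
      simp only [Finsupp.sum, HahnSeries.coeff_zero] at h1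
      rw [HahnSeries.coeff_sum] at h1
      have h2 : ∑ i ∈ a.support, ((chartRed {x₀} hS (a i)).coeff n) • e i = 0 := by
        rw [← h1]
        refine Finset.sum_congr rfl fun i _ => ?_
        rw [mul_comm, HahnSeries.C_mul_eq_smul, HahnSeries.coeff_smul, smul_eq_mul, chartRedK,
          RingHom.comp_apply, coeffMap_coeff, mul_comm, Algebra.smul_def]
        rfl
      exact linearIndependent_iff'.mp e.linearIndependent a.support _ h2 i hi
    · exact ⟨0, by rw [mul_zero]; exact Finsupp.notMem_support_iff.mp hi⟩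
  exact hinj.isDomain Φ

end Fiber

end Fermat.Agent.Igusa
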