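import Fermat.Agent.Q.Galois

/-!
# The norm along the degeneracy maps in terms of `q`-expansions
-/

set_option autoImplicit false
set_option linter.unusedSectionVars false
set_option linter.style.haveILetI false

noncomputable section

open ModularCurve AlgebraicCurve

namespace Fermat.Agent.Igusa

section Generic

theorem finrankAlong_inclusion {K L : Type*} [Field K] [Field L] [Algebra K L]
    (A B : IntermediateField K L) (h : A ≤ B) {n : ℕ} (hn : A.relrank B = (n : Cardinal)) :
    finrankAlong K (IntermediateField.inclusion h) = n := by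
  let _ := algebraAlong (IntermediateField.inclusion h)
  exact Module.finrank_eq_of_rank_eq (by rw [Q.rank_along_inclusion A B h, hn])

theorem finrank_eq_of_addEquiv {R M M' : Type*} [Ring R] [AddCommGroup M] [AddCommGroup M']
    [Module R M] [Module R M'] (e : M ≃+ M') (h : ∀ (c : R) x, e (c • x) = c • e x) :
    Module.finrank R M = Module.finrank R M' :=
  LinearEquiv.finrank_eq { e with map_smul' := h }

/-- The degree of a homomorphism does not change under an automorphism of the target. -/
theorem finrankAlong_comp_equiv {K F F' : Type*} [Field K] [Field F] [Field F'] [Algebra K F]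
    [Algebra K F'] (φ ψ : F →ₐ[K] F') (w : F' ≃ₐ[K] F') (h : ∀ x, w (φ x) = ψ x) :
    finrankAlong K φ = finrankAlong K ψ := by
  refine @finrank_eq_of_addEquiv F F' F' _ _ _ (algebraAlong φ).toModule
    (algebraAlong ψ).toModule w.toAddEquiv ?_
  intro c x
  show w (φ c * x) = ψ c * w x
  rw [map_mul, h]

end Generic

section Bar

variable (L : Type*) [Field L] [CharZero L] [Algebra ℚ L] [Algebra.IsAlgebraic ℚ L]
variable (N l : ℕ) [NeZero N] [hl : Fact l.Prime]

theorem bc_eq : laurentBaseChange L (modularFunctionFieldFull N) = modularFunctionFieldFullC L N :=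
  H05.laurentBaseChange_full L N

theorem relrank_bc (hlN : ¬ l ∣ N) :
    (laurentBaseChange L (modularFunctionFieldFull N)).relrank
      (laurentBaseChange L (modularFunctionFieldFull (N * l))) = ((l + 1 : ℕ) : Cardinal) := by
  rw [bc_eq, bc_eq]
  exact Q.relrank_incl L N l hlN

theorem finrank_alpha [NeZero l] (hlN : ¬ l ∣ N) :
    finrankAlong L (heckeAlphaBar L N l) = l + 1 :=
  finrankAlong_inclusion _ _ _ (relrank_bc L N l hlN)

/-- The Atkin–Lehner automorphism of the base-changed function field. -/
def wBC (hQM : Nat.Coprime l N) : laurentBaseChange L (modularFunctionFieldFull (N * l)) ≃ₐ[L]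
    laurentBaseChange L (modularFunctionFieldFull (N * l)) :=
  Q.transport (bc_eq L (N * l)) (Q.wQ L hQM)

theorem coe_wBC (hQM : Nat.Coprime l N)
    (x : laurentBaseChange L (modularFunctionFieldFull (N * l)))
    (hx : (x : LaurentSeries L) ∈ modularFunctionFieldFullC L (N * l)) :
    (wBC L N l hQM x : LaurentSeries L) = Q.wQ L hQM ⟨x, hx⟩ := Q.coe_transport _ _ _ _

theorem wBC_alpha [NeZero l] (hQM : Nat.Coprime l N)
    (x : laurentBaseChange L (modularFunctionFieldFull N)) :
    wBC L N l hQM (heckeAlphaBar L N l x) = heckeBetaBar L N l x := by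
  apply Subtype.ext
  have hx : (x : LaurentSeries L) ∈ modularFunctionFieldFullC L N := by
    rw [← bc_eq]; exact x.2
  have h1 := Q.coe_wQ_of_mem L hQM (x : LaurentSeries L) hx
  rw [coe_wBC L N l hQM _ (by
    rw [coe_heckeAlphaBar]; exact Q.mem_of_mem L _ hx)]
  simp only [coe_heckeAlphaBar, coe_heckeBetaBar]
  rw [h1]

theorem wBC_beta [NeZero l] (hQM : Nat.Coprime l N)
    (x : laurentBaseChange L (modularFunctionFieldFull N)) :
    (wBC L N l hQM (heckeBetaBar L N l x) : LaurentSeries L) = x := by
  have hx : (x : LaurentSeries L) ∈ modularFunctionFieldFullC L N := by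
    rw [← bc_eq]; exact x.2
  have h1 := Q.coe_wQ_qExpand L hQM (x : LaurentSeries L) hx
  rw [coe_wBC L N l hQM _ (by
    rw [coe_heckeBetaBar]; exact Q.qExpand_mem L _ hx)]
  exact h1

theorem finrank_beta [NeZero l] (hlN : ¬ l ∣ N) :
    finrankAlong L (heckeBetaBar L N l) = l + 1 := by
  have hQM : Nat.Coprime l N := (hl.out.coprime_iff_not_dvd).mpr hlN
  rw [← finrank_alpha L N l hlN]
  exact (finrankAlong_comp_equiv _ _ (wBC L N l hQM) (wBC_alpha L N l hQM)).symm

theorem norm_generic [NeZero l] (A B : IntermediateField L (LaurentSeries L))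
    (hA : A = modularFunctionFieldFullC L N) (hB : B = modularFunctionFieldFullC L (N * l))
    (h : A ≤ B) (hlN : ¬ l ∣ N) {ζ : Lˣ} (hζ : IsPrimitiveRoot ζ l) (z : B) (x : A)
    (hz : (z : LaurentSeries L) = qExpand L l (x : LaurentSeries L)) :
    qExpand L l ((H05.normAlong (IntermediateField.inclusion h) z : A) : LaurentSeries L) =
      qExpand L l (qExpand L l (x : LaurentSeries L)) *
        ∏ b ∈ Finset.range l, twist (ζ ^ b) (x : LaurentSeries L) := by
  subst hA
  subst hB
  have hQM : Nat.Coprime l N := (hl.out.coprime_iff_not_dvd).mpr hlN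
  have h1 := Q.norm_formula L N hQM hζ z
  have h2 : (Q.wQ L hQM z : LaurentSeries L) = x := by
    have h3 : z = ⟨qExpand L l (x : LaurentSeries L), Q.qExpand_mem L _ x.2⟩ := Subtype.ext hz
    rw [h3]
    exact Q.coe_wQ_qExpand L hQM (x : LaurentSeries L) x.2
  rw [h2, hz] at h1
  refine h1.trans ?_
  congr 1
  exact Finset.prod_bij (fun (b : ZMod l) _ => b.val) (fun b _ =>
    Finset.mem_range.mpr (ZMod.val_lt b)) (fun a _ b _ h => ZMod.val_injective l h)
    (fun b hb => ⟨(b : ZMod l), Finset.mem_univ _, ZMod.val_cast_of_lt (Finset.mem_range.mp hb)⟩)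
    (fun b _ => rfl)

/-- **(NQ)** the Hecke operator `T_l` on functions, in terms of `q`-expansions. -/
theorem norm_qExpand [NeZero l] (hlN : ¬ l ∣ N) {ζ : Lˣ} (hζ : IsPrimitiveRoot ζ l)
    (x : laurentBaseChange L (modularFunctionFieldFull N)) :
    qExpand L l ((H05.normAlong (heckeAlphaBar L N l) (heckeBetaBar L N l x) :
      laurentBaseChange L (modularFunctionFieldFull N)) : LaurentSeries L) =
      qExpand L l (qExpand L l (x : LaurentSeries L)) *
        ∏ b ∈ Finset.range l, twist (ζ ^ b) (x : LaurentSeries L) := by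
  have hle : laurentBaseChange L (modularFunctionFieldFull N) ≤
      laurentBaseChange L (modularFunctionFieldFull (N * l)) := by
    rw [bc_eq, bc_eq]
    exact full_degeneracyC_le L (dvd_mul_right N l)
  exact norm_generic L N l _ _ (bc_eq L N) (bc_eq L (N * l)) hle hlN hζ _ x
    (coe_heckeBetaBar N l x)

end Bar

end Fermat.Agent.Igusa
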