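import Mathlib
import Fermat.Agent.Igusa.Orders
import Fermat.Agent.H29.Haupt3

/-!
# Hauptmoduln of level `4` and `9`
-/

set_option autoImplicit false
set_option linter.unusedSectionVars false

noncomputable section

open ModularCurve

namespace Fermat.Agent.Igusa

/-! ### monic Laurent series -/

section Mn

variable {R : Type*} [CommRing R]

/-- `F = q ^ n + ...` -/
def Mn (F : LaurentSeries R) (n : ℤ) : Prop := F.coeff n = 1 ∧ ∀ m < n, F.coeff m = 0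

theorem Mn.ne_zero [Nontrivial R] {F : LaurentSeries R} {n : ℤ} (h : Mn F n) : F ≠ 0 := by
  rintro rfl
  have := h.1
  rw [HahnSeries.coeff_zero] at this
  exact zero_ne_one this

theorem Mn.order [Nontrivial R] {F : LaurentSeries R} {n : ℤ} (h : Mn F n) : F.order = n :=
  order_eq_of (by rw [h.1]; exact one_ne_zero) h.2

theorem coeff_mul_low {F G : LaurentSeries R} {n m : ℤ} (hF : ∀ i < n, F.coeff i = 0)
    (hG : ∀ i < m, G.coeff i = 0) {k : ℤ} (hk : k < n + m) : (F * G).coeff k = 0 := by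
  rw [HahnSeries.coeff_mul]
  refine Finset.sum_eq_zero fun p hp => ?_
  rw [Finset.mem_antidiagonal] at hp
  rcases lt_or_ge p.1 n with h | h
  · rw [hF _ h, zero_mul]
  · rw [hG p.2 (by have := hp.2.2; omega), mul_zero]

theorem coeff_mul_lead {F G : LaurentSeries R} {n m : ℤ} (hF : ∀ i < n, F.coeff i = 0)
    (hG : ∀ i < m, G.coeff i = 0) : (F * G).coeff (n + m) = F.coeff n * G.coeff m := by
  classical
  rw [HahnSeries.coeff_mul]
  rw [Finset.sum_eq_single (n, m)]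
  · intro p hp hne
    rw [Finset.mem_antidiagonal] at hp
    rcases lt_trichotomy p.1 n with h | h | h
    · rw [hF _ h, zero_mul]
    · exfalso
      apply hne
      ext
      · exact h
      · change p.2 = m
        have := hp.2.2
        omega
    · rw [hG p.2 (by have := hp.2.2; omega), mul_zero]
  · intro h
    rw [Finset.mem_antidiagonal] at h
    by_cases h1 : F.coeff n = 0
    · rw [h1, zero_mul]
    · by_cases h2 : G.coeff m = 0
      · rw [h2, mul_zero]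
      · exact absurd ⟨h1, h2, rfl⟩ h

theorem Mn.mul {F G : LaurentSeries R} {n m : ℤ} (hF : Mn F n) (hG : Mn G m) :
    Mn (F * G) (n + m) :=
  ⟨by rw [coeff_mul_lead hF.2 hG.2, hF.1, hG.1, one_mul], fun k hk => coeff_mul_low hF.2 hG.2 hk⟩

theorem Mn.one : Mn (1 : LaurentSeries R) 0 :=
  ⟨by rw [HahnSeries.coeff_one, if_pos rfl], fun m hm => by
    rw [HahnSeries.coeff_one, if_neg hm.ne]⟩

theorem Mn.pow {F : LaurentSeries R} {n : ℤ} (hF : Mn F n) (k : ℕ) : Mn (F ^ k) (k * n) := by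
  induction k with
  | zero => rw [pow_zero, Nat.cast_zero, zero_mul]; exact Mn.one
  | succ k ih =>
    rw [pow_succ]
    convert ih.mul hF using 1
    push_cast
    ring

/-- the exponents are `> n` -/
def Hi (F : LaurentSeries R) (n : ℤ) : Prop := ∀ m ≤ n, F.coeff m = 0

theorem Mn.add_hi {F G : LaurentSeries R} {n : ℤ} (hF : Mn F n) (hG : Hi G n) :
    Mn (F + G) n :=
  ⟨by rw [HahnSeries.coeff_add, hF.1, hG n le_rfl, add_zero], fun m hm => by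
    rw [HahnSeries.coeff_add, hF.2 m hm, hG m hm.le, add_zero]⟩

theorem Mn.sub_hi {F G : LaurentSeries R} {n : ℤ} (hF : Mn F n) (hG : Hi G n) :
    Mn (F - G) n :=
  ⟨by rw [HahnSeries.coeff_sub, hF.1, hG n le_rfl, sub_zero], fun m hm => by
    rw [HahnSeries.coeff_sub, hF.2 m hm, hG m hm.le, sub_zero]⟩

theorem Mn.hi {F : LaurentSeries R} {n m : ℤ} (hF : Mn F n) (h : m < n) : Hi F m :=
  fun k hk => hF.2 k (by omega)

theorem Hi.mono {F : LaurentSeries R} {n m : ℤ} (hF : Hi F n) (h : m ≤ n) : Hi F m :=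
  fun k hk => hF k (by omega)

theorem Hi.add {F G : LaurentSeries R} {n : ℤ} (hF : Hi F n) (hG : Hi G n) : Hi (F + G) n :=
  fun k hk => by rw [HahnSeries.coeff_add, hF k hk, hG k hk, add_zero]

theorem Hi.sub {F G : LaurentSeries R} {n : ℤ} (hF : Hi F n) (hG : Hi G n) : Hi (F - G) n :=
  fun k hk => by rw [HahnSeries.coeff_sub, hF k hk, hG k hk, sub_zero]

theorem coeff_natCast_mul (c : ℕ) (F : LaurentSeries R) (k : ℤ) :
    ((c : LaurentSeries R) * F).coeff k = (c : R) * F.coeff k := by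
  rw [← nsmul_eq_mul, HahnSeries.coeff_nsmul, nsmul_eq_mul]
  rfl

theorem Hi.natCast_mul {F : LaurentSeries R} {n : ℤ} (hF : Hi F n) (c : ℕ) :
    Hi ((c : LaurentSeries R) * F) n := fun k hk => by
  rw [coeff_natCast_mul, hF k hk, mul_zero]

theorem Hi.ofNat_mul {F : LaurentSeries R} {n : ℤ} (hF : Hi F n) (c : ℕ) [c.AtLeastTwo] :
    Hi ((OfNat.ofNat c : LaurentSeries R) * F) n := hF.natCast_mul c

theorem Hi.natCast (c : ℕ) {n : ℤ} (hn : n < 0) : Hi (c : LaurentSeries R) n := by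
  have := (Mn.one (R := R)).hi hn
  have h2 := this.natCast_mul c
  rwa [mul_one] at h2

theorem Hi.ofNat (c : ℕ) [c.AtLeastTwo] {n : ℤ} (hn : n < 0) :
    Hi (OfNat.ofNat c : LaurentSeries R) n := Hi.natCast c hn

theorem Mn.qExpand (N : ℕ) [NeZero N] {F : LaurentSeries R} {n : ℤ} (hF : Mn F n) :
    Mn (qExpand R N F) (N * n) := by
  refine ⟨by rw [qExpand_coeff_mul, hF.1], fun m hm => ?_⟩
  have hN : (0 : ℤ) < N := by exact_mod_cast Nat.pos_of_ne_zero (NeZero.ne N)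
  by_cases hd : (N : ℤ) ∣ m
  · obtain ⟨c, rfl⟩ := hd
    rw [qExpand_coeff_mul]
    exact hF.2 _ (lt_of_mul_lt_mul_left hm hN.le)
  · exact qExpand_coeff_of_not_dvd N F hd

theorem Mn.coeffMap {S : Type*} [CommRing S] (f : R →+* S) {F : LaurentSeries R} {n : ℤ}
    (hF : Mn F n) : Mn (coeffMap f F) n :=
  ⟨by rw [coeffMap_coeff, hF.1, map_one], fun m hm => by
    rw [coeffMap_coeff, hF.2 m hm, map_zero]⟩

theorem Mn.exists_inv {F : LaurentSeries ℤ} {n : ℤ} (hF : Mn F n) :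
    ∃ G : LaurentSeries ℤ, F * G = 1 ∧ Mn G (-n) := by
  have h1 : IsUnit F := by
    rw [HahnSeries.isUnit_iff, HahnSeries.leadingCoeff_eq, hF.order, hF.1]
    exact isUnit_one
  obtain ⟨G, hG⟩ := h1.exists_right_inv
  refine ⟨G, hG, ?_⟩
  have hG0 : G ≠ 0 := right_ne_zero_of_mul_eq_one hG
  have h2 := HahnSeries.order_mul hF.ne_zero hG0
  rw [hG, HahnSeries.order_one, hF.order] at h2
  have h3 : ∀ m < -n, G.coeff m = 0 := fun m hm =>
    HahnSeries.coeff_eq_zero_of_lt_order (by omega)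
  have h4 := coeff_mul_lead hF.2 h3
  rw [hG, hF.1, one_mul, add_neg_cancel, HahnSeries.coeff_one, if_pos rfl] at h4
  exact ⟨h4.symm, h3⟩

end Mn

open Fermat.Agent.H29 (f2 f3 f2_j f2_jr f3_j f3_jr)

theorem mn_f2 : Mn f2 (-1) :=
  ⟨H29.hF_coeff_neg_one 2 (by norm_num) _ H29.constantCoeff_pU2, fun m hm =>
    H29.hF_coeff_of_lt _ _ _ hm⟩

theorem mn_f3 : Mn f3 (-1) :=
  ⟨H29.hF_coeff_neg_one 3 (by norm_num) _ H29.constantCoeff_pU3, fun m hm =>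
    H29.hF_coeff_of_lt _ _ _ hm⟩

/-- `f2(q ^ 2)` -/
def v2 : LaurentSeries ℤ := qExpand ℤ 2 f2

/-- `f3(q ^ 3)` -/
def v3 : LaurentSeries ℤ := qExpand ℤ 3 f3

theorem mn_v2 : Mn v2 (-2) := by
  have := mn_f2.qExpand 2
  unfold v2
  simpa using this

theorem mn_v3 : Mn v3 (-3) := by
  have := mn_f3.qExpand 3
  unfold v3
  simpa using this

theorem qExpand_ofNat (N : ℕ) [NeZero N] (c : ℕ) [c.AtLeastTwo] :
    qExpand ℤ N (OfNat.ofNat c) = OfNat.ofNat c := map_ofNat _ c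

theorem v2_j : qExpand ℤ 2 (jqModC ℤ) * v2 ^ 2 = (v2 + 256) ^ 3 := by
  have := congrArg (qExpand ℤ 2) f2_j
  rwa [map_mul, map_pow, map_pow, map_add, map_ofNat] at this

theorem v2_jr : qExpand ℤ 4 (jqModC ℤ) * v2 = (v2 + 16) ^ 3 := by
  have := congrArg (qExpand ℤ 2) f2_jr
  rw [map_mul, map_pow, map_add, map_ofNat] at this
  rwa [qExpand_qExpand] at this

theorem v3_j : qExpand ℤ 3 (jqModC ℤ) * v3 ^ 3 = (v3 + 27) * (v3 + 243) ^ 3 := by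
  have := congrArg (qExpand ℤ 3) f3_j
  rwa [map_mul, map_mul, map_pow, map_pow, map_add, map_add, map_ofNat, map_ofNat] at this

theorem v3_jr : qExpand ℤ 9 (jqModC ℤ) * v3 = (v3 + 27) * (v3 + 3) ^ 3 := by
  have := congrArg (qExpand ℤ 3) f3_jr
  rw [map_mul, map_mul, map_pow, map_add, map_add, map_ofNat, map_ofNat] at this
  rwa [qExpand_qExpand] at this

theorem e4_rel : v2 ^ 2 = f2 * (f2 + 48) * v2 + 4096 * f2 := by
  have h1 : (f2 + 16) ^ 3 * v2 ^ 2 = (v2 + 256) ^ 3 * f2 := by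
    rw [← f2_jr, ← v2_j]; ring
  have h2 : (f2 * v2 - 4096) * (f2 * (f2 + 48) * v2 + 4096 * f2 - v2 ^ 2) = 0 := by
    linear_combination h1
  have h3 : Mn (f2 * v2 - 4096) (-3) :=
    (mn_f2.mul mn_v2).sub_hi (Hi.ofNat 4096 (by norm_num))
  rcases mul_eq_zero.mp h2 with h | h
  · exact absurd h h3.ne_zero
  · linear_combination -h

theorem e9_rel : -v3 ^ 3 + v3 ^ 2 * f3 ^ 3 + 36 * v3 ^ 2 * f3 ^ 2 + 270 * v3 ^ 2 * f3 +
    729 * v3 * f3 ^ 2 + 26244 * v3 * f3 + 531441 * f3 = 0 := by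
  have h1 : (f3 + 27) * (f3 + 3) ^ 3 * v3 ^ 3 = (v3 + 27) * (v3 + 243) ^ 3 * f3 := by
    rw [← f3_jr, ← v3_j]; ring
  have h2 : (f3 * v3 - 729) * (-v3 ^ 3 + v3 ^ 2 * f3 ^ 3 + 36 * v3 ^ 2 * f3 ^ 2 +
      270 * v3 ^ 2 * f3 + 729 * v3 * f3 ^ 2 + 26244 * v3 * f3 + 531441 * f3) = 0 := by
    linear_combination h1
  have h3 : Mn (f3 * v3 - 729) (-4) :=
    (mn_f3.mul mn_v3).sub_hi (Hi.ofNat 729 (by norm_num))
  exact (mul_eq_zero.mp h2).resolve_left h3.ne_zero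

/-! ### level 4 -/

theorem exists_t4 : ∃ t : LaurentSeries ℤ, t * (f2 + 16) = v2 - 16 * f2 ∧ Mn t (-1) := by
  have h1 : Mn (f2 + 16) (-1) := mn_f2.add_hi (Hi.ofNat 16 (by norm_num))
  have h2 : Mn (v2 - 16 * f2) (-2) := mn_v2.sub_hi ((mn_f2.hi (by norm_num)).ofNat_mul 16)
  obtain ⟨G, hG, hG2⟩ := h1.exists_inv
  refine ⟨(v2 - 16 * f2) * G, ?_, ?_⟩
  · rw [mul_assoc, mul_comm G, hG, mul_one]
  · have := h2.mul hG2
    norm_num at this
    exact this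

/-- the hauptmodul `(η(z) / η(4z)) ^ 8` of level 4 -/
def t4 : LaurentSeries ℤ := exists_t4.choose

theorem t4_spec : t4 * (f2 + 16) = v2 - 16 * f2 := exists_t4.choose_spec.1

theorem mn_t4 : Mn t4 (-1) := exists_t4.choose_spec.2

theorem f2_add_ne : f2 + 16 ≠ 0 := (mn_f2.add_hi (Hi.ofNat 16 (by norm_num))).ne_zero

theorem t4_u : f2 * (t4 + 16) = t4 ^ 2 := by
  have h := t4_spec
  have h2 : (f2 + 16) ^ 2 * (f2 * (t4 + 16)) = (f2 + 16) ^ 2 * t4 ^ 2 := by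
    linear_combination ((f2 + 16) * f2 - t4 * (f2 + 16) - v2 + 16 * f2) * h - e4_rel
  exact mul_left_cancel₀ (pow_ne_zero 2 f2_add_ne) h2

theorem t4_v : t4 * (t4 + 16) = v2 := by
  have h := t4_spec
  have h2 : (f2 + 16) ^ 2 * (t4 * (t4 + 16)) = (f2 + 16) ^ 2 * v2 := by
    linear_combination (t4 * (f2 + 16) + v2 - 16 * f2 + 16 * (f2 + 16)) * h + e4_rel
  exact mul_left_cancel₀ (pow_ne_zero 2 f2_add_ne) h2

theorem t4_add_ne : t4 + 16 ≠ 0 := (mn_t4.add_hi (Hi.ofNat 16 (by norm_num))).ne_zero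

theorem t4_ne : t4 ≠ 0 := mn_t4.ne_zero

theorem t4_j1 : jqModC ℤ * (t4 ^ 4 * (t4 + 16)) = (t4 ^ 2 + 256 * t4 + 4096) ^ 3 := by
  have h := f2_j
  have hu := t4_u
  calc jqModC ℤ * (t4 ^ 4 * (t4 + 16)) = (t4 + 16) * jqModC ℤ * (t4 ^ 2) ^ 2 := by ring
    _ = (t4 + 16) ^ 3 * (jqModC ℤ * f2 ^ 2) := by rw [← hu]; ring
    _ = (f2 * (t4 + 16) + 256 * (t4 + 16)) ^ 3 := by rw [h]; ring
    _ = _ := by rw [hu]; ring

theorem t4_j2 : qExpand ℤ 2 (jqModC ℤ) * (t4 ^ 2 * (t4 + 16) ^ 2) =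
    (t4 ^ 2 + 16 * t4 + 256) ^ 3 := by
  have h := f2_jr
  have hu := t4_u
  calc qExpand ℤ 2 (jqModC ℤ) * (t4 ^ 2 * (t4 + 16) ^ 2)
      = (t4 + 16) ^ 3 * (qExpand ℤ 2 (jqModC ℤ) * f2) := by rw [← hu]; ring
    _ = (f2 * (t4 + 16) + 16 * (t4 + 16)) ^ 3 := by rw [h]; ring
    _ = _ := by rw [hu]; ring

theorem t4_j4 : qExpand ℤ 4 (jqModC ℤ) * (t4 * (t4 + 16)) =
    (t4 ^ 2 + 16 * t4 + 16) ^ 3 := by
  have h := v2_jr
  have hv := t4_v
  rw [← hv] at h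
  rw [h]; ring

/-! ### level 9 -/

theorem exists_t9 : ∃ t : LaurentSeries ℤ,
    t * (v3 ^ 2 + 54 * f3 * v3 + 486 * v3 + 19683) = v3 * ((v3 - 243) * (f3 + 9) + 2916) ∧
      Mn t (-1) := by
  have h1 : Mn (v3 ^ 2 + 54 * f3 * v3 + 486 * v3 + 19683) (-6) := by
    have a1 : Mn (v3 ^ 2) (-6) := by
      have := mn_v3.pow 2
      norm_num at this
      exact this
    have a2 : Mn (f3 * v3) (-4) := by
      have := mn_f3.mul mn_v3
      norm_num at this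
      exact this
    refine ((a1.add_hi ?_).add_hi ?_).add_hi ?_
    · rw [mul_assoc]
      exact (a2.hi (by norm_num)).ofNat_mul 54
    · exact (mn_v3.hi (by norm_num)).ofNat_mul 486
    · exact Hi.ofNat 19683 (by norm_num)
  have h2 : Mn (v3 * ((v3 - 243) * (f3 + 9) + 2916)) (-7) := by
    have a1 : Mn (v3 - 243) (-3) := mn_v3.sub_hi (Hi.ofNat 243 (by norm_num))
    have a2 : Mn (f3 + 9) (-1) := mn_f3.add_hi (Hi.ofNat 9 (by norm_num))
    have a3 : Mn ((v3 - 243) * (f3 + 9) + 2916) (-4) :=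
      (a1.mul a2).add_hi (Hi.ofNat 2916 (by norm_num))
    exact mn_v3.mul a3
  obtain ⟨G, hG, hG2⟩ := h1.exists_inv
  refine ⟨v3 * ((v3 - 243) * (f3 + 9) + 2916) * G, ?_, ?_⟩
  · rw [mul_assoc, mul_comm G, hG, mul_one]
  · have := h2.mul hG2
    norm_num at this
    exact this

/-- the hauptmodul `(η(z) / η(9z)) ^ 3` of level 9 -/
def t9 : LaurentSeries ℤ := exists_t9.choose

theorem t9_spec : t9 * (v3 ^ 2 + 54 * f3 * v3 + 486 * v3 + 19683) =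
    v3 * ((v3 - 243) * (f3 + 9) + 2916) := exists_t9.choose_spec.1

theorem mn_t9 : Mn t9 (-1) := exists_t9.choose_spec.2

theorem d9_ne : v3 ^ 2 + 54 * f3 * v3 + 486 * v3 + 19683 ≠ 0 := by
  intro h
  have h1 := t9_spec
  rw [h, mul_zero] at h1
  have a1 : Mn (v3 - 243) (-3) := mn_v3.sub_hi (Hi.ofNat 243 (by norm_num))
  have a2 : Mn (f3 + 9) (-1) := mn_f3.add_hi (Hi.ofNat 9 (by norm_num))
  have a3 : Mn ((v3 - 243) * (f3 + 9) + 2916) (-4) :=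
    (a1.mul a2).add_hi (Hi.ofNat 2916 (by norm_num))
  exact (mn_v3.mul a3).ne_zero h1.symm

theorem t9_u : f3 * (t9 ^ 2 + 9 * t9 + 27) = t9 ^ 3 := by
  have h := t9_spec
  set D := v3 ^ 2 + 54 * f3 * v3 + 486 * v3 + 19683 with hD
  set N := v3 * ((v3 - 243) * (f3 + 9) + 2916) with hN
  have h1 : f3 * (N ^ 2 * D + 9 * N * D ^ 2 + 27 * D ^ 3) - N ^ 3 = 0 := by
    rw [hD, hN]
    linear_combination (54 * v3 ^ 3 * f3 + 729 * v3 ^ 3 + 177147 * v3 ^ 2 + 1062882 * v3 * f3 +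
      14348907 * v3 + 387420489) * e9_rel
  have h2 : D ^ 3 * (f3 * (t9 ^ 2 + 9 * t9 + 27)) = D ^ 3 * t9 ^ 3 := by
    rw [← h] at h1
    linear_combination h1
  exact mul_left_cancel₀ (pow_ne_zero 3 d9_ne) h2

theorem t9_v : t9 * (t9 ^ 2 + 9 * t9 + 27) = v3 := by
  have h := t9_spec
  set D := v3 ^ 2 + 54 * f3 * v3 + 486 * v3 + 19683 with hD
  set N := v3 * ((v3 - 243) * (f3 + 9) + 2916) with hN
  have h1 : N ^ 3 + 9 * N ^ 2 * D + 27 * N * D ^ 2 - v3 * D ^ 3 = 0 := by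
    rw [hD, hN]
    linear_combination (v3 ^ 4 - 243 * v3 ^ 3 - 137781 * v3 ^ 2 - 4782969 * v3) * e9_rel
  have h2 : D ^ 3 * (t9 * (t9 ^ 2 + 9 * t9 + 27)) = D ^ 3 * v3 := by
    rw [← h] at h1
    linear_combination h1
  exact mul_left_cancel₀ (pow_ne_zero 3 d9_ne) h2

theorem t9_j1 : jqModC ℤ * (t9 ^ 9 * (t9 ^ 2 + 9 * t9 + 27)) =
    ((t9 + 9) * (t9 ^ 3 + 243 * t9 ^ 2 + 2187 * t9 + 6561)) ^ 3 := by
  have h := f3_j
  have hu := t9_u
  calc jqModC ℤ * (t9 ^ 9 * (t9 ^ 2 + 9 * t9 + 27))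
      = jqModC ℤ * ((t9 ^ 3) ^ 3 * (t9 ^ 2 + 9 * t9 + 27)) := by ring
    _ = (t9 ^ 2 + 9 * t9 + 27) ^ 4 * (jqModC ℤ * f3 ^ 3) := by rw [← hu]; ring
    _ = (f3 * (t9 ^ 2 + 9 * t9 + 27) + 27 * (t9 ^ 2 + 9 * t9 + 27)) *
          (f3 * (t9 ^ 2 + 9 * t9 + 27) + 243 * (t9 ^ 2 + 9 * t9 + 27)) ^ 3 := by rw [h]; ring
    _ = _ := by rw [hu]; ring

theorem t9_j3 : qExpand ℤ 3 (jqModC ℤ) * (t9 ^ 3 * (t9 ^ 2 + 9 * t9 + 27) ^ 3) =
    ((t9 + 9) * (t9 ^ 3 + 3 * t9 ^ 2 + 27 * t9 + 81)) ^ 3 := by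
  have h := f3_jr
  have hu := t9_u
  calc qExpand ℤ 3 (jqModC ℤ) * (t9 ^ 3 * (t9 ^ 2 + 9 * t9 + 27) ^ 3)
      = (t9 ^ 2 + 9 * t9 + 27) ^ 4 * (qExpand ℤ 3 (jqModC ℤ) * f3) := by rw [← hu]; ring
    _ = (f3 * (t9 ^ 2 + 9 * t9 + 27) + 27 * (t9 ^ 2 + 9 * t9 + 27)) *
          (f3 * (t9 ^ 2 + 9 * t9 + 27) + 3 * (t9 ^ 2 + 9 * t9 + 27)) ^ 3 := by rw [h]; ring
    _ = _ := by rw [hu]; ring

theorem t9_j9 : qExpand ℤ 9 (jqModC ℤ) * (t9 * (t9 ^ 2 + 9 * t9 + 27)) =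
    ((t9 + 3) * (t9 ^ 3 + 9 * t9 ^ 2 + 27 * t9 + 3)) ^ 3 := by
  have h := v3_jr
  have hv := t9_v
  rw [← hv] at h
  rw [h]; ring

end Fermat.Agent.Igusa
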