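import Mathlib
import Fermat.Agent.Igusa.Degree3
import Fermat.Agent.Igusa.Haupt

/-!
# The function fields of `X₀(4)` and `X₀(9)` are generated by the hauptmodul
-/

set_option autoImplicit false
set_option linter.unusedSectionVars false

noncomputable section

open ModularCurve Polynomial

namespace Fermat.Agent.Igusa

/-- monic of given degree -/
def MD {R : Type*} [CommRing R] (p : R[X]) (d : ℕ) : Prop := p.Monic ∧ p.natDegree = d

theorem MD.mul {R : Type*} [CommRing R] {p q : R[X]} {d e : ℕ} (hp : MD p d) (hq : MD q e) :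
    MD (p * q) (d + e) :=
  ⟨hp.1.mul hq.1, by rw [hp.1.natDegree_mul hq.1, hp.2, hq.2]⟩

theorem MD.pow {R : Type*} [CommRing R] {p : R[X]} {d : ℕ} (hp : MD p d) (n : ℕ) :
    MD (p ^ n) (n * d) :=
  ⟨hp.1.pow n, by rw [hp.1.natDegree_pow, hp.2]⟩

theorem MD.X {R : Type*} [CommRing R] [Nontrivial R] : MD (X : R[X]) 1 := ⟨monic_X, natDegree_X⟩

theorem MD.congr {R : Type*} [CommRing R] {p : R[X]} {d e : ℕ} (hp : MD p d) (h : d = e) :
    MD p e := h ▸ hp

theorem MD.map {R S : Type*} [CommRing R] [CommRing S] [Nontrivial S] {p : R[X]} {d : ℕ}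
    (hp : MD p d) (f : R →+* S) : MD (p.map f) d :=
  ⟨hp.1.map f, by rw [hp.1.natDegree_map, hp.2]⟩

/-- A hauptmodul of level `r`. -/
structure HData (r : ℕ) where
  t : LaurentSeries ℤ
  mn : Mn t (-1)
  U : ℕ → ℤ[X]
  W : ℕ → ℤ[X]
  a : ℕ → ℕ
  b : ℕ → ℕ
  hU : ∀ d, d ∣ r → MD (U d) (a d)
  hW : ∀ d, d ∣ r → MD (W d) (b d)
  hlt : ∀ d, d ∣ r → b d < a d
  hjd : ∀ d [NeZero d], d ∣ r → qExpand ℤ d (jqModC ℤ) * evZ t (W d) = evZ t (U d)
  degU : a 1 = dedekindPsi r
  /-- the numerator of `j` is a cube -/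
  P : ℤ[X]
  U_one : U 1 = P ^ 3
  /-- the polynomial of the finite cusps -/
  c : ℤ[X]
  κ : ℕ
  hc : MD c κ
  hWc : ∀ d, d ∣ r → ∃ e, W d ∣ c ^ e
  hcW : ∀ d, d ∣ r → c ∣ W d
  m : ℤ[X]
  hm : derivative (W 1) * c = W 1 * m
  hn : P ^ 3 - 1728 * W 1 = (3 * derivative P * c - P * m) ^ 2

namespace HData

variable {r : ℕ} (D : HData r)

/-- the hauptmodul over `R` -/
def tq (R : Type*) [CommRing R] : LaurentSeries R := coeffMap (Int.castRingHom R) D.t

theorem coeffMap_tq {R S : Type*} [CommRing R] [CommRing S] (f : R →+* S) :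
    coeffMap f (D.tq R) = D.tq S := by
  rw [tq, tq, coeffMap_coeffMap]
  congr 2
  exact Subsingleton.elim _ _

theorem mn_tq (R : Type*) [CommRing R] : Mn (D.tq R) (-1) := D.mn.coeffMap _

theorem jd_mul (R : Type*) [CommRing R] (d : ℕ) [NeZero d] (hd : d ∣ r) :
    jd R d * evZ (D.tq R) (D.W d) = evZ (D.tq R) (D.U d) := by
  have h := congrArg (coeffMap (Int.castRingHom R)) (D.hjd d hd)
  rw [map_mul, ringHom_evZ, ringHom_evZ] at h
  have h2 : coeffMap (Int.castRingHom R) (qExpand ℤ d (jqModC ℤ)) = jd R d :=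
    coeffMap_jd (Int.castRingHom R) d
  rw [h2] at h
  exact h

section Field

variable (K : Type*) [Field K]

theorem evZ_mem {A : IntermediateField K (LaurentSeries K)} {x : LaurentSeries K} (hx : x ∈ A)
    (p : ℤ[X]) : evZ x p ∈ A := by
  rw [evZ_apply, eval₂_eq_sum_range]
  exact sum_mem fun i _ => mul_mem (by simp) (pow_mem hx i)

theorem mn_evZ {R : Type*} [CommRing R] {x : LaurentSeries R} {n : ℤ} (hn : n < 0) (hx : Mn x n)
    {p : ℤ[X]} {d : ℕ} (hp : MD p d) : Mn (evZ x p) (d * n) := by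
  have h1 : evZ x p = x ^ d + ∑ i ∈ Finset.range d, ((p.coeff i : ℤ) : LaurentSeries R) * x ^ i := by
    rw [evZ_apply, eval₂_eq_sum_range, Finset.sum_range_succ, hp.2, add_comm]
    have : p.coeff d = 1 := by rw [← hp.2]; exact hp.1
    rw [this, map_one, one_mul]
    simp only [eq_intCast]
  rw [h1]
  refine (hx.pow d).add_hi ?_
  intro k hk
  have h2 : ∀ (i : ℕ), i < d → (x ^ i).coeff k = 0 := fun i hi => by
    refine (hx.pow i).2 k (lt_of_le_of_lt hk ?_)
    have : (i : ℤ) < d := by exact_mod_cast hi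
    nlinarith
  have h3 : (∑ i ∈ Finset.range d, ((p.coeff i : ℤ) : LaurentSeries R) * x ^ i).coeff k =
      ∑ i ∈ Finset.range d, (((p.coeff i : ℤ) : LaurentSeries R) * x ^ i).coeff k :=
    HahnSeries.coeff_sum k
  rw [h3]
  refine Finset.sum_eq_zero fun i hi => ?_
  have h4 : (((p.coeff i : ℤ) : LaurentSeries R) * x ^ i).coeff k =
      ((p.coeff i : ℤ) : R) * (x ^ i).coeff k := by
    rw [← zsmul_eq_mul, ← zsmul_eq_mul]
    exact map_zsmul (HahnSeries.coeff.addMonoidHom k) _ _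
  rw [h4, h2 i (Finset.mem_range.mp hi), mul_zero]

theorem W_ne {d : ℕ} (hd : d ∣ r) : evZ (D.tq K) (D.W d) ≠ 0 :=
  (mn_evZ (by norm_num) (D.mn_tq K) (D.hW d hd)).ne_zero

theorem jd_mem {d : ℕ} [NeZero d] (hd : d ∣ r) :
    jd K d ∈ IntermediateField.adjoin K {D.tq K} := by
  have ht := IntermediateField.mem_adjoin_simple_self K (D.tq K)
  have h := D.jd_mul K d hd
  rw [← eq_div_iff (D.W_ne K hd)] at h
  rw [h]
  exact div_mem (evZ_mem K ht _) (evZ_mem K ht _)

theorem full_le : modularFunctionFieldFullC K r ≤ IntermediateField.adjoin K {D.tq K} := by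
  rw [modularFunctionFieldFullC, IntermediateField.adjoin_le_iff]
  rintro x ⟨d, hne, hd, rfl⟩
  exact D.jd_mem K hd

theorem adjoin_eq_adj [NeZero r] :
    adj (modularFunctionFieldFullC K 1) (D.tq K) = IntermediateField.adjoin K {D.tq K} := by
  apply le_antisymm
  · refine adj_le ?_ (IntermediateField.mem_adjoin_simple_self K _)
    refine le_trans ?_ (D.full_le K)
    exact full_degeneracyC_le K (one_dvd r)
  · rw [IntermediateField.adjoin_simple_le_iff]
    exact mem_adj _ _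

/-- **The function field of level `r` is generated by the hauptmodul.** -/
theorem full_eq (hK : (r : K) ≠ 0) :
    modularFunctionFieldFullC K r = IntermediateField.adjoin K {D.tq K} := by
  have hr0 : r ≠ 0 := by rintro rfl; exact hK Nat.cast_zero
  have : NeZero r := ⟨hr0⟩
  apply le_antisymm (D.full_le K)
  have h1 := relrank_full (k := K) r hK
  have h2 := IntermediateField.relrank_mul_relrank
    (full_degeneracyC_le K (one_dvd r)) (D.full_le K)
  rw [h1, ← D.adjoin_eq_adj] at h2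
  set A := modularFunctionFieldFullC K 1 with hA
  have hj : jd K 1 ∈ A := jd_mem_full (dvd_refl 1)
  set y : A := ⟨jd K 1, hj⟩ with hy
  set p : A[X] := (D.U 1).map (Int.castRingHom A) - C y * (D.W 1).map (Int.castRingHom A) with hp
  have hdW : (C y * (D.W 1).map (Int.castRingHom A)).degree <
      ((D.U 1).map (Int.castRingHom A)).degree := by
    have hU := (D.hU 1 (one_dvd r)).map (Int.castRingHom A)
    have hW := (D.hW 1 (one_dvd r)).map (Int.castRingHom A)
    have hlt := D.hlt 1 (one_dvd r)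
    refine lt_of_le_of_lt ((degree_mul_le _ _).trans (add_le_add_left degree_C_le _)) ?_
    rw [zero_add, degree_eq_natDegree hW.1.ne_zero, degree_eq_natDegree hU.1.ne_zero, hW.2, hU.2]
    exact_mod_cast hlt
  have hpm : p.Monic := (D.hU 1 (one_dvd r)).1.map _ |>.sub_of_left hdW
  have hpd : p.natDegree = dedekindPsi r := by
    rw [natDegree_eq_of_degree_eq (degree_sub_eq_left_of_degree_lt hdW),
      ((D.hU 1 (one_dvd r)).map (Int.castRingHom A)).2, D.degU]
  have haev : ∀ q : ℤ[X], aeval (D.tq K) (q.map (Int.castRingHom A)) = evZ (D.tq K) q := by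
    intro q
    rw [aeval_def, eval₂_map, evZ_apply]
    congr 1
  have hp0 : aeval (D.tq K) p = 0 := by
    rw [hp, map_sub, map_mul, haev, haev, aeval_C]
    have : algebraMap A (LaurentSeries K) y = jd K 1 := rfl
    rw [this, D.jd_mul K 1 (one_dvd r), sub_self]
  have hint : IsIntegral A (D.tq K) := ⟨p, hpm, hp0⟩
  have h3 := relrank_adj A hint
  have h4 : (minpoly A (D.tq K)).natDegree ≤ dedekindPsi r := by
    rw [← hpd]
    exact natDegree_le_natDegree (minpoly.min A _ hpm hp0)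
  rw [h3] at h2
  have h5 : (modularFunctionFieldFullC K r).relrank (adj A (D.tq K)) = 1 := by
    have hpos := dedekindPsi_pos hr0
    set ρ := (modularFunctionFieldFullC K r).relrank (adj A (D.tq K)) with hρ
    have h6 : (dedekindPsi r : Cardinal) * ρ ≤ dedekindPsi r := by
      rw [h2]; exact_mod_cast h4
    have h7 : ρ < Cardinal.aleph0 := by
      by_contra hcon
      push Not at hcon
      have h8 : Cardinal.aleph0 ≤ (dedekindPsi r : Cardinal) * ρ := by
        calc Cardinal.aleph0 ≤ ρ := hcon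
          _ = 1 * ρ := (one_mul _).symm
          _ ≤ _ := mul_le_mul_left (by exact_mod_cast hpos) _
      exact absurd (h8.trans h6) (not_le.mpr (Cardinal.natCast_lt_aleph0))
    obtain ⟨n, hn⟩ := Cardinal.lt_aleph0.mp h7
    rw [hn] at h6 h2 ⊢
    have h9 : dedekindPsi r * n ≤ dedekindPsi r := by exact_mod_cast h6
    have h10 : n ≤ 1 := by
      by_contra hcon
      push Not at hcon
      nlinarith
    have h11 : n ≠ 0 := by
      rintro rfl
      rw [Nat.cast_zero, mul_zero] at h2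
      have h12 : (minpoly A (D.tq K)).natDegree = 0 := by exact_mod_cast h2.symm
      exact (minpoly.natDegree_pos hint).ne' h12
    have h13 : n = 1 := by omega
    rw [h13, Nat.cast_one]
  rw [D.adjoin_eq_adj] at h5
  exact IntermediateField.relrank_eq_one_iff.mp h5

theorem tq_mem (hK : (r : K) ≠ 0) : D.tq K ∈ modularFunctionFieldFullC K r := by
  rw [D.full_eq K hK]
  exact IntermediateField.mem_adjoin_simple_self K _

end Field

end HData

/-! ### the two examples -/

theorem md4_1 : MD ((X ^ 2 + 256 * X + 4096 : ℤ[X])) 2 :=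
  ⟨by monicity!, by compute_degree!⟩

theorem md4_2 : MD ((X ^ 2 + 16 * X + 256 : ℤ[X])) 2 :=
  ⟨by monicity!, by compute_degree!⟩

theorem md4_4 : MD ((X ^ 2 + 16 * X + 16 : ℤ[X])) 2 :=
  ⟨by monicity!, by compute_degree!⟩

theorem md4_c : MD ((X + 16 : ℤ[X])) 1 :=
  ⟨by monicity!, by compute_degree!⟩

theorem md9_a : MD ((X + 9 : ℤ[X])) 1 :=
  ⟨by monicity!, by compute_degree!⟩

theorem md9_b : MD ((X + 3 : ℤ[X])) 1 :=
  ⟨by monicity!, by compute_degree!⟩

theorem md9_1 : MD ((X ^ 3 + 243 * X ^ 2 + 2187 * X + 6561 : ℤ[X])) 3 :=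
  ⟨by monicity!, by compute_degree!⟩

theorem md9_3 : MD ((X ^ 3 + 3 * X ^ 2 + 27 * X + 81 : ℤ[X])) 3 :=
  ⟨by monicity!, by compute_degree!⟩

theorem md9_9 : MD ((X ^ 3 + 9 * X ^ 2 + 27 * X + 3 : ℤ[X])) 3 :=
  ⟨by monicity!, by compute_degree!⟩

theorem md9_c : MD ((X ^ 2 + 9 * X + 27 : ℤ[X])) 2 :=
  ⟨by monicity!, by compute_degree!⟩

theorem dvd_four {d : ℕ} (hd : d ∣ 4) : d = 1 ∨ d = 2 ∨ d = 4 := by
  have := Nat.le_of_dvd (by norm_num) hd
  interval_cases d <;> simp_all

theorem dvd_nine {d : ℕ} (hd : d ∣ 9) : d = 1 ∨ d = 3 ∨ d = 9 := by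
  have := Nat.le_of_dvd (by norm_num) hd
  interval_cases d <;> simp_all

/-- numerators at level 4 -/
def U4 : ℕ → ℤ[X]
  | 1 => (X ^ 2 + 256 * X + 4096) ^ 3
  | 2 => (X ^ 2 + 16 * X + 256) ^ 3
  | _ => (X ^ 2 + 16 * X + 16) ^ 3

/-- denominators at level 4 -/
def W4 : ℕ → ℤ[X]
  | 1 => X ^ 4 * (X + 16)
  | 2 => X ^ 2 * (X + 16) ^ 2
  | _ => X * (X + 16)

/-- degrees -/
def b4 : ℕ → ℕ
  | 1 => 5
  | 2 => 4
  | _ => 2

/-- numerators at level 9 -/
def U9 : ℕ → ℤ[X]
  | 1 => ((X + 9) * (X ^ 3 + 243 * X ^ 2 + 2187 * X + 6561)) ^ 3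
  | 3 => ((X + 9) * (X ^ 3 + 3 * X ^ 2 + 27 * X + 81)) ^ 3
  | _ => ((X + 3) * (X ^ 3 + 9 * X ^ 2 + 27 * X + 3)) ^ 3

/-- denominators at level 9 -/
def W9 : ℕ → ℤ[X]
  | 1 => X ^ 9 * (X ^ 2 + 9 * X + 27)
  | 3 => X ^ 3 * (X ^ 2 + 9 * X + 27) ^ 3
  | _ => X * (X ^ 2 + 9 * X + 27)

/-- degrees -/
def b9 : ℕ → ℕ
  | 1 => 11
  | 3 => 9
  | _ => 3

theorem psi_four : dedekindPsi 4 = 6 := by decide +kernel

theorem psi_nine : dedekindPsi 9 = 12 := by decide +kernel

/-- The hauptmodul of level 4. -/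
def H4 : HData 4 where
  t := t4
  mn := mn_t4
  U := U4
  W := W4
  a := fun _ => 6
  b := b4
  hU := fun d hd => by
    rcases dvd_four hd with rfl | rfl | rfl
    · exact md4_1.pow 3
    · exact md4_2.pow 3
    · exact md4_4.pow 3
  hW := fun d hd => by
    rcases dvd_four hd with rfl | rfl | rfl
    · exact (MD.X.pow 4).mul md4_c
    · exact (MD.X.pow 2).mul (md4_c.pow 2)
    · exact MD.X.mul md4_c
  hlt := fun d hd => by
    rcases dvd_four hd with rfl | rfl | rfl <;> simp [b4]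
  hjd := fun d _ hd => by
    rcases dvd_four hd with rfl | rfl | rfl
    · simp only [W4, U4, map_mul, map_pow, map_add, map_ofNat, evZ_X]
      rw [qExpand_one_apply]
      exact t4_j1
    · simp only [W4, U4, map_mul, map_pow, map_add, map_ofNat, evZ_X]
      exact t4_j2
    · simp only [W4, U4, map_mul, map_pow, map_add, map_ofNat, evZ_X]
      exact t4_j4
  degU := psi_four.symm
  P := X ^ 2 + 256 * X + 4096
  U_one := rfl
  c := X * (X + 16)
  κ := 2
  hc := MD.X.mul md4_c
  hWc := fun d hd => by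
    refine ⟨4, ?_⟩
    rcases dvd_four hd with rfl | rfl | rfl
    · exact ⟨(X + 16) ^ 3, by simp only [W4]; ring⟩
    · exact ⟨X ^ 2 * (X + 16) ^ 2, by simp only [W4]; ring⟩
    · exact ⟨X ^ 3 * (X + 16) ^ 3, by simp only [W4]; ring⟩
  hcW := fun d hd => by
    rcases dvd_four hd with rfl | rfl | rfl
    · exact ⟨X ^ 3, by simp only [W4]; ring⟩
    · exact ⟨X * (X + 16), by simp only [W4]; ring⟩
    · exact ⟨1, by simp only [W4]; ring⟩
  m := 5 * X + 64
  hm := by
    simp only [W4, derivative_mul, derivative_X_pow, derivative_add, derivative_X,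
      derivative_ofNat]
    simp
    ring
  hn := by
    simp only [W4, derivative_mul, derivative_X_pow, derivative_add, derivative_X,
      derivative_ofNat]
    simp
    ring

/-- The hauptmodul of level 9. -/
def H9 : HData 9 where
  t := t9
  mn := mn_t9
  U := U9
  W := W9
  a := fun _ => 12
  b := b9
  hU := fun d hd => by
    rcases dvd_nine hd with rfl | rfl | rfl
    · exact (md9_a.mul md9_1).pow 3
    · exact (md9_a.mul md9_3).pow 3
    · exact (md9_b.mul md9_9).pow 3
  hW := fun d hd => by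
    rcases dvd_nine hd with rfl | rfl | rfl
    · exact (MD.X.pow 9).mul md9_c
    · exact (MD.X.pow 3).mul (md9_c.pow 3)
    · exact MD.X.mul md9_c
  hlt := fun d hd => by
    rcases dvd_nine hd with rfl | rfl | rfl <;> simp [b9]
  hjd := fun d _ hd => by
    rcases dvd_nine hd with rfl | rfl | rfl
    · simp only [W9, U9, map_mul, map_pow, map_add, map_ofNat, evZ_X]
      rw [qExpand_one_apply]
      exact t9_j1
    · simp only [W9, U9, map_mul, map_pow, map_add, map_ofNat, evZ_X]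
      exact t9_j3
    · simp only [W9, U9, map_mul, map_pow, map_add, map_ofNat, evZ_X]
      exact t9_j9
  degU := psi_nine.symm
  P := (X + 9) * (X ^ 3 + 243 * X ^ 2 + 2187 * X + 6561)
  U_one := rfl
  c := X * (X ^ 2 + 9 * X + 27)
  κ := 3
  hc := MD.X.mul md9_c
  hWc := fun d hd => by
    refine ⟨9, ?_⟩
    rcases dvd_nine hd with rfl | rfl | rfl
    · exact ⟨(X ^ 2 + 9 * X + 27) ^ 8, by simp only [W9]; ring⟩
    · exact ⟨X ^ 6 * (X ^ 2 + 9 * X + 27) ^ 6, by simp only [W9]; ring⟩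
    · exact ⟨X ^ 8 * (X ^ 2 + 9 * X + 27) ^ 8, by simp only [W9]; ring⟩
  hcW := fun d hd => by
    rcases dvd_nine hd with rfl | rfl | rfl
    · exact ⟨X ^ 8, by simp only [W9]; ring⟩
    · exact ⟨X ^ 2 * (X ^ 2 + 9 * X + 27) ^ 2, by simp only [W9]; ring⟩
    · exact ⟨1, by simp only [W9]; ring⟩
  m := 11 * X ^ 2 + 90 * X + 243
  hm := by
    simp only [W9, derivative_mul, derivative_X_pow, derivative_add, derivative_X,
      derivative_ofNat]
    simp
    ring
  hn := by
    simp only [W9, derivative_mul, derivative_X_pow, derivative_add, derivative_X,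
      derivative_ofNat]
    simp
    ring

end Fermat.Agent.Igusa
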