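import Mathlib
import Fermat.Agent.Igusa.HauptField
import Fermat.Agent.Q.Frobenius

/-!
# The derivation `q d/dq` on Laurent series
-/

set_option autoImplicit false
set_option linter.unusedSectionVars false

noncomputable section

open ModularCurve Polynomial

namespace Fermat.Agent.Igusa

section Theta

variable {R : Type*} [CommRing R]

/-- `q d/dq` -/
def thetaFun (F : LaurentSeries R) : LaurentSeries R where
  coeff n := (n : R) * F.coeff n
  isPWO_support' := F.isPWO_support.mono fun n hn h => hn (by
    change (n : R) * F.coeff n = 0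
    rw [h, mul_zero])

theorem thetaFun_coeff (F : LaurentSeries R) (n : ℤ) :
    (thetaFun F).coeff n = (n : R) * F.coeff n := rfl

theorem thetaFun_mul (F G : LaurentSeries R) :
    thetaFun (F * G) = F * thetaFun G + G * thetaFun F := by
  rw [mul_comm G]
  ext n
  rw [thetaFun_coeff, HahnSeries.coeff_add]
  set s : Finset ℤ := mulSupp F G n ∪ mulSupp F (thetaFun G) n ∪ mulSupp (thetaFun F) G n with hs
  rw [coeff_mul_eq_sum_of_subset F G n s (by
      rw [hs]; exact Finset.subset_union_left.trans Finset.subset_union_left),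
    coeff_mul_eq_sum_of_subset F (thetaFun G) n s (by
      rw [hs]; exact Finset.subset_union_right.trans Finset.subset_union_left),
    coeff_mul_eq_sum_of_subset (thetaFun F) G n s (by
      rw [hs]; exact Finset.subset_union_right), ← Finset.sum_add_distrib, Finset.mul_sum]
  refine Finset.sum_congr rfl fun m _ => ?_
  rw [thetaFun_coeff, thetaFun_coeff]
  push_cast
  ring

theorem thetaFun_add (F G : LaurentSeries R) : thetaFun (F + G) = thetaFun F + thetaFun G := by
  ext n
  rw [HahnSeries.coeff_add, thetaFun_coeff, thetaFun_coeff, thetaFun_coeff, HahnSeries.coeff_add,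
    mul_add]

/-- `q d/dq` as an additive map. -/
def theta : LaurentSeries R →+ LaurentSeries R := AddMonoidHom.mk' thetaFun thetaFun_add

theorem theta_coeff (F : LaurentSeries R) (n : ℤ) :
    (theta F).coeff n = (n : R) * F.coeff n := rfl

theorem theta_mul (F G : LaurentSeries R) : theta (F * G) = F * theta G + G * theta F :=
  thetaFun_mul F G

theorem theta_one : theta (1 : LaurentSeries R) = 0 := by
  have h := theta_mul (1 : LaurentSeries R) 1
  rw [mul_one, one_mul] at h
  exact left_eq_add.mp h

theorem theta_pow (F : LaurentSeries R) (n : ℕ) :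
    theta (F ^ n) = (n : LaurentSeries R) * F ^ (n - 1) * theta F := by
  induction n with
  | zero => rw [pow_zero, theta_one, Nat.cast_zero, zero_mul, zero_mul]
  | succ n ih =>
    rw [pow_succ, theta_mul, ih, Nat.add_sub_cancel]
    rcases Nat.eq_zero_or_pos n with rfl | hn
    · simp
    · obtain ⟨m, rfl⟩ := Nat.exists_eq_succ_of_ne_zero hn.ne'
      push_cast
      rw [Nat.succ_eq_add_one, pow_succ F m]
      ring

theorem theta_C (c : R) : theta (HahnSeries.C c : LaurentSeries R) = 0 := by
  ext n
  rw [theta_coeff, HahnSeries.coeff_zero]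
  by_cases hn : n = 0
  · rw [hn, Int.cast_zero, zero_mul]
  · rw [HahnSeries.C_apply, HahnSeries.coeff_single_of_ne hn, mul_zero]

theorem theta_coeffMap {S : Type*} [CommRing S] (f : R →+* S) (F : LaurentSeries R) :
    theta (coeffMap f F) = coeffMap f (theta F) := by
  ext n
  rw [theta_coeff, coeffMap_coeff, coeffMap_coeff, theta_coeff, map_mul, map_intCast]

theorem theta_qExpand (N : ℕ) [NeZero N] (F : LaurentSeries R) :
    theta (qExpand R N F) = (N : LaurentSeries R) * qExpand R N (theta F) := by
  ext n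
  rw [coeff_natCast_mul, theta_coeff]
  by_cases hn : (N : ℤ) ∣ n
  · obtain ⟨m, rfl⟩ := hn
    rw [qExpand_coeff_mul, qExpand_coeff_mul, theta_coeff]
    push_cast
    ring
  · rw [qExpand_coeff_of_not_dvd _ _ hn, qExpand_coeff_of_not_dvd _ _ hn, mul_zero, mul_zero]

/-- evaluation of polynomials at a Laurent series, with constant coefficients -/
def evC (x : LaurentSeries R) : R[X] →+* LaurentSeries R := eval₂RingHom HahnSeries.C x

theorem evC_apply (x : LaurentSeries R) (p : R[X]) : evC x p = p.eval₂ HahnSeries.C x := rfl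

@[simp] theorem evC_X (x : LaurentSeries R) : evC x X = x := by
  rw [evC_apply, eval₂_X]

@[simp] theorem evC_C (x : LaurentSeries R) (c : R) : evC x (C c) = HahnSeries.C c := by
  rw [evC_apply, eval₂_C]

theorem evC_map (x : LaurentSeries R) (p : ℤ[X]) :
    evC x (p.map (Int.castRingHom R)) = evZ x p := by
  rw [evC_apply, evZ_apply, eval₂_map]
  congr 1

theorem coeffMap_evC {S : Type*} [CommRing S] (f : R →+* S) (x : LaurentSeries R) (p : R[X]) :
    coeffMap f (evC x p) = evC (coeffMap f x) (p.map f) := by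
  rw [evC_apply, evC_apply, hom_eval₂, eval₂_map]
  congr 1
  ext1 c
  exact coeffMap_C f c

/-- chain rule -/
theorem theta_evC (x : LaurentSeries R) (p : R[X]) :
    theta (evC x p) = evC x (derivative p) * theta x := by
  induction p using Polynomial.induction_on' with
  | add p q hp hq => rw [map_add, map_add, hp, hq, map_add, map_add, add_mul]
  | monomial n c =>
    rw [← C_mul_X_pow_eq_monomial, map_mul, map_pow, evC_X, evC_C, theta_mul, theta_C, mul_zero,
      add_zero, theta_pow, derivative_C_mul_X_pow, map_mul, map_pow, evC_X, evC_C, map_mul,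
      map_natCast]
    ring

theorem theta_evZ (x : LaurentSeries R) (p : ℤ[X]) :
    theta (evZ x p) = evZ x (derivative p) * theta x := by
  rw [← evC_map, theta_evC, derivative_map, evC_map]

theorem mn_evC [Nontrivial R] {x : LaurentSeries R} (hx : Mn x (-1)) {p : R[X]} {d : ℕ}
    (hp : p.natDegree ≤ d) : (∀ i < -(d : ℤ), (evC x p).coeff i = 0) ∧
      (evC x p).coeff (-(d : ℤ)) = p.coeff d := by
  have h1 : evC x p = ∑ i ∈ Finset.range (d + 1), HahnSeries.C (p.coeff i) * x ^ i := by
    rw [evC_apply, eval₂_eq_sum_range' _ (Nat.lt_succ_of_le hp)]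
  have h2 : ∀ k : ℤ, (evC x p).coeff k =
      ∑ i ∈ Finset.range (d + 1), p.coeff i * (x ^ i).coeff k := by
    intro k
    rw [h1, HahnSeries.coeff_sum]
    refine Finset.sum_congr rfl fun i _ => ?_
    rw [HahnSeries.C_mul_eq_smul, HahnSeries.coeff_smul, smul_eq_mul]
  have h3 : ∀ i : ℕ, Mn (x ^ i) (-(i : ℤ)) := fun i => by
    have := hx.pow i
    rwa [mul_neg_one] at this
  refine ⟨fun k hk => ?_, ?_⟩
  · rw [h2]
    refine Finset.sum_eq_zero fun i hi => ?_
    rw [(h3 i).2 k (by have := Finset.mem_range.mp hi; omega), mul_zero]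
  · rw [h2, Finset.sum_range_succ, (h3 d).1, mul_one, Finset.sum_eq_zero, zero_add]
    intro i hi
    rw [(h3 i).2 _ (by have := Finset.mem_range.mp hi; omega), mul_zero]

theorem evC_injective [Nontrivial R] {x : LaurentSeries R} (hx : Mn x (-1)) :
    Function.Injective (evC x) := by
  rw [injective_iff_map_eq_zero]
  intro p hp
  by_contra h0
  have h1 := (mn_evC hx (le_refl p.natDegree)).2
  rw [hp, HahnSeries.coeff_zero] at h1
  exact leadingCoeff_ne_zero.mpr h0 h1.symm

/-- The coefficients of the polynomial are in the subring generated by the coefficients of the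
value. -/
theorem coeff_mem_of_evC [Nontrivial R] {x : LaurentSeries R} (hx : Mn x (-1)) (S : Subring R)
    (hxS : ∀ n, x.coeff n ∈ S) : ∀ (d : ℕ) (p : R[X]), p.natDegree ≤ d →
      (∀ n, (evC x p).coeff n ∈ S) → ∀ i, p.coeff i ∈ S := by
  have hpow : ∀ (i : ℕ) (n : ℤ), (x ^ i).coeff n ∈ S := by
    intro i
    have h := pow_mem (show x ∈ coeffSubring S from hxS) i
    exact h
  intro d
  induction d with
  | zero =>
    intro p hp h i
    have h1 := (mn_evC hx hp).2
    rw [Nat.cast_zero, neg_zero] at h1
    rcases Nat.eq_zero_or_pos i with rfl | hi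
    · rw [← h1]; exact h 0
    · rw [coeff_eq_zero_of_natDegree_lt (lt_of_le_of_lt hp hi)]; exact zero_mem S
  | succ d ih =>
    intro p hp h i
    have h1 := (mn_evC hx hp).2
    have hc : p.coeff (d + 1) ∈ S := by rw [← h1]; exact h _
    set q : R[X] := p - C (p.coeff (d + 1)) * X ^ (d + 1) with hq
    have hqd : q.natDegree ≤ d := by
      rw [natDegree_le_iff_coeff_eq_zero]
      intro N hN
      rw [hq, coeff_sub, coeff_C_mul, coeff_X_pow]
      rcases eq_or_ne N (d + 1) with rfl | hN'
      · rw [if_pos rfl, mul_one, sub_self]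
      · rw [if_neg hN', mul_zero, sub_zero]
        exact coeff_eq_zero_of_natDegree_lt (by omega)
    have hqc : ∀ n, (evC x q).coeff n ∈ S := by
      intro n
      rw [hq, map_sub, map_mul, map_pow, evC_X, evC_C, HahnSeries.coeff_sub,
        HahnSeries.C_mul_eq_smul, HahnSeries.coeff_smul, smul_eq_mul]
      exact sub_mem (h n) (mul_mem hc (hpow _ n))
    have h2 := ih q hqd hqc i
    have h3 : p.coeff i = q.coeff i + (C (p.coeff (d + 1)) * X ^ (d + 1) : R[X]).coeff i := by
      rw [hq, coeff_sub, sub_add_cancel]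
    rw [h3, coeff_C_mul, coeff_X_pow]
    refine add_mem h2 (mul_mem hc ?_)
    split_ifs
    · exact one_mem S
    · exact zero_mem S

end Theta

/-! ### lifts of Frobenius -/

section Frob

/-- divisibility of series by integers -/
theorem exists_smul_of_dvd (F : LaurentSeries ℤ) (l : ℤ) (h : ∀ n, l ∣ F.coeff n) :
    ∃ G : LaurentSeries ℤ, F = (l : LaurentSeries ℤ) * G := by
  classical
  rcases eq_or_ne l 0 with rfl | hl
  · refine ⟨0, ?_⟩
    ext n
    rw [mul_zero, HahnSeries.coeff_zero]
    exact Int.zero_dvd.mp (h n)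
  · refine ⟨⟨fun n => F.coeff n / l, F.isPWO_support.mono fun n hn h0 => hn (by
      change F.coeff n / l = 0
      rw [h0, Int.zero_ediv])⟩, ?_⟩
    ext n
    rw [← zsmul_eq_mul]
    change F.coeff n = (l • (_ : LaurentSeries ℤ)).coeff n
    rw [HahnSeries.coeff_smul, smul_eq_mul]
    exact (Int.mul_ediv_cancel' (h n)).symm

variable (l : ℕ) [hl : Fact l.Prime]

theorem exists_frob (F : LaurentSeries ℤ) : ∃ H : LaurentSeries ℤ,
    qExpand ℤ l F = F ^ l + (l : LaurentSeries ℤ) * H := by
  have h1 : coeffMap (Int.castRingHom (ZMod l)) (qExpand ℤ l F - F ^ l) = 0 := by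
    have h2 : coeffMap (frobenius (ZMod l) l) (coeffMap (Int.castRingHom (ZMod l)) F) =
        coeffMap (Int.castRingHom (ZMod l)) F := by
      ext n
      rw [coeffMap_coeff, ZMod.frobenius_zmod, RingHom.id_apply]
    rw [map_sub, map_pow, coeffMap_qExpand, Q.pow_char (p := l), h2]
    exact sub_self _
  obtain ⟨H, hH⟩ := exists_smul_of_dvd (qExpand ℤ l F - F ^ l) l (fun n => by
    have h3 := congrArg (fun z : LaurentSeries (ZMod l) => z.coeff n) h1
    simp only [coeffMap_coeff, HahnSeries.coeff_zero] at h3
    rw [eq_intCast] at h3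
    exact (ZMod.intCast_zmod_eq_zero_iff_dvd _ l).mp h3)
  refine ⟨H, ?_⟩
  have h4 : qExpand ℤ l F = F ^ l + (qExpand ℤ l F - F ^ l) := by ring
  rw [h4, hH]
  push_cast
  ring

end Frob

end Fermat.Agent.Igusa
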