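import Mathlib
import Fermat.Agent.Igusa.Theta
import Fermat.Agent.H18_Ramanujan

/-!
# `(θ j)^6 = j^4 (j - 1728)^3 Δ`
-/

set_option autoImplicit false
set_option linter.unusedSectionVars false

noncomputable section

open ModularCurve
open UpperHalfPlane ModularForm Derivative
open scoped Manifold ModularForm MatrixGroups

namespace Fermat.Agent.Igusa

theorem differentiableOn_cusp {k : ℤ} (f : ModularForm 𝒮ℒ k) :
    DifferentiableOn ℂ (cuspFunction 1 f) (Metric.ball 0 1) := fun q hq =>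
  (ModularFormClass.differentiableAt_cuspFunction f one_pos one_mem_strictPeriods_SL
    (by simpa using hq)).differentiableWithinAt

theorem isExp_mf {k : ℤ} (f : ModularForm 𝒮ℒ k) :
    IsExp 1 f (HahnSeries.ofPowerSeries ℤ ℂ (qExpansion 1 f)) := by
  apply isExp_ofPowerSeries
  intro τ
  have h1 := ModularForm.hasSum_qExpansion (f := f) (h := 1)
    one_pos one_mem_strictPeriods_SL τ
  convert! h1 using 2 with n
  simp

theorem series_deriv (g : ℂ → ℂ) (F : PowerSeries ℂ)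
    (hF : ∀ n, F.coeff n = ((n.factorial : ℂ))⁻¹ * iteratedDeriv n g 0) :
    HahnSeries.single (1 : ℤ) (1 : ℂ) * HahnSeries.ofPowerSeries ℤ ℂ
      (PowerSeries.mk fun n => iteratedDeriv n (deriv g) 0 / n.factorial) =
      theta (HahnSeries.ofPowerSeries ℤ ℂ F) := by
  ext n
  rw [HahnSeries.coeff_single_mul, one_mul, theta_coeff]
  rcases lt_or_ge n 1 with h | h
  · rw [ofPowerSeries_coeff_of_neg _ (by omega)]
    rcases lt_or_ge n 0 with h0 | h0
    · rw [ofPowerSeries_coeff_of_neg _ h0, mul_zero]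
    · have : n = 0 := by omega
      rw [this, Int.cast_zero, zero_mul]
  · obtain ⟨m, rfl⟩ : ∃ m : ℕ, n = ((m + 1 : ℕ) : ℤ) := ⟨(n - 1).toNat, by omega⟩
    rw [show ((m + 1 : ℕ) : ℤ) - 1 = (m : ℤ) by push_cast; ring,
      HahnSeries.ofPowerSeries_apply_coeff, HahnSeries.ofPowerSeries_apply_coeff,
      PowerSeries.coeff_mk, hF, ← iteratedDeriv_succ', Nat.factorial_succ]
    have h1 : ((m.factorial : ℕ) : ℂ) ≠ 0 := by exact_mod_cast m.factorial_ne_zero
    have h2 : ((m + 1 : ℕ) : ℂ) ≠ 0 := by exact_mod_cast Nat.succ_ne_zero m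
    push_cast at h2 ⊢
    field_simp

theorem isExp_D {k : ℤ} (f : ModularForm 𝒮ℒ k) :
    IsExp 1 (normalizedDerivOfComplex f)
      (theta (HahnSeries.ofPowerSeries ℤ ℂ (qExpansion 1 f))) := by
  have h1 : DifferentiableOn ℂ (deriv (cuspFunction 1 f)) (Metric.ball 0 1) :=
    (differentiableOn_cusp f).deriv Metric.isOpen_ball
  have h2 := (IsExp.single (h := 1) 1 1).mul (isExp_of_differentiableOn h1)
  rw [series_deriv _ (qExpansion 1 f) (fun n => qExpansion_coeff (h := 1) (f : ℍ → ℂ) n)] at h2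
  refine h2.congr (fun τ => ?_)
  rw [H18.normalizedDeriv_eq]
  simp

/-- `E₄` as a Laurent series -/
def sE4 : LaurentSeries ℤ := HahnSeries.ofPowerSeries ℤ ℤ H29.pe

/-- `E₆` as a Laurent series -/
def sE6 : LaurentSeries ℤ := HahnSeries.ofPowerSeries ℤ ℤ H29.pe6

theorem coeffMap_sE4 : coeffMap (Int.castRingHom ℂ) sE4 =
    HahnSeries.ofPowerSeries ℤ ℂ (qExpansion 1 (E₄ : ℍ → ℂ)) := by
  rw [sE4, coeffMap_ofPowerSeries, H29.qExp_E4]

theorem coeffMap_sE6 : coeffMap (Int.castRingHom ℂ) sE6 =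
    HahnSeries.ofPowerSeries ℤ ℂ (qExpansion 1 (E₆ : ℍ → ℂ)) := by
  rw [sE6, coeffMap_ofPowerSeries, H29.qExp_E6]

theorem dS_rel : 1728 * dS ℤ = sE4 ^ 3 - sE6 ^ 2 := by
  have := congrArg H29.oo H29.pD_eq
  rw [map_mul, map_sub, map_pow, map_pow, map_ofNat, ← H29.dS_eq] at this
  exact this

theorem j_dS : jqModC ℤ * dS ℤ = sE4 ^ 3 := H29.j_mul_dS

theorem j_dS' : (jqModC ℤ - 1728) * dS ℤ = sE6 ^ 2 := by
  linear_combination j_dS - dS_rel

theorem castC_injective : Function.Injective (coeffMap (Int.castRingHom ℂ)) :=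
  coeffMap_injective _ Int.cast_injective

theorem ram_rel : 3 * sE6 * theta sE4 - 2 * sE4 * theta sE6 = sE4 ^ 3 - sE6 ^ 2 := by
  apply castC_injective
  have e4 := isExp_mf (E₄ : ModularForm 𝒮ℒ 4)
  have e6 := isExp_mf (E₆ : ModularForm 𝒮ℒ 6)
  have d4 := isExp_D (E₄ : ModularForm 𝒮ℒ 4)
  have d6 := isExp_D (E₆ : ModularForm 𝒮ℒ 6)
  rw [← coeffMap_sE4] at e4 d4
  rw [← coeffMap_sE6] at e6 d6
  rw [theta_coeffMap] at d4 d6
  have h3 : (HahnSeries.C (3 : ℂ) : LaurentSeries ℂ) = 3 := map_ofNat _ 3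
  have h2 : (HahnSeries.C (2 : ℂ) : LaurentSeries ℂ) = 2 := map_ofNat _ 2
  have hL := (((IsExp.const (h := 1) (3 : ℂ)).mul e6).mul d4).sub
    (((IsExp.const (h := 1) (2 : ℂ)).mul e4).mul d6)
  have hR := (e4.pow 3).sub (e6.pow 2)
  have hLR := hL.congr (g := fun τ => E₄ τ ^ 3 - E₆ τ ^ 2) (fun τ => by
    rw [H18.D_E4, H18.D_E6]
    ring)
  have := hLR.unique one_pos hR
  rw [h3, h2] at this
  simp only [map_sub, map_mul, map_pow, map_ofNat]
  exact this

theorem theta_j : theta (jqModC ℤ) * dS ℤ = -(sE4 ^ 2 * sE6) := by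
  have h1 := congrArg theta j_dS
  have h2 := congrArg theta dS_rel
  have h1728 : theta (1728 : LaurentSeries ℤ) = 0 := by
    have : (1728 : LaurentSeries ℤ) = HahnSeries.C 1728 := (map_ofNat _ 1728).symm
    rw [this, theta_C]
  rw [theta_mul, theta_pow] at h1
  rw [theta_mul, h1728, map_sub, theta_pow, theta_pow] at h2
  have h3 := ram_rel
  have h4 := dS_rel
  have h5 := j_dS
  have hd : dS ℤ ≠ 0 := dS_ne_zero
  have hne : (1728 : LaurentSeries ℤ) ≠ 0 := by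
    intro h
    have h6 := coeff_natCast_mul 1728 (1 : LaurentSeries ℤ) 0
    rw [mul_one, Nat.cast_ofNat, h, HahnSeries.coeff_zero, HahnSeries.coeff_one, if_pos rfl] at h6
    norm_num at h6
  apply mul_left_cancel₀ (mul_ne_zero hne hd)
  push_cast at h1 h2
  norm_num at h1 h2
  linear_combination (1728 * dS ℤ) * h1 - jqModC ℤ * dS ℤ * h2 -
    (3 * sE4 ^ 2 * theta sE4 - 2 * sE6 * theta sE6) * h5 + (3 * sE4 ^ 2 * theta sE4) * h4 -
    (sE4 ^ 2 * sE6) * h3 + (sE4 ^ 2 * sE6) * h4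

/-- `(θ j)^6 = j^4 (j - 1728)^3 Δ` -/
theorem theta_j_six : theta (jqModC ℤ) ^ 6 = jqModC ℤ ^ 4 * (jqModC ℤ - 1728) ^ 3 * dS ℤ := by
  have h := theta_j
  have h1 := j_dS
  have h2 := j_dS'
  have hd : dS ℤ ≠ 0 := dS_ne_zero
  apply mul_right_cancel₀ (pow_ne_zero 6 hd)
  calc theta (jqModC ℤ) ^ 6 * dS ℤ ^ 6 = (theta (jqModC ℤ) * dS ℤ) ^ 6 := by ring
    _ = (sE4 ^ 3) ^ 4 * (sE6 ^ 2) ^ 3 := by rw [h]; ring
    _ = jqModC ℤ ^ 4 * (jqModC ℤ - 1728) ^ 3 * dS ℤ * dS ℤ ^ 6 := by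
      rw [← h1, ← h2]; ring

end Fermat.Agent.Igusa
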