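import Mathlib
import Fermat.Agent.Igusa.Ramanujan

/-!
# `(θ t)^6 V(t) = c(t)^6 Δ`
-/

set_option autoImplicit false
set_option linter.unusedSectionVars false

noncomputable section

open ModularCurve Polynomial

namespace Fermat.Agent.Igusa

namespace HData

variable {r : ℕ} (D : HData r)

/-- the polynomial `n` with `n² = U - 1728 V` -/
def n : ℤ[X] := 3 * derivative D.P * D.c - D.P * D.m

theorem j_W1 : jqModC ℤ * evZ D.t (D.W 1) = evZ D.t D.P ^ 3 := by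
  have h := D.hjd 1 (one_dvd r)
  rwa [qExpand_one_apply, D.U_one, map_pow] at h

theorem hn' : evZ D.t D.n ^ 2 = (jqModC ℤ - 1728) * evZ D.t (D.W 1) := by
  have h := congrArg (evZ D.t) D.hn
  rw [map_sub, map_mul, map_pow, map_pow, map_ofNat, ← D.j_W1] at h
  rw [n]
  rw [← h]
  ring

theorem mn_W1 : Mn (evZ D.t (D.W 1)) ((D.b 1 : ℤ) * (-1)) :=
  mn_evZ (by norm_num) D.mn (D.hW 1 (one_dvd r))

theorem W1_ne : evZ D.t (D.W 1) ≠ 0 := D.mn_W1.ne_zero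

theorem mn_j : Mn (jqModC ℤ) (-1) := by
  refine ⟨coeff_jqModC_neg_one ℤ, fun m hm => ?_⟩
  exact coeff_jqModC_of_lt ℤ hm

theorem j_ne : jqModC ℤ ≠ 0 := mn_j.ne_zero

theorem n_ne : evZ D.t D.n ≠ 0 := by
  intro h
  have h1 := D.hn'
  rw [h] at h1
  have h2 : Mn (jqModC ℤ - 1728) (-1) := mn_j.sub_hi (Hi.ofNat 1728 (by norm_num))
  have h3 : (jqModC ℤ - 1728) * evZ D.t (D.W 1) = 0 := by rw [← h1]; ring
  exact mul_ne_zero h2.ne_zero D.W1_ne h3

/-- `θ j P c = j n θ t` -/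
theorem theta_j_P_c : theta (jqModC ℤ) * (evZ D.t D.P * evZ D.t D.c) =
    jqModC ℤ * evZ D.t D.n * theta D.t := by
  have h1 := congrArg theta D.j_W1
  rw [theta_mul, theta_evZ, theta_pow, theta_evZ] at h1
  have h2 := congrArg (evZ D.t) D.hm
  rw [map_mul, map_mul] at h2
  have h3 := D.j_W1
  have h4 : evZ D.t D.n = 3 * evZ D.t (derivative D.P) * evZ D.t D.c -
      evZ D.t D.P * evZ D.t D.m := by
    rw [n, map_sub, map_mul, map_mul, map_mul, map_ofNat]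
  apply mul_left_cancel₀ D.W1_ne
  rw [h4]
  push_cast at h1
  norm_num at h1
  linear_combination (evZ D.t D.P * evZ D.t D.c) * h1 -
    (jqModC ℤ * evZ D.t D.P * theta D.t) * h2 -
    3 * (evZ D.t (derivative D.P) * evZ D.t D.c * theta D.t) * h3

/-- `(θ t)^6 V(t) = c(t)^6 Δ` -/
theorem theta_t_six : theta D.t ^ 6 * evZ D.t (D.W 1) = evZ D.t D.c ^ 6 * dS ℤ := by
  have h1 := D.theta_j_P_c
  have h2 := theta_j_six
  have h3 := D.j_W1
  have h4 := D.hn'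
  have hz := j_ne
  have hw := D.W1_ne
  have hn := D.n_ne
  have key : (jqModC ℤ ^ 6 * evZ D.t D.n ^ 6 * evZ D.t (D.W 1) ^ 2) *
      (theta D.t ^ 6 * evZ D.t (D.W 1)) =
      (jqModC ℤ ^ 6 * evZ D.t D.n ^ 6 * evZ D.t (D.W 1) ^ 2) * (evZ D.t D.c ^ 6 * dS ℤ) := by
    calc (jqModC ℤ ^ 6 * evZ D.t D.n ^ 6 * evZ D.t (D.W 1) ^ 2) *
          (theta D.t ^ 6 * evZ D.t (D.W 1))
        = (jqModC ℤ * evZ D.t D.n * theta D.t) ^ 6 * evZ D.t (D.W 1) ^ 3 := by ring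
      _ = theta (jqModC ℤ) ^ 6 * (evZ D.t D.P ^ 3) ^ 2 * evZ D.t D.c ^ 6 *
            evZ D.t (D.W 1) ^ 3 := by rw [← h1]; ring
      _ = jqModC ℤ ^ 4 * ((jqModC ℤ - 1728) * evZ D.t (D.W 1)) ^ 3 * dS ℤ *
            (jqModC ℤ * evZ D.t (D.W 1)) ^ 2 * evZ D.t D.c ^ 6 := by rw [h2, ← h3]; ring
      _ = _ := by rw [← h4]; ring
  exact mul_left_cancel₀ (mul_ne_zero (mul_ne_zero (pow_ne_zero _ hz) (pow_ne_zero _ hn))
    (pow_ne_zero _ hw)) key

section Ring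

variable (R : Type*) [CommRing R]

theorem theta_tq : theta (D.tq R) = coeffMap (Int.castRingHom R) (theta D.t) := by
  rw [tq, theta_coeffMap]

theorem coeffMap_evZ_t (p : ℤ[X]) : coeffMap (Int.castRingHom R) (evZ D.t p) = evZ (D.tq R) p :=
  ringHom_evZ _ _ _

theorem theta_tq_six : theta (D.tq R) ^ 6 * evZ (D.tq R) (D.W 1) =
    evZ (D.tq R) D.c ^ 6 * dS R := by
  have h := congrArg (coeffMap (Int.castRingHom R)) D.theta_t_six
  rwa [map_mul, map_mul, map_pow, map_pow, ← theta_tq, coeffMap_evZ_t, coeffMap_evZ_t,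
    coeffMap_dS] at h

theorem j_tq : jqModC R * evZ (D.tq R) (D.W 1) = evZ (D.tq R) D.P ^ 3 := by
  have h := congrArg (coeffMap (Int.castRingHom R)) D.j_W1
  rwa [map_mul, map_pow, coeffMap_evZ_t, coeffMap_evZ_t, coeffMap_jqModC] at h

end Ring

end HData

end Fermat.Agent.Igusa
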