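import Mathlib
import Fermat.Agent.Igusa.ThetaT

/-!
# The trace of `Δ(q) / Δ(q^l)`
-/

set_option autoImplicit false
set_option linter.unusedSectionVars false

noncomputable section

open ModularCurve UpperHalfPlane
open scoped Manifold

namespace Fermat.Agent.Igusa

section Specific

variable (r : ℕ) [hr : Fact r.Prime]

theorem isExp_scl_inv : IsExp 1 (fun τ => (dl (scl r τ))⁻¹) (qExpand ℂ r (dSinv ℂ)) :=
  isExp_dl_inv.comp_scl r

theorem uFam : IsFam r (fun τ => dl τ * (dl (scl r τ))⁻¹)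
    (fun b τ => (r : ℂ) ^ 12 * (dl τ * (tr r dl b τ)⁻¹))
    (dS ℤ * qExpand ℤ r (dSinv ℤ))
    ((r : LaurentSeries ℤ) ^ 12 * (qExpand ℤ r (dS ℤ) * dSinv ℤ)) where
  S_inf τ := by
    rw [isWt_dl.scl_S (r := r) τ, isWt_dl.S]
    have h1 : (r : ℂ) ≠ 0 := by exact_mod_cast NeZero.ne r
    have h2 := τ.ne_zero
    have h3 : tr r dl 0 τ ≠ 0 := dl_ne_zero _
    field_simp
  S_zero τ := by
    rw [isWt_dl.tr_zero_S (r := r) τ, isWt_dl.S]
    have h1 : (r : ℂ) ≠ 0 := by exact_mod_cast NeZero.ne r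
    have h2 := τ.ne_zero
    have h3 := dl_ne_zero (scl r τ)
    field_simp
  S_ne b hb τ := by
    rw [isWt_dl.tr_S (r := r) hb τ, isWt_dl.S]
    have h2 := τ.ne_zero
    have h3 : tr r dl (-b⁻¹) τ ≠ 0 := dl_ne_zero _
    field_simp
  T_inf τ := by rw [isWt_dl.scl_T τ, isWt_dl.T]
  T_fin b τ := by rw [isWt_dl.tr_T b τ, isWt_dl.T]
  holo_inf := mdiff_dl.mul (mdiff_comp_scl mdiff_dl_inv r)
  holo_fin b := mdifferentiable_const.mul (mdiff_dl.mul (mdiff_comp_lin mdiff_dl_inv r _))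
  exp_inf := by
    rw [map_mul, coeffMap_qExpand, coeffMap_dS, coeffMap_dSinv]
    exact isExp_dl.mul (isExp_scl_inv r)
  exp_fin b := by
    rw [map_mul (coeffMap (Int.castRingHom ℂ)), map_pow, map_natCast,
      map_mul (coeffMap (Int.castRingHom ℂ)), coeffMap_qExpand, coeffMap_dS, coeffMap_dSinv,
      map_mul, map_mul, map_pow, map_natCast, twist_qExpand]
    · have h1 := isExp_dl_inv.comp_lin r (b.val : ℤ)
      rw [zpow_natCast] at h1
      have h2 := (IsExp.const (h := r) (r : ℂ)).pow 12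
      have h3 : (HahnSeries.C (r : ℂ) : LaurentSeries ℂ) = (r : LaurentSeries ℂ) := by
        rw [map_natCast]
      rw [h3] at h2
      exact h2.mul (((isExp_qExpand_iff r).mpr isExp_dl).mul h1)
    · rw [← pow_mul, mul_comm, pow_mul, zr_pow, one_pow]

/-- `Δ(q) / Δ(q^r)` -/
def uS (R : Type*) [CommRing R] : LaurentSeries R := dS R * qExpand R r (dSinv R)

theorem coeffMap_uS {R S : Type*} [CommRing R] [CommRing S] (f : R →+* S) :
    coeffMap f (uS r R) = uS r S := by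
  rw [uS, uS, map_mul, coeffMap_qExpand, coeffMap_dS, coeffMap_dSinv]

theorem exists_uTrace : ∃ T : Polynomial ℤ, trSeries r (uS r ℤ)
    ((r : LaurentSeries ℤ) ^ 12 * (qExpand ℤ r (dS ℤ) * dSinv ℤ)) = evZ (jqModC ℤ) T :=
  (uFam r).trace

/-- the polynomial `T` with `T(j) = Tr(Δ(q) / Δ(q^r))` -/
def uT : Polynomial ℤ := (exists_uTrace r).choose

theorem uT_spec : trSeries r (uS r ℤ)
    ((r : LaurentSeries ℤ) ^ 12 * (qExpand ℤ r (dS ℤ) * dSinv ℤ)) = evZ (jqModC ℤ) (uT r) :=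
  (exists_uTrace r).choose_spec

/-- modulo `r`: `T(j) = Δ(q) / Δ(q^r)`. -/
theorem evZ_uT (R : Type*) [CommRing R] (hR : (r : R) = 0) :
    evZ (jqModC R) (uT r) = uS r R := by
  have h := congrArg (coeffMap (Int.castRingHom R)) (uT_spec r)
  rw [trSeries_coeffMap, ringHom_evZ, coeffMap_jqModC, coeffMap_uS] at h
  rw [← h]
  have h2 : r • uOp r (coeffMap (Int.castRingHom R)
      ((r : LaurentSeries ℤ) ^ 12 * (qExpand ℤ r (dS ℤ) * dSinv ℤ))) = 0 := by
    ext n
    rw [HahnSeries.coeff_nsmul, Pi.smul_apply, nsmul_eq_mul, hR, zero_mul, HahnSeries.coeff_zero]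
  rw [h2, add_zero]

theorem uS_mul (R : Type*) [CommRing R] : uS r R * qExpand R r (dS R) = dS R := by
  rw [uS, mul_assoc, ← map_mul, mul_comm (dSinv R), dS_mul_dSinv, map_one, mul_one]

/-- in characteristic `r`: `T(j) Δ^(r-1) = 1` -/
theorem uT_mul_pow {k : Type*} [Field k] [CharP k r] :
    evZ (jqModC k) (uT r) * dS k ^ (r - 1) = 1 := by
  have hr0 : (r : k) = 0 := CharP.cast_eq_zero k r
  have h1 := uS_mul r k
  rw [← evZ_uT r k hr0] at h1
  have h2 : qExpand k r (dS k) = dS k ^ r := by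
    rw [Q.pow_char (p := r), coeffMap_dS]
  rw [h2] at h1
  have h3 : dS k ≠ 0 := dS_ne_zero
  have h4 : dS k ^ r = dS k ^ (r - 1) * dS k := by
    rw [← pow_succ, Nat.sub_add_cancel hr.out.one_lt.le]
  rw [h4, ← mul_assoc] at h1
  exact mul_right_cancel₀ h3 (by rw [h1, one_mul])

end Specific

end Fermat.Agent.Igusa
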