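import Mathlib
import Fermat.Agent.Igusa.ThetaT
import Fermat.Agent.H07.PhiDich

/-!
# `t(q^l)` is integral over `K[t]`, for the hauptmodul `t` of level 4
-/

set_option autoImplicit false
set_option linter.unusedSectionVars false

noncomputable section

open ModularCurve Polynomial

namespace Fermat.Agent.Igusa

section Val

variable {L : Type*} [Field L] (O : ValuationSubring L)

theorem val_intCast_le (n : ℤ) : O.valuation (n : L) ≤ 1 := by
  rw [O.valuation_le_one_iff]
  exact intCast_mem O n

theorem val_evZ {x : L} (hx : x ∉ O) {p : ℤ[X]} {d : ℕ} (hp : MD p d) :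
    O.valuation (evZ x p) = O.valuation x ^ d := by
  have hx1 : 1 < O.valuation x := by rwa [← not_le, O.valuation_le_one_iff]
  have h1 : evZ x p = x ^ d + ∑ i ∈ Finset.range d, ((p.coeff i : ℤ) : L) * x ^ i := by
    rw [evZ_apply, eval₂_eq_sum_range, Finset.sum_range_succ, hp.2, add_comm]
    have : p.coeff d = 1 := by rw [← hp.2]; exact hp.1
    rw [this, map_one, one_mul]
    simp only [eq_intCast]
  rw [h1]
  have h2 : O.valuation (∑ i ∈ Finset.range d, ((p.coeff i : ℤ) : L) * x ^ i) <
      O.valuation (x ^ d) := by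
    apply Valuation.map_sum_lt
    · rw [map_pow]; exact pow_ne_zero _ (ne_of_gt (lt_trans zero_lt_one hx1))
    · intro i hi
      rw [map_mul, map_pow, map_pow]
      calc O.valuation ((p.coeff i : ℤ) : L) * O.valuation x ^ i ≤ 1 * O.valuation x ^ i :=
            mul_le_mul_left (val_intCast_le O _) _
        _ = O.valuation x ^ i := one_mul _
        _ < _ := pow_lt_pow_right₀ hx1 (Finset.mem_range.mp hi)
  rw [Valuation.map_add_eq_of_lt_left _ h2, map_pow]

theorem pow_eq_pow_iff_of_one_lt {Γ : Type*} [LinearOrderedCommGroupWithZero Γ] {g : Γ}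
    (hg : 1 < g) {a b : ℕ} (h : g ^ a = g ^ b) : a = b :=
  pow_right_injective₀ (zero_lt_one.trans hg) hg.ne' h

theorem combin {Γ : Type*} [LinearOrderedCommGroupWithZero Γ] {g1 g4 Y : Γ} {l : ℕ}
    (hl : l.Prime) (hl2 : l ≠ 2) (hY : 1 < Y) (h1 : g1 = Y ^ l ∨ g1 ^ l = Y)
    (h4 : g4 = (Y ^ 4) ^ l ∨ g4 ^ l = Y ^ 4) (h : g1 = g4 ^ 4 ∨ g1 = g4) : False := by
  have hl0 : 2 ≤ l := hl.two_le
  have hl3 : l ≠ 4 := by rintro rfl; norm_num at hl
  rcases h with h | h
  · rcases h1 with h1 | h1 <;> rcases h4 with h4 | h4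
    · have h5 : Y ^ l = Y ^ (16 * l) := by
        calc Y ^ l = g1 := h1.symm
          _ = ((Y ^ 4) ^ l) ^ 4 := by rw [h, h4]
          _ = Y ^ (16 * l) := by rw [← pow_mul, ← pow_mul]; congr 1; ring
      have := pow_eq_pow_iff_of_one_lt hY h5
      omega
    · have h5 : Y ^ (l * l) = Y ^ 16 := by
        calc Y ^ (l * l) = g1 ^ l := by rw [pow_mul, ← h1]
          _ = (g4 ^ l) ^ 4 := by rw [h, ← pow_mul, ← pow_mul, mul_comm]
          _ = Y ^ 16 := by rw [h4, ← pow_mul]
      have := pow_eq_pow_iff_of_one_lt hY h5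
      have h6 : l = 4 := by nlinarith
      exact hl3 h6
    · have h5 : Y ^ 1 = Y ^ (16 * (l * l)) := by
        calc Y ^ 1 = g1 ^ l := by rw [h1, pow_one]
          _ = (((Y ^ 4) ^ l) ^ 4) ^ l := by rw [h, h4]
          _ = Y ^ (16 * (l * l)) := by
            rw [← pow_mul, ← pow_mul, ← pow_mul]; congr 1; ring
      have := pow_eq_pow_iff_of_one_lt hY h5
      have h6 : 4 ≤ l * l := by nlinarith
      omega
    · have h5 : Y ^ 1 = Y ^ 16 := by
        calc Y ^ 1 = g1 ^ l := by rw [h1, pow_one]
          _ = (g4 ^ l) ^ 4 := by rw [h, ← pow_mul, ← pow_mul, mul_comm]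
          _ = Y ^ 16 := by rw [h4, ← pow_mul]
      have := pow_eq_pow_iff_of_one_lt hY h5
      omega
  · subst h
    rcases h1 with h1 | h1 <;> rcases h4 with h4 | h4
    · have h5 : Y ^ l = Y ^ (4 * l) := by
        rw [← h1, h4, ← pow_mul]
      have := pow_eq_pow_iff_of_one_lt hY h5
      omega
    · have h5 : Y ^ (l * l) = Y ^ 4 := by
        rw [pow_mul, ← h1, h4]
      have := pow_eq_pow_iff_of_one_lt hY h5
      have h6 : l = 2 := by nlinarith
      exact hl2 h6
    · have h5 : Y ^ 1 = Y ^ (4 * (l * l)) := by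
        calc Y ^ 1 = g1 ^ l := by rw [h1, pow_one]
          _ = ((Y ^ 4) ^ l) ^ l := by rw [h4]
          _ = Y ^ (4 * (l * l)) := by rw [← pow_mul, ← pow_mul]
      have := pow_eq_pow_iff_of_one_lt hY h5
      have h6 : 4 ≤ l * l := by nlinarith
      omega
    · have h5 : Y ^ 1 = Y ^ 4 := by
        rw [pow_one, ← h4, h1]
      have := pow_eq_pow_iff_of_one_lt hY h5
      omega

end Val

section Main

variable {K : Type*} [Field K]

theorem t1_mem {l : ℕ} [hl : Fact l.Prime] (hl2 : l ≠ 2) (O : ValuationSubring (LaurentSeries K))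
    (h2 : (2 : LaurentSeries K)⁻¹ ∈ O) (h20 : (2 : K) ≠ 0) (ht : H4.tq K ∈ O) :
    qExpand K l (H4.tq K) ∈ O := by
  by_contra hcon
  set v := O.valuation with hv
  set t := H4.tq K with htdef
  set t1 := qExpand K l t with ht1
  set Y := v t1 with hYdef
  have hY : 1 < Y := by
    rw [hYdef, ← not_le, hv, O.valuation_le_one_iff]; exact hcon
  -- 2 is a unit
  have hv2 : v (2 : LaurentSeries K) = 1 := by
    apply le_antisymm
    · exact_mod_cast val_intCast_le O 2
    · have h3 : v ((2 : LaurentSeries K)⁻¹) ≤ 1 := (O.valuation_le_one_iff _).mpr h2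
      rw [map_inv₀] at h3
      have h4 : v (2 : LaurentSeries K) ≠ 0 := by
        rw [ne_eq, Valuation.zero_iff]
        intro h5
        apply h20
        have h6 : HahnSeries.C (2 : K) = (0 : LaurentSeries K) := by rw [map_ofNat]; exact h5
        exact HahnSeries.C_injective (by rw [h6, map_zero])
      exact (inv_le_one₀ (zero_lt_iff.mpr h4)).mp h3
  -- the values of `j`
  have key : ∀ (d : ℕ) [NeZero d] [NeZero (d * l)] (hd : d ∣ 4),
      v (jd K (d * l)) * Y ^ (H4.b d) = Y ^ (H4.a d) := by
    intro d _ _ hd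
    have h3 := congrArg (qExpand K l) (H4.jd_mul K d hd)
    rw [map_mul, qExpand_jd, ringHom_evZ, ringHom_evZ] at h3
    have h4 := congrArg v h3
    rw [map_mul, val_evZ O hcon (H4.hW d hd), val_evZ O hcon (H4.hU d hd)] at h4
    rw [← jd_congr K (mul_comm l d)]
    exact h4
  have hY0 : Y ≠ 0 := (zero_lt_one.trans hY).ne'
  have k1 : v (jd K (1 * l)) = Y := by
    have h3 := key 1 (by norm_num)
    change v (jd K (1 * l)) * Y ^ 5 = Y ^ 6 at h3
    rw [pow_succ' Y 5] at h3
    exact mul_right_cancel₀ (pow_ne_zero 5 hY0) h3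
  have k4 : v (jd K (4 * l)) = Y ^ 4 := by
    have h3 := key 4 dvd_rfl
    change v (jd K (4 * l)) * Y ^ 2 = Y ^ 6 at h3
    have h4 : Y ^ 6 = Y ^ 4 * Y ^ 2 := by rw [← pow_add]
    rw [h4] at h3
    exact mul_right_cancel₀ (pow_ne_zero 2 hY0) h3
  have m1 : jd K (1 * l) ∉ O := by
    rw [← O.valuation_le_one_iff, not_le, ← hv, k1]; exact hY
  have m4 : jd K (4 * l) ∉ O := by
    rw [← O.valuation_le_one_iff, not_le, ← hv, k4]; exact one_lt_pow₀ hY (by norm_num)
  have n1 := H07.notMem_of_notMem l O hl2 m1 (modPoly_eval' l K 1)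
  have n4 := H07.notMem_of_notMem l O hl2 m4 (modPoly_eval' l K 4)
  have d1 := H07.dichotomy l O hl2 m1 (modPoly_eval' l K 1)
  have d4 := H07.dichotomy l O hl2 m4 (modPoly_eval' l K 4)
  rw [← hv, k1] at d1
  rw [← hv, k4] at d4
  have g1 : 1 < v (jd K 1) := by rwa [← not_le, hv, O.valuation_le_one_iff]
  have g4 : 1 < v (jd K 4) := by rwa [← not_le, hv, O.valuation_le_one_iff]
  -- the equations
  have e1 : jd K 1 * (t ^ 4 * (t + 16)) = (t ^ 2 + 256 * t + 4096) ^ 3 := by
    have := H4.jd_mul K 1 (by norm_num)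
    change jd K 1 * evZ t (W4 1) = evZ t (U4 1) at this
    simpa only [W4, U4, map_mul, map_pow, map_add, map_ofNat, evZ_X] using this
  have e4 : jd K 4 * (t * (t + 16)) = (t ^ 2 + 16 * t + 16) ^ 3 := by
    have := H4.jd_mul K 4 dvd_rfl
    change jd K 4 * evZ t (W4 4) = evZ t (U4 4) at this
    simpa only [W4, U4, map_mul, map_pow, map_add, map_ofNat, evZ_X] using this
  have f1 := congrArg v e1
  have f4 := congrArg v e4
  simp only [map_mul, map_pow] at f1 f4
  have hvt : v t ≤ 1 := (O.valuation_le_one_iff _).mpr ht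
  have v16 : v (16 : LaurentSeries K) = 1 := by
    rw [show (16 : LaurentSeries K) = 2 ^ 4 by norm_num, map_pow, hv2, one_pow]
  have v256 : v (256 : LaurentSeries K) = 1 := by
    rw [show (256 : LaurentSeries K) = 2 ^ 8 by norm_num, map_pow, hv2, one_pow]
  have v4096 : v (4096 : LaurentSeries K) = 1 := by
    rw [show (4096 : LaurentSeries K) = 2 ^ 12 by norm_num, map_pow, hv2, one_pow]
  have hcase : v (jd K 1) = v (jd K 4) ^ 4 ∨ v (jd K 1) = v (jd K 4) := by
    rcases lt_or_eq_of_le hvt with hlt | heq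
    · left
      have w1 : v (t + 16) = 1 := by
        rw [Valuation.map_add_eq_of_lt_right v (by rw [v16]; exact hlt), v16]
      have w2 : v (t ^ 2 + 256 * t + 4096) = 1 := by
        rw [Valuation.map_add_eq_of_lt_right v, v4096]
        rw [v4096]
        have : t ^ 2 + 256 * t = t * (t + 256) := by ring
        rw [this, map_mul]
        have h3 : v (t + 256) ≤ 1 := by
          refine (Valuation.map_add v _ _).trans (max_le hvt v256.le)
        calc v t * v (t + 256) ≤ v t * 1 := mul_le_mul_right h3 _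
          _ = v t := mul_one _
          _ < 1 := hlt
      have w3 : v (t ^ 2 + 16 * t + 16) = 1 := by
        rw [Valuation.map_add_eq_of_lt_right v, v16]
        rw [v16]
        have : t ^ 2 + 16 * t = t * (t + 16) := by ring
        rw [this, map_mul, w1, mul_one]
        exact hlt
      rw [w1, w2, one_pow, mul_one] at f1
      rw [w1, w3, one_pow, mul_one] at f4
      have ht0 : v t ≠ 0 := by
        intro h0
        rw [h0, mul_zero] at f4
        exact zero_ne_one f4
      apply mul_right_cancel₀ (pow_ne_zero 4 ht0)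
      rw [f1, ← mul_pow, f4, one_pow]
    · right
      have w0 : v (t + 16) ≤ 1 := (Valuation.map_add v _ _).trans (max_le hvt v16.le)
      have w1 : v (t + 16) < 1 := by
        rcases lt_or_eq_of_le w0 with h3 | h3
        · exact h3
        · exfalso
          rw [heq, h3, one_mul, mul_one] at f4
          have h5 : v (t ^ 2 + 16 * t + 16) ≤ 1 := by
            have : t ^ 2 + 16 * t + 16 = t * (t + 16) + 16 := by ring
            rw [this]
            refine (Valuation.map_add v _ _).trans (max_le ?_ v16.le)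
            rw [map_mul, heq, h3, one_mul]
          have h6 := pow_le_one' h5 3
          rw [← f4] at h6
          exact absurd g4 (not_lt.mpr h6)
      have w2 : v (t ^ 2 + 256 * t + 4096) = 1 := by
        have : t ^ 2 + 256 * t + 4096 = (t + 16) * (t + 240) + 256 := by ring
        rw [this, Valuation.map_add_eq_of_lt_right v, v256]
        rw [v256, map_mul]
        have h3 : v (t + 240) ≤ 1 := by
          refine (Valuation.map_add v _ _).trans (max_le hvt ?_)
          exact_mod_cast val_intCast_le O 240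
        calc v (t + 16) * v (t + 240) ≤ v (t + 16) * 1 := mul_le_mul_right h3 _
          _ = v (t + 16) := mul_one _
          _ < 1 := w1
      have w3 : v (t ^ 2 + 16 * t + 16) = 1 := by
        have : t ^ 2 + 16 * t + 16 = t * (t + 16) + 16 := by ring
        rw [this, Valuation.map_add_eq_of_lt_right v, v16]
        rw [v16, map_mul, heq, one_mul]
        exact w1
      rw [w2, heq, one_pow, one_mul, one_pow] at f1
      rw [w3, heq, one_mul, one_pow] at f4
      have ht0 : v (t + 16) ≠ 0 := by
        intro h0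
        rw [h0, mul_zero] at f4
        exact zero_ne_one f4
      exact mul_right_cancel₀ ht0 (f1.trans f4.symm)
  exact combin hl.out hl2 hY d1 d4 hcase

end Main

end Fermat.Agent.Igusa
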