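import Mathlib
import Fermat.Agent.Q.NormFormula

/-!
# Traces as sums over explicit embeddings, and traces of integral elements
-/

set_option autoImplicit false
set_option linter.style.haveILetI false

noncomputable section

namespace Fermat.Agent.Igusa

open Polynomial Fermat.Agent.Q AlgebraicCurve

section Generic

variable {E F Ω : Type*} [Field E] [Field F] [Field Ω]

theorem algebraMap_trace_eq_sum [Algebra E F] [FiniteDimensional E F] [Algebra.IsSeparable E F]
    {ι : Type*} [Fintype ι] (i₀ : ι) (τ : ι → (F →+* Ω)) (hτ : Function.Injective τ)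
    (hcomp : ∀ i, (τ i).comp (algebraMap E F) = (τ i₀).comp (algebraMap E F))
    (hcard : Fintype.card ι = Module.finrank E F) (z : F) :
    τ i₀ (algebraMap E F (Algebra.trace E F z)) = ∑ i, τ i z := by
  classical
  letI : Algebra E Ω := ((τ i₀).comp (algebraMap E F)).toAlgebra
  have halg : ∀ e, algebraMap E Ω e = τ i₀ (algebraMap E F e) := fun e => rfl
  let Ω' := AlgebraicClosure Ω
  haveI : IsScalarTower E Ω Ω' := inferInstance
  let T : ι → (F →ₐ[E] Ω') := fun i =>
    { (algebraMap Ω Ω').comp (τ i) with
      commutes' := fun e => by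
        change algebraMap Ω Ω' (τ i (algebraMap E F e)) = algebraMap E Ω' e
        rw [IsScalarTower.algebraMap_apply E Ω Ω', halg]
        exact congrArg _ (congrArg (fun f : E →+* Ω => f e) (hcomp i)) }
  have hT : ∀ i x, T i x = algebraMap Ω Ω' (τ i x) := fun i x => rfl
  have hTinj : Function.Injective T := by
    intro i j hij
    apply hτ
    ext x
    apply (algebraMap Ω Ω').injective
    rw [← hT, ← hT, hij]
  have hbij : Function.Bijective T := by
    rw [Fintype.bijective_iff_injective_and_card]
    refine ⟨hTinj, ?_⟩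
    rw [hcard, AlgHom.card]
  apply (algebraMap Ω Ω').injective
  rw [map_sum]
  have h1 := trace_eq_sum_embeddings (K := E) (L := F) Ω' (x := z)
  rw [IsScalarTower.algebraMap_apply E Ω Ω', halg] at h1
  rw [h1]
  exact (Fintype.sum_bijective T hbij _ _ (fun i => (hT i z).symm)).symm

theorem trace_integral [Algebra E F] [FiniteDimensional E F] {R : Type*} [CommRing R] [IsDomain R]
    [IsIntegrallyClosed R] (φ : R →+* E) (hφ : Function.Injective φ)
    (hfrac : ∀ a : E, ∃ p s : R, s ≠ 0 ∧ a * φ s = φ p) (z : F)
    (hz : ((algebraMap E F).comp φ).IsIntegralElem z) : ∃ p : R, Algebra.trace E F z = φ p := by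
  letI : Algebra R E := φ.toAlgebra
  letI : Algebra R F := ((algebraMap E F).comp φ).toAlgebra
  haveI : IsScalarTower R E F := IsScalarTower.of_algebraMap_eq fun _ => rfl
  haveI : IsFractionRing R E := by
    rw [IsFractionRing, isLocalization_iff]
    refine ⟨fun y => ?_, fun a => ?_, fun {x y} hxy => ⟨1, ?_⟩⟩
    · have h0 : (y : R) ≠ 0 := nonZeroDivisors.coe_ne_zero y
      exact isUnit_iff_ne_zero.mpr fun h => h0 (hφ (by
        rw [map_zero]; exact h))
    · obtain ⟨p, s, hs, h⟩ := hfrac a
      exact ⟨(p, ⟨s, mem_nonZeroDivisors_of_ne_zero hs⟩), h⟩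
    · rw [hφ hxy]
  have hint : IsIntegral R z := hz
  obtain ⟨p, hp⟩ := IsIntegrallyClosed.isIntegral_iff.mp
    (Algebra.isIntegral_trace (L := E) hint)
  exact ⟨p, hp.symm⟩

theorem sum_tau_poly {K L : Type*} [Field K] [Field L] [Algebra K L] [CharZero K]
    (A B : IntermediateField K L) (h : A ≤ B)
    {ι : Type*} [Fintype ι] (i₀ : ι) (τ : ι → (B →+* Ω)) (hτ : Function.Injective τ)
    (hcomp : ∀ i (x : A), τ i (IntermediateField.inclusion h x) =
      τ i₀ (IntermediateField.inclusion h x))
    (hcard : A.relrank B = (Fintype.card ι : Cardinal))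
    {R : Type*} [CommRing R] [IsDomain R]
    [IsIntegrallyClosed R] (φ : R →+* A) (hφ : Function.Injective φ)
    (hfrac : ∀ a : A, ∃ p s : R, s ≠ 0 ∧ a * φ s = φ p) (z : B)
    (hz : ((IntermediateField.inclusion h).toRingHom.comp φ).IsIntegralElem z) :
    ∃ p : R, ∑ i, τ i z = τ i₀ (IntermediateField.inclusion h (φ p)) := by
  letI := algebraAlong (IntermediateField.inclusion h)
  have hfin : Module.finrank A B = Fintype.card ι := by
    apply Module.finrank_eq_of_rank_eq
    rw [rank_along_inclusion A B h, hcard]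
  haveI : Nonempty ι := ⟨i₀⟩
  haveI : FiniteDimensional A B :=
    FiniteDimensional.of_finrank_pos (by rw [hfin]; exact Fintype.card_pos)
  haveI : CharZero A := charZero_of_injective_algebraMap (algebraMap K A).injective
  have h1 := algebraMap_trace_eq_sum (E := A) i₀ τ hτ
    (fun i => RingHom.ext fun x => hcomp i x) hfin.symm z
  obtain ⟨p, hp⟩ := trace_integral (E := A) φ hφ hfrac z hz
  refine ⟨p, ?_⟩
  rw [← h1, hp]
  rfl

end Generic

end Fermat.Agent.Igusa
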