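import Mathlib
import Fermat.Agent.Igusa.T1Int
import Fermat.Agent.Igusa.TracePoly
import Fermat.Agent.Igusa.DeltaTrace
import Fermat.Agent.Q.Residue
import Fermat.Agent.H07.Growth

/-!
# The trace of `(t(q^l) - t^l)(t - t(q^l)^l) / l`
-/

set_option autoImplicit false
set_option linter.unusedSectionVars false

noncomputable section

open ModularCurve Polynomial

namespace Fermat.Agent.Igusa

section General

variable {K : Type*} [Field K]

theorem evC_eq_aeval (x : LaurentSeries K) (p : K[X]) : evC x p = aeval x p := by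
  rw [evC_apply, aeval_def]
  congr 1
  ext1 c
  exact (Q.algebraMap_eq_C c).symm

theorem evC_mem {A : IntermediateField K (LaurentSeries K)} {x : LaurentSeries K} (hx : x ∈ A)
    (p : K[X]) : evC x p ∈ A := by
  rw [evC_eq_aeval, aeval_eq_sum_range]
  exact sum_mem fun i _ => A.smul_mem (pow_mem hx i)

/-- evaluation in an intermediate field -/
def phi (A : IntermediateField K (LaurentSeries K)) (x : LaurentSeries K) (hx : x ∈ A) :
    K[X] →+* A := (evC x).codRestrict A (evC_mem hx)

theorem coe_phi (A : IntermediateField K (LaurentSeries K)) (x : LaurentSeries K) (hx : x ∈ A)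
    (p : K[X]) : (phi A x hx p : LaurentSeries K) = evC x p := rfl

theorem phi_injective (A : IntermediateField K (LaurentSeries K)) {x : LaurentSeries K}
    (hx : x ∈ A) (hmn : Mn x (-1)) : Function.Injective (phi A x hx) := by
  intro p s h
  apply evC_injective hmn
  rw [← coe_phi A x hx, h, coe_phi]

theorem phi_frac (A : IntermediateField K (LaurentSeries K)) {x : LaurentSeries K}
    (hx : x ∈ A) (hmn : Mn x (-1)) (hA : A = IntermediateField.adjoin K {x}) (a : A) :
    ∃ p s : K[X], s ≠ 0 ∧ a * phi A x hx s = phi A x hx p := by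
  have h1 : (a : LaurentSeries K) ∈ IntermediateField.adjoin K {x} := hA ▸ a.2
  rw [IntermediateField.mem_adjoin_simple_iff] at h1
  obtain ⟨p, s, h⟩ := h1
  by_cases hs : s = 0
  · refine ⟨0, 1, one_ne_zero, ?_⟩
    apply Subtype.ext
    have : (a : LaurentSeries K) = 0 := by rw [h, hs, map_zero, div_zero]
    change (a : LaurentSeries K) * (phi A x hx 1 : A) = (phi A x hx 0 : A)
    rw [this, map_zero, zero_mul]
    rfl
  · refine ⟨p, s, hs, ?_⟩
    apply Subtype.ext
    change (a : LaurentSeries K) * (phi A x hx s : A) = (phi A x hx p : A)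
    rw [coe_phi, coe_phi, h, evC_eq_aeval, evC_eq_aeval, div_mul_cancel₀]
    rw [← evC_eq_aeval]
    exact (map_ne_zero_iff _ (evC_injective hmn)).mpr hs

theorem isIntegralElem_of_forall {R F : Type*} [CommRing R] [Field F] (f : R →+* F) (x : F)
    (h : ∀ V : ValuationSubring F, (∀ r, f r ∈ V) → x ∈ V) : f.IsIntegralElem x := by
  letI := f.toAlgebra
  exact H07.Growth.isIntegral_of_forall (R := R) h

end General

section Z

abbrev Qb' : Type := AlgebraicClosure ℚ

variable (l : ℕ) [hl : Fact l.Prime]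

theorem coprime_four (hl2 : l ≠ 2) : Nat.Coprime l 4 := by
  have : Nat.Coprime l 2 := (Nat.coprime_primes hl.out Nat.prime_two).mpr hl2
  exact Nat.Coprime.pow_right 2 this

theorem exists_prim : ∃ ζ : (Qb')ˣ, IsPrimitiveRoot ζ l := by
  have : NeZero ((l : ℕ) : Qb') := ⟨by exact_mod_cast hl.out.ne_zero⟩
  obtain ⟨z, hz⟩ := HasEnoughRootsOfUnity.exists_primitiveRoot Qb' l
  exact ⟨(hz.isUnit hl.out.ne_zero).unit, IsPrimitiveRoot.coe_units_iff.mp hz⟩

theorem natCast_ne (A : Type*) [Field A] [Algebra Qb' A] : (l : A) ≠ 0 := by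
  have h1 : (l : Qb') ≠ 0 := by exact_mod_cast hl.out.ne_zero
  have h2 : (l : A) = algebraMap Qb' A l := (map_natCast _ _).symm
  rw [h2]
  exact (_root_.map_ne_zero _).mpr h1

theorem four_ne : ((4 : ℕ) : Qb') ≠ 0 := by norm_num

theorem t4_mem : H4.tq Qb' ∈ modularFunctionFieldFullC Qb' 4 := H4.tq_mem Qb' four_ne

theorem exists_zPoly (hl2 : l ≠ 2) {H : LaurentSeries ℤ}
    (hH : qExpand ℤ l t4 = t4 ^ l + (l : LaurentSeries ℤ) * H) :
    ∃ Z : ℤ[X], evZ t4 Z = H * (t4 - qExpand ℤ l t4 ^ l) +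
      l • uOp l (H * (t4 - qExpand ℤ l t4 ^ l)) := by
  obtain ⟨ζ, hζ⟩ := exists_prim l
  have hco := coprime_four l hl2
  set E := modularFunctionFieldFullC Qb' 4 with hE
  set B := modularFunctionFieldFullC Qb' (4 * l) with hB
  set t := H4.tq Qb' with htdef
  have ht : t ∈ E := t4_mem
  have hmn : Mn t (-1) := H4.mn_tq Qb'
  set tB : B := ⟨t, Q.mem_of_mem Qb' t ht⟩ with htB
  set t1B : B := ⟨qExpand Qb' l t, Q.qExpand_mem Qb' t ht⟩ with ht1B
  have hl0 : (l : B) ≠ 0 := natCast_ne l B
  set z : B := (t1B - tB ^ l) * (tB - t1B ^ l) / l with hz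
  set zZ : LaurentSeries ℤ := H * (t4 - qExpand ℤ l t4 ^ l) with hzZ
  have hcz : (z : LaurentSeries Qb') = coeffMap (Int.castRingHom Qb') zZ := by
    have hlL : (l : LaurentSeries Qb') ≠ 0 := natCast_ne l _
    have h1 := congrArg (coeffMap (Int.castRingHom Qb')) hH
    rw [coeffMap_qExpand, map_add, map_pow, map_mul, map_natCast] at h1
    have h2 : (z : LaurentSeries Qb') = (qExpand Qb' l t - t ^ l) * (t - qExpand Qb' l t ^ l) / l := by
      rw [hz]
      push_cast
      rfl
    have h3 : coeffMap (Int.castRingHom Qb') t4 = t := rfl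
    rw [h3] at h1
    rw [h2, h1, hzZ, map_mul, map_sub, map_pow, coeffMap_qExpand, h3, h1, div_eq_iff hlL]
    ring
  have hwz : (Q.wQ Qb' hco z : LaurentSeries Qb') = z := by
    have h1 : (Q.wQ Qb' hco tB : LaurentSeries Qb') = t1B := Q.coe_wQ_of_mem Qb' hco t ht
    have h2 : (Q.wQ Qb' hco t1B : LaurentSeries Qb') = tB := Q.coe_wQ_qExpand Qb' hco t ht
    have h1' : Q.wQ Qb' hco tB = t1B := Subtype.ext h1
    have h2' : Q.wQ Qb' hco t1B = tB := Subtype.ext h2
    have h3 : Q.wQ Qb' hco z = z := by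
      rw [hz, map_div₀, map_mul, map_sub, map_sub, map_pow, map_pow, map_natCast, h1', h2',
        mul_comm (tB - t1B ^ l)]
    rw [h3]
  -- integrality
  have hint : ((IntermediateField.inclusion (full_degeneracyC_le Qb' (dvd_mul_right 4 l))).toRingHom.comp
      (phi E t ht)).IsIntegralElem z := by
    have h1 : (evC t).IsIntegralElem (qExpand Qb' l t) := by
      apply isIntegralElem_of_forall
      intro V hV
      have h20 : (2 : Qb') ≠ 0 := by norm_num
      refine t1_mem hl2 V ?_ h20 ?_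
      · have h2 := hV (C (2 : Qb')⁻¹)
        rw [evC_C, map_inv₀, map_ofNat] at h2
        exact h2
      · have h2 := hV X
        rwa [evC_X] at h2
    set f := (IntermediateField.inclusion (full_degeneracyC_le Qb' (dvd_mul_right 4 l))).toRingHom.comp
      (phi E t ht) with hf
    have hfc : ∀ p, (f p : LaurentSeries Qb') = evC t p := fun p => rfl
    letI : Algebra Qb'[X] B := f.toAlgebra
    have h2 : IsIntegral Qb'[X] t1B := by
      obtain ⟨p, hp, hp0⟩ := h1
      refine ⟨p, hp, ?_⟩
      apply Subtype.ext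
      have h3 : B.val.toRingHom (eval₂ f t1B p) = eval₂ (B.val.toRingHom.comp f) (B.val t1B) p :=
        hom_eval₂ p f B.val.toRingHom t1B
      exact h3.trans hp0
    have h3 : IsIntegral Qb'[X] tB := by
      have h4 : tB = algebraMap Qb'[X] B X := Subtype.ext (evC_X t).symm
      rw [h4]
      exact isIntegral_algebraMap
    have h4 : IsIntegral Qb'[X] ((l : B)⁻¹) := by
      have h5 : (l : B)⁻¹ = algebraMap Qb'[X] B (C ((l : Qb')⁻¹)) := by
        rw [inv_eq_iff_eq_inv, ← map_natCast (algebraMap Qb'[X] B), ← map_natCast (C : Qb' →+* Qb'[X])]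
        rw [eq_comm, inv_eq_iff_eq_inv]
        have h6 : algebraMap Qb'[X] B (C ((l : Qb')⁻¹)) * algebraMap Qb'[X] B (C (l : Qb')) = 1 := by
          rw [← map_mul, ← C_mul, inv_mul_cancel₀ (by exact_mod_cast hl.out.ne_zero), C_1, map_one]
        exact eq_inv_of_mul_eq_one_left h6
      rw [h5]
      exact isIntegral_algebraMap
    have h5 : IsIntegral Qb'[X] z := by
      rw [hz, div_eq_mul_inv]
      exact ((h2.sub (h3.pow l)).mul (h3.sub (h2.pow l))).mul h4
    exact h5
  obtain ⟨p, hp⟩ := sum_tau_poly E B (full_degeneracyC_le Qb' (dvd_mul_right 4 l))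
    (none : Option (ZMod l)) (Q.tau Qb' 4 hco ζ) (Q.tau_injective Qb' 4 hco hζ) (fun i x => by
      have h1 := Q.tau_incl Qb' 4 hco hζ.pow_eq_one i x
      have h2 := Q.tau_incl Qb' 4 hco hζ.pow_eq_one none x
      exact h1.trans h2.symm)
    (by
      have h4l : ¬ l ∣ 4 := by
        rw [← hl.out.coprime_iff_not_dvd]; exact hco
      rw [Q.relrank_incl Qb' 4 l h4l, Fintype.card_option, ZMod.card])
    (phi E t ht) (phi_injective E ht hmn)
    (phi_frac E ht hmn (H4.full_eq Qb' four_ne)) z hint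
  rw [Fintype.sum_option] at hp
  have h1 : ∀ b : ZMod l, Q.tau Qb' 4 hco ζ (some b) z = twist (ζ ^ b.val) (z : LaurentSeries Qb') := by
    intro b
    rw [Q.tau_some, hwz]
  have h2 : Q.tau Qb' 4 hco ζ none z = qExpand Qb' l (z : LaurentSeries Qb') := rfl
  have h3 : Q.tau Qb' 4 hco ζ none (IntermediateField.inclusion
      (full_degeneracyC_le Qb' (dvd_mul_right 4 l)) (phi E t ht p)) =
      qExpand Qb' l (evC t p) := rfl
  rw [Finset.sum_congr rfl fun b _ => h1 b, h2, h3, sum_twist hζ, ← map_add] at hp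
  have hp' := (qExpand_injective l) hp
  rw [hcz] at hp'
  have h4 : coeffMap (Int.castRingHom Qb') (zZ + l • uOp l zZ) = evC t p := by
    rw [map_add, map_nsmul, ← uOp_coeffMap]
    exact hp'
  have h5 := coeff_mem_of_evC hmn (Int.castRingHom Qb').range (fun n => by
      rw [htdef, HData.tq, coeffMap_coeff]
      exact ⟨_, rfl⟩) p.natDegree p le_rfl (fun n => by
      rw [← h4, coeffMap_coeff]
      exact ⟨_, rfl⟩)
  have h6 : p ∈ Polynomial.lifts (Int.castRingHom Qb') := by
    rw [Polynomial.lifts_iff_coeff_lifts]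
    exact h5
  obtain ⟨Z, hZ⟩ := (Polynomial.mem_lifts p).mp h6
  refine ⟨Z, ?_⟩
  apply coeffMap_injective (Int.castRingHom Qb') Int.cast_injective
  rw [h4, ringHom_evZ, ← hZ, evC_map]
  rfl

end Z

end Fermat.Agent.Igusa
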