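import Mathlib
import Fermat.Agent.Igusa.ZTrace

/-!
# The divisor of `(θ t)^(l-1)`
-/

set_option autoImplicit false
set_option linter.unusedSectionVars false

noncomputable section

open ModularCurve Polynomial

namespace Fermat.Agent.Igusa

section Gen

variable {k : Type*} [Field k]

theorem md_of_mn {x : LaurentSeries k} (hx : Mn x (-1)) {p : k[X]} {d : ℕ}
    (h : Mn (evC x p) (-(d : ℤ))) : MD p d := by
  have hp : p ≠ 0 := by
    rintro rfl
    rw [map_zero] at h
    exact h.ne_zero rfl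
  have h1 := (mn_evC hx (le_refl p.natDegree)).2
  have h2 : p.natDegree ≤ d := by
    by_contra hcon
    push Not at hcon
    have h3 := h.2 (-(p.natDegree : ℤ)) (by
      have : (d : ℤ) < p.natDegree := by exact_mod_cast hcon
      omega)
    rw [h1] at h3
    exact leadingCoeff_ne_zero.mpr hp h3
  have h3 := (mn_evC hx h2).2
  rw [h.1] at h3
  have h4 : p.natDegree = d := by
    apply le_antisymm h2
    apply le_natDegree_of_ne_zero
    rw [← h3]
    exact one_ne_zero
  refine ⟨?_, h4⟩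
  rw [Monic, leadingCoeff, h4, ← h3]

/-- A sixth root of unity in `k((q))` congruent to 1 is 1. -/
theorem eq_one_of_pow_six {x : LaurentSeries k} (h6 : x ^ 6 = 1) (hx : Mn x 0) : x = 1 := by
  have h1 : (x - 1) * ((x + 1) * ((x ^ 2 + x + 1) * (x ^ 2 - x + 1))) = 0 := by
    linear_combination h6
  have hc1 : x.coeff 0 = 1 := hx.1
  have hc2 : (x ^ 2).coeff 0 = 1 := by
    have := (hx.pow 2).1
    simpa using this
  have h10 : (1 : LaurentSeries k).coeff 0 = 1 := by rw [HahnSeries.coeff_one, if_pos rfl]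
  rcases mul_eq_zero.mp h1 with h | h
  · exact sub_eq_zero.mp h
  rcases mul_eq_zero.mp h with h | h
  · have h2 := congrArg (fun z : LaurentSeries k => z.coeff 0) h
    simp only [HahnSeries.coeff_add, HahnSeries.coeff_zero] at h2
    rw [hc1, h10] at h2
    have h3 : (2 : k) = 0 := by rw [← h2]; ring
    have h4 : (2 : LaurentSeries k) = 0 := by
      have : (2 : LaurentSeries k) = HahnSeries.C 2 := (map_ofNat _ 2).symm
      rw [this, h3, map_zero]
    linear_combination h - h4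
  rcases mul_eq_zero.mp h with h | h
  · have h2 := congrArg (fun z : LaurentSeries k => z.coeff 0) h
    simp only [HahnSeries.coeff_add, HahnSeries.coeff_zero] at h2
    rw [hc1, hc2, h10] at h2
    have h3 : (3 : k) = 0 := by rw [← h2]; ring
    have h4 : (3 : LaurentSeries k) = 0 := by
      have : (3 : LaurentSeries k) = HahnSeries.C 3 := (map_ofNat _ 3).symm
      rw [this, h3, map_zero]
    have h5 : (x - 1) ^ 2 = 0 := by linear_combination h - x * h4
    exact sub_eq_zero.mp (pow_eq_zero_iff (two_ne_zero) |>.mp h5)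
  · have h2 := congrArg (fun z : LaurentSeries k => z.coeff 0) h
    simp only [HahnSeries.coeff_add, HahnSeries.coeff_sub, HahnSeries.coeff_zero] at h2
    rw [hc1, hc2, h10] at h2
    norm_num at h2

end Gen

/-- The supersingular points on the line of the hauptmodul. -/
structure SSData {r : ℕ} (D : HData r) (l : ℕ) [Fact l.Prime] (k : Type*) [Field k]
    (S : Finset k) : Prop where
  frob2 : ∀ s ∈ S, s ^ l ^ 2 = s
  frob : ∀ s ∈ S, s ^ l ∈ S
  c_ne : ∀ s ∈ S, evZ s D.c ≠ 0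
  card : 2 * S.card = (D.κ - 1) * (l - 1)
  theta : theta (D.tq k) ^ (l - 1) * (∏ s ∈ S, (D.tq k - HahnSeries.C s)) ^ 2 =
    evZ (D.tq k) D.c ^ (l - 1)
  T : evZ (jqModC k) (uT l) * evZ (D.tq k) (D.W 1) ^ (l - 1) =
    (∏ s ∈ S, (D.tq k - HahnSeries.C s)) ^ 12

section Homog

variable {r : ℕ} (D : HData r) (l : ℕ) [hl : Fact l.Prime]

/-- homogenisation of `T` -/
def Tst : ℤ[X] := ∑ i ∈ Finset.range l, C ((uT l).coeff i) * D.U 1 ^ i * D.W 1 ^ (l - 1 - i)

variable {k : Type*} [Field k] [CharP k l]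

theorem md_uT : MD ((uT l).map (Int.castRingHom k)) (l - 1) := by
  have h1 := uT_mul_pow l (k := k)
  have hdS : Mn (dS k ^ (l - 1)) ((l - 1 : ℕ) * 1) :=
    (Mn.pow ⟨dS_coeff_one, fun m hm => dS_coeff_of_lt hm⟩ (l - 1))
  rw [mul_one] at hdS
  have hj : Mn (jqModC k) (-1) := by
    have := HData.mn_j.coeffMap (Int.castRingHom k)
    rwa [coeffMap_jqModC] at this
  apply md_of_mn hj
  rw [evC_map]
  have h0 : evZ (jqModC k) (uT l) ≠ 0 := left_ne_zero_of_mul_eq_one h1
  have h2 := HahnSeries.order_mul h0 hdS.ne_zero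
  rw [h1, HahnSeries.order_one, hdS.order] at h2
  have h3 : ∀ m < -((l - 1 : ℕ) : ℤ), (evZ (jqModC k) (uT l)).coeff m = 0 := fun m hm =>
    HahnSeries.coeff_eq_zero_of_lt_order (by omega)
  refine ⟨?_, h3⟩
  have h4 := coeff_mul_lead h3 hdS.2
  rw [h1, hdS.1, mul_one, neg_add_cancel, HahnSeries.coeff_one, if_pos rfl] at h4
  exact h4.symm

theorem evZ_Tst : evZ (D.tq k) (Tst D l) =
    evZ (jqModC k) (uT l) * evZ (D.tq k) (D.W 1) ^ (l - 1) := by
  have hl0 : 0 < l := hl.out.pos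
  have h1 : evZ (jqModC k) (uT l) = ∑ i ∈ Finset.range l,
      ((((uT l).coeff i : ℤ) : k) : k) • jqModC k ^ i := by
    rw [← evC_map, evC_apply, eval₂_eq_sum_range' (n := l)]
    · refine Finset.sum_congr rfl fun i _ => ?_
      rw [coeff_map, HahnSeries.C_mul_eq_smul]
      rfl
    · rw [(md_uT l (k := k)).2]; omega
  have h2 : evZ (D.tq k) (Tst D l) = ∑ i ∈ Finset.range l,
      HahnSeries.C (((uT l).coeff i : ℤ) : k) * evZ (D.tq k) (D.U 1) ^ i *
        evZ (D.tq k) (D.W 1) ^ (l - 1 - i) := by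
    rw [Tst, map_sum]
    refine Finset.sum_congr rfl fun i _ => ?_
    rw [map_mul, map_mul, map_pow, map_pow]
    congr 2
    rw [evZ_apply, eval₂_C, eq_intCast, map_intCast]
  have h3 : evZ (D.tq k) (D.U 1) = jqModC k * evZ (D.tq k) (D.W 1) := by
    rw [D.j_tq, D.U_one, map_pow]
  rw [h2, h1, Finset.sum_mul]
  refine Finset.sum_congr rfl fun i hi => ?_
  rw [h3, ← HahnSeries.C_mul_eq_smul, mul_pow]
  have hi' := Finset.mem_range.mp hi
  have h4 : evZ (D.tq k) (D.W 1) ^ (l - 1) =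
      evZ (D.tq k) (D.W 1) ^ i * evZ (D.tq k) (D.W 1) ^ (l - 1 - i) := by
    rw [← pow_add]; congr 1; omega
  rw [h4]
  ring

theorem md_Tst : MD ((Tst D l).map (Int.castRingHom k)) ((l - 1) * dedekindPsi r) := by
  apply md_of_mn (D.mn_tq k)
  rw [evC_map, evZ_Tst]
  have hj : Mn (jqModC k) (-1) := by
    have := HData.mn_j.coeffMap (Int.castRingHom k)
    rwa [coeffMap_jqModC] at this
  have h1 : Mn (evZ (jqModC k) (uT l)) (-((l - 1 : ℕ) : ℤ)) := by
    have h2 := md_uT l (k := k)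
    have h3 := mn_evC hj h2.2.le
    rw [evC_map] at h3
    refine ⟨?_, h3.1⟩
    rw [h3.2, ← h2.2]
    exact h2.1
  have h2 : Mn (evZ (D.tq k) (D.W 1)) ((D.b 1 : ℤ) * (-1)) :=
    HData.mn_evZ (by norm_num) (D.mn_tq k) (D.hW 1 (one_dvd r))
  have h3 := h1.mul (h2.pow (l - 1))
  have h4 : evZ (D.tq k) (D.U 1) = jqModC k * evZ (D.tq k) (D.W 1) := by
    rw [D.j_tq, D.U_one, map_pow]
  have h5 : Mn (evZ (D.tq k) (D.U 1)) ((D.a 1 : ℤ) * (-1)) :=
    HData.mn_evZ (by norm_num) (D.mn_tq k) (D.hU 1 (one_dvd r))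
  have h6 := h5.order
  rw [h4, (hj.mul h2).order] at h6
  have h7 : -((((l - 1) * dedekindPsi r : ℕ)) : ℤ) =
      -((l - 1 : ℕ) : ℤ) + (l - 1 : ℕ) * ((D.b 1 : ℤ) * (-1)) := by
    rw [D.degU] at h6
    push_cast
    have h8 : (D.b 1 : ℤ) = dedekindPsi r - 1 := by linarith
    rw [h8]
    ring
  rw [h7]
  exact h3

theorem eval_Tst {a : k} (ha : evZ a D.c = 0) : evZ a (Tst D l) = evZ a D.P ^ (3 * (l - 1)) := by
  have hl0 : 0 < l := hl.out.pos
  have hW : evZ a (D.W 1) = 0 := by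
    obtain ⟨x, hx⟩ := D.hcW 1 (one_dvd r)
    rw [hx, map_mul, ha, zero_mul]
  have hlead : (((uT l).coeff (l - 1) : ℤ) : k) = 1 := by
    have h := md_uT l (k := k)
    have h2 := h.1
    rw [Monic, leadingCoeff, h.2, coeff_map] at h2
    exact h2
  rw [Tst, map_sum, Finset.sum_eq_single (l - 1)]
  · rw [Nat.sub_self, pow_zero, mul_one, map_mul, map_pow, D.U_one, map_pow, evZ_apply a (C _),
      eval₂_C, eq_intCast, hlead, one_mul, ← pow_mul]
  · intro i hi hne
    have hi' := Finset.mem_range.mp hi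
    rw [map_mul, map_pow, hW, zero_pow (by omega), mul_zero]
  · intro h
    exact absurd (Finset.mem_range.mpr (by omega)) h

theorem theta_six : theta (D.tq k) ^ (6 * (l - 1)) * evZ (D.tq k) (Tst D l) =
    evZ (D.tq k) D.c ^ (6 * (l - 1)) := by
  rw [evZ_Tst]
  have h1 := D.theta_tq_six k
  have h2 := uT_mul_pow l (k := k)
  calc theta (D.tq k) ^ (6 * (l - 1)) * (evZ (jqModC k) (uT l) *
        evZ (D.tq k) (D.W 1) ^ (l - 1))
      = (theta (D.tq k) ^ 6 * evZ (D.tq k) (D.W 1)) ^ (l - 1) * evZ (jqModC k) (uT l) := by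
        rw [mul_pow, ← pow_mul]; ring
    _ = evZ (D.tq k) D.c ^ (6 * (l - 1)) * (evZ (jqModC k) (uT l) * dS k ^ (l - 1)) := by
        rw [h1, mul_pow, ← pow_mul]; ring
    _ = _ := by rw [h2, mul_one]

theorem mn_theta_t : Mn (-theta (D.tq k)) (-1) := by
  have h := D.mn_tq k
  refine ⟨?_, fun m hm => ?_⟩
  · rw [HahnSeries.coeff_neg, theta_coeff, h.1]
    simp
  · rw [HahnSeries.coeff_neg, theta_coeff, h.2 m hm, mul_zero, neg_zero]

theorem theta_t_ne : theta (D.tq k) ≠ 0 := by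
  have := (mn_theta_t D (k := k)).ne_zero
  rwa [neg_ne_zero] at this

/-- from the sixth power to the first power -/
theorem theta_of_six (A : k[X]) {d : ℕ} (hA : MD A d)
    (h12 : (Tst D l).map (Int.castRingHom k) = A ^ 12) :
    theta (D.tq k) ^ (l - 1) * evC (D.tq k) A ^ 2 = evZ (D.tq k) D.c ^ (l - 1) := by
  have h1 := theta_six D l (k := k)
  rw [← evC_map, h12, map_pow] at h1
  have hcM : Mn (evZ (D.tq k) D.c) ((D.κ : ℤ) * (-1)) :=
    HData.mn_evZ (by norm_num) (D.mn_tq k) D.hc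
  have hc0 : evZ (D.tq k) D.c ≠ 0 := hcM.ne_zero
  set x := theta (D.tq k) ^ (l - 1) * evC (D.tq k) A ^ 2 / evZ (D.tq k) D.c ^ (l - 1) with hx
  have hx6 : x ^ 6 = 1 := by
    rw [hx, div_pow, div_eq_one_iff_eq (pow_ne_zero _ (pow_ne_zero _ hc0)), ← pow_mul, mul_pow,
      ← pow_mul, ← pow_mul, mul_comm (l - 1) 6]
    exact h1
  have hsign : ((-1 : LaurentSeries k)) ^ (l - 1) = 1 := by
    rcases hl.out.eq_two_or_odd' with h2 | hodd
    · have : (2 : k) = 0 := by
        have := CharP.cast_eq_zero k l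
        rw [h2] at this
        exact_mod_cast this
      have h4 : (2 : LaurentSeries k) = 0 := by
        have h5 : (2 : LaurentSeries k) = HahnSeries.C 2 := (map_ofNat _ 2).symm
        rw [h5, this, map_zero]
      have h6 : (-1 : LaurentSeries k) = 1 := by linear_combination -h4
      rw [h6, one_pow]
    · exact (Nat.Odd.sub_odd hodd odd_one).neg_one_pow
  have hnum : theta (D.tq k) ^ (l - 1) * evC (D.tq k) A ^ 2 = x * evZ (D.tq k) D.c ^ (l - 1) := by
    rw [hx, div_mul_cancel₀ _ (pow_ne_zero _ hc0)]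
  have hthM : Mn (theta (D.tq k) ^ (l - 1)) ((l - 1 : ℕ) * (-1)) := by
    have h3 := (mn_theta_t D (k := k)).pow (l - 1)
    rwa [neg_pow, hsign, one_mul] at h3
  have hAM : Mn (evC (D.tq k) A) (-(d : ℤ)) := by
    have h3 := mn_evC (D.mn_tq k) hA.2.le
    refine ⟨?_, h3.1⟩
    rw [h3.2, ← hA.2]
    exact hA.1
  have hN := hthM.mul (hAM.pow 2)
  rw [hnum] at hN
  have hcM' := hcM.pow (l - 1)
  have hx0 : x ≠ 0 := left_ne_zero_of_mul hN.ne_zero
  have hord := HahnSeries.order_mul hx0 hcM'.ne_zero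
  rw [hN.order, hcM'.order] at hord
  have hox : x.order = 0 := by
    have h7 := HahnSeries.order_pow x 6
    rw [hx6, HahnSeries.order_one] at h7
    rw [nsmul_eq_mul] at h7
    push_cast at h7
    omega
  have hx2 : ∀ m < (0 : ℤ), x.coeff m = 0 := fun m hm =>
    HahnSeries.coeff_eq_zero_of_lt_order (by omega)
  have hxM : Mn x 0 := by
    refine ⟨?_, hx2⟩
    have h8 := coeff_mul_lead hx2 hcM'.2
    rw [hcM'.1, mul_one] at h8
    rw [← h8, ← hN.1]
    congr 1
    omega
  rw [hnum, eq_one_of_pow_six hx6 hxM, one_mul]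

end Homog

end Fermat.Agent.Igusa
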