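import Mathlib
import Fermat.Agent.Igusa.Double

/-!
# The supersingular divisor on the line of a hauptmodul

For `l` odd the divisor of `(θ t)^(l-1)`, `t` the hauptmodul of level 4, is twice the sum of the
supersingular points.
-/

set_option autoImplicit false
set_option linter.unusedSectionVars false

noncomputable section

open ModularCurve Polynomial

namespace Fermat.Agent.Igusa

section Assemble

variable {r : ℕ} (D : HData r) (l : ℕ) [hl : Fact l.Prime] {k : Type*} [Field k] [CharP k l]

theorem exists_ssData [IsAlgClosed k] (hψ : dedekindPsi r = 6 * (D.κ - 1))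
    (hroot : ∀ s : k, evZ s (Tst D l) = 0 → s ^ l ^ 2 = s ∧ evZ s D.c ≠ 0 ∧
      rootMultiplicity s ((Tst D l).map (Int.castRingHom k)) = 12) :
    ∃ S : Finset k, SSData D l k S := by
  classical
  set p : k[X] := (Tst D l).map (Int.castRingHom k) with hp
  have hpm : MD p ((l - 1) * dedekindPsi r) := md_Tst D l
  have hp0 : p ≠ 0 := hpm.1.ne_zero
  have heval : ∀ s : k, p.eval s = evZ s (Tst D l) := by
    intro s
    rw [hp, evZ_apply, eval_map]
  set S : Finset k := p.roots.toFinset with hS
  have hmem : ∀ s : k, s ∈ S ↔ evZ s (Tst D l) = 0 := by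
    intro s
    rw [hS, Multiset.mem_toFinset, mem_roots hp0, IsRoot.def, heval]
  set A : k[X] := ∏ s ∈ S, (X - C s) with hA
  have hAd : MD A S.card := by
    refine ⟨monic_prod_of_monic _ _ fun s _ => monic_X_sub_C s, ?_⟩
    rw [hA, natDegree_prod_of_monic _ _ fun s _ => monic_X_sub_C s]
    simp
  have h12 : p = A ^ 12 := by
    have h1 := (IsAlgClosed.splits p).eq_prod_roots_of_monic hpm.1
    rw [Finset.prod_multiset_map_count, ← hS] at h1
    rw [h1, hA, ← Finset.prod_pow]
    refine Finset.prod_congr rfl fun s hs => ?_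
    rw [count_roots, (hroot s ((hmem s).mp hs)).2.2]
  have hcard : 12 * S.card = (l - 1) * dedekindPsi r := by
    have h1 := hpm.2
    rw [h12, natDegree_pow, hAd.2] at h1
    exact h1
  have hevA : evC (D.tq k) A = ∏ s ∈ S, (D.tq k - HahnSeries.C s) := by
    rw [hA, map_prod]
    refine Finset.prod_congr rfl fun s _ => ?_
    rw [map_sub, evC_X, evC_C]
  refine ⟨S, ⟨fun s hs => (hroot s ((hmem s).mp hs)).1, fun s hs => ?_,
    fun s hs => (hroot s ((hmem s).mp hs)).2.1, ?_, ?_, ?_⟩⟩
  · rw [hmem]
    have h1 : evZ (s ^ l) (Tst D l) = evZ s (Tst D l) ^ l := by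
      have h2 := ringHom_evZ (frobenius k l) s (Tst D l)
      rw [frobenius_def, frobenius_def] at h2
      exact h2.symm
    rw [h1, (hmem s).mp hs, zero_pow hl.out.ne_zero]
  · rw [hψ] at hcard
    have h3 : 12 * S.card = 6 * ((D.κ - 1) * (l - 1)) := by rw [hcard]; ring
    omega
  · rw [← hevA]
    exact theta_of_six D l A hAd h12
  · rw [← evZ_Tst, ← hevA, ← map_pow, ← h12, hp, evC_map]

end Assemble

section Odd

variable (l : ℕ) [hl : Fact l.Prime] {k : Type*} [Field k] [CharP k l]

theorem qExpand_tq_char (F : LaurentSeries ℤ) :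
    qExpand k l (coeffMap (Int.castRingHom k) F) = coeffMap (Int.castRingHom k) F ^ l := by
  rw [Q.pow_char (p := l)]
  congr 1
  ext n
  simp only [coeffMap_coeff]
  rw [frobenius_def, eq_intCast, ← frobenius_def, map_intCast]

/-- `ξ = X - X^(l^2)` -/
def xi (k : Type*) [Field k] (l : ℕ) : k[X] := X - X ^ l ^ 2

theorem derivative_xi : derivative (xi k l) = 1 := by
  rw [xi, derivative_sub, derivative_X, derivative_X_pow]
  push_cast
  rw [CharP.cast_eq_zero, zero_pow two_ne_zero, C_0, zero_mul, sub_zero]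

/-- the key identity -/
theorem exists_G0 (hl2 : l ≠ 2) : ∃ Z : k[X],
    theta (H4.tq k) ^ (l - 1) * evC (H4.tq k) (xi k l) ^ 2 =
      evC (H4.tq k) (X ^ (l - 1) * xi k l ^ 2 + derivative Z * xi k l - Z) := by
  obtain ⟨H, hH⟩ := exists_frob l t4
  obtain ⟨Z, hZ⟩ := exists_zPoly l hl2 hH
  refine ⟨Z.map (Int.castRingHom k), ?_⟩
  set t := H4.tq k with ht
  have htdef : coeffMap (Int.castRingHom k) t4 = t := rfl
  set h : LaurentSeries k := coeffMap (Int.castRingHom k) H with hh
  have hl1 : 1 ≤ l := hl.out.one_le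
  have hlL : (l : LaurentSeries k) = 0 := by
    have h5 : (l : LaurentSeries k) = HahnSeries.C (l : k) := (map_natCast _ l).symm
    rw [h5, CharP.cast_eq_zero, map_zero]
  have ht1 : qExpand k l t = t ^ l := qExpand_tq_char l t4
  have hxi : evC t (xi k l) = t - t ^ l ^ 2 := by
    rw [xi, map_sub, map_pow, evC_X]
  have h1 : h * evC t (xi k l) = evC t (Z.map (Int.castRingHom k)) := by
    rw [evC_map, hxi]
    have h2 := congrArg (coeffMap (Int.castRingHom k)) hZ
    rw [ringHom_evZ, htdef, map_add, map_nsmul, nsmul_eq_mul, hlL, zero_mul, add_zero, map_mul, map_sub, map_pow,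
      coeffMap_qExpand, htdef, ht1, ← pow_mul] at h2
    rw [h2, sq]
  -- the derivative of `H`
  have h3 : theta t ^ l = t ^ (l - 1) * theta t + theta h := by
    have h4 := congrArg theta hH
    rw [theta_qExpand, map_add, theta_pow] at h4
    have h5 : theta ((l : LaurentSeries ℤ) * H) = (l : LaurentSeries ℤ) * theta H := by
      rw [← nsmul_eq_mul, map_nsmul, nsmul_eq_mul]
    rw [h5, mul_assoc, ← mul_add] at h4
    have h6 : (l : LaurentSeries ℤ) ≠ 0 := by
      have h5 : (l : LaurentSeries ℤ) = HahnSeries.C (l : ℤ) := (map_natCast _ l).symm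
      rw [h5]
      intro h0
      have h00 := HahnSeries.C_injective (h0.trans (map_zero _).symm)
      exact hl.out.ne_zero (by exact_mod_cast h00)
    have h7 := mul_left_cancel₀ h6 h4
    have h8 := congrArg (coeffMap (Int.castRingHom k)) h7
    rw [coeffMap_qExpand, map_add, map_mul, map_pow, ← theta_coeffMap, ← theta_coeffMap, htdef,
      ← hh] at h8
    rw [← h8, ← htdef, theta_coeffMap, qExpand_tq_char]
  have h9 := congrArg theta h1
  rw [theta_mul, theta_evC, derivative_xi, map_one, one_mul, theta_evC] at h9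
  have hne : theta t ≠ 0 := theta_t_ne H4
  have hpow : theta t ^ l = theta t ^ (l - 1) * theta t := by
    rw [← pow_succ, Nat.sub_add_cancel hl1]
  apply mul_left_cancel₀ hne
  rw [map_sub, map_add, map_mul, map_mul, map_pow, map_pow, evC_X]
  have h10 : theta h = theta t ^ (l - 1) * theta t - t ^ (l - 1) * theta t := by
    rw [← hpow, h3]; ring
  rw [h10] at h9
  linear_combination (evC t (xi k l)) * h9 - theta t * h1

theorem exists_ssData_odd [IsAlgClosed k] (hl2 : l ≠ 2) : ∃ S : Finset k, SSData H4 l k S := by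
  have hl1 : 2 ≤ l := hl.out.two_le
  have h2k : (2 : k) ≠ 0 := by
    intro h
    have h1 : ((2 : ℕ) : k) = 0 := by exact_mod_cast h
    rw [CharP.cast_eq_zero_iff k l] at h1
    exact hl2 ((Nat.prime_dvd_prime_iff_eq hl.out Nat.prime_two).mp h1)
  have hψ : dedekindPsi 4 = 6 * (H4.κ - 1) := by
    have : H4.κ = 2 := rfl
    rw [this]
    exact psi_four
  obtain ⟨Z, hZ⟩ := exists_G0 (k := k) l hl2
  set G : k[X] := X ^ (l - 1) * xi k l ^ 2 + derivative Z * xi k l - Z with hG
  set p : k[X] := (Tst H4 l).map (Int.castRingHom k) with hp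
  have hpm : MD p ((l - 1) * dedekindPsi 4) := md_Tst H4 l
  have hp0 : p ≠ 0 := hpm.1.ne_zero
  have hmain : G ^ 6 * p = (H4.c.map (Int.castRingHom k)) ^ (6 * (l - 1)) * xi k l ^ 12 := by
    apply evC_injective (H4.mn_tq k)
    rw [map_mul, map_mul, map_pow, map_pow, map_pow, ← hZ, hp, evC_map, evC_map, mul_pow,
      ← pow_mul, mul_comm (l - 1) 6, ← theta_six H4 l, ← pow_mul]
    ring
  have hxi0 : xi k l ≠ 0 := by
    intro h
    have h1 := derivative_xi (k := k) l
    rw [h, derivative_zero] at h1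
    exact zero_ne_one h1
  have hc0 : (H4.c.map (Int.castRingHom k)) ≠ 0 := (H4.hc.1.map _).ne_zero
  have hR0 : (H4.c.map (Int.castRingHom k)) ^ (6 * (l - 1)) * xi k l ^ 12 ≠ 0 :=
    mul_ne_zero (pow_ne_zero _ hc0) (pow_ne_zero _ hxi0)
  have hG0 : G ≠ 0 := by
    intro h
    rw [h, zero_pow (by norm_num), zero_mul] at hmain
    exact hR0 hmain.symm
  have hPc : ∀ a : k, evZ a H4.c = 0 → evZ a H4.P ≠ 0 := by
    intro a ha hP
    have hc : H4.c = X * (X + 16) := rfl
    have hPd : H4.P = X ^ 2 + 256 * X + 4096 := rfl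
    rw [hc, map_mul, map_add, map_ofNat, evZ_X] at ha
    rw [hPd, map_add, map_add, map_mul, map_pow, map_ofNat, map_ofNat, evZ_X] at hP
    rcases mul_eq_zero.mp ha with h | h
    · rw [h] at hP
      have h1 : (2 : k) ^ 12 = 0 := by rw [← hP]; norm_num
      exact h2k (pow_eq_zero_iff (by norm_num) |>.mp h1)
    · have h0 : a = -16 := by linear_combination h
      rw [h0] at hP
      have h1 : (2 : k) ^ 8 = 0 := by rw [← hP]; norm_num
      exact h2k (pow_eq_zero_iff (by norm_num) |>.mp h1)
  apply exists_ssData H4 l hψ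
  intro s hs
  have hcs : evZ s H4.c ≠ 0 := by
    intro h
    have h1 := eval_Tst H4 l h
    rw [hs] at h1
    exact hPc s h (pow_eq_zero_iff (by omega) |>.mp h1.symm)
  have hps : p.eval s = 0 := by rw [hp, eval_map]; exact hs
  have hcev : (H4.c.map (Int.castRingHom k)).eval s ≠ 0 := by rw [eval_map]; exact hcs
  have hxis : (xi k l).eval s = 0 := by
    have h1 := congrArg (eval s) hmain
    rw [eval_mul, eval_mul, hps, mul_zero, eval_pow, eval_pow] at h1
    rcases mul_eq_zero.mp h1.symm with h2 | h2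
    · exact absurd (pow_eq_zero_iff (by omega) |>.mp h2) hcev
    · exact pow_eq_zero_iff (by norm_num) |>.mp h2
  refine ⟨?_, hcs, ?_⟩
  · rw [xi, eval_sub, eval_X, eval_pow, eval_X] at hxis
    exact (sub_eq_zero.mp hxis).symm
  have hxim : rootMultiplicity s (xi k l) = 1 := by
    have h1 := (rootMultiplicity_pos hxi0).mpr hxis
    have h2 : ¬ 1 < rootMultiplicity s (xi k l) := by
      rw [one_lt_rootMultiplicity_iff_isRoot hxi0, derivative_xi]
      intro h
      simpa using h.2
    omega
  have hcm : rootMultiplicity s (H4.c.map (Int.castRingHom k)) = 0 :=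
    rootMultiplicity_eq_zero hcev
  have hpm : 0 < rootMultiplicity s p := (rootMultiplicity_pos hp0).mpr hps
  have hg : rootMultiplicity s G ≠ 1 := by
    intro h
    have h1 : G.IsRoot s := (rootMultiplicity_pos hG0).mp (by omega)
    have h2 : ¬ (1 < rootMultiplicity s G) := by omega
    apply h2
    rw [one_lt_rootMultiplicity_iff_isRoot hG0]
    refine ⟨h1, ?_⟩
    rw [hG, IsRoot.def]
    simp only [derivative_sub, derivative_add, derivative_mul, derivative_pow, derivative_xi,
      eval_sub, eval_add, eval_mul, eval_pow, hxis]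
    simp
  have hsum : 6 * rootMultiplicity s G + rootMultiplicity s p = 12 := by
    have h1 := congrArg (rootMultiplicity s) hmain
    rw [rootMultiplicity_mul hR0, rootMultiplicity_mul (by rw [hmain]; exact hR0)] at h1
    have hpow : ∀ (f : k[X]) (n : ℕ), rootMultiplicity s (f ^ n) = n * rootMultiplicity s f := by
      classical
      intro f n
      rw [← count_roots, ← count_roots, roots_pow, Multiset.count_nsmul]
    rw [hpow, hpow, hpow, hxim, hcm] at h1
    omega
  generalize rootMultiplicity s G = g at hg hsum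
  generalize rootMultiplicity s p = m at hpm hsum ⊢
  omega

end Odd

section Two

variable {k : Type*} [Field k] [CharP k 2]

theorem two_eq_zero_char : (2 : k) = 0 := by exact_mod_cast CharP.cast_eq_zero k 2

theorem two_laurent : (2 : LaurentSeries k) = 0 := by
  have h5 : (2 : LaurentSeries k) = HahnSeries.C 2 := (map_ofNat _ 2).symm
  rw [h5, two_eq_zero_char, map_zero]

theorem uT_two : evZ (jqModC k) (uT 2) = jqModC k := by
  have h1 := uT_mul_pow 2 (k := k)
  have h2 := congrArg (coeffMap (Int.castRingHom k)) j_dS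
  have h3 : coeffMap (Int.castRingHom k) sE4 = 1 := by
    rw [sE4]
    have h4 : HahnSeries.ofPowerSeries ℤ ℤ H29.pe = 1 + 240 * HahnSeries.ofPowerSeries ℤ ℤ H29.pS := by
      rw [H29.pe_eq, map_add, map_mul, map_one, map_ofNat]
    rw [h4, map_add, map_one, map_mul, map_ofNat]
    have h5 : (240 : LaurentSeries k) = 2 * 120 := by norm_num
    rw [h5, two_laurent, zero_mul, zero_mul, add_zero]
  rw [map_mul, coeffMap_jqModC, coeffMap_dS, map_pow, h3, one_pow] at h2
  have h3 : dS k ≠ 0 := right_ne_zero_of_mul_eq_one h2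
  rw [show 2 - 1 = 1 from rfl, pow_one] at h1
  exact mul_right_cancel₀ h3 (h1.trans h2.symm)

theorem ssData_two : SSData H9 2 k {1} := by
  have h2 := two_eq_zero_char (k := k)
  have hone : (X + 1 : k[X]) = X - C 1 := by
    have h3 : (2 : k[X]) = 0 := by
      have h5 : (2 : k[X]) = C 2 := (map_ofNat _ 2).symm
      rw [h5, h2, C_0]
    rw [C_1]
    linear_combination h3
  have hA : MD (X - C (1 : k)) 1 := ⟨monic_X_sub_C _, natDegree_X_sub_C _⟩
  have hc : H9.c = X * (X ^ 2 + 9 * X + 27) := rfl
  have hP : H9.P = (X + 9) * (X ^ 3 + 243 * X ^ 2 + 2187 * X + 6561) := rfl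
  have hPk : H9.P.map (Int.castRingHom k) = (X - C 1) ^ 4 := by
    rw [hP, ← hone]
    simp only [Polynomial.map_mul, Polynomial.map_add, Polynomial.map_pow, Polynomial.map_X,
      Polynomial.map_ofNat]
    have h3 : (2 : k[X]) = 0 := by
      have h5 : (2 : k[X]) = C 2 := (map_ofNat _ 2).symm
      rw [h5, h2, C_0]
    linear_combination ((X + 9) * (121 * X ^ 2 + 1093 * X + 3280) + 4 * (X ^ 3 + X ^ 2 + X + 1) -
      (X ^ 3 + 2 * X ^ 2 + X)) * h3
  have h12 : (Tst H9 2).map (Int.castRingHom k) = (X - C 1) ^ 12 := by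
    apply evC_injective (H9.mn_tq k)
    rw [evC_map, evZ_Tst, uT_two, show 2 - 1 = 1 from rfl, pow_one, H9.j_tq, ← evC_map, hPk,
      ← map_pow, ← pow_mul]
  refine ⟨?_, ?_, ?_, ?_, ?_, ?_⟩
  · intro s hs
    rw [Finset.mem_singleton.mp hs, one_pow]
  · intro s hs
    rw [Finset.mem_singleton.mp hs, one_pow]
    exact Finset.mem_singleton_self _
  · intro s hs
    rw [Finset.mem_singleton.mp hs, hc]
    simp only [map_mul, map_add, map_pow, map_ofNat, evZ_X]
    intro h
    have h3 : (37 : k) = 0 := by linear_combination h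
    have h4 : (1 : k) = 0 := by linear_combination h3 - 18 * h2
    exact one_ne_zero h4
  · have : H9.κ = 3 := rfl
    rw [this, Finset.card_singleton]
  · rw [Finset.prod_singleton]
    have := theta_of_six H9 2 (X - C 1) hA h12
    rwa [map_sub, evC_X, evC_C] at this
  · rw [Finset.prod_singleton, ← evZ_Tst, ← evC_map, h12, map_pow, map_sub, evC_X, evC_C]

end Two

end Fermat.Agent.Igusa
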