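import Mathlib
import Fermat.Agent.Igusa.Theta
import Fermat.Agent.Q.Residue2

/-!
# The reduction of `(F - F(ζ q))^(l-1) / l`
-/

set_option autoImplicit false
set_option linter.unusedSectionVars false

noncomputable section

open ModularCurve HahnSeries

namespace Fermat.Agent.Igusa

variable {K : Type*} [Field K] {A : ValuationSubring K} {l : ℕ} [hl : Fact l.Prime]

open IsLocalRing (residue ResidueField)

theorem mem_of_pow_one {ζ : K} {n : ℕ} (hn : n ≠ 0) (h : ζ ^ n = 1) : ζ ∈ A := by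
  rcases A.mem_or_inv_mem ζ with h1 | h1
  · exact h1
  · have h2 : ζ ≠ 0 := by
      rintro rfl
      rw [zero_pow hn] at h
      exact zero_ne_one h
    have h3 : ζ = (ζ⁻¹) ^ (n - 1) := by
      have h4 : (ζ⁻¹) ^ (n - 1) * ζ⁻¹ = 1 := by
        rw [← pow_succ, Nat.sub_add_cancel (Nat.pos_of_ne_zero hn), inv_pow, h, inv_one]
      calc ζ = ((ζ⁻¹) ^ (n - 1) * ζ⁻¹) * ζ := by rw [h4, one_mul]
        _ = _ := by rw [mul_assoc, inv_mul_cancel₀ h2, mul_one]
    rw [h3]
    exact pow_mem h1 _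

theorem residue_eq_one [CharP (ResidueField A) l] {ζ : A} (h : ζ ^ l = 1) :
    residue A ζ = 1 := by
  have h1 : (residue A ζ - 1) ^ l = 0 := by
    rw [sub_pow_char, one_pow, ← map_pow, h, map_one, sub_self]
  exact sub_eq_zero.mp (pow_eq_zero_iff hl.out.ne_zero |>.mp h1)

/-- `(1 - ζ^n)/(1 - ζ)` reduces to `n` -/
theorem exists_br [CharP (ResidueField A) l] {ζ : Kˣ} (h : ζ ^ l = 1) (n : ℤ) :
    ∃ b : A, (b : K) * (1 - (ζ : K)) = 1 - ((ζ ^ n : Kˣ) : K) ∧ residue A b = n := by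
  have hl0 : l ≠ 0 := hl.out.ne_zero
  have hζ : (ζ : K) ^ l = 1 := by
    rw [← Units.val_pow_eq_pow_val, h, Units.val_one]
  have hmem : (ζ : K) ∈ A := mem_of_pow_one hl0 hζ
  have hres : residue A ⟨(ζ : K), hmem⟩ = 1 := by
    apply residue_eq_one (l := l)
    exact Subtype.ext hζ
  have hnat : ∀ m : ℕ, ∃ b : A, (b : K) * (1 - (ζ : K)) = 1 - (ζ : K) ^ m ∧ residue A b = m := by
    intro m
    refine ⟨∑ i ∈ Finset.range m, (⟨(ζ : K), hmem⟩ : A) ^ i, ?_, ?_⟩
    · push_cast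
      exact geom_sum_mul_neg _ m
    · rw [map_sum]
      simp only [map_pow, hres, one_pow]
      simp
  have hmem' : ((ζ⁻¹ : Kˣ) : K) ∈ A := by
    apply mem_of_pow_one hl0
    rw [← Units.val_pow_eq_pow_val, inv_pow, h, inv_one, Units.val_one]
  have hres' : residue A ⟨((ζ⁻¹ : Kˣ) : K), hmem'⟩ = 1 := by
    apply residue_eq_one (l := l)
    apply Subtype.ext
    change ((ζ⁻¹ : Kˣ) : K) ^ l = 1
    rw [← Units.val_pow_eq_pow_val, inv_pow, h, inv_one, Units.val_one]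
  rcases Int.le_total 0 n with hn | hn
  · obtain ⟨m, rfl⟩ := Int.eq_ofNat_of_zero_le hn
    obtain ⟨b, hb, hb'⟩ := hnat m
    exact ⟨b, by simpa using hb, by simpa using hb'⟩
  · obtain ⟨m, hm⟩ := Int.eq_ofNat_of_zero_le (neg_nonneg.mpr hn)
    obtain rfl : n = -(m : ℤ) := by omega
    obtain ⟨b, hb, hb'⟩ := hnat m
    refine ⟨-(⟨((ζ⁻¹ : Kˣ) : K), hmem'⟩ ^ m * b), ?_, ?_⟩
    · change -(((ζ⁻¹ : Kˣ) : K) ^ m * (b : K)) * (1 - (ζ : K)) = _
      have h1 : ((ζ⁻¹ : Kˣ) : K) ^ m * (ζ : K) ^ m = 1 := by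
        rw [← Units.val_pow_eq_pow_val, ← Units.val_pow_eq_pow_val, ← Units.val_mul, inv_pow,
          inv_mul_cancel, Units.val_one]
      have h2 : ((ζ ^ (-(m : ℤ)) : Kˣ) : K) = ((ζ⁻¹ : Kˣ) : K) ^ m := by
        rw [zpow_neg, zpow_natCast, ← Units.val_pow_eq_pow_val, inv_pow]
      rw [h2]
      linear_combination (-((ζ⁻¹ : Kˣ) : K) ^ m) * hb + h1
    · rw [map_neg, map_mul, map_pow, hres', one_pow, one_mul, hb']
      push_cast
      ring

theorem wilson_residue {k : Type*} [Field k] [CharP k l] :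
    ∏ i ∈ Finset.range (l - 1), ((i + 1 : ℕ) : k) = -1 := by
  have h1 : ((∏ i ∈ Finset.range (l - 1), (i + 1) : ℕ) : ZMod l) = -1 := by
    rw [Finset.prod_range_add_one_eq_factorial]
    exact ZMod.wilsons_lemma l
  have h2 := congrArg (ZMod.castHom (dvd_refl l) k) h1
  rw [map_natCast, map_neg, map_one] at h2
  rw [← h2]
  push_cast
  rfl

/-- `(1 - ζ)^(l-1) / l` is a unit with residue `-1`. -/
theorem exists_pi_pow [CharP (ResidueField A) l] (hl0 : (l : K) ≠ 0) {ζ : Kˣ}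
    (h : IsPrimitiveRoot ζ l) :
    ∃ w : A, (w : K) = (l : K)⁻¹ * (1 - (ζ : K)) ^ (l - 1) ∧ residue A w = -1 := by
  choose b hb hb' using fun n : ℤ => exists_br (A := A) (l := l) h.pow_eq_one n
  have hl1 : 1 ≤ l := hl.out.one_le
  set v : A := ∏ i ∈ Finset.range (l - 1), b ((i + 1 : ℕ) : ℤ) with hv
  have h1 : (v : K) * (1 - (ζ : K)) ^ (l - 1) = l := by
    have h2 : IsPrimitiveRoot (ζ : K) (l - 1 + 1) := by
      rw [Nat.sub_add_cancel hl1]
      exact IsPrimitiveRoot.coe_units_iff.mpr h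
    have h3 := h2.prod_one_sub_pow_eq_order
    have h4 : ((l - 1 : ℕ) : K) + 1 = l := by
      rw [← Nat.cast_succ, Nat.succ_eq_add_one, Nat.sub_add_cancel hl1]
    rw [h4] at h3
    rw [← h3, hv]
    push_cast
    have h5 : (1 - (ζ : K)) ^ (l - 1) = ∏ i ∈ Finset.range (l - 1), (1 - (ζ : K)) := by
      rw [Finset.prod_const, Finset.card_range]
    rw [h5, ← Finset.prod_mul_distrib]
    refine Finset.prod_congr rfl fun i _ => ?_
    have h6 := hb ((i + 1 : ℕ) : ℤ)
    rw [zpow_natCast, Units.val_pow_eq_pow_val] at h6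
    push_cast at h6
    exact h6
  have h2 : residue A v = -1 := by
    rw [hv, map_prod, ← wilson_residue (l := l)]
    refine Finset.prod_congr rfl fun i _ => ?_
    rw [hb']
    push_cast
    rfl
  have hv0 : IsUnit v := by
    rw [← IsLocalRing.residue_ne_zero_iff_isUnit, h2]
    exact neg_ne_zero.mpr one_ne_zero
  obtain ⟨u, hu⟩ := hv0
  refine ⟨(u⁻¹ : Aˣ), ?_, ?_⟩
  · have h3 : ((u⁻¹ : Aˣ) : A) * v = 1 := by rw [← hu]; exact u.inv_mul
    have h4 : (((u⁻¹ : Aˣ) : A) : K) * v = 1 := congrArg Subtype.val h3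
    have h5 : (v : K) ≠ 0 := right_ne_zero_of_mul_eq_one h4
    apply mul_right_cancel₀ h5
    rw [h4, mul_assoc, mul_comm _ (v : K), h1, inv_mul_cancel₀ hl0]
  · have h3 : ((u⁻¹ : Aˣ) : A) * v = 1 := by rw [← hu]; exact u.inv_mul
    have h4 := congrArg (residue A) h3
    rw [map_mul, h2, map_one] at h4
    linear_combination -h4

/-- `(F - F(ζ q))^(l-1) / l` reduces to `- (θ F)^(l-1)`. -/
theorem red_twist [CharP (ResidueField A) l] (hl0 : (l : K) ≠ 0) {ζ : Kˣ}
    (h : IsPrimitiveRoot ζ l) (F : Q.intL A) :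
    Q.Red A (HahnSeries.C (l : K)⁻¹ * ((F : LaurentSeries K) - twist ζ (F : LaurentSeries K)) ^ (l - 1))
      (-(theta (Q.redL A F)) ^ (l - 1)) := by
  choose b hb hb' using fun n : ℤ => exists_br (A := A) (l := l) h.pow_eq_one n
  obtain ⟨w, hw, hw'⟩ := exists_pi_pow (A := A) hl0 h
  have hπ : (1 : K) - ζ ≠ 0 := by
    intro h0
    have h1 : (ζ : K) = 1 := (sub_eq_zero.mp h0).symm
    have h2 : ζ = 1 := Units.ext h1
    rw [h2] at h
    have h3 := h.eq_orderOf
    rw [orderOf_one] at h3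
    exact hl.out.one_lt.ne' h3
  set G : LaurentSeries K := HahnSeries.C (1 - (ζ : K))⁻¹ *
    ((F : LaurentSeries K) - twist ζ (F : LaurentSeries K)) with hG
  have hGc : ∀ n, G.coeff n = b n * (F : LaurentSeries K).coeff n := by
    intro n
    rw [hG, HahnSeries.C_mul_eq_smul, HahnSeries.coeff_smul, HahnSeries.coeff_sub, twist_coeff,
      smul_eq_mul]
    have h1 : (b n : K) = (1 - (ζ : K))⁻¹ * (1 - ((ζ ^ n : Kˣ) : K)) := by
      rw [← hb n, mul_comm (b n : K), inv_mul_cancel_left₀ hπ]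
    rw [h1]
    ring
  have hGm : G ∈ Q.intL A := by
    rw [Q.mem_intL]
    intro n
    rw [hGc]
    exact mul_mem (b n).2 (Q.mem_intL.mp F.2 n)
  have hGr : Q.redL A ⟨G, hGm⟩ = theta (Q.redL A F) := by
    ext n
    rw [Q.redL_coeff, theta_coeff, Q.redL_coeff, ← hb', ← map_mul]
    congr 1
    exact Subtype.ext (hGc n)
  have hGe : (F : LaurentSeries K) - twist ζ (F : LaurentSeries K) =
      HahnSeries.C (1 - (ζ : K)) * G := by
    rw [hG, ← mul_assoc, ← map_mul, mul_inv_cancel₀ hπ, map_one, one_mul]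
  rw [hGe, mul_pow, ← mul_assoc, ← map_pow, ← map_mul, ← hw, ← hGr]
  have h1 := (Q.Red.C w.2).mul ((Q.Red.of_intL ⟨G, hGm⟩).pow (l - 1))
  have h2 : residue A (⟨(w : K), w.2⟩ : A) = -1 := hw'
  rw [h2, map_neg, map_one, neg_one_mul] at h1
  exact h1

/-! ### integral series -/

theorem coeffMap_int_mem (F : LaurentSeries ℤ) : coeffMap (Int.castRingHom K) F ∈ Q.intL A := by
  rw [Q.mem_intL]
  intro n
  rw [coeffMap_coeff, eq_intCast]
  exact intCast_mem A _

theorem redL_coeffMap_int (F : LaurentSeries ℤ) :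
    Q.redL A ⟨coeffMap (Int.castRingHom K) F, coeffMap_int_mem F⟩ =
      coeffMap (Int.castRingHom (ResidueField A)) F := by
  ext n
  have h0 : (coeffMap (Int.castRingHom (ResidueField A)) F).coeff n =
      residue A ((F.coeff n : ℤ) : A) := by
    rw [coeffMap_coeff, eq_intCast, map_intCast]
  rw [Q.redL_coeff, h0]
  congr 1

theorem red_coeffMap_int (F : LaurentSeries ℤ) : Q.Red A (coeffMap (Int.castRingHom K) F)
    (coeffMap (Int.castRingHom (ResidueField A)) F) := by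
  have h := Q.Red.of_intL (⟨coeffMap (Int.castRingHom K) F, coeffMap_int_mem F⟩ : Q.intL A)
  rwa [redL_coeffMap_int] at h

theorem red_twist_int [CharP (ResidueField A) l] (hl0 : (l : K) ≠ 0) {ζ : Kˣ}
    (h : IsPrimitiveRoot ζ l) (F : LaurentSeries ℤ) :
    Q.Red A (HahnSeries.C (l : K)⁻¹ * (coeffMap (Int.castRingHom K) F -
        twist ζ (coeffMap (Int.castRingHom K) F)) ^ (l - 1))
      (-(theta (coeffMap (Int.castRingHom (ResidueField A)) F)) ^ (l - 1)) := by
  have h1 := red_twist hl0 h ⟨coeffMap (Int.castRingHom K) F, coeffMap_int_mem (A := A) F⟩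
  rwa [redL_coeffMap_int] at h1

end Fermat.Agent.Igusa
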