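import Mathlib
import Fermat.Agent.Igusa.DeltaTrace
import Fermat.Agent.Igusa.ModPoly2
import Fermat.Agent.Igusa.Orders
import Fermat.Agent.Igusa.TwistRed

/-!
# The modular unit `Δ(q) / Δ(q^r)` in the modular function field
-/

set_option autoImplicit false
set_option linter.unusedSectionVars false

noncomputable section

open ModularCurve Polynomial UpperHalfPlane

namespace Fermat.Agent.Igusa

/-! ### Lagrange interpolation -/

section Lagrange

variable {R0 : Type*} [CommRing R0]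

/-- numerator of the interpolation formula -/
def lagN (Φ : R0[X]) (G : ℕ → R0) : R0[X] :=
  ∑ m ∈ Finset.range Φ.natDegree, C (G m) *
    ∑ i ∈ Finset.Icc (m + 1) Φ.natDegree, X ^ (i - (m + 1)) * C (Φ.coeff i)

/-- denominator of the interpolation formula -/
def lagD (Φ : R0[X]) : R0[X] :=
  ∑ m ∈ Finset.range Φ.natDegree, X ^ m *
    ∑ i ∈ Finset.Icc (m + 1) Φ.natDegree, X ^ (i - (m + 1)) * C (Φ.coeff i)

variable {S : Type*} [CommRing S] [IsDomain S] (ev : R0 →+* S) {Φ : R0[X]} (hΦ : Φ.Monic)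
  {ι : Type*} [Fintype ι] [DecidableEq ι] (x : ι → S) (hx : Φ.map ev = ∏ i, (X - C (x i)))

include hΦ hx

theorem lag_natDegree : Φ.natDegree = Fintype.card ι := by
  rw [← hΦ.natDegree_map ev, hx, natDegree_prod_of_monic _ _ fun i _ => monic_X_sub_C _]
  simp

theorem lag_coeff (i : ι) (m : ℕ) :
    eval₂ ev (x i) (∑ k ∈ Finset.Icc (m + 1) Φ.natDegree, X ^ (k - (m + 1)) * C (Φ.coeff k)) =
      (∏ i' ∈ Finset.univ.erase i, (X - C (x i'))).coeff m := by
  have h1 : (∏ i' ∈ Finset.univ.erase i, (X - C (x i'))) = Φ.map ev /ₘ (X - C (x i)) := by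
    rw [hx, ← Finset.mul_prod_erase Finset.univ (fun i => X - C (x i)) (Finset.mem_univ i),
      mul_divByMonic_cancel_left _ (monic_X_sub_C _)]
  rw [h1, coeff_divByMonic_X_sub_C, hΦ.natDegree_map, eval₂_finsetSum]
  refine Finset.sum_congr rfl fun k _ => ?_
  rw [eval₂_mul, eval₂_pow, eval₂_X, eval₂_C, coeff_map]

theorem lag_degree_lt (i : ι) :
    (∏ i' ∈ Finset.univ.erase i, (X - C (x i'))).natDegree < Φ.natDegree := by
  rw [lag_natDegree ev hΦ x hx, natDegree_prod_of_monic _ _ fun i _ => monic_X_sub_C _]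
  simp only [natDegree_X_sub_C, Finset.sum_const, smul_eq_mul, mul_one]
  rw [Finset.card_erase_of_mem (Finset.mem_univ i), Finset.card_univ]
  exact Nat.sub_lt (Fintype.card_pos_iff.mpr ⟨i⟩) one_pos

theorem eval_lagD (i : ι) :
    (lagD Φ).eval₂ ev (x i) = ∏ i' ∈ Finset.univ.erase i, (x i - x i') := by
  rw [lagD, eval₂_finsetSum]
  have h1 : ∏ i' ∈ Finset.univ.erase i, (x i - x i') =
      (∏ i' ∈ Finset.univ.erase i, (X - C (x i'))).eval (x i) := by
    rw [eval_prod]
    refine Finset.prod_congr rfl fun i' _ => ?_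
    rw [eval_sub, eval_X, eval_C]
  rw [h1, eval_eq_sum_range' (lag_degree_lt ev hΦ x hx i)]
  refine Finset.sum_congr rfl fun m _ => ?_
  rw [eval₂_mul, eval₂_pow, eval₂_X, lag_coeff ev hΦ x hx, mul_comm]

theorem eval_lagN (U : ι → S) (G : ℕ → R0) (hG : ∀ m, ∑ i, U i * x i ^ m = ev (G m)) (i : ι) :
    (lagN Φ G).eval₂ ev (x i) = U i * (lagD Φ).eval₂ ev (x i) := by
  rw [eval_lagD ev hΦ x hx, lagN, eval₂_finsetSum]
  have h1 : ∀ i', (∏ i' ∈ Finset.univ.erase i, (X - C (x i'))).eval (x i') =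
      if i' = i then ∏ i' ∈ Finset.univ.erase i, (x i - x i') else 0 := by
    intro i'
    rw [eval_prod]
    split_ifs with h
    · subst h
      refine Finset.prod_congr rfl fun i' _ => ?_
      rw [eval_sub, eval_X, eval_C]
    · apply Finset.prod_eq_zero (Finset.mem_erase.mpr ⟨h, Finset.mem_univ _⟩)
      rw [eval_sub, eval_X, eval_C, sub_self]
  have h2 : ∑ i', U i' * (∏ i' ∈ Finset.univ.erase i, (X - C (x i'))).eval (x i') =
      U i * ∏ i' ∈ Finset.univ.erase i, (x i - x i') := by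
    rw [Finset.sum_eq_single i]
    · rw [h1, if_pos rfl]
    · intro i' _ hne
      rw [h1, if_neg hne, mul_zero]
    · intro h; exact absurd (Finset.mem_univ i) h
  have h3 : ∀ i', (∏ i' ∈ Finset.univ.erase i, (X - C (x i'))).eval (x i') =
      ∑ m ∈ Finset.range Φ.natDegree,
        (∏ i' ∈ Finset.univ.erase i, (X - C (x i'))).coeff m * x i' ^ m := fun i' =>
    eval_eq_sum_range' (lag_degree_lt ev hΦ x hx i) _
  have h4 : ∑ i', U i' * (∏ i' ∈ Finset.univ.erase i, (X - C (x i'))).eval (x i') =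
      ∑ m ∈ Finset.range Φ.natDegree, ∑ i', U i' *
        ((∏ i' ∈ Finset.univ.erase i, (X - C (x i'))).coeff m * x i' ^ m) := by
    rw [Finset.sum_comm]
    refine Finset.sum_congr rfl fun i' _ => ?_
    rw [h3 i', Finset.mul_sum]
  rw [← h2, h4]
  refine Finset.sum_congr rfl fun m _ => ?_
  rw [eval₂_mul, eval₂_C, lag_coeff ev hΦ x hx, ← hG, Finset.sum_mul]
  refine Finset.sum_congr rfl fun i' _ => ?_
  ring

end Lagrange

section Unit

variable (r : ℕ) [hr : Fact r.Prime]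

/-- `r^12 Δ(q^r) / Δ(q)` -/
def uV (R : Type*) [CommRing R] : LaurentSeries R :=
  (r : LaurentSeries R) ^ 12 * (qExpand R r (dS R) * dSinv R)

theorem coeffMap_uV {R S : Type*} [CommRing R] [CommRing S] (f : R →+* S) :
    coeffMap f (uV r R) = uV r S := by
  rw [uV, uV, map_mul, map_mul, map_pow, map_natCast, coeffMap_qExpand, coeffMap_dS,
    coeffMap_dSinv]

theorem uS_mul_uV (R : Type*) [CommRing R] : uS r R * uV r R = (r : LaurentSeries R) ^ 12 := by
  have h1 := uS_mul r R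
  have h2 : dS R * dSinv R = 1 := dS_mul_dSinv R
  calc uS r R * uV r R = (r : LaurentSeries R) ^ 12 * ((uS r R * qExpand R r (dS R)) * dSinv R) := by
        rw [uV]; ring
    _ = _ := by rw [h1, h2, mul_one]

theorem uFam' : IsFam r (fun τ => dl τ * (dl (scl r τ))⁻¹)
    (fun b τ => (r : ℂ) ^ 12 * (dl τ * (tr r dl b τ)⁻¹)) (uS r ℤ) (uV r ℤ) := uFam r

theorem exists_uG (m : ℕ) : ∃ P : ℤ[X], trSeries r (uS r ℤ * qExpand ℤ r (jqModC ℤ) ^ m)
    (uV r ℤ * jqModC ℤ ^ m) = evZ (jqModC ℤ) P :=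
  ((uFam' r).mul ((jFam r).pow m)).trace

/-- the trace polynomials of `u j_r^m` -/
def uG (m : ℕ) : ℤ[X] := (exists_uG r m).choose

theorem uG_spec (m : ℕ) : trSeries r (uS r ℤ * qExpand ℤ r (jqModC ℤ) ^ m)
    (uV r ℤ * jqModC ℤ ^ m) = evZ (jqModC ℤ) (uG r m) := (exists_uG r m).choose_spec

/-- the conjugates of `u` -/
def ut {R : Type*} [CommRing R] (ζ : Rˣ) : Option (ZMod r) → LaurentSeries R
  | none => qExpand R r (uS r R)
  | some b => twist (ζ ^ b.val) (uV r R)

theorem sum_ut {R : Type*} [CommRing R] [IsDomain R] {ζ : Rˣ} (hζ : IsPrimitiveRoot ζ r) (m : ℕ) :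
    ∑ i, ut r ζ i * rt r ζ i ^ m = evZ (qExpand R r (jqModC R)) (uG r m) := by
  rw [← trace_identity_of (uG_spec r m) hζ, Fintype.sum_option]
  rw [map_mul, map_pow, coeffMap_qExpand, coeffMap_jqModC, coeffMap_uS, map_mul, map_pow]
  congr 1
  refine Finset.sum_congr rfl fun b _ => ?_
  rw [map_mul, map_pow, coeffMap_jqModC, coeffMap_uV, map_mul, map_pow]
  rfl

variable {K : Type*} [Field K] {ζ : Kˣ} (hζ : IsPrimitiveRoot ζ r)

include hζ

theorem lag_main (i : Option (ZMod r)) :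
    (lagN (modPoly r) (uG r)).eval₂ (evZ (qExpand K r (jqModC K))) (rt r ζ i) =
      ut r ζ i * (lagD (modPoly r)).eval₂ (evZ (qExpand K r (jqModC K))) (rt r ζ i) ∧
    (lagD (modPoly r)).eval₂ (evZ (qExpand K r (jqModC K))) (rt r ζ i) ≠ 0 := by
  classical
  have hx : (modPoly r).map (evZ (qExpand K r (jqModC K))) = ∏ i, (X - C (rt r ζ i)) :=
    modPoly_map r hζ
  refine ⟨eval_lagN _ (modPoly_monic r) _ hx _ _ (sum_ut r hζ) i, ?_⟩
  rw [eval_lagD _ (modPoly_monic r) _ hx]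
  rw [Finset.prod_ne_zero_iff]
  intro i' hi'
  rw [sub_ne_zero]
  intro h
  exact (Finset.ne_of_mem_erase hi') (rt_injective r hζ h).symm

omit hζ in
theorem twist_one' (F : LaurentSeries K) : twist (1 : Kˣ) F = F := by
  ext n
  rw [twist_coeff, one_zpow, Units.val_one, mul_one]

/-- `u D(j_r, j) = N(j_r, j)` -/
theorem lag_inf : (lagN (modPoly r) (uG r)).eval₂ (evZ (jqModC K)) (qExpand K r (jqModC K)) =
      uS r K * (lagD (modPoly r)).eval₂ (evZ (jqModC K)) (qExpand K r (jqModC K)) ∧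
    (lagD (modPoly r)).eval₂ (evZ (jqModC K)) (qExpand K r (jqModC K)) ≠ 0 := by
  obtain ⟨h1, h2⟩ := lag_main r hζ none
  have h3 : ∀ p : ℤ[X][X], p.eval₂ (evZ (qExpand K r (jqModC K))) (rt r ζ none) =
      qExpand K r (p.eval₂ (evZ (jqModC K)) (qExpand K r (jqModC K))) := by
    intro p
    rw [hom_eval₂, ringHom_comp_evZ]
    rfl
  rw [h3, h3] at h1
  rw [h3] at h2
  refine ⟨?_, fun h => h2 (by rw [h, map_zero])⟩
  apply qExpand_injective (R := K) r
  rw [map_mul]
  exact h1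

/-- `w(u) D(j, j_r) = N(j, j_r)` -/
theorem lag_zero : (lagN (modPoly r) (uG r)).eval₂ (evZ (qExpand K r (jqModC K))) (jqModC K) =
      uV r K * (lagD (modPoly r)).eval₂ (evZ (qExpand K r (jqModC K))) (jqModC K) ∧
    (lagD (modPoly r)).eval₂ (evZ (qExpand K r (jqModC K))) (jqModC K) ≠ 0 := by
  have h := lag_main r hζ (some 0)
  have h1 : rt r ζ (some 0) = jqModC K := by
    rw [rt, ZMod.val_zero, pow_zero, twist_one']
  have h2 : ut r ζ (some 0) = uV r K := by
    rw [ut, ZMod.val_zero, pow_zero, twist_one']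
  rw [h1, h2] at h
  exact h

end Unit

section Field

variable (r : ℕ) [hr : Fact r.Prime] {K : Type*} [Field K] {ζ : Kˣ} (hζ : IsPrimitiveRoot ζ r)

theorem evZ_mem' (A : IntermediateField K (LaurentSeries K)) {x : LaurentSeries K} (hx : x ∈ A)
    (p : ℤ[X]) : evZ x p ∈ A := by
  rw [evZ_apply, eval₂_eq_sum_range]
  refine sum_mem fun i _ => mul_mem ?_ (pow_mem hx i)
  rw [eq_intCast]
  exact intCast_mem A _

theorem eval₂_evZ_mem (A : IntermediateField K (LaurentSeries K)) {x y : LaurentSeries K}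
    (hx : x ∈ A) (hy : y ∈ A) (p : ℤ[X][X]) : p.eval₂ (evZ x) y ∈ A := by
  rw [eval₂_eq_sum_range]
  exact sum_mem fun i _ => mul_mem (evZ_mem' A hx _) (pow_mem hy i)

include hζ

/-- `Δ(q)/Δ(q^r)` is a modular function of level `r` -/
theorem uS_mem (N : ℕ) (hN : r ∣ N) : uS r K ∈ modularFunctionFieldFullC K N := by
  obtain ⟨h1, h2⟩ := lag_inf r hζ
  have hj := jqModC_mem_full K N
  have hj' : qExpand K r (jqModC K) ∈ modularFunctionFieldFullC K N := jqModCd_mem_full K N hN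
  have h3 : uS r K = (lagN (modPoly r) (uG r)).eval₂ (evZ (jqModC K)) (qExpand K r (jqModC K)) /
      (lagD (modPoly r)).eval₂ (evZ (jqModC K)) (qExpand K r (jqModC K)) := by
    rw [h1, mul_div_cancel_right₀ _ h2]
  rw [h3]
  exact div_mem (eval₂_evZ_mem _ hj hj' _) (eval₂_evZ_mem _ hj hj' _)

/-- `w_r (Δ(q)/Δ(q^r)) = r^12 Δ(q^r)/Δ(q)` -/
theorem coe_wQ_uS [CharZero K] [Algebra ℚ K] [Algebra.IsAlgebraic ℚ K] (M : ℕ) [NeZero M]
    (hQM : Nat.Coprime r M) :
    (Q.wQ K hQM ⟨uS r K, uS_mem r hζ (M * r) (dvd_mul_left r M)⟩ : LaurentSeries K) = uV r K := by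
  set j : modularFunctionFieldFullC K (M * r) := ⟨jqModC K, Q.mem_of_mem K _ (jqModC_mem_full K M)⟩
    with hj
  set j' : modularFunctionFieldFullC K (M * r) := ⟨qExpand K r (jqModC K),
    Q.qExpand_mem K _ (jqModC_mem_full K M)⟩ with hj'
  set u : modularFunctionFieldFullC K (M * r) :=
    ⟨uS r K, uS_mem r hζ (M * r) (dvd_mul_left r M)⟩ with hu
  have hwj : Q.wQ K hQM j = j' := Subtype.ext (Q.coe_wQ_of_mem K hQM _ (jqModC_mem_full K M))
  have hwj' : Q.wQ K hQM j' = j := Subtype.ext (Q.coe_wQ_qExpand K hQM _ (jqModC_mem_full K M))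
  obtain ⟨h1, h2⟩ := lag_inf r hζ
  obtain ⟨h3, h4⟩ := lag_zero r hζ
  have hcoe : ∀ (p : ℤ[X][X]) (x y : modularFunctionFieldFullC K (M * r)),
      ((p.eval₂ (evZ x) y : modularFunctionFieldFullC K (M * r)) : LaurentSeries K) =
        p.eval₂ (evZ (x : LaurentSeries K)) (y : LaurentSeries K) := by
    intro p x y
    have h := hom_eval₂ p (evZ x) (modularFunctionFieldFullC K (M * r)).val.toRingHom y
    rw [ringHom_comp_evZ] at h
    exact h
  have h5 : (lagN (modPoly r) (uG r)).eval₂ (evZ j) j' = u * (lagD (modPoly r)).eval₂ (evZ j) j' := by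
    apply Subtype.ext
    change _ = (u : LaurentSeries K) * ((lagD (modPoly r)).eval₂ (evZ j) j' :
      modularFunctionFieldFullC K (M * r))
    rw [hcoe, hcoe]
    exact h1
  have h6 := congrArg (Q.wQ K hQM).toRingEquiv.toRingHom h5
  rw [map_mul, hom_eval₂, hom_eval₂, ringHom_comp_evZ] at h6
  have h7 : (Q.wQ K hQM).toRingEquiv.toRingHom j = j' := hwj
  have h8 : (Q.wQ K hQM).toRingEquiv.toRingHom j' = j := hwj'
  rw [h7, h8] at h6
  have h9 := congrArg Subtype.val h6
  have h10 : ((lagN (modPoly r) (uG r)).eval₂ (evZ (j' : LaurentSeries K)) (j : LaurentSeries K)) =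
      (Q.wQ K hQM u : LaurentSeries K) *
        (lagD (modPoly r)).eval₂ (evZ (j' : LaurentSeries K)) (j : LaurentSeries K) := by
    rw [← hcoe, ← hcoe]
    exact h9
  have h11 : (lagN (modPoly r) (uG r)).eval₂ (evZ (j' : LaurentSeries K)) (j : LaurentSeries K) =
      uV r K * (lagD (modPoly r)).eval₂ (evZ (j' : LaurentSeries K)) (j : LaurentSeries K) := h3
  exact mul_right_cancel₀ h4 (h10.symm.trans h11)

end Field

/-! ### integrality -/

section Integral

variable {r : ℕ} [hr : Fact r.Prime] {fi : ℍ → ℂ} {f : ZMod r → ℍ → ℂ} {Fi F0 : LaurentSeries ℤ}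

/-- the conjugates of a family -/
def famC (Fi F0 : LaurentSeries ℤ) {R : Type*} [CommRing R] (ζ : Rˣ) :
    Option (ZMod r) → LaurentSeries R
  | none => qExpand R r (coeffMap (Int.castRingHom R) Fi)
  | some b => twist (ζ ^ b.val) (coeffMap (Int.castRingHom R) F0)

theorem qExpand_mem_intC {F : LaurentSeries ℂ} (hF : F ∈ coeffSubring intC) :
    qExpand ℂ r F ∈ coeffSubring intC := by
  intro n
  by_cases hn : (r : ℤ) ∣ n
  · obtain ⟨m, rfl⟩ := hn
    rw [qExpand_coeff_mul]; exact hF m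
  · rw [qExpand_coeff_of_not_dvd r _ hn]; exact intC.zero_mem

theorem coeffMap_mem_intC (F : LaurentSeries ℤ) :
    coeffMap (Int.castRingHom ℂ) F ∈ coeffSubring intC := by
  intro n
  rw [coeffMap_coeff, eq_intCast]
  exact intCast_mem intC _

theorem famC_mem (i : Option (ZMod r)) : famC Fi F0 (zr r) i ∈ coeffSubring intC := by
  cases i with
  | none => exact qExpand_mem_intC (coeffMap_mem_intC Fi)
  | some b =>
    intro n
    rw [famC, twist_coeff, ← zpow_natCast, ← zpow_mul]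
    exact intC.mul_mem (coeffMap_mem_intC F0 n) (zr_zpow_mem r _)

theorem IsFam.coeff_mem (hf : IsFam r fi f Fi F0) (k : ℕ) :
    (∏ i, (X - C (famC (r := r) Fi F0 (zr r) i))).coeff k ∈
      RingHom.range (evZ (qExpand ℂ r (jqModC ℂ))) := by
  let S : Subring (LaurentSeries ℂ) := RingHom.range
    ((qExpand ℂ r).comp ((evJ ℂ).comp (Polynomial.mapRingHom (algebraMap ℚ ℂ))))
  have hζ : IsPrimitiveRoot (zr r) r := by
    rw [← IsPrimitiveRoot.coe_units_iff]; exact zr_isPrimitiveRoot r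
  have hcast : ∀ n : ℕ, ((n : LaurentSeries ℂ)) = HahnSeries.C (n : ℂ) := fun n => by
    rw [map_natCast]
  have h1 : (∏ i, (X - C (famC (r := r) Fi F0 (zr r) i))).coeff k ∈ S := by
    refine coeff_prod_mem_of_psum_mem S (fun n hn => ?_) (fun n hn => ?_) _ (fun n => ?_) k
    · refine ⟨Polynomial.C ((n : ℚ)⁻¹), ?_⟩
      simp only [RingHom.comp_apply, Polynomial.coe_mapRingHom, Polynomial.map_C, evJ_C]
      rw [qExpand_C]
      have hn' : (n : ℂ) ≠ 0 := by
        intro h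
        apply hn
        rw [hcast, h, map_zero]
      rw [hcast, map_inv₀, map_natCast (algebraMap ℚ ℂ), map_inv₀]
    · rw [hcast]
      intro h
      have := HahnSeries.C_injective (h.trans (map_zero HahnSeries.C).symm)
      exact hn (by exact_mod_cast this)
    · obtain ⟨P, hP⟩ := (hf.pow n).trace
      have h2 : ∑ i, famC (r := r) Fi F0 (zr r) i ^ n = evZ (qExpand ℂ r (jqModC ℂ)) P := by
        rw [← trace_identity_of hP hζ, Fintype.sum_option, famC, map_pow, map_pow]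
        congr 1
        refine Finset.sum_congr rfl fun b _ => ?_
        rw [famC, map_pow, map_pow]
      rw [h2]
      refine ⟨P.map (Int.castRingHom ℚ), ?_⟩
      simp only [RingHom.comp_apply, Polynomial.coe_mapRingHom, Polynomial.map_map]
      rw [RingHom.ext_int ((algebraMap ℚ ℂ).comp (Int.castRingHom ℚ)) (Int.castRingHom ℂ),
        evJ_apply, Polynomial.eval₂_map, Polynomial.hom_eval₂, evZ_apply]
      congr 1
      exact Subsingleton.elim _ _
  obtain ⟨Q, hQ⟩ := h1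
  simp only [RingHom.comp_apply, Polynomial.coe_mapRingHom] at hQ
  have h2 : (∏ i, (X - C (famC (r := r) Fi F0 (zr r) i))).coeff k ∈ coeffSubring intC :=
    coeff_prod_mem_of_mem _ _ famC_mem k
  have h3 : ∀ n, (evJ ℚ Q).coeff n ∈ (Int.castRingHom ℚ).range := by
    intro n
    have h4 := h2 ((r : ℤ) * n)
    rw [← hQ, qExpand_coeff_mul, ← coeffMap_evJ, coeffMap_coeff, mem_intC,
      isIntegral_algebraMap_iff (algebraMap ℚ ℂ).injective] at h4
    obtain ⟨m, hm⟩ := IsIntegrallyClosed.isIntegral_iff.mp h4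
    exact ⟨m, hm⟩
  have h5 := coeff_mem_of_evJ _ _ Q le_rfl h3
  obtain ⟨Q', hQ'⟩ := (Polynomial.mem_lifts Q).mp ((Polynomial.lifts_iff_coeff_lifts Q).mpr h5)
  refine ⟨Q', ?_⟩
  rw [← hQ, ← hQ', Polynomial.map_map,
    RingHom.ext_int ((algebraMap ℚ ℂ).comp (Int.castRingHom ℚ)) (Int.castRingHom ℂ),
    evJ_apply, Polynomial.eval₂_map, Polynomial.hom_eval₂, evZ_apply]
  congr 1
  exact Subsingleton.elim _ _

/-- the members of a family are integral over `ℤ[j]` -/
theorem IsFam.exists_monic (hf : IsFam r fi f Fi F0) : ∃ p : ℤ[X][X], p.Monic ∧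
    ∀ (R : Type) [CommRing R], p.eval₂ (evZ (jqModC R)) (coeffMap (Int.castRingHom R) Fi) = 0 := by
  have h1 : (∏ i, (X - C (famC (r := r) Fi F0 (zr r) i))) ∈
      Polynomial.lifts (evZ (qExpand ℂ r (jqModC ℂ))) :=
    (Polynomial.lifts_iff_coeff_lifts _).mpr fun k => hf.coeff_mem k
  obtain ⟨p, h2, -, h4⟩ := Polynomial.lifts_and_natDegree_eq_and_monic h1
    (monic_prod_of_monic _ _ fun i _ => monic_X_sub_C _)
  refine ⟨p, h4, ?_⟩
  have h5 : p.eval₂ (evZ (qExpand ℂ r (jqModC ℂ))) (famC (r := r) Fi F0 (zr r) none) = 0 := by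
    rw [eval₂_eq_eval_map, h2, eval_prod]
    apply Finset.prod_eq_zero (Finset.mem_univ none)
    rw [eval_sub, eval_X, eval_C, sub_self]
  have h6 : p.eval₂ (evZ (jqModC ℂ)) (coeffMap (Int.castRingHom ℂ) Fi) = 0 := by
    apply qExpand_injective (R := ℂ) r
    rw [map_zero, hom_eval₂, ringHom_comp_evZ]
    exact h5
  have h7 : p.eval₂ (evZ (jqModC ℤ)) Fi = 0 := by
    apply coeffMap_injective (Int.castRingHom ℂ) Int.cast_injective
    rw [map_zero, hom_eval₂, ringHom_comp_evZ, coeffMap_jqModC]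
    exact h6
  intro R _
  have h8 := congrArg (coeffMap (Int.castRingHom R)) h7
  rwa [map_zero, hom_eval₂, ringHom_comp_evZ, coeffMap_jqModC] at h8

end Integral

end Fermat.Agent.Igusa
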