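import Mathlib
import Fermat.Agent.Igusa.SSMain
import Fermat.Agent.Igusa.UField

/-!
# (R-T) and (R-C): the interface for PROGRAM R
-/

set_option autoImplicit false
set_option linter.unusedSectionVars false

noncomputable section

open ModularCurve Polynomial

namespace Fermat.Agent.Igusa

open IsLocalRing (residue ResidueField)

/-! ### (a), (c), (f) the hauptmodul -/

section Haupt

/-- numerator and denominator of `j` are coprime in characteristic `l` -/
def Good {r : ℕ} (D : HData r) (k : Type*) [Field k] : Prop :=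
  ∀ a : k, evZ a D.c = 0 → evZ a D.P ≠ 0

theorem good_four {l : ℕ} (k : Type*) [Field k] [CharP k l] (hl : l.Prime) (hl2 : l ≠ 2) :
    Good H4 k := by
  have h2k : (2 : k) ≠ 0 := by
    intro h
    have h1 : ((2 : ℕ) : k) = 0 := by exact_mod_cast h
    rw [CharP.cast_eq_zero_iff k l] at h1
    exact hl2 ((Nat.prime_dvd_prime_iff_eq hl Nat.prime_two).mp h1)
  intro a ha hP
  have hc : H4.c = X * (X + 16) := rfl
  have hPd : H4.P = X ^ 2 + 256 * X + 4096 := rfl
  rw [hc, map_mul, map_add, map_ofNat, evZ_X] at ha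
  rw [hPd, map_add, map_add, map_mul, map_pow, map_ofNat, map_ofNat, evZ_X] at hP
  rcases mul_eq_zero.mp ha with h | h
  · rw [h] at hP
    have h1 : (2 : k) ^ 12 = 0 := by rw [← hP]; norm_num
    exact h2k (pow_eq_zero_iff (by norm_num) |>.mp h1)
  · have h0 : a = -16 := by linear_combination h
    rw [h0] at hP
    have h1 : (2 : k) ^ 8 = 0 := by rw [← hP]; norm_num
    exact h2k (pow_eq_zero_iff (by norm_num) |>.mp h1)

theorem good_nine (k : Type*) [Field k] [CharP k 2] : Good H9 k := by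
  intro a ha hP
  have h2 := two_eq_zero_char (k := k)
  have hc : H9.c = X * (X ^ 2 + 9 * X + 27) := rfl
  have hPd : H9.P = (X + 9) * (X ^ 3 + 243 * X ^ 2 + 2187 * X + 6561) := rfl
  simp only [hc, map_mul, map_add, map_pow, map_ofNat, evZ_X] at ha
  simp only [hPd, map_mul, map_add, map_pow, map_ofNat, evZ_X] at hP
  have h3 : (a + 1) ^ 4 = 0 := by
    linear_combination hP - ((a + 9) * (121 * a ^ 2 + 1093 * a + 3280) + 4 * (a ^ 3 + a ^ 2 + a + 1) -
      (a ^ 3 + 3 * a ^ 2 + 2 * a) + a ^ 2 + a) * h2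
  have h4 : a = 1 := by
    have h5 := pow_eq_zero_iff (n := 4) (by norm_num) |>.mp h3
    linear_combination h5 - h2
  rw [h4] at ha
  have h5 : (1 : k) = 0 := by linear_combination ha - 18 * h2
  exact one_ne_zero h5

variable {r : ℕ} (D : HData r)

/-- `t` is integral over `ℤ[j]`: the polynomial `U(X) - j W(X)`. -/
theorem tq_isIntegral (R : Type*) [CommRing R] [Nontrivial R] :
    IsIntegral (Algebra.adjoin R {jqModC R}) (D.tq R) := by
  set j' : Algebra.adjoin R {jqModC R} := ⟨jqModC R, Algebra.subset_adjoin rfl⟩ with hj'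
  have h1 := D.hlt 1 (one_dvd r)
  have hU := D.hU 1 (one_dvd r)
  have hW := D.hW 1 (one_dvd r)
  refine ⟨(D.U 1).map (Int.castRingHom _) - C j' * (D.W 1).map (Int.castRingHom _), ?_, ?_⟩
  · apply Monic.sub_of_left (hU.1.map _)
    refine lt_of_le_of_lt ((degree_mul_le _ _).trans (add_le_add_left degree_C_le _)) ?_
    rw [zero_add, degree_eq_natDegree (hW.1.map _).ne_zero, degree_eq_natDegree (hU.1.map _).ne_zero,
      hW.1.natDegree_map, hU.1.natDegree_map, hU.2, hW.2]
    exact_mod_cast h1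
  · rw [eval₂_sub, eval₂_mul, eval₂_C, eval₂_map, eval₂_map]
    have h2 : ∀ p : ℤ[X], p.eval₂ ((algebraMap (Algebra.adjoin R {jqModC R}) (LaurentSeries R)).comp
        (Int.castRingHom _)) (D.tq R) = evZ (D.tq R) p := by
      intro p
      rw [evZ_apply]
      congr 1
    rw [h2, h2]
    change evZ (D.tq R) (D.U 1) - jqModC R * evZ (D.tq R) (D.W 1) = 0
    rw [D.j_tq, D.U_one, map_pow, sub_self]

theorem evC_mem_sub {k : Type*} [Field k] (S : Subalgebra k (LaurentSeries k))
    {x : LaurentSeries k} (hx : x ∈ S) (p : k[X]) : evC x p ∈ S := by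
  rw [evC_eq_aeval, aeval_eq_sum_range]
  exact sum_mem fun i _ => S.smul_mem (pow_mem hx i) _

/-- (f): `c(t)` is invertible in `k[j, t]` -/
theorem exists_c_inv {k : Type*} [Field k] [IsAlgClosed k] (hD : Good D k) :
    ∃ y ∈ Algebra.adjoin k {jqModC k, D.tq k}, evZ (D.tq k) D.c * y = 1 := by
  have hco : IsCoprime (D.P.map (Int.castRingHom k)) (D.c.map (Int.castRingHom k)) := by
    rw [isCoprime_iff_aeval_ne_zero_of_isAlgClosed k k]
    intro a
    have h1 : ∀ p : ℤ[X], aeval a (p.map (Int.castRingHom k)) = evZ a p := by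
      intro p
      rw [evZ_apply, aeval_def, eval₂_map]
      rfl
    rw [h1, h1]
    by_cases ha : evZ a D.c = 0
    · exact Or.inl (hD a ha)
    · exact Or.inr ha
  obtain ⟨a, b, hab⟩ := hco.pow_left (m := 3)
  obtain ⟨x, hx⟩ := D.hcW 1 (one_dvd r)
  set S := Algebra.adjoin k {jqModC k, D.tq k} with hS
  have hj : jqModC k ∈ S := Algebra.subset_adjoin (by simp)
  have ht : D.tq k ∈ S := Algebra.subset_adjoin (by simp)
  refine ⟨evC (D.tq k) a * jqModC k * evZ (D.tq k) x + evC (D.tq k) b, ?_, ?_⟩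
  · rw [← evC_map]
    exact add_mem (mul_mem (mul_mem (evC_mem_sub S ht _) hj) (evC_mem_sub S ht _))
      (evC_mem_sub S ht _)
  · have h1 := congrArg (evC (D.tq k)) hab
    rw [map_add, map_mul, map_mul, map_pow, evC_map, evC_map, map_one, ← D.j_tq, hx, map_mul] at h1
    rw [← h1]
    ring

/-- `c(t)⁻¹` is integral over `k[j]` -/
theorem isIntegral_c_inv {k : Type*} [Field k] [IsAlgClosed k] (hD : Good D k) :
    IsIntegral (Algebra.adjoin k {jqModC k}) (evZ (D.tq k) D.c)⁻¹ := by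
  obtain ⟨y, hy, h1⟩ := exists_c_inv D hD
  rw [inv_eq_of_mul_eq_one_right h1]
  have h2 := tq_isIntegral D k
  have h3 : Algebra.adjoin k {jqModC k, D.tq k} ≤
      (integralClosure (Algebra.adjoin k {jqModC k}) (LaurentSeries k)).restrictScalars k := by
    rw [Algebra.adjoin_le_iff]
    rintro z (rfl | rfl)
    · exact isIntegral_algebraMap (R := Algebra.adjoin k {jqModC k})
        (x := (⟨jqModC k, Algebra.subset_adjoin rfl⟩ : Algebra.adjoin k {jqModC k}))
    · exact h2
  exact h3 hy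

end Haupt

/-! ### (e) the cusps -/

section Cusps

variable (l : ℕ) [hl : Fact l.Prime]

/-- the reciprocal polynomial of `T` -/
def uTrev : ℤ[X] := ∑ i ∈ Finset.range l, C ((uT l).coeff i) * X ^ (l - 1 - i)

variable {k : Type*} [Field k] [CharP k l]

theorem uTrev_coeff_zero : (((uTrev l).coeff 0 : ℤ) : k) = 1 := by
  have hl0 : 0 < l := hl.out.pos
  have hlead : (((uT l).coeff (l - 1) : ℤ) : k) = 1 := by
    have h := md_uT l (k := k)
    have h2 := h.1
    rw [Monic, leadingCoeff, h.2, coeff_map] at h2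
    exact h2
  rw [uTrev, finsetSum_coeff, Finset.sum_eq_single (l - 1)]
  · rw [Nat.sub_self, pow_zero, mul_one, coeff_C_zero]
    exact hlead
  · intro i hi hne
    have hi' := Finset.mem_range.mp hi
    rw [coeff_C_mul, coeff_X_pow, if_neg (by omega), mul_zero]
  · intro h
    exact absurd (Finset.mem_range.mpr (by omega)) h

theorem evZ_uTrev : evZ (jqModC k)⁻¹ (uTrev l) * jqModC k ^ (l - 1) = evZ (jqModC k) (uT l) := by
  have hj0 : jqModC k ≠ 0 := by
    have := HData.mn_j.coeffMap (Int.castRingHom k)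
    rw [coeffMap_jqModC] at this
    exact this.ne_zero
  have hl0 : 0 < l := hl.out.pos
  have h1 : evZ (jqModC k) (uT l) = ∑ i ∈ Finset.range l,
      HahnSeries.C (((uT l).coeff i : ℤ) : k) * jqModC k ^ i := by
    rw [← evC_map, evC_apply, eval₂_eq_sum_range' (n := l)]
    · refine Finset.sum_congr rfl fun i _ => ?_
      rw [coeff_map]
      rfl
    · rw [(md_uT l (k := k)).2]; omega
  rw [h1, uTrev, map_sum, Finset.sum_mul]
  refine Finset.sum_congr rfl fun i hi => ?_
  have hi' := Finset.mem_range.mp hi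
  have h2 : evZ (jqModC k)⁻¹ (C ((uT l).coeff i)) = HahnSeries.C (((uT l).coeff i : ℤ) : k) := by
    rw [evZ_apply, eval₂_C, eq_intCast, map_intCast]
  rw [map_mul, map_pow, evZ_X, h2, mul_assoc]
  congr 1
  have h3 : jqModC k ^ (l - 1) = jqModC k ^ (l - 1 - i) * jqModC k ^ i := by
    rw [← pow_add]; congr 1; omega
  rw [h3, ← mul_assoc, ← mul_pow, inv_mul_cancel₀ hj0, one_pow, one_mul]

/-- (e): the sixth power of `(θj/j)^(l-1)` is a unit at the cusps -/
theorem theta_j_cusp : ((theta (jqModC k) / jqModC k) ^ (l - 1)) ^ 6 *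
    evZ (jqModC k)⁻¹ (uTrev l) = (1 - 1728 * (jqModC k)⁻¹) ^ (3 * (l - 1)) := by
  have hj0 : jqModC k ≠ 0 := by
    have := HData.mn_j.coeffMap (Int.castRingHom k)
    rw [coeffMap_jqModC] at this
    exact this.ne_zero
  have h1 : theta (jqModC k) ^ 6 = jqModC k ^ 4 * (jqModC k - 1728) ^ 3 * dS k := by
    have h := congrArg (coeffMap (Int.castRingHom k)) theta_j_six
    rwa [map_mul, map_mul, map_pow, map_pow, map_pow, map_sub, map_ofNat, ← theta_coeffMap,
      coeffMap_jqModC, coeffMap_dS] at h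
  have h2 := uT_mul_pow l (k := k)
  rw [← evZ_uTrev l] at h2
  have h3 : (theta (jqModC k) / jqModC k) ^ 6 = jqModC k * (1 - 1728 * (jqModC k)⁻¹) ^ 3 * dS k := by
    rw [div_pow, h1]
    field_simp
  calc ((theta (jqModC k) / jqModC k) ^ (l - 1)) ^ 6 * evZ (jqModC k)⁻¹ (uTrev l)
      = ((theta (jqModC k) / jqModC k) ^ 6) ^ (l - 1) * evZ (jqModC k)⁻¹ (uTrev l) := by
        rw [← pow_mul, ← pow_mul, mul_comm 6]
    _ = (1 - 1728 * (jqModC k)⁻¹) ^ (3 * (l - 1)) *
          (evZ (jqModC k)⁻¹ (uTrev l) * jqModC k ^ (l - 1) * dS k ^ (l - 1)) := by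
        rw [h3, mul_pow, mul_pow, ← pow_mul]; ring
    _ = _ := by rw [h2, mul_one]

variable {r : ℕ} (D : HData r)

/-- `(θ t)^(l-1)` is a rational function of `t` -/
theorem theta_t_mem {S : Finset k} (hS : SSData D l k S) (A : IntermediateField k (LaurentSeries k))
    (ht : D.tq k ∈ A) : theta (D.tq k) ^ (l - 1) ∈ A := by
  have h1 := hS.theta
  have h2 : (∏ s ∈ S, (D.tq k - HahnSeries.C s)) ^ 2 ∈ A := by
    refine pow_mem (prod_mem fun s _ => sub_mem ht ?_) 2
    rw [← Q.algebraMap_eq_C]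
    exact A.algebraMap_mem s
  have h3 : (∏ s ∈ S, (D.tq k - HahnSeries.C s)) ^ 2 ≠ 0 := by
    apply right_ne_zero_of_mul (a := theta (D.tq k) ^ (l - 1))
    rw [h1]
    have hcM : Mn (evZ (D.tq k) D.c) ((D.κ : ℤ) * (-1)) :=
      HData.mn_evZ (by norm_num) (D.mn_tq k) D.hc
    exact pow_ne_zero _ hcM.ne_zero
  rw [eq_div_of_mul_eq h3 h1]
  exact div_mem (pow_mem (evZ_mem' A ht _) _) h2

theorem theta_j_mem {S : Finset k} (hS : SSData D l k S)
    (A : IntermediateField k (LaurentSeries k)) (ht : D.tq k ∈ A) (hj : jqModC k ∈ A) :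
    theta (jqModC k) ^ (l - 1) ∈ A := by
  have h1 : theta (jqModC k) * (evZ (D.tq k) D.P * evZ (D.tq k) D.c) =
      jqModC k * evZ (D.tq k) D.n * theta (D.tq k) := by
    have h := congrArg (coeffMap (Int.castRingHom k)) D.theta_j_P_c
    rwa [map_mul, map_mul, map_mul, map_mul, D.coeffMap_evZ_t, D.coeffMap_evZ_t,
      D.coeffMap_evZ_t, ← theta_coeffMap, coeffMap_jqModC, ← D.theta_tq] at h
  have hj0 : jqModC k ≠ 0 := by
    have := HData.mn_j.coeffMap (Int.castRingHom k)
    rw [coeffMap_jqModC] at this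
    exact this.ne_zero
  have hcM : Mn (evZ (D.tq k) D.c) ((D.κ : ℤ) * (-1)) :=
    HData.mn_evZ (by norm_num) (D.mn_tq k) D.hc
  have hWM : Mn (evZ (D.tq k) (D.W 1)) ((D.b 1 : ℤ) * (-1)) :=
    HData.mn_evZ (by norm_num) (D.mn_tq k) (D.hW 1 (one_dvd r))
  have hP : evZ (D.tq k) D.P ≠ 0 := by
    intro h
    have h3 := D.j_tq k
    rw [h, zero_pow (by norm_num)] at h3
    exact mul_ne_zero hj0 hWM.ne_zero h3
  have h2 : theta (jqModC k) = jqModC k * evZ (D.tq k) D.n * theta (D.tq k) /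
      (evZ (D.tq k) D.P * evZ (D.tq k) D.c) := by
    rw [← h1, mul_div_cancel_right₀ _ (mul_ne_zero hP hcM.ne_zero)]
  rw [h2, div_pow, mul_pow]
  exact div_mem (mul_mem (pow_mem (mul_mem hj (evZ_mem' A ht _)) _) (theta_t_mem l D hS A ht))
    (pow_mem (mul_mem (evZ_mem' A ht _) (evZ_mem' A ht _)) _)

end Cusps

/-! ### (b), (d) reductions -/

section Reductions

variable {K : Type*} [Field K] {A : ValuationSubring K} (l : ℕ) [hl : Fact l.Prime]

theorem red_jq : Q.Red A (jqModC K) (jqModC (ResidueField A)) := by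
  have h := red_coeffMap_int (A := A) (jqModC ℤ)
  rwa [coeffMap_jqModC, coeffMap_jqModC] at h

theorem red_tq {r : ℕ} (D : HData r) : Q.Red A (D.tq K) (D.tq (ResidueField A)) :=
  red_coeffMap_int (A := A) D.t

/-- the reduction of `u = Δ(q)/Δ(q^l)` is `T(j)` -/
theorem red_uS [CharP (ResidueField A) l] :
    Q.Red A (uS l K) (evZ (jqModC (ResidueField A)) (uT l)) := by
  have h := red_coeffMap_int (A := A) (uS l ℤ)
  rwa [coeffMap_uS, coeffMap_uS, ← evZ_uT l (ResidueField A) (CharP.cast_eq_zero _ l)] at h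

/-- the reduction of `w u = l^12/u` is `0` -/
theorem red_uV [CharP (ResidueField A) l] : Q.Red A (uV l K) 0 := by
  have h := red_coeffMap_int (A := A) (uV l ℤ)
  have h1 : uV l (ResidueField A) = 0 := by
    have h2 : (l : LaurentSeries (ResidueField A)) = HahnSeries.C (l : ResidueField A) :=
      (map_natCast _ l).symm
    rw [uV, h2, CharP.cast_eq_zero, map_zero, zero_pow (by norm_num), zero_mul]
  rwa [coeffMap_uV, coeffMap_uV, h1] at h

/-- `u` is integral over `ℤ[j]` -/
theorem exists_uPoly : ∃ p : ℤ[X][X], p.Monic ∧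
    ∀ (R : Type) [CommRing R], p.eval₂ (evZ (jqModC R)) (uS l R) = 0 := by
  obtain ⟨p, hp, h⟩ := (uFam' l).exists_monic
  refine ⟨p, hp, fun R _ => ?_⟩
  have := h R
  rwa [coeffMap_uS] at this

/-- (b) for the hauptmodul -/
theorem red_twist_tq [CharP (ResidueField A) l] (hl0 : (l : K) ≠ 0) {ζ : Kˣ}
    (h : IsPrimitiveRoot ζ l) {r : ℕ} (D : HData r) :
    Q.Red A (HahnSeries.C (l : K)⁻¹ * (D.tq K - twist ζ (D.tq K)) ^ (l - 1))
      (-(theta (D.tq (ResidueField A))) ^ (l - 1)) := red_twist_int hl0 h D.t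

/-- (b) for `j` -/
theorem red_twist_j [CharP (ResidueField A) l] (hl0 : (l : K) ≠ 0) {ζ : Kˣ}
    (h : IsPrimitiveRoot ζ l) :
    Q.Red A (HahnSeries.C (l : K)⁻¹ * (jqModC K - twist ζ (jqModC K)) ^ (l - 1))
      (-(theta (jqModC (ResidueField A))) ^ (l - 1)) := by
  have h1 := red_twist_int (A := A) hl0 h (jqModC ℤ)
  rwa [coeffMap_jqModC, coeffMap_jqModC] at h1

end Reductions

end Fermat.Agent.Igusa
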