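import Mathlib

/-!
# Integrality of schemes covered by two overlapping integral open subschemes
-/

set_option autoImplicit false
set_option linter.unusedSectionVars false

noncomputable section

open AlgebraicGeometry CategoryTheory CategoryTheory.Limits

namespace Fermat.Agent.Igusa

theorem isReduced_of_two {Y U₁ U₂ : Scheme.{0}} (f₁ : U₁ ⟶ Y) (f₂ : U₂ ⟶ Y)
    [IsOpenImmersion f₁] [IsOpenImmersion f₂] [AlgebraicGeometry.IsReduced U₁]
    [AlgebraicGeometry.IsReduced U₂]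
    (hcov : ∀ y : Y, y ∈ Set.range f₁ ∨ y ∈ Set.range f₂) : AlgebraicGeometry.IsReduced Y := by
  have (y : Y) : _root_.IsReduced (Y.presheaf.stalk y) := by
    rcases hcov y with ⟨x, rfl⟩ | ⟨x, rfl⟩
    · exact isReduced_of_injective _
        (asIso <| f₁.stalkMap x).commRingCatIsoToRingEquiv.injective
    · exact isReduced_of_injective _
        (asIso <| f₂.stalkMap x).commRingCatIsoToRingEquiv.injective
  exact isReduced_of_isReduced_stalk _

theorem preirreducible_of_two {Y U₁ U₂ : Type*} [TopologicalSpace Y] [TopologicalSpace U₁]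
    [TopologicalSpace U₂] [IrreducibleSpace U₁] [IrreducibleSpace U₂] (f₁ : U₁ → Y) (f₂ : U₂ → Y)
    (h₁ : Topology.IsOpenEmbedding f₁) (h₂ : Topology.IsOpenEmbedding f₂)
    (hcov : ∀ y : Y, y ∈ Set.range f₁ ∨ y ∈ Set.range f₂)
    (hne : ∃ y : Y, y ∈ Set.range f₁ ∧ y ∈ Set.range f₂) : IrreducibleSpace Y := by
  have i₁ : IsPreirreducible (Set.range f₁) := by
    rw [← Set.image_univ]
    exact (PreirreducibleSpace.isPreirreducible_univ).image f₁ h₁.continuous.continuousOn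
  have i₂ : IsPreirreducible (Set.range f₂) := by
    rw [← Set.image_univ]
    exact (PreirreducibleSpace.isPreirreducible_univ).image f₂ h₂.continuous.continuousOn
  obtain ⟨y, hy1, hy2⟩ := hne
  have key : ∀ O : Set Y, IsOpen O → O.Nonempty → (Set.range f₁ ∩ O).Nonempty := by
    intro O hO ⟨z, hz⟩
    rcases hcov z with h | h
    · exact ⟨z, h, hz⟩
    · obtain ⟨w, hw2, hw⟩ := i₂ O (Set.range f₁) hO h₁.isOpen_range ⟨z, h, hz⟩ ⟨y, hy2, hy1⟩
      exact ⟨w, hw.2, hw.1⟩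
  have hpre : PreirreducibleSpace Y := ⟨by
    intro O₁ O₂ ho1 ho2 hn1 hn2
    have n1 := key O₁ ho1 (by simpa using hn1)
    have n2 := key O₂ ho2 (by simpa using hn2)
    obtain ⟨w, -, hw⟩ := i₁ O₁ O₂ ho1 ho2 n1 n2
    exact ⟨w, trivial, hw⟩⟩
  exact { toPreirreducibleSpace := hpre, toNonempty := ⟨y⟩ }

theorem isIntegral_of_two {Y U₁ U₂ : Scheme.{0}} (f₁ : U₁ ⟶ Y) (f₂ : U₂ ⟶ Y)
    [IsOpenImmersion f₁] [IsOpenImmersion f₂] [IsIntegral U₁] [IsIntegral U₂]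
    (hcov : ∀ y : Y, y ∈ Set.range f₁ ∨ y ∈ Set.range f₂)
    (hne : ∃ y : Y, y ∈ Set.range f₁ ∧ y ∈ Set.range f₂) : IsIntegral Y := by
  have h1 := isReduced_of_two f₁ f₂ hcov
  have h2 : IrreducibleSpace Y := preirreducible_of_two f₁ f₂ f₁.isOpenEmbedding
    f₂.isOpenEmbedding hcov hne
  exact isIntegral_of_irreducibleSpace_of_isReduced Y

theorem isIntegral_pullback_of_two {X S T U₁ U₂ W : Scheme.{0}} (g : X ⟶ S) (k : T ⟶ S)
    (ι₁ : U₁ ⟶ X) (ι₂ : U₂ ⟶ X) [IsOpenImmersion ι₁] [IsOpenImmersion ι₂]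
    (hcov : ∀ x : X, x ∈ Set.range ι₁ ∨ x ∈ Set.range ι₂) (w₁ : W ⟶ U₁) (w₂ : W ⟶ U₂)
    (hw : w₁ ≫ ι₁ = w₂ ≫ ι₂) (h₁ : IsIntegral (pullback (ι₁ ≫ g) k))
    (h₂ : IsIntegral (pullback (ι₂ ≫ g) k)) (hne : Nonempty ↑(pullback (w₁ ≫ ι₁ ≫ g) k)) :
    IsIntegral (pullback g k) := by
  let cov : X.OpenCover :=
    { I₀ := Bool
      X := fun b => match b with | true => U₁ | false => U₂
      f := fun b => match b with | true => ι₁ | false => ι₂
      mem₀ := by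
        rw [Scheme.ofArrows_mem_precoverage_iff]
        refine ⟨fun x => ?_, fun b => ?_⟩
        · rcases hcov x with h | h
          · exact ⟨true, h⟩
          · exact ⟨false, h⟩
        · cases b <;> infer_instance }
  let f₁ : pullback (ι₁ ≫ g) k ⟶ pullback g k :=
    pullback.map (ι₁ ≫ g) k g k ι₁ (𝟙 _) (𝟙 _) (by simp) (by simp)
  let f₂ : pullback (ι₂ ≫ g) k ⟶ pullback g k :=
    pullback.map (ι₂ ≫ g) k g k ι₂ (𝟙 _) (𝟙 _) (by simp) (by simp)
  refine isIntegral_of_two f₁ f₂ (fun y => ?_) ?_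
  · obtain ⟨b, z, hz⟩ := (Scheme.Pullback.openCoverOfLeft cov g k).exists_eq y
    cases b
    · exact Or.inr ⟨z, hz⟩
    · exact Or.inl ⟨z, hz⟩
  · obtain ⟨z⟩ := hne
    let m₁ : pullback (w₁ ≫ ι₁ ≫ g) k ⟶ pullback (ι₁ ≫ g) k :=
      pullback.map _ _ _ _ w₁ (𝟙 _) (𝟙 _) (by simp) (by simp)
    let m₂ : pullback (w₁ ≫ ι₁ ≫ g) k ⟶ pullback (ι₂ ≫ g) k :=
      pullback.map _ _ _ _ w₂ (𝟙 _) (𝟙 _) (by rw [Category.comp_id, ← Category.assoc, hw, Category.assoc]) (by simp)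
    have h : m₁ ≫ f₁ = m₂ ≫ f₂ := by
      apply pullback.hom_ext
      · simp only [m₁, m₂, f₁, f₂, pullback.map, pullback.lift_fst, pullback.lift_fst_assoc,
          Category.assoc, hw]
      · simp only [m₁, m₂, f₁, f₂, pullback.map, pullback.lift_snd, pullback.lift_snd_assoc,
          Category.assoc]
    refine ⟨f₁ (m₁ z), ⟨_, rfl⟩, ⟨m₂ z, ?_⟩⟩
    rw [← Scheme.Hom.comp_apply, ← Scheme.Hom.comp_apply, h]

end Fermat.Agent.Igusa
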